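import Mathlib
import Fermat.Prelude.Def_GaloisRep_DeformationRingData
import Fermat.Prelude.Def_GaloisRep_DeformationCondition

/-!
# Schur / centralizer lemmas for residually absolutely irreducible representations

Burnside's theorem in dimension two, its descent to arbitrary fields, the Nakayama lift to
local rings, and the resulting description of the centralizer (scalars only).
-/

set_option autoImplicit false

namespace Fermat.Agent.S53.Centralizer

open Module IsLocalRing
open scoped TensorProduct

/-- Burnside's theorem in dimension two over an algebraically closed field. -/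
theorem burnside_two {K V G : Type*} [Field K] [IsAlgClosed K] [AddCommGroup V] [Module K V]
    [Monoid G] (hV : Module.finrank K V = 2) (ρ : G →* Module.End K V)
    (hirr : ∀ W : Submodule K V, (∀ g, ∀ x ∈ W, ρ g x ∈ W) → W = ⊥ ∨ W = ⊤) :
    Submodule.span K (Set.range ρ) = ⊤ := by
  classical
  have : FiniteDimensional K V := Module.finite_of_finrank_pos (by omega)
  have : Nontrivial V := Module.nontrivial_of_finrank_pos (R := K) (by omega)
  set 𝒜 : Submodule K (Module.End K V) := Submodule.span K (Set.range ρ) with h𝒜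
  have hgen : ∀ g, ρ g ∈ 𝒜 := fun g => Submodule.subset_span ⟨g, rfl⟩
  have hmul : ∀ a ∈ 𝒜, ∀ b ∈ 𝒜, a * b ∈ 𝒜 := by
    intro a ha b hb
    induction ha using Submodule.span_induction with
    | mem x hx =>
      obtain ⟨g, rfl⟩ := hx
      induction hb using Submodule.span_induction with
      | mem y hy =>
        obtain ⟨g', rfl⟩ := hy
        rw [← map_mul]; exact hgen _
      | zero => rw [mul_zero]; exact 𝒜.zero_mem
      | add y z _ _ hy hz => rw [mul_add]; exact 𝒜.add_mem hy hz
      | smul c y _ hy => rw [mul_smul_comm]; exact 𝒜.smul_mem c hy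
    | zero => rw [zero_mul]; exact 𝒜.zero_mem
    | add y z _ _ hy hz => rw [add_mul]; exact 𝒜.add_mem hy hz
    | smul c y _ hy => rw [smul_mul_assoc]; exact 𝒜.smul_mem c hy
  have hone : (1 : Module.End K V) ∈ 𝒜 := by
    have := hgen 1
    rwa [map_one] at this
  have htrans : ∀ x : V, x ≠ 0 → ∀ t : V, ∃ c ∈ 𝒜, c x = t := by
    intro x hx t
    let W : Submodule K V := 𝒜.map (LinearMap.applyₗ x)
    have hW : ∀ g, ∀ y ∈ W, ρ g y ∈ W := by
      rintro g y ⟨c, hc, rfl⟩
      exact ⟨ρ g * c, hmul _ (hgen g) _ hc, rfl⟩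
    rcases hirr W hW with h | h
    · exfalso
      have hxW : x ∈ W := ⟨1, hone, rfl⟩
      rw [h] at hxW
      exact hx ((Submodule.mem_bot K).1 hxW)
    · have htW : t ∈ W := h ▸ Submodule.mem_top
      obtain ⟨c, hc, rfl⟩ := htW
      exact ⟨c, hc, rfl⟩
  have hns : ∃ g, ∀ μ : K, ρ g ≠ μ • (1 : Module.End K V) := by
    by_contra hcon
    push Not at hcon
    obtain ⟨v, hv⟩ := exists_ne (0 : V)
    have hst : ∀ g, ∀ x ∈ (K ∙ v), ρ g x ∈ (K ∙ v) := by
      intro g x hx
      obtain ⟨μ, hμ⟩ := hcon g
      rw [hμ]
      simpa using Submodule.smul_mem _ μ hx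
    rcases hirr (K ∙ v) hst with h | h
    · exact hv (Submodule.span_singleton_eq_bot.1 h)
    · have h1 : Module.finrank K (K ∙ v) = 1 := finrank_span_singleton hv
      rw [h, finrank_top, hV] at h1
      omega
  obtain ⟨g₀, hg₀⟩ := hns
  obtain ⟨μ, hμ⟩ := Module.End.exists_eigenvalue (ρ g₀)
  obtain ⟨v, hv⟩ := hμ.exists_hasEigenvector
  set b : Module.End K V := ρ g₀ - μ • (1 : Module.End K V) with hb
  have hb𝒜 : b ∈ 𝒜 := 𝒜.sub_mem (hgen g₀) (𝒜.smul_mem μ hone)
  have hbv : b v = 0 := by
    have := hv.apply_eq_smul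
    simp [hb, this]
  have hb0 : b ≠ 0 := fun h => hg₀ μ (sub_eq_zero.1 h)
  obtain ⟨w, hw⟩ : ∃ w, b w ≠ 0 := by
    by_contra h
    push Not at h
    exact hb0 (LinearMap.ext h)
  have hE : ∀ t, ∃ e ∈ 𝒜, e v = 0 ∧ e w = t := by
    intro t
    obtain ⟨c, hc, hct⟩ := htrans (b w) hw t
    exact ⟨c * b, hmul c hc b hb𝒜, by simp [hbv], by simpa using hct⟩
  have hli : LinearIndependent K ![v, w] := by
    rw [LinearIndependent.pair_iff]
    intro s t hst
    have h2 : t • b w = 0 := by
      have := congrArg b hst
      simpa [hbv] using this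
    have ht : t = 0 := by
      rcases smul_eq_zero.1 h2 with h | h
      · exact h
      · exact absurd h hw
    subst ht
    simp only [zero_smul, add_zero] at hst
    exact ⟨(smul_eq_zero.1 hst).resolve_right hv.2, rfl⟩
  let B := basisOfLinearIndependentOfCardEqFinrank hli (by simp [hV])
  rw [eq_top_iff]
  rintro T -
  obtain ⟨c, hc, hcv⟩ := htrans v hv.2 (T v)
  obtain ⟨e1, he1, he1v, he1w⟩ := hE (c w)
  obtain ⟨e2, he2, he2v, he2w⟩ := hE (T w)
  have hT : T = c - e1 + e2 := by
    apply B.ext
    intro i
    fin_cases i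
    · simp [B, hcv, he1v, he2v]
    · simp [B, he1w, he2w]
  rw [hT]
  exact 𝒜.add_mem (𝒜.sub_mem hc he1) he2

/-- If the base changes of a set of endomorphisms span everything upstairs, the set spans
everything downstairs. -/
theorem span_eq_top_of_span_baseChange_eq_top {k K V : Type*} [Field k] [Field K] [Algebra k K]
    [AddCommGroup V] [Module k V] [FiniteDimensional k V] (S : Set (Module.End k V))
    (h : Submodule.span K ((fun T : Module.End k V => T.baseChange K) '' S) = ⊤) :
    Submodule.span k S = ⊤ := by
  classical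
  set 𝒜 : Submodule k (Module.End k V) := Submodule.span k S with h𝒜
  set d := Module.finrank k 𝒜 with hd
  let b : Basis (Fin d) k 𝒜 := Module.finBasis k 𝒜
  let f : Fin d → Module.End K (K ⊗[k] V) := fun i => (b i : Module.End k V).baseChange K
  set X : Submodule K (Module.End K (K ⊗[k] V)) := Submodule.span K (Set.range f) with hX
  have hβ : ∀ T ∈ 𝒜, T.baseChange K ∈ X := by
    intro T hT
    have hsum := b.sum_repr ⟨T, hT⟩
    have hT' : T = ∑ i, b.repr ⟨T, hT⟩ i • (b i : Module.End k V) := by
      have := congrArg (Subtype.val) hsum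
      rw [Submodule.coe_sum] at this
      simp only [Submodule.coe_smul] at this
      exact this.symm
    rw [hT']
    have : (∑ i, b.repr ⟨T, hT⟩ i • (b i : Module.End k V)).baseChange K =
        ∑ i, (algebraMap k K (b.repr ⟨T, hT⟩ i)) • f i := by
      rw [← LinearMap.baseChangeHom_apply k K V V, map_sum]
      refine Finset.sum_congr rfl fun i _ => ?_
      rw [map_smul, LinearMap.baseChangeHom_apply, algebraMap_smul]
    rw [this]
    exact X.sum_mem fun i _ => X.smul_mem _ (Submodule.subset_span ⟨i, rfl⟩)
  have hle : (⊤ : Submodule K (Module.End K (K ⊗[k] V))) ≤ X := by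
    rw [← h]
    refine Submodule.span_le.2 ?_
    rintro _ ⟨T, hT, rfl⟩
    exact hβ T (Submodule.subset_span hT)
  have h1 : Module.finrank K (Module.End K (K ⊗[k] V)) ≤ d := by
    have h2 : Module.finrank K X ≤ Fintype.card (Fin d) := finrank_range_le_card f
    have h3 : X = ⊤ := top_le_iff.1 hle
    rw [h3, finrank_top, Fintype.card_fin] at h2
    exact h2
  have h4 : Module.finrank K (Module.End K (K ⊗[k] V)) = Module.finrank k (Module.End k V) := by
    rw [Module.finrank_linearMap, Module.finrank_linearMap, Module.finrank_baseChange]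
  apply Submodule.eq_top_of_finrank_eq
  have h5 : d ≤ Module.finrank k (Module.End k V) := Submodule.finrank_le 𝒜
  omega

theorem span_range_eq_top_of_isAbsolutelyIrreducible {k : Type} [Field k]
    (r : ResidualGaloisRep k) (h : r.IsAbsolutelyIrreducible) :
    Submodule.span k (Set.range r.ρ) = ⊤ := by
  apply span_eq_top_of_span_baseChange_eq_top (K := AlgebraicClosure k)
  have hB := burnside_two (r.baseChange (AlgebraicClosure k)).finrank_eq
    (r.baseChange (AlgebraicClosure k)).ρ h
  rw [← hB]
  congr 1
  ext T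
  constructor
  · rintro ⟨_, ⟨σ, rfl⟩, rfl⟩
    exact ⟨σ, rfl⟩
  · rintro ⟨σ, rfl⟩
    exact ⟨r.ρ σ, ⟨σ, rfl⟩, rfl⟩

/-- Base changes of endomorphisms of a finite free module span all endomorphisms of the
base-changed module. -/
theorem span_range_baseChange_eq_top (k K V : Type*) [CommRing k] [CommRing K] [Algebra k K]
    [AddCommGroup V] [Module k V] [Module.Free k V] [Module.Finite k V] :
    Submodule.span K (Set.range fun T : Module.End k V => T.baseChange K) = ⊤ := by
  classical
  let b := Module.Free.chooseBasis k V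
  let bK := Algebra.TensorProduct.basis K b
  rw [eq_top_iff]
  rintro S -
  have hS : S = Matrix.toLin bK bK (LinearMap.toMatrix bK bK S) := by
    rw [Matrix.toLin_toMatrix]
  rw [hS, Matrix.matrix_eq_sum_single (LinearMap.toMatrix bK bK S), map_sum]
  refine Submodule.sum_mem _ fun i _ => ?_
  rw [map_sum]
  refine Submodule.sum_mem _ fun j _ => ?_
  have h1 : Matrix.single i j (LinearMap.toMatrix bK bK S i j) =
      LinearMap.toMatrix bK bK S i j • Matrix.single i j (1 : K) := by
    rw [Matrix.smul_single, smul_eq_mul, mul_one]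
  rw [h1, map_smul]
  refine Submodule.smul_mem _ _ (Submodule.subset_span ?_)
  refine ⟨Matrix.toLin b b (Matrix.single i j (1 : k)), ?_⟩
  apply (LinearMap.toMatrix bK bK).injective
  simp only [bK, LinearMap.toMatrix_baseChange, LinearMap.toMatrix_toLin]
  ext i' j'
  simp only [Matrix.map_apply, Matrix.single_apply]
  split_ifs <;> simp

/-- A submodule of a vector space stable under all endomorphisms is trivial. -/
theorem eq_bot_or_eq_top_of_forall_end {K W : Type*} [Field K] [AddCommGroup W] [Module K W]
    (U : Submodule K W) (hU : ∀ S : Module.End K W, ∀ x ∈ U, S x ∈ U) : U = ⊥ ∨ U = ⊤ := by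
  by_cases hb : U = ⊥
  · exact Or.inl hb
  · right
    obtain ⟨w, hwU, hw0⟩ := (Submodule.ne_bot_iff U).1 hb
    obtain ⟨f, hf⟩ : ∃ f : Module.Dual K W, f w ≠ 0 := by
      by_contra hcon
      push Not at hcon
      exact hw0 ((Module.forall_dual_apply_eq_zero_iff K w).1 hcon)
    rw [eq_top_iff]
    rintro t -
    have := hU (f.smulRight ((f w)⁻¹ • t)) w hwU
    simpa [LinearMap.smulRight_apply, smul_smul, mul_inv_cancel₀ hf] using this

/-- If the image of the representation spans all endomorphisms, the representation is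
absolutely irreducible. -/
theorem isAbsolutelyIrreducible_of_span_eq_top {k : Type} [Field k]
    (r : ResidualGaloisRep k) (h : Submodule.span k (Set.range r.ρ) = ⊤) :
    r.IsAbsolutelyIrreducible := by
  intro U hU
  apply eq_bot_or_eq_top_of_forall_end
  -- stability under base changes of everything
  have h1 : ∀ T : Module.End k r.V, ∀ x ∈ U, T.baseChange (AlgebraicClosure k) x ∈ U := by
    intro T
    have hT : T ∈ Submodule.span k (Set.range r.ρ) := h ▸ Submodule.mem_top
    induction hT using Submodule.span_induction with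
    | mem y hy =>
      obtain ⟨σ, rfl⟩ := hy
      exact hU σ
    | zero =>
      intro x _
      rw [LinearMap.baseChange_zero]
      exact U.zero_mem
    | add y z _ _ hy hz =>
      intro x hx
      rw [LinearMap.baseChange_add]
      exact U.add_mem (hy x hx) (hz x hx)
    | smul c y _ hy =>
      intro x hx
      rw [LinearMap.baseChange_smul, LinearMap.smul_apply, ← algebraMap_smul (AlgebraicClosure k) c]
      exact U.smul_mem _ (hy x hx)
  intro S
  have hS : S ∈ Submodule.span (AlgebraicClosure k)
      (Set.range fun T : Module.End k r.V => T.baseChange (AlgebraicClosure k)) := by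
    rw [span_range_baseChange_eq_top]
    exact Submodule.mem_top
  induction hS using Submodule.span_induction with
  | mem y hy =>
    obtain ⟨T, rfl⟩ := hy
    exact h1 T
  | zero =>
    intro x _
    exact U.zero_mem
  | add y z _ _ hy hz =>
    intro x hx
    exact U.add_mem (hy x hx) (hz x hx)
  | smul c y _ hy =>
    intro x hx
    exact U.smul_mem _ (hy x hx)

theorem isAbsolutelyIrreducible_iff {k : Type} [Field k] (r : ResidualGaloisRep k) :
    r.IsAbsolutelyIrreducible ↔ Submodule.span k (Set.range r.ρ) = ⊤ :=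
  ⟨span_range_eq_top_of_isAbsolutelyIrreducible r, isAbsolutelyIrreducible_of_span_eq_top r⟩

/-- Spanning is preserved by base change of the coefficient field. -/
theorem span_range_baseChange_of_span {k : Type} [Field k] (k' : Type) [Field k'] [Algebra k k']
    (r : ResidualGaloisRep k) (h : Submodule.span k (Set.range r.ρ) = ⊤) :
    Submodule.span k' (Set.range (r.baseChange k').ρ) = ⊤ := by
  rw [eq_top_iff, ← span_range_baseChange_eq_top k k' r.V]
  refine Submodule.span_le.2 ?_
  rintro _ ⟨T, rfl⟩
  have hT : T ∈ Submodule.span k (Set.range r.ρ) := h ▸ Submodule.mem_top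
  show T.baseChange k' ∈ Submodule.span k' (Set.range (r.baseChange k').ρ)
  induction hT using Submodule.span_induction with
  | mem y hy =>
    obtain ⟨σ, rfl⟩ := hy
    exact Submodule.subset_span ⟨σ, rfl⟩
  | zero =>
    rw [LinearMap.baseChange_zero]
    exact Submodule.zero_mem _
  | add y z _ _ hy hz =>
    rw [LinearMap.baseChange_add]
    exact Submodule.add_mem _ hy hz
  | smul c y _ hy =>
    rw [LinearMap.baseChange_smul, ← algebraMap_smul k' c]
    exact Submodule.smul_mem _ _ hy

theorem isAbsolutelyIrreducible_baseChange {k : Type} [Field k] (k' : Type) [Field k']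
    [Algebra k k'] (r : ResidualGaloisRep k) (h : r.IsAbsolutelyIrreducible) :
    (r.baseChange k').IsAbsolutelyIrreducible :=
  isAbsolutelyIrreducible_of_span_eq_top _
    (span_range_baseChange_of_span k' r (span_range_eq_top_of_isAbsolutelyIrreducible r h))

theorem isAbsolutelyIrreducible_baseChangeAlong {k k' : Type} [Field k] [Field k']
    (ψ : k →+* k') (r : ResidualGaloisRep k) (h : r.IsAbsolutelyIrreducible) :
    (r.baseChangeAlong ψ).IsAbsolutelyIrreducible := by
  let _ : Algebra k k' := ψ.toAlgebra
  exact isAbsolutelyIrreducible_baseChange k' r h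

/-- Absolute irreducibility is invariant under equivalence. -/
theorem isAbsolutelyIrreducible_of_isEquiv {k : Type} [Field k] {r₁ r₂ : ResidualGaloisRep k}
    (he : r₁.IsEquiv r₂) (h : r₂.IsAbsolutelyIrreducible) : r₁.IsAbsolutelyIrreducible := by
  obtain ⟨e⟩ := he
  rw [isAbsolutelyIrreducible_iff] at h ⊢
  rw [eq_top_iff]
  rintro T -
  -- conjugate T to an endomorphism of r₂.V
  have hT : e.toLinearEquiv.conj T ∈ Submodule.span k (Set.range r₂.ρ) := h ▸ Submodule.mem_top
  have key : ∀ T₂ ∈ Submodule.span k (Set.range r₂.ρ),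
      e.toLinearEquiv.symm.conj T₂ ∈ Submodule.span k (Set.range r₁.ρ) := by
    intro T₂ hT₂
    induction hT₂ using Submodule.span_induction with
    | mem y hy =>
      obtain ⟨σ, rfl⟩ := hy
      refine Submodule.subset_span ⟨σ, ?_⟩
      ext x
      simp only [LinearEquiv.conj_apply, LinearMap.comp_apply, LinearEquiv.coe_coe,
        LinearEquiv.symm_symm]
      rw [← e.map_apply, LinearEquiv.symm_apply_apply]
    | zero => rw [map_zero]; exact Submodule.zero_mem _
    | add y z _ _ hy hz => rw [map_add]; exact Submodule.add_mem _ hy hz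
    | smul c y _ hy => rw [map_smul]; exact Submodule.smul_mem _ _ hy
  have h2 := key _ hT
  have h3 : e.toLinearEquiv.symm.conj (e.toLinearEquiv.conj T) = T := by
    ext x
    simp [LinearEquiv.conj_apply]
  rwa [h3] at h2

/-- The residual representation of a lift of an absolutely irreducible representation is
absolutely irreducible. -/
theorem residual_isAbsolutelyIrreducible {k : Type} [Field k] {A : Type} [CommRing A]
    [IsLocalRing A] {ρbar : ResidualGaloisRep k} (habs : ρbar.IsAbsolutelyIrreducible)
    (ψ : k →+* ResidueField A) (ρ : GaloisRepAdic A)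
    (h : ρ.residual.IsEquiv (ρbar.baseChangeAlong ψ)) : ρ.residual.IsAbsolutelyIrreducible :=
  isAbsolutelyIrreducible_of_isEquiv h (isAbsolutelyIrreducible_baseChangeAlong ψ ρbar habs)

/-- An endomorphism of a finite free module over a local ring whose reduction to the residue
field vanishes lies in `𝔪 • ⊤`. -/
theorem mem_smul_top_of_baseChange_eq_zero {A V : Type*} [CommRing A] [IsLocalRing A]
    [AddCommGroup V] [Module A V] [Module.Free A V] [Module.Finite A V]
    (T : Module.End A V) (hT : T.baseChange (ResidueField A) = 0) :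
    T ∈ maximalIdeal A • (⊤ : Submodule A (Module.End A V)) := by
  classical
  let b := Module.Free.chooseBasis A V
  set M := LinearMap.toMatrix b b T with hM
  have hM0 : M.map (algebraMap A (ResidueField A)) = 0 := by
    rw [hM, ← LinearMap.toMatrix_baseChange, hT, map_zero]
  have hent : ∀ i j, M i j ∈ maximalIdeal A := by
    intro i j
    have := congrFun (congrFun hM0 i) j
    simp only [Matrix.map_apply, Matrix.zero_apply] at this
    rwa [ResidueField.algebraMap_eq, residue_eq_zero_iff] at this
  have hTM : T = Matrix.toLin b b M := by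
    rw [hM, Matrix.toLin_toMatrix]
  rw [hTM, Matrix.matrix_eq_sum_single M, map_sum]
  refine Submodule.sum_mem _ fun i _ => ?_
  rw [map_sum]
  refine Submodule.sum_mem _ fun j _ => ?_
  have : Matrix.single i j (M i j) = M i j • Matrix.single i j (1 : A) := by
    rw [Matrix.smul_single, smul_eq_mul, mul_one]
  rw [this, map_smul]
  exact Submodule.smul_mem_smul (hent i j) Submodule.mem_top

theorem span_eq_top_of_span_residue_eq_top {A V : Type*} [CommRing A] [IsLocalRing A]
    [AddCommGroup V] [Module A V] [Module.Free A V] [Module.Finite A V]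
    (S : Set (Module.End A V))
    (h : Submodule.span (ResidueField A)
      ((fun T : Module.End A V => T.baseChange (ResidueField A)) '' S) = ⊤) :
    Submodule.span A S = ⊤ := by
  classical
  set P : Submodule A (Module.End A V) :=
    Submodule.span A S ⊔ maximalIdeal A • (⊤ : Submodule A (Module.End A V)) with hP
  let Q : Submodule (ResidueField A) (Module.End (ResidueField A) (ResidueField A ⊗[A] V)) :=
    { carrier := {S' | ∃ T ∈ P, T.baseChange (ResidueField A) = S'}
      add_mem' := by
        rintro _ _ ⟨T, hT, rfl⟩ ⟨T', hT', rfl⟩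
        exact ⟨T + T', P.add_mem hT hT', LinearMap.baseChange_add _ _⟩
      zero_mem' := ⟨0, P.zero_mem, LinearMap.baseChange_zero⟩
      smul_mem' := by
        rintro c _ ⟨T, hT, rfl⟩
        obtain ⟨a, rfl⟩ := residue_surjective c
        refine ⟨a • T, P.smul_mem a hT, ?_⟩
        rw [LinearMap.baseChange_smul, ← algebraMap_smul (ResidueField A) a
          (T.baseChange (ResidueField A)), ResidueField.algebraMap_eq] }
  have hQ : (⊤ : Submodule (ResidueField A) _) ≤ Q := by
    rw [← h]
    refine Submodule.span_le.2 ?_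
    rintro _ ⟨T, hT, rfl⟩
    exact ⟨T, Submodule.mem_sup_left (Submodule.subset_span hT), rfl⟩
  have hall : ∀ T : Module.End A V, T ∈ P := by
    intro T
    obtain ⟨T', hT', hTT'⟩ := hQ (Submodule.mem_top (x := T.baseChange (ResidueField A)))
    have hker : (T - T').baseChange (ResidueField A) = 0 := by
      rw [LinearMap.baseChange_sub, hTT']
      exact sub_self (T.baseChange (ResidueField A))
    have := mem_smul_top_of_baseChange_eq_zero (T - T') hker
    have h2 : T = T' + (T - T') := by abel
    rw [h2]
    exact P.add_mem hT' (Submodule.mem_sup_right this)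
  rw [eq_top_iff]
  refine Submodule.le_of_le_smul_of_le_jacobson_bot (Module.Finite.fg_top)
    (maximalIdeal_le_jacobson ⊥) ?_
  intro T _
  exact hall T

/-- For a representation over a local ring with absolutely irreducible residual
representation, the image spans all endomorphisms. -/
theorem span_range_eq_top {A : Type} [CommRing A] [IsLocalRing A] (ρ : GaloisRepAdic A)
    (h : ρ.residual.IsAbsolutelyIrreducible) : Submodule.span A (Set.range ρ.ρ) = ⊤ := by
  apply span_eq_top_of_span_residue_eq_top
  have h0 := span_range_eq_top_of_isAbsolutelyIrreducible ρ.residual h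
  refine Eq.trans (congrArg (Submodule.span (ResidueField A)) ?_) h0
  ext T
  constructor
  · rintro ⟨_, ⟨σ, rfl⟩, rfl⟩
    exact ⟨σ, rfl⟩
  · rintro ⟨σ, rfl⟩
    exact ⟨ρ.ρ σ, ⟨σ, rfl⟩, rfl⟩

/-- Schur's lemma over a local ring: an endomorphism commuting with the representation
is a scalar. -/
theorem exists_eq_smul_of_commute {A : Type} [CommRing A] [IsLocalRing A] (ρ : GaloisRepAdic A)
    (h : ρ.residual.IsAbsolutelyIrreducible) (T : Module.End A ρ.V)
    (hT : ∀ σ, T * ρ.ρ σ = ρ.ρ σ * T) : ∃ a : A, T = a • (1 : Module.End A ρ.V) := by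
  have hall : ∀ S : Module.End A ρ.V, T * S = S * T := by
    intro S
    have hS : S ∈ Submodule.span A (Set.range ρ.ρ) := span_range_eq_top ρ h ▸ Submodule.mem_top
    induction hS using Submodule.span_induction with
    | mem y hy =>
      obtain ⟨σ, rfl⟩ := hy
      exact hT σ
    | zero => rw [mul_zero, zero_mul]
    | add y z _ _ hy hz => rw [mul_add, add_mul, hy, hz]
    | smul c y _ hy => rw [mul_smul_comm, smul_mul_assoc, hy]
  have hc : T ∈ Set.center (Module.End A ρ.V) := by
    rw [Semigroup.mem_center_iff]
    intro S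
    exact (hall S).symm
  obtain ⟨a, _, ha⟩ := Module.End.mem_center_iff.1 hc
  refine ⟨a, ?_⟩
  rw [ha]
  ext x
  simp

/-- Scalars act faithfully on the space of a `GaloisRepAdic`. -/
theorem eq_of_smul_one_eq {A : Type} [CommRing A] [IsLocalRing A] (ρ : GaloisRepAdic A)
    {a a' : A} (h : a • (1 : Module.End A ρ.V) = a' • (1 : Module.End A ρ.V)) : a = a' := by
  have : Nontrivial ρ.V := Module.nontrivial_of_finrank_pos (R := A) (by rw [ρ.finrank_eq]; omega)
  let b := Module.Free.chooseBasis A ρ.V
  obtain ⟨i⟩ := b.index_nonempty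
  have h1 := congrArg (fun T : Module.End A ρ.V => b.repr (T (b i)) i) h
  simpa using h1

/-- Two equivalences between representations with absolutely irreducible residual
representation differ by a unit scalar. -/
theorem equiv_exists_unit_smul {A : Type} [CommRing A] [IsLocalRing A] {ρ₁ ρ₂ : GaloisRepAdic A}
    (h : ρ₁.residual.IsAbsolutelyIrreducible) (e e' : GaloisRepAdic.Equiv ρ₁ ρ₂) :
    ∃ u : Aˣ, ∀ x, e'.toLinearEquiv x = u • e.toLinearEquiv x := by
  -- T = e⁻¹ ∘ e' commutes with ρ₁
  set T : Module.End A ρ₁.V :=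
    (e.toLinearEquiv.symm : ρ₂.V →ₗ[A] ρ₁.V) ∘ₗ (e'.toLinearEquiv : ρ₁.V →ₗ[A] ρ₂.V) with hTdef
  set T' : Module.End A ρ₁.V :=
    (e'.toLinearEquiv.symm : ρ₂.V →ₗ[A] ρ₁.V) ∘ₗ (e.toLinearEquiv : ρ₁.V →ₗ[A] ρ₂.V) with hT'def
  have hcomm : ∀ σ, T * ρ₁.ρ σ = ρ₁.ρ σ * T := by
    intro σ
    ext x
    simp only [hTdef, Module.End.mul_apply, LinearMap.comp_apply, LinearEquiv.coe_coe]
    rw [e'.map_apply]
    apply e.toLinearEquiv.injective
    rw [LinearEquiv.apply_symm_apply, e.map_apply, LinearEquiv.apply_symm_apply]
  have hcomm' : ∀ σ, T' * ρ₁.ρ σ = ρ₁.ρ σ * T' := by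
    intro σ
    ext x
    simp only [hT'def, Module.End.mul_apply, LinearMap.comp_apply, LinearEquiv.coe_coe]
    rw [e.map_apply]
    apply e'.toLinearEquiv.injective
    rw [LinearEquiv.apply_symm_apply, e'.map_apply, LinearEquiv.apply_symm_apply]
  obtain ⟨a, ha⟩ := exists_eq_smul_of_commute ρ₁ h T hcomm
  obtain ⟨a', ha'⟩ := exists_eq_smul_of_commute ρ₁ h T' hcomm'
  have hTT' : T * T' = 1 := by
    ext x
    simp [hTdef, hT'def]
  have haa' : a * a' = 1 := by
    apply eq_of_smul_one_eq ρ₁
    have h3 : (a • (1 : Module.End A ρ₁.V)) * (a' • (1 : Module.End A ρ₁.V)) = 1 := by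
      rw [← ha, ← ha']
      exact hTT'
    rw [smul_mul_smul_comm, mul_one] at h3
    rw [h3, one_smul]
  refine ⟨⟨a, a', haa', by rw [mul_comm]; exact haa'⟩, fun x => ?_⟩
  have hx : T x = a • x := by rw [ha]; simp
  simp only [hTdef, LinearMap.comp_apply, LinearEquiv.coe_coe] at hx
  have := congrArg e.toLinearEquiv hx
  rw [LinearEquiv.apply_symm_apply, map_smul] at this
  rw [this]
  rfl

end Fermat.Agent.S53.Centralizer
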