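import Mathlib
import Fermat.Prelude.Def_GaloisRep_Adic

set_option autoImplicit false

/-!
# Dictionary between `GaloisRepAdic A` and matrix-valued homomorphisms

Slice (S-c) of the S53 plan: every `GaloisRepAdic A` is equivalent to one given by a monoid
homomorphism `r : G →* Matrix (Fin 2) (Fin 2) A` (continuous in the adic sense); equivalences
correspond to `GL₂(A)`-conjugacy, base change to entrywise application of the ring hom, and the
residual representation to entrywise reduction.
-/

namespace Fermat.Agent.S53.Dictionary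

open IsLocalRing TensorProduct

/-- The absolute Galois group of `ℚ`. -/
abbrev GQ : Type := AlgebraicClosure ℚ ≃ₐ[ℚ] AlgebraicClosure ℚ

/-- `2 × 2` matrices. -/
abbrev Mat (A : Type) : Type := Matrix (Fin 2) (Fin 2) A

section General

variable {A : Type} [CommRing A]

/-- The monoid hom `Mat A →* End (Fin 2 → A)`. -/
noncomputable def toEnd (A : Type) [CommRing A] : Mat A →* Module.End A (Fin 2 → A) :=
  (Matrix.toLinAlgEquiv' (R := A) (n := Fin 2) : Mat A →* Module.End A (Fin 2 → A))

@[simp] theorem toEnd_apply (M : Mat A) (v : Fin 2 → A) : toEnd A M v = M.mulVec v := by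
  simp [toEnd]

/-- A vector all of whose coordinates lie in `I` lies in `I • ⊤`. -/
theorem mem_smul_top_of_forall_mem (I : Ideal A) (w : Fin 2 → A) (hw : ∀ i, w i ∈ I) :
    w ∈ I • (⊤ : Submodule A (Fin 2 → A)) := by
  have : w = ∑ i, w i • (Pi.single i (1 : A) : Fin 2 → A) := by
    ext j
    simp [Finset.sum_apply, Pi.single_apply]
  rw [this]
  exact Submodule.sum_mem _ fun i _ => Submodule.smul_mem_smul (hw i) Submodule.mem_top

/-- Coordinates (in any basis) of an element of `I • ⊤` lie in `I`. -/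
theorem repr_mem_of_mem_smul_top {V : Type} [AddCommGroup V] [Module A V] (I : Ideal A)
    (b : Module.Basis (Fin 2) A V) {x : V} (hx : x ∈ I • (⊤ : Submodule A V)) (i : Fin 2) :
    b.repr x i ∈ I := by
  refine Submodule.smul_induction_on (p := fun x => b.repr x i ∈ I) hx ?_ ?_
  · intro a ha y _
    rw [map_smul, Finsupp.smul_apply, smul_eq_mul]
    exact Ideal.mul_mem_right _ _ ha
  · intro x y hx hy
    rw [map_add, Finsupp.add_apply]
    exact Ideal.add_mem _ hx hy

/-- Base change of the linear map of a matrix is the linear map of the mapped matrix, under the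
canonical identification `B ⊗[A] (Fin 2 → A) ≃ (Fin 2 → B)`. -/
theorem piScalarRight_baseChange {B : Type} [CommRing B] [Algebra A B] (M : Mat A)
    (x : B ⊗[A] (Fin 2 → A)) :
    TensorProduct.piScalarRight A B B (Fin 2) ((toEnd A M).baseChange B x) =
      toEnd B (M.map (algebraMap A B)) (TensorProduct.piScalarRight A B B (Fin 2) x) := by
  induction x using TensorProduct.induction_on with
  | zero => simp
  | tmul b v =>
    rw [LinearMap.baseChange_tmul]
    ext i
    simp only [TensorProduct.piScalarRight_apply, TensorProduct.piScalarRightHom_tmul,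
      toEnd_apply, Matrix.mulVec, dotProduct, Matrix.map_apply, Algebra.smul_def, map_sum,
      map_mul, Finset.sum_mul]
    refine Finset.sum_congr rfl fun j _ => ?_
    ring
  | add x y hx hy => simp only [map_add, hx, hy]

/-- Entrywise application of a ring hom, as a monoid hom on `2 × 2` matrices. -/
noncomputable def mapMatHom {B : Type} [CommRing B] (φ : A →+* B) : Mat A →* Mat B :=
  ((φ.mapMatrix : Mat A →+* Mat B) : Mat A →* Mat B)

@[simp] theorem mapMatHom_apply {B : Type} [CommRing B] (φ : A →+* B) (M : Mat A) (i j : Fin 2) :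
    mapMatHom φ M i j = φ (M i j) := rfl

/-- Entrywise image of a matrix-valued homomorphism. -/
noncomputable def mapMat {B : Type} [CommRing B] (φ : A →+* B) (r : GQ →* Mat A) : GQ →* Mat B :=
  (mapMatHom φ).comp r

@[simp] theorem mapMat_apply {B : Type} [CommRing B] (φ : A →+* B) (r : GQ →* Mat A) (σ : GQ)
    (i j : Fin 2) : mapMat φ r σ i j = φ (r σ i j) := rfl

theorem mapMat_apply' {B : Type} [CommRing B] (φ : A →+* B) (r : GQ →* Mat A) (σ : GQ) :
    mapMat φ r σ = (r σ).map φ := rfl

theorem mapMat_comp {B C : Type} [CommRing B] [CommRing C] (φ : A →+* B) (ψ : B →+* C)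
    (r : GQ →* Mat A) : mapMat ψ (mapMat φ r) = mapMat (ψ.comp φ) r := by
  ext σ i j
  simp

theorem mapMat_id (r : GQ →* Mat A) : mapMat (RingHom.id A) r = r := by
  ext σ i j
  simp

end General

section Adic

variable {A : Type} [CommRing A] [IsLocalRing A]

/-- Adic continuity of a matrix-valued homomorphism. -/
def IsContMat (A : Type) [CommRing A] [IsLocalRing A] (r : GQ →* Mat A) : Prop :=
  ∀ n : ℕ, ∃ L : IntermediateField ℚ (AlgebraicClosure ℚ), FiniteDimensional ℚ L ∧
    ∀ σ : GQ, (∀ x ∈ L, σ x = x) → ∀ i j, (r σ - 1) i j ∈ maximalIdeal A ^ n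

/-- The `GaloisRepAdic` attached to a continuous matrix-valued homomorphism. -/
noncomputable def ofMat (r : GQ →* Mat A) (h : IsContMat A r) : GaloisRepAdic A :=
  { V := Fin 2 → A
    finrank_eq := Module.finrank_fin_fun A
    ρ := (toEnd A).comp r
    isAdicContinuous := by
      intro n
      obtain ⟨L, hL, h1⟩ := h n
      refine ⟨L, hL, fun σ hσ v => ?_⟩
      refine mem_smul_top_of_forall_mem _ _ fun i => ?_
      have : ((toEnd A).comp r σ v - v) i = ∑ j, (r σ - 1) i j * v j := by
        have h2 : (toEnd A).comp r σ v - v = (r σ - 1).mulVec v := by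
          rw [MonoidHom.comp_apply, toEnd_apply, Matrix.sub_mulVec, Matrix.one_mulVec]
        rw [h2]
        rfl
      rw [this]
      exact Ideal.sum_mem _ fun j _ => Ideal.mul_mem_right _ _ (h1 σ hσ i j) }

@[simp] theorem ofMat_ρ_apply (r : GQ →* Mat A) (h : IsContMat A r) (σ : GQ)
    (v : Fin 2 → A) : (ofMat r h).ρ σ v = (r σ).mulVec v := by
  change (toEnd A) (r σ) v = _
  simp

/-- The matrix-valued homomorphism of a `GaloisRepAdic` in a basis. -/
noncomputable def matOf (ρ : GaloisRepAdic A) (b : Module.Basis (Fin 2) A ρ.V) : GQ →* Mat A :=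
  ((LinearMap.toMatrixAlgEquiv b : Module.End A ρ.V ≃ₐ[A] Mat A) :
    Module.End A ρ.V →* Mat A).comp ρ.ρ

theorem matOf_apply (ρ : GaloisRepAdic A) (b : Module.Basis (Fin 2) A ρ.V) (σ : GQ) :
    matOf ρ b σ = LinearMap.toMatrix b b (ρ.ρ σ) := rfl

theorem isContMat_matOf (ρ : GaloisRepAdic A) (b : Module.Basis (Fin 2) A ρ.V) :
    IsContMat A (matOf ρ b) := by
  intro n
  obtain ⟨L, hL, h1⟩ := ρ.isAdicContinuous n
  refine ⟨L, hL, fun σ hσ i j => ?_⟩
  have h2 := repr_mem_of_mem_smul_top _ b (h1 σ hσ (b j)) i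
  have : (matOf ρ b σ - 1) i j = b.repr (ρ.ρ σ (b j) - b j) i := by
    rw [matOf_apply, Matrix.sub_apply, LinearMap.toMatrix_apply, map_sub, Finsupp.sub_apply,
      Matrix.one_apply, Module.Basis.repr_self, Finsupp.single_apply]
    congr 1
    by_cases hij : i = j
    · simp [hij]
    · simp [hij, Ne.symm hij]
  rw [this]
  exact h2

/-- Every `GaloisRepAdic` is equivalent to the one given by its matrices in a basis. -/
noncomputable def equivOfMatMatOf (ρ : GaloisRepAdic A) (b : Module.Basis (Fin 2) A ρ.V) :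
    GaloisRepAdic.Equiv ρ (ofMat (matOf ρ b) (isContMat_matOf ρ b)) :=
  { toLinearEquiv := b.equivFun
    map_apply := fun σ x => by
      change b.equivFun (ρ.ρ σ x) = (toEnd A) (matOf ρ b σ) (b.equivFun x)
      rw [toEnd_apply, matOf_apply]
      exact (LinearMap.toMatrix_mulVec_repr b b (ρ.ρ σ) x).symm }

/-- A basis of the underlying module of a `GaloisRepAdic`. -/
noncomputable def someBasis (ρ : GaloisRepAdic A) : Module.Basis (Fin 2) A ρ.V :=
  Module.finBasisOfFinrankEq A ρ.V ρ.finrank_eq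

theorem exists_ofMat (ρ : GaloisRepAdic A) :
    ∃ (r : GQ →* Mat A) (h : IsContMat A r), ρ.IsEquiv (ofMat r h) :=
  ⟨_, _, ⟨equivOfMatMatOf ρ (someBasis ρ)⟩⟩

/-- Equivalences between matrix representations are conjugations by invertible matrices. -/
theorem isEquiv_ofMat_iff (r r' : GQ →* Mat A) (h : IsContMat A r) (h' : IsContMat A r') :
    (ofMat r h).IsEquiv (ofMat r' h') ↔ ∃ M : (Mat A)ˣ, ∀ σ, (M : Mat A) * r σ = r' σ * M := by
  constructor
  · rintro ⟨e⟩
    let f : (Fin 2 → A) ≃ₗ[A] (Fin 2 → A) := e.toLinearEquiv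
    have hf : ∀ σ v, f ((r σ).mulVec v) = (r' σ).mulVec (f v) := fun σ v => by
      have := e.map_apply σ v
      rwa [ofMat_ρ_apply] at this
    refine ⟨⟨LinearMap.toMatrix' (f : (Fin 2 → A) →ₗ[A] (Fin 2 → A)),
      LinearMap.toMatrix' (f.symm : (Fin 2 → A) →ₗ[A] (Fin 2 → A)), ?_, ?_⟩, fun σ => ?_⟩
    · rw [← LinearMap.toMatrix'_comp, LinearEquiv.comp_symm, LinearMap.toMatrix'_id]
    · rw [← LinearMap.toMatrix'_comp, LinearEquiv.symm_comp, LinearMap.toMatrix'_id]
    · apply Matrix.toLin'.injective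
      apply LinearMap.ext
      intro v
      simp only [Matrix.toLin'_mul, Matrix.toLin'_toMatrix', LinearMap.comp_apply,
        Matrix.toLin'_apply, LinearEquiv.coe_coe]
      exact hf σ v
  · rintro ⟨M, hM⟩
    have key : ∀ (σ : GQ) (v : Fin 2 → A),
        (M : Mat A).mulVec ((toEnd A) (r σ) v) = (toEnd A) (r' σ) ((M : Mat A).mulVec v) := by
      intro σ v
      rw [toEnd_apply, toEnd_apply, Matrix.mulVec_mulVec, Matrix.mulVec_mulVec, hM σ]
    exact ⟨{ toLinearEquiv := Matrix.toLinearEquiv' (M : Mat A) (Units.invertible M)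
             map_apply := fun σ v => key σ v }⟩

section BaseChange

variable {B : Type} [CommRing B] [IsLocalRing B]

theorem isContMat_mapMat (φ : A →+* B) (hφ : IsLocalHom φ) (r : GQ →* Mat A)
    (h : IsContMat A r) : IsContMat B (mapMat φ r) := by
  intro n
  obtain ⟨L, hL, h1⟩ := h n
  refine ⟨L, hL, fun σ hσ i j => ?_⟩
  have hmap : (maximalIdeal A ^ n).map φ ≤ maximalIdeal B ^ n := by
    rw [Ideal.map_pow]
    exact Ideal.pow_right_mono (Ideal.map_le_iff_le_comap.mpr fun a ha =>
      Ideal.mem_comap.mpr (haveI := hφ; map_nonunit φ a ha)) n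
  have : (mapMat φ r σ - 1) i j = φ ((r σ - 1) i j) := by
    rw [Matrix.sub_apply, Matrix.sub_apply, map_sub, mapMat_apply, Matrix.one_apply,
      Matrix.one_apply]
    congr 1
    split_ifs <;> simp
  rw [this]
  exact hmap (Ideal.mem_map_of_mem φ (h1 σ hσ i j))

/-- Base change of a matrix representation is the entrywise image. -/
noncomputable def baseChangeAlongOfMatEquiv (φ : A →+* B) (hφ : IsLocalHom φ) (r : GQ →* Mat A)
    (h : IsContMat A r) :
    GaloisRepAdic.Equiv ((ofMat r h).baseChangeAlong φ hφ)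
      (ofMat (mapMat φ r) (isContMat_mapMat φ hφ r h)) :=
  letI : Algebra A B := φ.toAlgebra
  { toLinearEquiv := TensorProduct.piScalarRight A B B (Fin 2)
    map_apply := fun σ x =>
      piScalarRight_baseChange (B := B) (r σ) x }

theorem baseChangeAlong_ofMat (φ : A →+* B) (hφ : IsLocalHom φ) (r : GQ →* Mat A)
    (h : IsContMat A r) :
    ((ofMat r h).baseChangeAlong φ hφ).IsEquiv
      (ofMat (mapMat φ r) (isContMat_mapMat φ hφ r h)) :=
  ⟨baseChangeAlongOfMatEquiv φ hφ r h⟩

end BaseChange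

end Adic

section Residual

variable {k : Type} [Field k]

theorem factors_toEnd_comp (rbar : GQ →* Mat k) (hfin : GaloisFactorsThroughFiniteLevel rbar) :
    GaloisFactorsThroughFiniteLevel ((toEnd k).comp rbar) := by
  obtain ⟨L, hL, h1⟩ := hfin
  exact ⟨L, hL, fun σ hσ => by rw [MonoidHom.comp_apply, h1 σ hσ, map_one]⟩

/-- The residual representation attached to a matrix-valued homomorphism of finite level. -/
noncomputable def resOfMat (rbar : GQ →* Mat k) (hfin : GaloisFactorsThroughFiniteLevel rbar) :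
    ResidualGaloisRep k :=
  { V := Fin 2 → k
    finrank_eq := Module.finrank_fin_fun k
    ρ := (toEnd k).comp rbar
    factorsThroughFiniteLevel := factors_toEnd_comp rbar hfin }

/-- The matrices of a residual representation in a basis. -/
noncomputable def resMatOf (ρ : ResidualGaloisRep k) (b : Module.Basis (Fin 2) k ρ.V) :
    GQ →* Mat k :=
  ((LinearMap.toMatrixAlgEquiv b : Module.End k ρ.V ≃ₐ[k] Mat k) :
    Module.End k ρ.V →* Mat k).comp ρ.ρ

theorem resMatOf_apply (ρ : ResidualGaloisRep k) (b : Module.Basis (Fin 2) k ρ.V) (σ : GQ) :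
    resMatOf ρ b σ = LinearMap.toMatrix b b (ρ.ρ σ) := rfl

theorem factors_resMatOf (ρ : ResidualGaloisRep k) (b : Module.Basis (Fin 2) k ρ.V) :
    GaloisFactorsThroughFiniteLevel (resMatOf ρ b) := by
  obtain ⟨L, hL, h1⟩ := ρ.factorsThroughFiniteLevel
  exact ⟨L, hL, fun σ hσ => by rw [resMatOf, MonoidHom.comp_apply, h1 σ hσ, map_one]⟩

/-- Every residual representation is equivalent to the one given by its matrices in a basis. -/
noncomputable def resEquivOfMatMatOf (ρ : ResidualGaloisRep k)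
    (b : Module.Basis (Fin 2) k ρ.V) :
    ResidualGaloisRep.Equiv ρ (resOfMat (resMatOf ρ b) (factors_resMatOf ρ b)) :=
  { toLinearEquiv := b.equivFun
    map_apply := fun σ x => by
      change b.equivFun (ρ.ρ σ x) = (toEnd k) (resMatOf ρ b σ) (b.equivFun x)
      rw [toEnd_apply, resMatOf_apply]
      exact (LinearMap.toMatrix_mulVec_repr b b (ρ.ρ σ) x).symm }

/-- A basis of the underlying space of a residual representation. -/
noncomputable def resSomeBasis (ρ : ResidualGaloisRep k) : Module.Basis (Fin 2) k ρ.V :=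
  Module.finBasisOfFinrankEq k ρ.V ρ.finrank_eq

theorem isEquiv_resOfMat_iff (r r' : GQ →* Mat k) (h : GaloisFactorsThroughFiniteLevel r)
    (h' : GaloisFactorsThroughFiniteLevel r') :
    (resOfMat r h).IsEquiv (resOfMat r' h') ↔
      ∃ M : (Mat k)ˣ, ∀ σ, (M : Mat k) * r σ = r' σ * M := by
  constructor
  · rintro ⟨e⟩
    let f : (Fin 2 → k) ≃ₗ[k] (Fin 2 → k) := e.toLinearEquiv
    have hf : ∀ σ v, f ((r σ).mulVec v) = (r' σ).mulVec (f v) := fun σ v => by
      have := e.map_apply σ v
      change f ((toEnd k) (r σ) v) = (toEnd k) (r' σ) (f v) at this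
      rwa [toEnd_apply, toEnd_apply] at this
    refine ⟨⟨LinearMap.toMatrix' (f : (Fin 2 → k) →ₗ[k] (Fin 2 → k)),
      LinearMap.toMatrix' (f.symm : (Fin 2 → k) →ₗ[k] (Fin 2 → k)), ?_, ?_⟩, fun σ => ?_⟩
    · rw [← LinearMap.toMatrix'_comp, LinearEquiv.comp_symm, LinearMap.toMatrix'_id]
    · rw [← LinearMap.toMatrix'_comp, LinearEquiv.symm_comp, LinearMap.toMatrix'_id]
    · apply Matrix.toLin'.injective
      apply LinearMap.ext
      intro v
      simp only [Matrix.toLin'_mul, Matrix.toLin'_toMatrix', LinearMap.comp_apply,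
        Matrix.toLin'_apply, LinearEquiv.coe_coe]
      exact hf σ v
  · rintro ⟨M, hM⟩
    have key : ∀ (σ : GQ) (v : Fin 2 → k),
        (M : Mat k).mulVec ((toEnd k) (r σ) v) = (toEnd k) (r' σ) ((M : Mat k).mulVec v) := by
      intro σ v
      rw [toEnd_apply, toEnd_apply, Matrix.mulVec_mulVec, Matrix.mulVec_mulVec, hM σ]
    exact ⟨{ toLinearEquiv := Matrix.toLinearEquiv' (M : Mat k) (Units.invertible M)
             map_apply := fun σ v => key σ v }⟩

theorem factors_mapMat {k' : Type} [Field k'] (ψ : k →+* k') (rbar : GQ →* Mat k)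
    (hfin : GaloisFactorsThroughFiniteLevel rbar) :
    GaloisFactorsThroughFiniteLevel (mapMat ψ rbar) := by
  obtain ⟨L, hL, h1⟩ := hfin
  exact ⟨L, hL, fun σ hσ => by rw [mapMat, MonoidHom.comp_apply, h1 σ hσ, map_one]⟩

/-- Base change of a residual matrix representation along a field homomorphism. -/
noncomputable def resBaseChangeAlongOfMatEquiv {k' : Type} [Field k'] (ψ : k →+* k')
    (rbar : GQ →* Mat k) (hfin : GaloisFactorsThroughFiniteLevel rbar) :
    ResidualGaloisRep.Equiv ((resOfMat rbar hfin).baseChangeAlong ψ)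
      (resOfMat (mapMat ψ rbar) (factors_mapMat ψ rbar hfin)) :=
  letI : Algebra k k' := ψ.toAlgebra
  { toLinearEquiv := TensorProduct.piScalarRight k k' k' (Fin 2)
    map_apply := fun σ x => piScalarRight_baseChange (B := k') (rbar σ) x }

end Residual

section ResidualOfAdic

variable {A : Type} [CommRing A] [IsLocalRing A]

theorem factors_mapMat_residue (r : GQ →* Mat A) (h : IsContMat A r) :
    GaloisFactorsThroughFiniteLevel (mapMat (residue A) r) := by
  obtain ⟨L, hL, h1⟩ := h 1
  refine ⟨L, hL, fun σ hσ => ?_⟩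
  ext i j
  have h2 := h1 σ hσ i j
  rw [pow_one, ← residue_eq_zero_iff, Matrix.sub_apply, map_sub, sub_eq_zero] at h2
  rw [mapMat_apply, h2, Matrix.one_apply, Matrix.one_apply]
  split_ifs <;> simp

/-- The residual representation of a matrix representation is given by the reduced matrices. -/
noncomputable def residualOfMatEquiv (r : GQ →* Mat A) (h : IsContMat A r) :
    ResidualGaloisRep.Equiv (ofMat r h).residual
      (resOfMat (mapMat (residue A) r) (factors_mapMat_residue r h)) :=
  { toLinearEquiv := TensorProduct.piScalarRight A (ResidueField A) (ResidueField A) (Fin 2)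
    map_apply := fun σ x => piScalarRight_baseChange (B := ResidueField A) (r σ) x }

end ResidualOfAdic

section Conj

variable {A : Type} [CommRing A]

/-- Conjugate of a matrix-valued homomorphism by an invertible matrix. -/
noncomputable def conjMat (M : (Mat A)ˣ) (r : GQ →* Mat A) : GQ →* Mat A :=
  { toFun := fun σ => (M : Mat A) * r σ * ((M⁻¹ : (Mat A)ˣ) : Mat A)
    map_one' := by rw [map_one, mul_one, Units.mul_inv]
    map_mul' := fun σ τ => by
      rw [map_mul]
      calc (M : Mat A) * (r σ * r τ) * ((M⁻¹ : (Mat A)ˣ) : Mat A)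
          = (M : Mat A) * r σ * (((M⁻¹ : (Mat A)ˣ) : Mat A) * (M : Mat A)) * r τ *
              ((M⁻¹ : (Mat A)ˣ) : Mat A) := by
            rw [Units.inv_mul, mul_one]; simp only [mul_assoc]
        _ = _ := by simp only [mul_assoc] }

theorem conjMat_apply (M : (Mat A)ˣ) (r : GQ →* Mat A) (σ : GQ) :
    conjMat M r σ = (M : Mat A) * r σ * ((M⁻¹ : (Mat A)ˣ) : Mat A) := rfl

theorem conjMat_intertwine (M : (Mat A)ˣ) (r : GQ →* Mat A) (σ : GQ) :
    (M : Mat A) * r σ = conjMat M r σ * M := by
  rw [conjMat_apply, mul_assoc, Units.inv_mul, mul_one]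

theorem mapMat_conjMat {B : Type} [CommRing B] (φ : A →+* B) (M : (Mat A)ˣ) (r : GQ →* Mat A) :
    mapMat φ (conjMat M r) = conjMat (Units.map (mapMatHom φ) M) (mapMat φ r) := by
  ext σ : 1
  change φ.mapMatrix (conjMat M r σ) = _
  rw [conjMat_apply, conjMat_apply, map_mul, map_mul]
  rfl

variable [IsLocalRing A]

theorem isContMat_conjMat (M : (Mat A)ˣ) (r : GQ →* Mat A) (h : IsContMat A r) :
    IsContMat A (conjMat M r) := by
  intro n
  obtain ⟨L, hL, h1⟩ := h n
  refine ⟨L, hL, fun σ hσ i j => ?_⟩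
  have : conjMat M r σ - 1 = (M : Mat A) * (r σ - 1) * ((M⁻¹ : (Mat A)ˣ) : Mat A) := by
    rw [conjMat_apply, mul_sub, sub_mul, mul_one, Units.mul_inv]
  rw [this, Matrix.mul_apply]
  refine Ideal.sum_mem _ fun l _ => Ideal.mul_mem_right _ _ ?_
  rw [Matrix.mul_apply]
  exact Ideal.sum_mem _ fun m _ => Ideal.mul_mem_left _ _ (h1 σ hσ m l)

theorem isEquiv_ofMat_conjMat (M : (Mat A)ˣ) (r : GQ →* Mat A) (h : IsContMat A r) :
    (ofMat r h).IsEquiv (ofMat (conjMat M r) (isContMat_conjMat M r h)) :=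
  (isEquiv_ofMat_iff _ _ _ _).mpr ⟨M, conjMat_intertwine M r⟩

/-- Invertible matrices over the residue field lift to invertible matrices. -/
theorem exists_unit_lift (Mbar : (Mat (ResidueField A))ˣ) :
    ∃ M : (Mat A)ˣ, Units.map (mapMatHom (residue A)) M = Mbar := by
  choose f hf using fun i j => residue_surjective ((Mbar : Mat (ResidueField A)) i j)
  let M0 : Mat A := Matrix.of f
  have hM0 : (residue A).mapMatrix M0 = (Mbar : Mat (ResidueField A)) := by
    ext i j
    exact hf i j
  have hdet : IsUnit M0.det := by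
    apply isUnit_of_map_unit (residue A)
    rw [RingHom.map_det, hM0]
    exact (Matrix.isUnit_iff_isUnit_det _).mp Mbar.isUnit
  obtain ⟨M, hM⟩ := (Matrix.isUnit_iff_isUnit_det M0).mpr hdet
  refine ⟨M, Units.ext ?_⟩
  rw [Units.coe_map, hM]
  exact hM0

end Conj

section Lift

variable {𝒪 : Type} [CommRing 𝒪] [IsLocalRing 𝒪]
variable {A : Type} [CommRing A] [IsLocalRing A] [Algebra 𝒪 A] [IsLocalHom (algebraMap 𝒪 A)]

/-- If the reduced matrices of `r` are the image of `rbar`, then the residual representation of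
`ofMat r` is the base change of (anything equivalent to) `resOfMat rbar`. -/
theorem residual_ofMat_isEquiv (ρbar : ResidualGaloisRep (ResidueField 𝒪))
    (rbar : GQ →* Mat (ResidueField 𝒪)) (hrbar : GaloisFactorsThroughFiniteLevel rbar)
    (e0 : ρbar.IsEquiv (resOfMat rbar hrbar)) (r : GQ →* Mat A) (h : IsContMat A r)
    (hr : mapMat (residue A) r = mapMat (ResidueField.map (algebraMap 𝒪 A)) rbar) :
    (ofMat r h).residual.IsEquiv (ρbar.baseChangeAlong (ResidueField.map (algebraMap 𝒪 A))) := by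
  obtain ⟨e0⟩ := e0
  have e1 := residualOfMatEquiv r h
  have e2 := (e0.baseChangeAlong (ResidueField.map (algebraMap 𝒪 A))).trans
    (resBaseChangeAlongOfMatEquiv (ResidueField.map (algebraMap 𝒪 A)) rbar hrbar)
  have e3 : ResidualGaloisRep.Equiv
      (resOfMat (mapMat (residue A) r) (factors_mapMat_residue r h))
      (resOfMat (mapMat (ResidueField.map (algebraMap 𝒪 A)) rbar)
        (factors_mapMat _ rbar hrbar)) := by
    have : ∀ (s s' : GQ →* Mat (ResidueField A)) (hs : GaloisFactorsThroughFiniteLevel s)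
        (hs' : GaloisFactorsThroughFiniteLevel s'), s = s' →
        ResidualGaloisRep.Equiv (resOfMat s hs) (resOfMat s' hs') := by
      intro s s' hs hs' hss
      subst hss
      exact ResidualGaloisRep.Equiv.refl _
    exact this _ _ _ _ hr
  exact ⟨(e1.trans e3).trans e2.symm⟩

/-- **Matrix lifts.** A `GaloisRepAdic A` whose residual representation is the base change of
`ρbar ≃ resOfMat rbar` is equivalent to `ofMat r` for an honest matrix lift `r` of `rbar`. -/
theorem exists_matrix_lift (ρbar : ResidualGaloisRep (ResidueField 𝒪))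
    (rbar : GQ →* Mat (ResidueField 𝒪)) (hrbar : GaloisFactorsThroughFiniteLevel rbar)
    (e0 : ρbar.IsEquiv (resOfMat rbar hrbar)) (ρ : GaloisRepAdic A)
    (hres : ρ.residual.IsEquiv (ρbar.baseChangeAlong (ResidueField.map (algebraMap 𝒪 A)))) :
    ∃ (r : GQ →* Mat A) (h : IsContMat A r), ρ.IsEquiv (ofMat r h) ∧
      mapMat (residue A) r = mapMat (ResidueField.map (algebraMap 𝒪 A)) rbar := by
  obtain ⟨e0⟩ := e0
  obtain ⟨hres⟩ := hres
  let r₀ := matOf ρ (someBasis ρ)
  have h₀ : IsContMat A r₀ := isContMat_matOf ρ (someBasis ρ)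
  have eρ : GaloisRepAdic.Equiv ρ (ofMat r₀ h₀) := equivOfMatMatOf ρ (someBasis ρ)
  -- compare residual representations
  have e1 : ResidualGaloisRep.Equiv
      (resOfMat (mapMat (residue A) r₀) (factors_mapMat_residue r₀ h₀))
      (resOfMat (mapMat (ResidueField.map (algebraMap 𝒪 A)) rbar)
        (factors_mapMat _ rbar hrbar)) :=
    ((residualOfMatEquiv r₀ h₀).symm.trans eρ.residual.symm).trans
      (hres.trans ((e0.baseChangeAlong (ResidueField.map (algebraMap 𝒪 A))).trans
        (resBaseChangeAlongOfMatEquiv (ResidueField.map (algebraMap 𝒪 A)) rbar hrbar)))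
  obtain ⟨Mbar, hMbar⟩ := (isEquiv_resOfMat_iff _ _ _ _).mp ⟨e1⟩
  obtain ⟨M, hM⟩ := exists_unit_lift Mbar
  refine ⟨conjMat M r₀, isContMat_conjMat M r₀ h₀,
    ⟨eρ.trans (isEquiv_ofMat_conjMat M r₀ h₀).some⟩, ?_⟩
  rw [mapMat_conjMat, hM]
  ext σ : 1
  rw [conjMat_apply, hMbar σ, mul_assoc, Units.mul_inv, mul_one]

end Lift

section Functoriality

variable {A : Type} [CommRing A] [IsLocalRing A]

theorem ofMat_congr {r r' : GQ →* Mat A} (h : IsContMat A r) (h' : IsContMat A r')
    (hrr : r = r') : (ofMat r h).IsEquiv (ofMat r' h') := by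
  subst hrr
  exact ⟨GaloisRepAdic.Equiv.refl _⟩

theorem isEquiv_refl (ρ : GaloisRepAdic A) : ρ.IsEquiv ρ := ⟨GaloisRepAdic.Equiv.refl ρ⟩

theorem isEquiv_symm {ρ ρ' : GaloisRepAdic A} (h : ρ.IsEquiv ρ') : ρ'.IsEquiv ρ :=
  ⟨h.some.symm⟩

theorem isEquiv_trans {ρ ρ' ρ'' : GaloisRepAdic A} (h : ρ.IsEquiv ρ') (h' : ρ'.IsEquiv ρ'') :
    ρ.IsEquiv ρ'' :=
  ⟨h.some.trans h'.some⟩

theorem isEquiv_baseChangeAlong {B : Type} [CommRing B] [IsLocalRing B] (φ : A →+* B)
    (hφ : IsLocalHom φ) {ρ ρ' : GaloisRepAdic A} (h : ρ.IsEquiv ρ') :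
    (ρ.baseChangeAlong φ hφ).IsEquiv (ρ'.baseChangeAlong φ hφ) :=
  ⟨h.some.baseChangeAlong φ hφ⟩

/-- Base change along the identity does nothing (up to equivalence). -/
theorem baseChangeAlong_id_isEquiv (ρ : GaloisRepAdic A) (hid : IsLocalHom (RingHom.id A)) :
    (ρ.baseChangeAlong (RingHom.id A) hid).IsEquiv ρ := by
  obtain ⟨r, h, e⟩ := exists_ofMat ρ
  refine isEquiv_trans (isEquiv_baseChangeAlong _ hid e) ?_
  refine isEquiv_trans (baseChangeAlong_ofMat _ hid r h) ?_
  exact isEquiv_trans (ofMat_congr _ h (mapMat_id r)) (isEquiv_symm e)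

/-- Base change is compatible with composition (up to equivalence). -/
theorem baseChangeAlong_comp_isEquiv {B C : Type} [CommRing B] [IsLocalRing B] [CommRing C]
    [IsLocalRing C] (φ : A →+* B) (hφ : IsLocalHom φ) (ψ : B →+* C) (hψ : IsLocalHom ψ)
    (hψφ : IsLocalHom (ψ.comp φ)) (ρ : GaloisRepAdic A) :
    ((ρ.baseChangeAlong φ hφ).baseChangeAlong ψ hψ).IsEquiv
      (ρ.baseChangeAlong (ψ.comp φ) hψφ) := by
  obtain ⟨r, h, e⟩ := exists_ofMat ρ
  have e1 := isEquiv_baseChangeAlong ψ hψ (isEquiv_baseChangeAlong φ hφ e)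
  have e2 := isEquiv_baseChangeAlong ψ hψ (baseChangeAlong_ofMat φ hφ r h)
  have e3 := baseChangeAlong_ofMat ψ hψ (mapMat φ r) (isContMat_mapMat φ hφ r h)
  have e4 := ofMat_congr (isContMat_mapMat ψ hψ _ (isContMat_mapMat φ hφ r h))
    (isContMat_mapMat (ψ.comp φ) hψφ r h) (mapMat_comp φ ψ r)
  have e5 := baseChangeAlong_ofMat (ψ.comp φ) hψφ r h
  have e6 := isEquiv_baseChangeAlong (ψ.comp φ) hψφ e
  exact isEquiv_trans e1 (isEquiv_trans e2 (isEquiv_trans e3 (isEquiv_trans e4
    (isEquiv_trans (isEquiv_symm e5) (isEquiv_symm e6)))))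

/-- Base change along equal ring homs gives equivalent representations. -/
theorem baseChangeAlong_congr {B : Type} [CommRing B] [IsLocalRing B] {φ φ' : A →+* B}
    (hφ : IsLocalHom φ) (hφ' : IsLocalHom φ') (hφφ : φ = φ') (ρ : GaloisRepAdic A) :
    (ρ.baseChangeAlong φ hφ).IsEquiv (ρ.baseChangeAlong φ' hφ') := by
  subst hφφ
  exact isEquiv_refl _

end Functoriality

end Fermat.Agent.S53.Dictionary
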