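import Mathlib
import Fermat.Prelude.Def_GaloisRep_DeformationRingData
import Fermat.Prelude.Def_GaloisRep_DeformationCondition

/-!
# Shared definitions for S53 (universal deformation ring), rigid-lift architecture

* `Gal`, `M2`
* `IsAdicCts r`, `ofMatrix r hr : GaloisRepAdic A` for a matrix valued `r : Gal →* M2 A`
* `Setup 𝒪` : a matrix form `rbar` of the residual representation, a set-theoretic lift `rtil`
  of its entries to `𝒪`, and three rigidifying coordinates `(g a, ci a, cj a)`
* `Setup.IsLift`, `Setup.IsRigid`, `Setup.IsRigidLift`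
* the big polynomial ring `BigRing 𝒪`, universal matrix `univMat`, evaluation `evalHom`,
  `quotMat J`, and good ideals `Setup.IsGood`.
-/

set_option autoImplicit false

namespace Fermat.Agent.S53

open IsLocalRing

/-- The absolute Galois group of `ℚ`, in the form used by the prelude. -/
abbrev Gal : Type := AlgebraicClosure ℚ ≃ₐ[ℚ] AlgebraicClosure ℚ

/-- `2 × 2` matrices. -/
abbrev M2 (A : Type*) : Type _ := Matrix (Fin 2) (Fin 2) A

section MatrixRep

variable {A : Type} [CommRing A] [IsLocalRing A]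

/-- Adic continuity of a matrix valued representation: for every `n` the representation is
trivial modulo `𝔪 ^ n` on the absolute Galois group of some number field. -/
def IsAdicCts (r : Gal →* M2 A) : Prop :=
  ∀ n : ℕ, ∃ L : IntermediateField ℚ (AlgebraicClosure ℚ), FiniteDimensional ℚ L ∧
    ∀ σ : Gal, (∀ x ∈ L, σ x = x) → ∀ i j, (r σ - 1) i j ∈ maximalIdeal A ^ n

/-- The monoid hom `Gal →* Module.End A (Fin 2 → A)` attached to a matrix valued `r`. -/
noncomputable def endOfMatrix (r : Gal →* M2 A) : Gal →* Module.End A (Fin 2 → A) :=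
  ((Matrix.toLinAlgEquiv' : M2 A ≃ₐ[A] Module.End A (Fin 2 → A)) : M2 A →* _).comp r

omit [IsLocalRing A] in
@[simp] theorem endOfMatrix_apply (r : Gal →* M2 A) (σ : Gal) (v : Fin 2 → A) :
    endOfMatrix r σ v = (r σ).mulVec v := rfl

omit [IsLocalRing A] in
theorem mem_smul_top_of_forall_mem (I : Ideal A) (w : Fin 2 → A) (hw : ∀ i, w i ∈ I) :
    w ∈ I • (⊤ : Submodule A (Fin 2 → A)) := by
  have hsum : w = ∑ i, w i • (Pi.single i (1 : A) : Fin 2 → A) := by
    ext j
    simp [Finset.sum_apply, Pi.single_apply]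
  rw [hsum]
  exact Submodule.sum_mem _ fun i _ => Submodule.smul_mem_smul (hw i) Submodule.mem_top

theorem isAdicContinuous_endOfMatrix (r : Gal →* M2 A) (hr : IsAdicCts r) :
    GaloisActionIsAdicContinuous A (endOfMatrix r) := by
  intro n
  obtain ⟨L, hL, h⟩ := hr n
  refine ⟨L, hL, fun σ hσ v => ?_⟩
  apply mem_smul_top_of_forall_mem
  intro i
  have h0 : endOfMatrix r σ v - v = (r σ - 1).mulVec v := by
    rw [Matrix.sub_mulVec, Matrix.one_mulVec, endOfMatrix_apply]
  have h1 : (endOfMatrix r σ v - v) i = ∑ j, (r σ - 1) i j * v j := by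
    rw [h0]
    rfl
  rw [h1]
  exact Ideal.sum_mem _ fun j _ => Ideal.mul_mem_right _ _ (h σ hσ i j)

/-- The `GaloisRepAdic A` on `Fin 2 → A` given by a continuous matrix valued representation. -/
noncomputable def ofMatrix (r : Gal →* M2 A) (hr : IsAdicCts r) : GaloisRepAdic A where
  V := Fin 2 → A
  finrank_eq := by simp
  ρ := endOfMatrix r
  isAdicContinuous := isAdicContinuous_endOfMatrix r hr

@[simp] theorem ofMatrix_ρ_apply (r : Gal →* M2 A) (hr : IsAdicCts r) (σ : Gal)
    (v : Fin 2 → A) : (ofMatrix r hr).ρ σ v = (r σ).mulVec v := rfl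

end MatrixRep

/-- The fixed data of the construction: a matrix form `rbar` of the residual representation,
a set-theoretic lift `rtil` of its entries to `𝒪` and three rigidifying coordinates. -/
structure Setup (𝒪 : Type) [CommRing 𝒪] [IsLocalRing 𝒪] where
  /-- matrix form of the residual representation -/
  rbar : Gal →* M2 (ResidueField 𝒪)
  /-- set-theoretic lift of the entries of `rbar` -/
  rtil : Gal → M2 𝒪
  rtil_spec : ∀ σ i j, residue 𝒪 (rtil σ i j) = rbar σ i j
  /-- group elements of the three rigidifying coordinates -/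
  g : Fin 3 → Gal
  /-- row indices of the three rigidifying coordinates -/
  ci : Fin 3 → Fin 2
  /-- column indices of the three rigidifying coordinates -/
  cj : Fin 3 → Fin 2

namespace Setup

variable {𝒪 : Type} [CommRing 𝒪] [IsLocalRing 𝒪] (S : Setup 𝒪)

/-- The prescribed value (in `𝒪`) of the `a`-th rigidifying coordinate. -/
def target (a : Fin 3) : 𝒪 := S.rtil (S.g a) (S.ci a) (S.cj a)

/-- Schur's lemma for `rbar`: its centraliser consists of scalar matrices. -/
def Schur : Prop :=
  ∀ X : M2 (ResidueField 𝒪), (∀ σ, X * S.rbar σ = S.rbar σ * X) → ∃ c : ResidueField 𝒪, X = c • 1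

/-- The three coordinates are rigidifying: there are matrices `E b` with
`[E b, rbar (g a)]_{ci a, cj a} = δ_{ab}`, and a matrix all of whose commutators with the
`rbar (g a)` vanish at the coordinates is scalar. -/
def HasCoords : Prop :=
  ∃ E : Fin 3 → M2 (ResidueField 𝒪),
    (∀ a b, (E b * S.rbar (S.g a) - S.rbar (S.g a) * E b) (S.ci a) (S.cj a) =
      if a = b then 1 else 0) ∧
    ∀ X : M2 (ResidueField 𝒪),
      (∀ a, (X * S.rbar (S.g a) - S.rbar (S.g a) * X) (S.ci a) (S.cj a) = 0) →
        ∃ c : ResidueField 𝒪, X = c • 1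

variable {A : Type} [CommRing A] [IsLocalRing A] [Algebra 𝒪 A]

/-- `r` lifts `rbar` (entrywise, modulo the maximal ideal). -/
def IsLift (r : Gal →* M2 A) : Prop :=
  ∀ σ i j, r σ i j - algebraMap 𝒪 A (S.rtil σ i j) ∈ maximalIdeal A

/-- `r` takes the prescribed values at the three rigidifying coordinates. -/
def IsRigid (r : Gal →* M2 A) : Prop :=
  ∀ a, r (S.g a) (S.ci a) (S.cj a) = algebraMap 𝒪 A (S.target a)

/-- A rigid lift of type `𝒟`. -/
structure IsRigidLift
    (𝒟 : ∀ ⦃A : Type⦄ [CommRing A] [IsLocalRing A] [Algebra 𝒪 A], GaloisRepAdic A → Prop)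
    (r : Gal →* M2 A) : Prop where
  lift : S.IsLift r
  cts : IsAdicCts r
  rigid : S.IsRigid r
  type : 𝒟 (ofMatrix r cts)

end Setup

section BigRing

variable (𝒪 : Type) [CommRing 𝒪]

/-- The big polynomial ring on the matrix entries `X (σ, i, j)`. -/
abbrev BigRing : Type := MvPolynomial (Gal × Fin 2 × Fin 2) 𝒪

variable {𝒪}

/-- The universal matrix over the big ring. -/
noncomputable def univMat (σ : Gal) : M2 (BigRing 𝒪) :=
  Matrix.of fun i j => MvPolynomial.X (σ, i, j)

@[simp] theorem univMat_apply (σ : Gal) (i j : Fin 2) :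
    (univMat σ : M2 (BigRing 𝒪)) i j = MvPolynomial.X (σ, i, j) := rfl

/-- Evaluation of the big ring at a matrix valued function. -/
noncomputable def evalHom {A : Type} [CommRing A] [Algebra 𝒪 A] (r : Gal → M2 A) :
    BigRing 𝒪 →ₐ[𝒪] A :=
  MvPolynomial.aeval fun p : Gal × Fin 2 × Fin 2 => r p.1 p.2.1 p.2.2

@[simp] theorem evalHom_X {A : Type} [CommRing A] [Algebra 𝒪 A] (r : Gal → M2 A)
    (σ : Gal) (i j : Fin 2) : evalHom (𝒪 := 𝒪) r (MvPolynomial.X (σ, i, j)) = r σ i j := by
  simp [evalHom]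

theorem evalHom_mapMatrix_univMat {A : Type} [CommRing A] [Algebra 𝒪 A] (r : Gal → M2 A)
    (σ : Gal) : (evalHom (𝒪 := 𝒪) r).toRingHom.mapMatrix (univMat σ) = r σ := by
  ext i j
  simp

/-- The matrix valued function over `BigRing 𝒪 ⧸ J` induced by the universal matrix. -/
noncomputable def quotMat (J : Ideal (BigRing 𝒪)) (σ : Gal) : M2 (BigRing 𝒪 ⧸ J) :=
  (Ideal.Quotient.mk J).mapMatrix (univMat σ)

@[simp] theorem quotMat_apply (J : Ideal (BigRing 𝒪)) (σ : Gal) (i j : Fin 2) :
    quotMat J σ i j = Ideal.Quotient.mk J (MvPolynomial.X (σ, i, j)) := rfl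

end BigRing

namespace Setup

variable {𝒪 : Type} [CommRing 𝒪] [IsLocalRing 𝒪] (S : Setup 𝒪)

/-- An ideal `J` of the big ring is *good* if the quotient is an Artinian test algebra and the
universal matrix induces a rigid lift of type `𝒟` over it. -/
def IsGood
    (𝒟 : ∀ ⦃A : Type⦄ [CommRing A] [IsLocalRing A] [Algebra 𝒪 A], GaloisRepAdic A → Prop)
    (J : Ideal (BigRing 𝒪)) : Prop :=
  ∃ (_ : IsLocalRing (BigRing 𝒪 ⧸ J)) (r : Gal →* M2 (BigRing 𝒪 ⧸ J)),
    (∀ σ, r σ = quotMat J σ) ∧ GaloisRep.IsArtinianTestAlgebra 𝒪 (BigRing 𝒪 ⧸ J) ∧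
      S.IsRigidLift 𝒟 r

end Setup

end Fermat.Agent.S53
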