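import Mathlib
import Fermat.Agent.S53.Defs
import Fermat.Agent.S53.Dictionary

/-!
# S53, slice (S-e): the tangent bound

For a test algebra `A` carrying a rigid lift of type `𝒟` whose entries generate `A`, the
`𝒪`-algebra homomorphisms `A → k[ε]` inject into the finite set of `TangentFinite`.
-/

set_option autoImplicit false

namespace Fermat.Agent.S53.TangentBound

open IsLocalRing Fermat.Agent.S53 Fermat.Agent.S53.Dictionary

section DualNumber

variable (k : Type) [Field k]

/-- The first projection of the dual numbers, as a ring homomorphism. -/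
noncomputable def fstHom : DualNumber k →+* k := (TrivSqZeroExt.fstHom k k k).toRingHom

@[simp] theorem fstHom_apply (x : DualNumber k) : fstHom k x = TrivSqZeroExt.fst x := rfl

theorem fstHom_surjective : Function.Surjective (fstHom k) := fun c =>
  ⟨TrivSqZeroExt.inl c, TrivSqZeroExt.fst_inl k c⟩

theorem mem_maximalIdeal_iff (x : DualNumber k) :
    x ∈ maximalIdeal (DualNumber k) ↔ TrivSqZeroExt.fst x = 0 := by
  rw [DualNumber.maximalIdeal_eq_span_singleton_eps, Ideal.mem_span_singleton,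
    DualNumber.fst_eq_zero_iff_eps_dvd]

theorem finite_dualNumber : Module.Finite k (DualNumber k) := by
  have e : (k × k) ≃ₗ[k] DualNumber k :=
    { toFun := fun p => TrivSqZeroExt.inl p.1 + TrivSqZeroExt.inr p.2
      invFun := fun x => (TrivSqZeroExt.fst x, TrivSqZeroExt.snd x)
      map_add' := fun p q => by
        apply TrivSqZeroExt.ext <;> simp
      map_smul' := fun c p => by
        apply TrivSqZeroExt.ext <;> simp
      left_inv := fun p => by simp
      right_inv := fun x => by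
        apply TrivSqZeroExt.ext <;> simp }
  exact Module.Finite.equiv e

theorem isArtinianRing_dualNumber : IsArtinianRing (DualNumber k) :=
  haveI := finite_dualNumber k
  IsArtinianRing.of_finite k (DualNumber k)

end DualNumber


section Tan

variable (𝒪 : Type) [CommRing 𝒪] [IsLocalRing 𝒪]

/-- The `𝒪`-algebra structure on `k[ε]` used in the definition of `TangentFinite`. -/
@[reducible] noncomputable def algDual : Algebra 𝒪 (DualNumber (ResidueField 𝒪)) :=
  ((algebraMap (ResidueField 𝒪) (DualNumber (ResidueField 𝒪))).comp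
    (algebraMap 𝒪 (ResidueField 𝒪))).toAlgebra

/-- The `k`-algebra structure on the residue field of `k[ε]` used in `TangentFinite`. -/
@[reducible] noncomputable def algResDual :
    Algebra (ResidueField 𝒪) (ResidueField (DualNumber (ResidueField 𝒪))) :=
  ((IsLocalRing.residue (DualNumber (ResidueField 𝒪))).comp
    (algebraMap (ResidueField 𝒪) (DualNumber (ResidueField 𝒪)))).toAlgebra

attribute [local instance] algDual algResDual

variable (ρbar : ResidualGaloisRep (ResidueField 𝒪))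
  (𝒟 : ∀ ⦃A : Type⦄ [CommRing A] [IsLocalRing A] [Algebra 𝒪 A], GaloisRepAdic A → Prop)

/-- The deformations to the dual numbers, as in `TangentFinite`. -/
def TanCarrier : Type 1 :=
  {ρ : GaloisRepAdic (DualNumber (ResidueField 𝒪)) //
    𝒟 ρ ∧ ρ.residual.IsEquiv (ρbar.baseChange (ResidueField (DualNumber (ResidueField 𝒪))))}

/-- The setoid of `TangentFinite`. -/
def tanSetoid : Setoid (TanCarrier 𝒪 ρbar 𝒟) :=
  ⟨fun ρ ρ' => ρ.1.IsEquiv ρ'.1, ⟨fun ρ => ⟨GaloisRepAdic.Equiv.refl ρ.1⟩,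
    fun ⟨e⟩ => ⟨e.symm⟩, fun ⟨e⟩ ⟨e'⟩ => ⟨e.trans e'⟩⟩⟩

/-- The tangent set of `TangentFinite`. -/
def Tan : Type 1 := Quotient (tanSetoid 𝒪 ρbar 𝒟)

theorem tangentFinite_iff : GaloisRep.TangentFinite 𝒪 ρbar 𝒟 ↔ Finite (Tan 𝒪 ρbar 𝒟) := Iff.rfl

end Tan

section MatDual

variable {k : Type} [Field k]

set_option linter.unusedSectionVars false

/-- entrywise first projection -/
noncomputable def mfst (X : M2 (DualNumber k)) : M2 k := X.map TrivSqZeroExt.fst
/-- entrywise second projection -/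
noncomputable def msnd (X : M2 (DualNumber k)) : M2 k := X.map TrivSqZeroExt.snd

@[simp] theorem mfst_apply (X : M2 (DualNumber k)) (i j : Fin 2) :
    mfst X i j = TrivSqZeroExt.fst (X i j) := rfl
@[simp] theorem msnd_apply (X : M2 (DualNumber k)) (i j : Fin 2) :
    msnd X i j = TrivSqZeroExt.snd (X i j) := rfl

theorem mfst_mul (X Y : M2 (DualNumber k)) : mfst (X * Y) = mfst X * mfst Y := by
  ext i j
  simp [Matrix.mul_apply, Fin.sum_univ_two]

theorem msnd_mul (X Y : M2 (DualNumber k)) :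
    msnd (X * Y) = mfst X * msnd Y + msnd X * mfst Y := by
  ext i j
  simp [Matrix.mul_apply, Fin.sum_univ_two, Matrix.add_apply]
  ring

theorem mfst_one : mfst (1 : M2 (DualNumber k)) = 1 := by
  ext i j
  fin_cases i <;> fin_cases j <;> simp

theorem ext_of_mfst_msnd {X Y : M2 (DualNumber k)} (h1 : mfst X = mfst Y) (h2 : msnd X = msnd Y) :
    X = Y := by
  refine Matrix.ext fun i j => ?_
  exact TrivSqZeroExt.ext (congrFun (congrFun h1 i) j) (congrFun (congrFun h2 i) j)

end MatDual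

section Unique

variable {𝒪 : Type} [CommRing 𝒪] [IsLocalRing 𝒪]

attribute [local instance] algDual algResDual

theorem fst_algebraMap (x : 𝒪) :
    TrivSqZeroExt.fst (algebraMap 𝒪 (DualNumber (ResidueField 𝒪)) x) = residue 𝒪 x := rfl

theorem snd_algebraMap (x : 𝒪) :
    TrivSqZeroExt.snd (algebraMap 𝒪 (DualNumber (ResidueField 𝒪)) x) = 0 := rfl

theorem mfst_of_isLift (S : Setup 𝒪) {r : Gal →* M2 (DualNumber (ResidueField 𝒪))}
    (h : S.IsLift r) (σ : Gal) : mfst (r σ) = S.rbar σ := by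
  ext i j
  have h1 := (mem_maximalIdeal_iff _ _).1 (h σ i j)
  rw [TrivSqZeroExt.fst_sub, fst_algebraMap, S.rtil_spec, sub_eq_zero] at h1
  exact h1

/-- Two rigid lifts to the dual numbers which are conjugate are equal. -/
theorem rigid_unique (S : Setup 𝒪) (hSchur : S.Schur) (hcoords : S.HasCoords)
    (r₁ r₂ : Gal →* M2 (DualNumber (ResidueField 𝒪))) (h₁ : S.IsLift r₁) (h₂ : S.IsLift r₂)
    (hr₁ : S.IsRigid r₁) (hr₂ : S.IsRigid r₂) (M : (M2 (DualNumber (ResidueField 𝒪)))ˣ)
    (hM : ∀ σ, (M : M2 (DualNumber (ResidueField 𝒪))) * r₁ σ = r₂ σ * M) : r₁ = r₂ := by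
  -- the reduction of `M` is scalar
  have hf : ∀ σ, mfst (M : M2 (DualNumber (ResidueField 𝒪))) * S.rbar σ =
      S.rbar σ * mfst (M : M2 (DualNumber (ResidueField 𝒪))) := by
    intro σ
    have := congrArg mfst (hM σ)
    rwa [mfst_mul, mfst_mul, mfst_of_isLift S h₁, mfst_of_isLift S h₂] at this
  obtain ⟨c, hc⟩ := hSchur _ hf
  have hc0 : c ≠ 0 := by
    rintro rfl
    have := congrArg mfst (Units.mul_inv M)
    rw [mfst_mul, hc, zero_smul, zero_mul, mfst_one] at this
    exact zero_ne_one this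
  -- the `ε`-part
  have hs : ∀ σ, c • (msnd (r₁ σ) - msnd (r₂ σ)) =
      S.rbar σ * msnd (M : M2 (DualNumber (ResidueField 𝒪))) -
        msnd (M : M2 (DualNumber (ResidueField 𝒪))) * S.rbar σ := by
    intro σ
    have := congrArg msnd (hM σ)
    rw [msnd_mul, msnd_mul, mfst_of_isLift S h₁, mfst_of_isLift S h₂, hc] at this
    rw [smul_sub, sub_eq_sub_iff_add_eq_add]
    simp only [Matrix.smul_mul, Matrix.one_mul, Matrix.mul_smul, Matrix.mul_one] at this
    exact this
  obtain ⟨_, -, hX⟩ := hcoords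
  obtain ⟨d, hd⟩ := hX (msnd (M : M2 (DualNumber (ResidueField 𝒪)))) (by
    intro a
    have h := congrFun (congrFun (hs (S.g a)) (S.ci a)) (S.cj a)
    have h0 : (msnd (r₁ (S.g a)) - msnd (r₂ (S.g a))) (S.ci a) (S.cj a) = 0 := by
      rw [Matrix.sub_apply, msnd_apply, msnd_apply, hr₁ a, hr₂ a, sub_self]
    rw [Matrix.smul_apply, h0, smul_zero] at h
    rw [← neg_sub, Matrix.neg_apply, ← h, neg_zero])
  have hs' : ∀ σ, msnd (r₁ σ) = msnd (r₂ σ) := by
    intro σ
    have h := hs σ
    rw [hd] at h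
    simp only [Matrix.smul_mul, Matrix.one_mul, Matrix.mul_smul, Matrix.mul_one, sub_self] at h
    have h2 := (smul_eq_zero.1 h).resolve_left hc0
    exact sub_eq_zero.1 h2
  refine MonoidHom.ext fun σ => ext_of_mfst_msnd ?_ (hs' σ)
  rw [mfst_of_isLift S h₁, mfst_of_isLift S h₂]

end Unique


section TestAlg

variable (𝒪 : Type) [CommRing 𝒪] [IsLocalRing 𝒪]

attribute [local instance] algDual algResDual

theorem isLocalHom_algebraMap_dual :
    IsLocalHom (algebraMap 𝒪 (DualNumber (ResidueField 𝒪))) := by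
  constructor
  intro x hx
  rw [TrivSqZeroExt.isUnit_iff_isUnit_fst, fst_algebraMap] at hx
  by_contra hx'
  have : residue 𝒪 x = 0 := (residue_eq_zero_iff x).2 ((mem_maximalIdeal x).2 hx')
  rw [this] at hx
  exact not_isUnit_zero hx

theorem residue_dual_surjective :
    Function.Surjective (residue (DualNumber (ResidueField 𝒪)) ∘
      algebraMap 𝒪 (DualNumber (ResidueField 𝒪))) := by
  intro y
  obtain ⟨z, rfl⟩ := residue_surjective y
  obtain ⟨x, hx⟩ := residue_surjective (TrivSqZeroExt.fst z)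
  refine ⟨x, ?_⟩
  rw [Function.comp_apply, ← sub_eq_zero, ← map_sub, residue_eq_zero_iff, mem_maximalIdeal_iff,
    TrivSqZeroExt.fst_sub, fst_algebraMap, hx, sub_self]

theorem isArtinianTestAlgebra_dual :
    GaloisRep.IsArtinianTestAlgebra 𝒪 (DualNumber (ResidueField 𝒪)) where
  isLocalHom := isLocalHom_algebraMap_dual 𝒪
  residue_surjective := residue_dual_surjective 𝒪
  isArtinian := isArtinianRing_dualNumber _

/-- The two ring homomorphisms `k → ResidueField k[ε]` agree. -/
theorem residueFieldMap_algebraMap_dual :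
    haveI := isLocalHom_algebraMap_dual 𝒪
    ResidueField.map (algebraMap 𝒪 (DualNumber (ResidueField 𝒪))) =
      (residue (DualNumber (ResidueField 𝒪))).comp
        (algebraMap (ResidueField 𝒪) (DualNumber (ResidueField 𝒪))) := by
  have := isLocalHom_algebraMap_dual 𝒪
  apply RingHom.ext
  intro c
  obtain ⟨x, rfl⟩ := residue_surjective c
  rfl

end TestAlg


section Main

variable {𝒪 : Type} [CommRing 𝒪] [IsLocalRing 𝒪]

attribute [local instance] algDual algResDual

variable (S : Setup 𝒪) (ρbar : ResidualGaloisRep (ResidueField 𝒪))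
  (𝒟 : ∀ ⦃A : Type⦄ [CommRing A] [IsLocalRing A] [Algebra 𝒪 A], GaloisRepAdic A → Prop)
  (h𝒟 : GaloisRep.IsDeformationCondition 𝒪 𝒟)
  (hrbar : GaloisFactorsThroughFiniteLevel S.rbar)
  (e0 : ρbar.IsEquiv (resOfMat S.rbar hrbar))

variable {A : Type} [CommRing A] [IsLocalRing A] [Algebra 𝒪 A]
  (hA : GaloisRep.IsArtinianTestAlgebra 𝒪 A)

include hA in
/-- Every `𝒪`-algebra homomorphism from a test algebra to the dual numbers is local. -/
theorem isLocalHom_of_algHom (φ : A →ₐ[𝒪] DualNumber (ResidueField 𝒪)) :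
    IsLocalHom (φ : A →+* DualNumber (ResidueField 𝒪)) := by
  constructor
  intro x hx
  by_contra hx'
  have := hA.isArtinian
  have hnil : IsNilpotent x := by
    have hmem : x ∈ maximalIdeal A := (mem_maximalIdeal x).2 hx'
    have := IsArtinianRing.isNilpotent_jacobson_bot (R := A)
    rw [IsLocalRing.jacobson_eq_maximalIdeal ⊥ bot_ne_top] at this
    obtain ⟨n, hn⟩ := this
    refine ⟨n, ?_⟩
    have h2 : x ^ n ∈ maximalIdeal A ^ n := Ideal.pow_mem_pow hmem n
    rw [hn] at h2
    exact h2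
  have hnil' : IsNilpotent ((φ : A →+* DualNumber (ResidueField 𝒪)) x) := hnil.map _
  exact hnil'.not_isUnit hx


include hA h𝒟 in
/-- The push-forward of a rigid lift of type `𝒟` along an `𝒪`-algebra homomorphism to the dual
numbers is again a rigid lift of type `𝒟`. -/
theorem isRigidLift_mapMat {r : Gal →* M2 A} (hr : S.IsRigidLift 𝒟 r)
    (φ : A →ₐ[𝒪] DualNumber (ResidueField 𝒪)) :
    S.IsRigidLift 𝒟 (mapMat (φ : A →+* DualNumber (ResidueField 𝒪)) r) := by
  have hφ := isLocalHom_of_algHom hA φ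
  have hcts : IsAdicCts (mapMat (φ : A →+* DualNumber (ResidueField 𝒪)) r) :=
    isContMat_mapMat _ hφ r hr.cts
  refine ⟨?_, hcts, ?_, ?_⟩
  · intro σ i j
    have h1 := hr.lift σ i j
    have h2 : (mapMat (φ : A →+* DualNumber (ResidueField 𝒪)) r) σ i j -
        algebraMap 𝒪 (DualNumber (ResidueField 𝒪)) (S.rtil σ i j) =
        φ (r σ i j - algebraMap 𝒪 A (S.rtil σ i j)) := by
      rw [map_sub, AlgHom.commutes]
      rfl
    rw [h2]
    by_contra hcon
    have hu : IsUnit (φ (r σ i j - algebraMap 𝒪 A (S.rtil σ i j))) := by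
      by_contra hnu
      exact hcon ((mem_maximalIdeal _).2 hnu)
    have := hφ.map_nonunit _ hu
    exact ((mem_maximalIdeal _).1 h1) this
  · intro a
    have h1 := hr.rigid a
    change φ (r (S.g a) (S.ci a) (S.cj a)) = _
    rw [h1, AlgHom.commutes]
  · have h1 := h𝒟.baseChangeAlong hA (isArtinianTestAlgebra_dual 𝒪) φ hφ hr.type
    exact h𝒟.of_isEquiv (isArtinianTestAlgebra_dual 𝒪)
      (baseChangeAlong_ofMat (φ : A →+* DualNumber (ResidueField 𝒪)) hφ r hr.cts) h1


include e0 in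
/-- The residual representation of a lift to the dual numbers, in the shape required by
`TangentFinite`. -/
theorem residual_isEquiv_of_isLift {r : Gal →* M2 (DualNumber (ResidueField 𝒪))}
    (hl : S.IsLift r) (hc : IsAdicCts r) :
    (ofMatrix r hc).residual.IsEquiv
      (ρbar.baseChange (ResidueField (DualNumber (ResidueField 𝒪)))) := by
  have := isLocalHom_algebraMap_dual 𝒪
  have hred : mapMat (residue (DualNumber (ResidueField 𝒪))) r =
      mapMat (ResidueField.map (algebraMap 𝒪 (DualNumber (ResidueField 𝒪)))) S.rbar := by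
    refine MonoidHom.ext fun σ => Matrix.ext fun i j => ?_
    change residue _ (r σ i j) = ResidueField.map _ (S.rbar σ i j)
    rw [← S.rtil_spec σ i j]
    change residue _ (r σ i j) = residue _ (algebraMap 𝒪 _ (S.rtil σ i j))
    rw [← sub_eq_zero, ← map_sub, residue_eq_zero_iff]
    exact hl σ i j
  have h1 := residual_ofMat_isEquiv ρbar S.rbar hrbar e0 r hc hred
  have h2 : ρbar.baseChangeAlong (ResidueField.map (algebraMap 𝒪 (DualNumber (ResidueField 𝒪)))) =
      ρbar.baseChange (ResidueField (DualNumber (ResidueField 𝒪))) := by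
    rw [residueFieldMap_algebraMap_dual]
    rfl
  rw [h2] at h1
  exact h1


/-- The map from `𝒪`-algebra homomorphisms `A → k[ε]` to the tangent set of `TangentFinite`,
for a test algebra `A` carrying a rigid lift of type `𝒟`. -/
noncomputable def toTan {r : Gal →* M2 A} (hr : S.IsRigidLift 𝒟 r)
    (φ : A →ₐ[𝒪] DualNumber (ResidueField 𝒪)) : Tan 𝒪 ρbar 𝒟 :=
  Quotient.mk (tanSetoid 𝒪 ρbar 𝒟)
    ⟨ofMatrix (mapMat (φ : A →+* DualNumber (ResidueField 𝒪)) r)
        (isRigidLift_mapMat S 𝒟 h𝒟 hA hr φ).cts,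
      (isRigidLift_mapMat S 𝒟 h𝒟 hA hr φ).type,
      residual_isEquiv_of_isLift S ρbar hrbar e0 (isRigidLift_mapMat S 𝒟 h𝒟 hA hr φ).lift
        (isRigidLift_mapMat S 𝒟 h𝒟 hA hr φ).cts⟩

theorem toTan_injective (hSchur : S.Schur) (hcoords : S.HasCoords) {r : Gal →* M2 A}
    (hr : S.IsRigidLift 𝒟 r)
    (hgen : Algebra.adjoin 𝒪 (Set.range fun p : Gal × Fin 2 × Fin 2 => r p.1 p.2.1 p.2.2) = ⊤) :
    Function.Injective (toTan S ρbar 𝒟 h𝒟 hrbar e0 hA hr) := by
  intro φ ψ h
  have h1 : (ofMatrix (mapMat (φ : A →+* DualNumber (ResidueField 𝒪)) r)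
        (isRigidLift_mapMat S 𝒟 h𝒟 hA hr φ).cts).IsEquiv
      (ofMatrix (mapMat (ψ : A →+* DualNumber (ResidueField 𝒪)) r)
        (isRigidLift_mapMat S 𝒟 h𝒟 hA hr ψ).cts) := Quotient.exact h
  obtain ⟨M, hM⟩ := (isEquiv_ofMat_iff _ _ (isRigidLift_mapMat S 𝒟 h𝒟 hA hr φ).cts
    (isRigidLift_mapMat S 𝒟 h𝒟 hA hr ψ).cts).1 h1
  have h2 := rigid_unique S hSchur hcoords _ _ (isRigidLift_mapMat S 𝒟 h𝒟 hA hr φ).lift
    (isRigidLift_mapMat S 𝒟 h𝒟 hA hr ψ).lift (isRigidLift_mapMat S 𝒟 h𝒟 hA hr φ).rigid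
    (isRigidLift_mapMat S 𝒟 h𝒟 hA hr ψ).rigid M hM
  apply AlgHom.ext_of_adjoin_eq_top hgen
  rintro _ ⟨p, rfl⟩
  have h3 := congrFun (congrFun (DFunLike.congr_fun h2 p.1) p.2.1) p.2.2
  exact h3

include h𝒟 hrbar e0 hA in
theorem finite_algHom (hfin : GaloisRep.TangentFinite 𝒪 ρbar 𝒟) (hSchur : S.Schur)
    (hcoords : S.HasCoords) {r : Gal →* M2 A} (hr : S.IsRigidLift 𝒟 r)
    (hgen : Algebra.adjoin 𝒪 (Set.range fun p : Gal × Fin 2 × Fin 2 => r p.1 p.2.1 p.2.2) = ⊤) :
    Finite (A →ₐ[𝒪] DualNumber (ResidueField 𝒪)) := by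
  have : Finite (Tan 𝒪 ρbar 𝒟) := hfin
  exact Finite.of_injective _ (toTan_injective S ρbar 𝒟 h𝒟 hrbar e0 hA hSchur hcoords hr hgen)

include h𝒟 hrbar e0 hA in
/-- **Tangent bound.** The number of `𝒪`-algebra homomorphisms from a test algebra generated by
the entries of a rigid lift of type `𝒟` to the dual numbers is bounded by the cardinality of the
tangent set, independently of the test algebra. -/
theorem card_algHom_le (hfin : GaloisRep.TangentFinite 𝒪 ρbar 𝒟) (hSchur : S.Schur)
    (hcoords : S.HasCoords) {r : Gal →* M2 A} (hr : S.IsRigidLift 𝒟 r)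
    (hgen : Algebra.adjoin 𝒪 (Set.range fun p : Gal × Fin 2 × Fin 2 => r p.1 p.2.1 p.2.2) = ⊤) :
    Nat.card (A →ₐ[𝒪] DualNumber (ResidueField 𝒪)) ≤ Nat.card (Tan 𝒪 ρbar 𝒟) := by
  have : Finite (Tan 𝒪 ρbar 𝒟) := hfin
  exact Nat.card_le_card_of_injective _
    (toTan_injective S ρbar 𝒟 h𝒟 hrbar e0 hA hSchur hcoords hr hgen)

end Main


end Fermat.Agent.S53.TangentBound
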