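import Mathlib

/-!
# S53, slice "good tower": least good ideals and cardinality bounds

Pure commutative algebra used in the construction of the universal deformation ring as an inverse
limit of finite quotients `U ⧸ J_n` of a big polynomial ring `U`:

* `GoodFamily`, `exists_least`, `level`: in a family of "good" ideals closed under finite
  intersections and with uniformly bounded quotients, there is a least good ideal containing
  `m0 ^ n`; these least ideals form a tower with `J_n = J_(n+1) ⊔ m0 ^ n`.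
* `card_le_of_pow_eq_bot`: a local ring with finite residue field whose maximal ideal is generated
  by a finite set and is nilpotent is finite, with an explicit bound.
* `exists_algHom_ne_zero`, `exists_finset_sup_cotIdeal`, `card_le_of_card_algHom_le`: a bound on
  the number of algebra homs to the dual numbers bounds the number of generators of the maximal
  ideal, hence the cardinality.
-/

set_option autoImplicit false

namespace Fermat.Agent.S53.GoodTower

open IsLocalRing

section Least

variable {U : Type*} [CommRing U]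

/-- Axioms for a family of "good" ideals of `U` with respect to a fixed ideal `m0`
(in the application: `m0` is the kernel of `U → k` and `Good J` says that the tautological
matrix family over `U ⧸ J` is a rigid lift of the required type). -/
structure GoodFamily (m0 : Ideal U) (Good : Ideal U → Prop) : Prop where
  le_m0 : ∀ {J : Ideal U}, Good J → J ≤ m0
  pow_le : ∀ {J : Ideal U}, Good J → ∃ n : ℕ, m0 ^ n ≤ J
  finite : ∀ {J : Ideal U}, Good J → Finite (U ⧸ J)
  inf : ∀ {J J' : Ideal U}, Good J → Good J' → Good (J ⊓ J')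
  up : ∀ {J J' : Ideal U}, Good J → J ≤ J' → J' ≤ m0 → Good J'
  base : Good m0
  bound : ∀ n : ℕ, ∃ c : ℕ, ∀ J : Ideal U, Good J → m0 ^ n ≤ J → Nat.card (U ⧸ J) ≤ c

variable {m0 : Ideal U} {Good : Ideal U → Prop}

/-- If `J ≤ J'`, the quotient `U ⧸ J` is finite and has at most as many elements as `U ⧸ J'`,
then `J = J'`. -/
lemma eq_of_le_of_card_le {J J' : Ideal U} (h : J ≤ J') [Finite (U ⧸ J)]
    (hc : Nat.card (U ⧸ J) ≤ Nat.card (U ⧸ J')) : J = J' := by
  have hsurj : Function.Surjective (Ideal.Quotient.factor h) := Ideal.Quotient.factor_surjective h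
  have hbij := hsurj.bijective_of_nat_card_le hc
  refine le_antisymm h fun x hx => ?_
  have h0 : Ideal.Quotient.factor h (Ideal.Quotient.mk J x) = Ideal.Quotient.factor h 0 := by
    rw [Ideal.Quotient.factor_mk, map_zero]
    exact Ideal.Quotient.eq_zero_iff_mem.mpr hx
  exact Ideal.Quotient.eq_zero_iff_mem.mp (hbij.1 h0)

/-- For every `n ≥ 1` there is a least good ideal containing `m0 ^ n`. -/
theorem exists_least (h : GoodFamily m0 Good) {n : ℕ} (hn : n ≠ 0) :
    ∃ J : Ideal U, Good J ∧ m0 ^ n ≤ J ∧ ∀ J' : Ideal U, Good J' → m0 ^ n ≤ J' → J ≤ J' := by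
  obtain ⟨c, hc⟩ := h.bound n
  let S : Set ℕ := {m | ∃ J : Ideal U, Good J ∧ m0 ^ n ≤ J ∧ Nat.card (U ⧸ J) = m}
  have hSne : S.Nonempty := ⟨_, m0, h.base, Ideal.pow_le_self hn, rfl⟩
  have hSbdd : BddAbove S := ⟨c, by rintro m ⟨J, hJ, hnJ, rfl⟩; exact hc J hJ hnJ⟩
  obtain ⟨J, hJ, hnJ, hcard⟩ := Nat.sSup_mem hSne hSbdd
  refine ⟨J, hJ, hnJ, fun J' hJ' hnJ' => ?_⟩
  have hinf : Good (J ⊓ J') := h.inf hJ hJ'
  have hninf : m0 ^ n ≤ J ⊓ J' := le_inf hnJ hnJ'
  have := h.finite hinf
  have hle : Nat.card (U ⧸ (J ⊓ J')) ≤ Nat.card (U ⧸ J) := by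
    rw [hcard]
    exact le_csSup hSbdd ⟨J ⊓ J', hinf, hninf, rfl⟩
  have := eq_of_le_of_card_le (inf_le_left : J ⊓ J' ≤ J) hle
  exact this ▸ inf_le_right

end Least

/-! ### The tower of least good ideals -/

section Level

variable {U : Type*} [CommRing U] {m0 : Ideal U} {Good : Ideal U → Prop}

open Classical in
/-- `level h n` is the least good ideal containing `m0 ^ n` (for `n ≠ 0`; junk value `m0`
for `n = 0`). -/
noncomputable def level (h : GoodFamily m0 Good) (n : ℕ) : Ideal U :=
  if hn : n ≠ 0 then (exists_least h hn).choose else m0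

lemma level_good (h : GoodFamily m0 Good) (n : ℕ) : Good (level h n) := by
  unfold level
  split_ifs with hn
  · exact (exists_least h hn).choose_spec.1
  · exact h.base

lemma pow_le_level (h : GoodFamily m0 Good) {n : ℕ} (hn : n ≠ 0) : m0 ^ n ≤ level h n := by
  unfold level
  rw [dif_pos hn]
  exact (exists_least h hn).choose_spec.2.1

lemma level_le (h : GoodFamily m0 Good) {n : ℕ} (hn : n ≠ 0) {J : Ideal U} (hJ : Good J)
    (hnJ : m0 ^ n ≤ J) : level h n ≤ J := by
  unfold level
  rw [dif_pos hn]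
  exact (exists_least h hn).choose_spec.2.2 J hJ hnJ

lemma level_le_m0 (h : GoodFamily m0 Good) (n : ℕ) : level h n ≤ m0 :=
  h.le_m0 (level_good h n)

lemma level_succ_le (h : GoodFamily m0 Good) {n : ℕ} (hn : n ≠ 0) :
    level h (n + 1) ≤ level h n :=
  level_le h (Nat.succ_ne_zero n) (level_good h n)
    ((Ideal.pow_le_pow_right (Nat.le_succ n)).trans (pow_le_level h hn))

lemma level_antitone (h : GoodFamily m0 Good) {n n' : ℕ} (hn : n ≠ 0) (hnn' : n ≤ n') :
    level h n' ≤ level h n := by
  induction n', hnn' using Nat.le_induction with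
  | base => exact le_rfl
  | succ k hk ih =>
    exact (level_succ_le h (fun h0 => hn (by omega))).trans ih

/-- `J_n = J_(n+1) ⊔ m0 ^ n`. -/
theorem level_eq_sup (h : GoodFamily m0 Good) {n : ℕ} (hn : n ≠ 0) :
    level h n = level h (n + 1) ⊔ m0 ^ n := by
  apply le_antisymm
  · refine level_le h hn (h.up (level_good h (n + 1)) le_sup_left ?_) le_sup_right
    exact sup_le (level_le_m0 h _) (Ideal.pow_le_self hn)
  · exact sup_le (level_succ_le h hn) (pow_le_level h hn)

/-- The tower is cofinal among good ideals. -/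
theorem exists_level_le (h : GoodFamily m0 Good) {J : Ideal U} (hJ : Good J) :
    ∃ n : ℕ, n ≠ 0 ∧ level h n ≤ J := by
  obtain ⟨n, hn⟩ := h.pow_le hJ
  refine ⟨n + 1, Nat.succ_ne_zero n, level_le h (Nat.succ_ne_zero n) hJ ?_⟩
  exact (Ideal.pow_le_pow_right (Nat.le_succ n)).trans hn

lemma finite_quotient_level (h : GoodFamily m0 Good) (n : ℕ) : Finite (U ⧸ level h n) :=
  h.finite (level_good h n)

end Level

/-! ### Cardinality of a local ring with nilpotent maximal ideal -/

section Card

variable {A : Type*} [CommRing A] [IsLocalRing A]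

/-- Key step: `A ⧸ m ^ (n + 1)` is covered by `k × (s → A ⧸ m ^ n)` when `m = span s`. -/
lemma card_quot_pow_succ_le (s : Finset A) (hs : maximalIdeal A = Ideal.span (s : Set A))
    [Finite (ResidueField A)] (n : ℕ) [Finite (A ⧸ maximalIdeal A ^ n)] :
    Finite (A ⧸ maximalIdeal A ^ (n + 1)) ∧
    Nat.card (A ⧸ maximalIdeal A ^ (n + 1)) ≤
      Nat.card (ResidueField A) * Nat.card (A ⧸ maximalIdeal A ^ n) ^ s.card := by
  classical
  -- a set-theoretic section of the residue map
  let σ : ResidueField A → A := fun c => (Ideal.Quotient.mk_surjective c).choose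
  have hσ : ∀ c, residue A (σ c) = c := fun c => (Ideal.Quotient.mk_surjective c).choose_spec
  let f : ResidueField A × (s → A ⧸ maximalIdeal A ^ n) → A ⧸ maximalIdeal A ^ (n + 1) := fun p =>
    Ideal.Quotient.mk _ (σ p.1 + ∑ j : s, (j : A) * (Quotient.out (p.2 j)))
  have hf : Function.Surjective f := by
    intro y
    obtain ⟨a, rfl⟩ := Ideal.Quotient.mk_surjective y
    have hmem : a - σ (residue A a) ∈ Ideal.span (s : Set A) := by
      rw [← hs, ← residue_eq_zero_iff, map_sub, hσ, sub_self]
    obtain ⟨g, hg⟩ := Submodule.mem_span_finset'.mp hmem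
    refine ⟨(residue A a, fun j => Ideal.Quotient.mk _ (g j)), ?_⟩
    simp only [f]
    rw [Ideal.Quotient.eq]
    have hdiff : σ (residue A a) + ∑ j : s, (j : A) *
        Quotient.out (Ideal.Quotient.mk (maximalIdeal A ^ n) (g j)) - a =
        ∑ j : s, (j : A) * (Quotient.out (Ideal.Quotient.mk (maximalIdeal A ^ n) (g j)) - g j) := by
      have h1 : σ (residue A a) + ∑ j : s, (j : A) *
          Quotient.out (Ideal.Quotient.mk (maximalIdeal A ^ n) (g j)) - a =
          ∑ j : s, (j : A) * Quotient.out (Ideal.Quotient.mk (maximalIdeal A ^ n) (g j)) -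
            (a - σ (residue A a)) := by ring
      rw [h1, ← hg]
      simp only [smul_eq_mul, mul_sub, Finset.sum_sub_distrib]
      congr 1
      exact Finset.sum_congr rfl fun j _ => mul_comm _ _
    rw [hdiff]
    refine Ideal.sum_mem _ fun j _ => ?_
    rw [pow_succ']
    refine Ideal.mul_mem_mul ?_ ?_
    · rw [hs]; exact Ideal.subset_span j.2
    · rw [← Ideal.Quotient.eq]
      exact Ideal.Quotient.mk_out _
  have hfin : Finite (ResidueField A × (s → A ⧸ maximalIdeal A ^ n)) := inferInstance
  refine ⟨Finite.of_surjective f hf, ?_⟩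
  calc Nat.card (A ⧸ maximalIdeal A ^ (n + 1))
      ≤ Nat.card (ResidueField A × (s → A ⧸ maximalIdeal A ^ n)) :=
        Nat.card_le_card_of_surjective f hf
    _ = Nat.card (ResidueField A) * Nat.card (A ⧸ maximalIdeal A ^ n) ^ s.card := by
        rw [Nat.card_prod, Nat.card_fun, Nat.card_eq_fintype_card (α := s), Fintype.card_coe]

/-- Bound function: `cardBound q e n = q ^ (1 + e + ... + e ^ (n - 1))` defined recursively. -/
def cardBound (q e : ℕ) : ℕ → ℕ
  | 0 => 1
  | n + 1 => q * cardBound q e n ^ e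

lemma cardBound_mono_e (q : ℕ) {e e' : ℕ} (h : e ≤ e') (hq : 1 ≤ q) (n : ℕ) :
    cardBound q e n ≤ cardBound q e' n ∧ 1 ≤ cardBound q e n := by
  induction n with
  | zero => exact ⟨le_rfl, le_rfl⟩
  | succ n ih =>
    refine ⟨?_, ?_⟩
    · simp only [cardBound]
      refine Nat.mul_le_mul_left _ ?_
      calc cardBound q e n ^ e ≤ cardBound q e' n ^ e := Nat.pow_le_pow_left ih.1 _
        _ ≤ cardBound q e' n ^ e' := Nat.pow_le_pow_right (le_trans ih.2 ih.1) h
    · simp only [cardBound]
      exact Nat.succ_le_of_lt (Nat.mul_pos hq (Nat.pow_pos ih.2))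

theorem card_quot_pow_le (s : Finset A) (hs : maximalIdeal A = Ideal.span (s : Set A))
    [Finite (ResidueField A)] (n : ℕ) :
    Finite (A ⧸ maximalIdeal A ^ n) ∧
      Nat.card (A ⧸ maximalIdeal A ^ n) ≤ cardBound (Nat.card (ResidueField A)) s.card n := by
  induction n with
  | zero =>
    have : Subsingleton (A ⧸ maximalIdeal A ^ 0) := by
      rw [pow_zero, Ideal.one_eq_top]; exact Ideal.Quotient.subsingleton_iff.mpr rfl
    exact ⟨inferInstance, by simp [cardBound]⟩
  | succ n ih =>
    have := ih.1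
    obtain ⟨h1, h2⟩ := card_quot_pow_succ_le s hs n
    refine ⟨h1, h2.trans ?_⟩
    simp only [cardBound]
    exact Nat.mul_le_mul_left _ (Nat.pow_le_pow_left ih.2 _)

/-- A local ring with finite residue field, maximal ideal generated by a finite set `s` and
nilpotent of exponent `n` is finite of cardinality at most `cardBound (#k) (#s) n`. -/
theorem card_le_of_pow_eq_bot (s : Finset A) (hs : maximalIdeal A = Ideal.span (s : Set A))
    [Finite (ResidueField A)] (n : ℕ) (hn : maximalIdeal A ^ n = ⊥) :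
    Finite A ∧ Nat.card A ≤ cardBound (Nat.card (ResidueField A)) s.card n := by
  obtain ⟨h1, h2⟩ := card_quot_pow_le s hs n
  let e : A ≃+* A ⧸ maximalIdeal A ^ n :=
    (RingEquiv.quotientBot A).symm.trans (Ideal.quotEquivOfEq hn.symm)
  exact ⟨Finite.of_equiv _ e.symm.toEquiv, (Nat.card_congr e.toEquiv).trans_le h2⟩

end Card


section Tangent

variable {𝒪 : Type*} [CommRing 𝒪] [IsLocalRing 𝒪]
variable {A : Type*} [CommRing A] [IsLocalRing A] [Algebra 𝒪 A]

/-- The "relative cotangent ideal" `m_A ^ 2 + m_𝒪 A`. -/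
def cotIdeal (𝒪 : Type*) [CommRing 𝒪] [IsLocalRing 𝒪] (A : Type*) [CommRing A] [IsLocalRing A]
    [Algebra 𝒪 A] : Ideal A :=
  maximalIdeal A ^ 2 ⊔ (maximalIdeal 𝒪).map (algebraMap 𝒪 A)

lemma cotIdeal_le [IsLocalHom (algebraMap 𝒪 A)] : cotIdeal 𝒪 A ≤ maximalIdeal A := by
  refine sup_le (Ideal.pow_le_self two_ne_zero) ?_
  rw [Ideal.map_le_iff_le_comap]
  intro o ho
  exact (mem_maximalIdeal _).mpr (map_nonunit (algebraMap 𝒪 A) o ho)

/-- The induced map on residue fields is bijective when `𝒪 → A → A ⧸ m_A` is surjective. -/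
lemma residueField_map_bijective [IsLocalHom (algebraMap 𝒪 A)]
    (hres : Function.Surjective (residue A ∘ algebraMap 𝒪 A)) :
    Function.Bijective (ResidueField.map (algebraMap 𝒪 A)) := by
  refine ⟨(ResidueField.map (algebraMap 𝒪 A)).injective, fun y => ?_⟩
  obtain ⟨o, ho⟩ := hres y
  exact ⟨residue 𝒪 o, by rw [ResidueField.map_residue]; exact ho⟩

variable [Algebra 𝒪 (DualNumber (ResidueField 𝒪))]

/-- Separation: an element of the maximal ideal of `A` which is not in `m_A ^ 2 + m_𝒪 A` is not
killed by some `𝒪`-algebra homomorphism to the dual numbers. -/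
theorem exists_algHom_ne_zero [IsLocalHom (algebraMap 𝒪 A)]
    (hres : Function.Surjective (residue A ∘ algebraMap 𝒪 A))
    (halg : ∀ o : 𝒪, algebraMap 𝒪 (DualNumber (ResidueField 𝒪)) o =
      TrivSqZeroExt.inl (residue 𝒪 o))
    {x : A} (hx : x ∈ maximalIdeal A) (hxI : x ∉ cotIdeal 𝒪 A) :
    ∃ f : A →ₐ[𝒪] DualNumber (ResidueField 𝒪), f x ≠ 0 := by
  classical
  set k := ResidueField 𝒪 with hk
  set I := cotIdeal 𝒪 A with hI
  have hIle : I ≤ maximalIdeal A := cotIdeal_le
  -- the ring hom `r : A → k`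
  have hbij : Function.Bijective (ResidueField.map (algebraMap 𝒪 A)) := by
    refine ⟨(ResidueField.map (algebraMap 𝒪 A)).injective, fun y => ?_⟩
    obtain ⟨o, ho⟩ := hres y
    exact ⟨residue 𝒪 o, by rw [ResidueField.map_residue]; exact ho⟩
  let e : k ≃+* ResidueField A := RingEquiv.ofBijective _ hbij
  let r : A →+* k := (e.symm : ResidueField A →+* k).comp (residue A)
  have hr_alg : ∀ o : 𝒪, r (algebraMap 𝒪 A o) = residue 𝒪 o := by
    intro o
    simp only [r, RingHom.comp_apply]
    rw [← ResidueField.map_residue]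
    change e.symm (e (residue 𝒪 o)) = residue 𝒪 o
    exact e.symm_apply_apply _
  have hr_zero : ∀ a : A, r a = 0 ↔ a ∈ maximalIdeal A := by
    intro a
    simp only [r, RingHom.comp_apply]
    rw [← residue_eq_zero_iff]
    constructor
    · intro h
      have := congrArg e h
      simpa using this
    · intro h
      rw [h]; simp
  have hdecomp : ∀ a : A, ∃ o : 𝒪, a - algebraMap 𝒪 A o ∈ maximalIdeal A := by
    intro a
    obtain ⟨o, ho⟩ := hres (residue A a)
    refine ⟨o, ?_⟩
    rw [← residue_eq_zero_iff, map_sub]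
    simp only [Function.comp_apply] at ho
    rw [ho, sub_self]
  -- the quotient `Q = A ⧸ I` as a `k`-vector space
  let Q := A ⧸ I
  let ι : 𝒪 →+* Q := (Ideal.Quotient.mk I).comp (algebraMap 𝒪 A)
  have hιker : ∀ o ∈ maximalIdeal 𝒪, ι o = 0 := by
    intro o ho
    simp only [ι, RingHom.comp_apply]
    rw [Ideal.Quotient.eq_zero_iff_mem]
    exact Ideal.mem_sup_right (Ideal.mem_map_of_mem _ ho)
  let lk : k →+* Q := Ideal.Quotient.lift (maximalIdeal 𝒪) ι hιker
  let _ : Algebra k Q := lk.toAlgebra
  have hsmul : ∀ (o : 𝒪) (q : Q), (residue 𝒪 o : k) • q = Ideal.Quotient.mk I (algebraMap 𝒪 A o) * q := by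
    intro o q
    rw [Algebra.smul_def]
    rfl
  -- `mk x` is not in the line spanned by `1`
  have hnot : (Ideal.Quotient.mk I x : Q) ∉ Submodule.span k {(1 : Q)} := by
    intro hmem
    obtain ⟨c, hc⟩ := Submodule.mem_span_singleton.mp hmem
    obtain ⟨o, rfl⟩ := Ideal.Quotient.mk_surjective c
    have h1 : (Ideal.Quotient.mk I) (algebraMap 𝒪 A o) = Ideal.Quotient.mk I x := by
      have := hsmul o 1
      rw [mul_one] at this
      rw [← this]
      exact hc
    have h2 : algebraMap 𝒪 A o - x ∈ I := Ideal.Quotient.eq.mp h1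
    have h3 : algebraMap 𝒪 A o ∈ maximalIdeal A := by
      have := Ideal.add_mem _ (hIle h2) hx
      simpa using this
    have h4 : o ∈ maximalIdeal 𝒪 := by
      rw [mem_maximalIdeal, mem_nonunits_iff]
      intro hu
      exact (mem_maximalIdeal _).mp h3 (hu.map (algebraMap 𝒪 A))
    apply hxI
    have : (Ideal.Quotient.mk I) x = 0 := by
      rw [← h1]
      exact hιker o h4
    exact Ideal.Quotient.eq_zero_iff_mem.mp this
  obtain ⟨μ, hμx, hμ1⟩ := Submodule.exists_dual_map_eq_bot_of_notMem hnot inferInstance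
  have hμone : μ 1 = 0 := by
    have : μ 1 ∈ (Submodule.span k {(1 : Q)}).map μ :=
      Submodule.mem_map_of_mem (Submodule.mem_span_singleton_self 1)
    rw [hμ1] at this
    exact (Submodule.mem_bot k).mp this
  -- the derivation-like map
  let D : A → k := fun a => μ (Ideal.Quotient.mk I a)
  have hD_add : ∀ a b, D (a + b) = D a + D b := fun a b => by simp only [D, map_add]
  have hD_alg : ∀ (o : 𝒪) (a : A), D (algebraMap 𝒪 A o * a) = residue 𝒪 o * D a := by
    intro o a
    simp only [D, map_mul]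
    rw [← hsmul, map_smul, smul_eq_mul]
  have hD_sq : ∀ a b, a ∈ maximalIdeal A → b ∈ maximalIdeal A → D (a * b) = 0 := by
    intro a b ha hb
    have : a * b ∈ I := Ideal.mem_sup_left (by rw [pow_two]; exact Ideal.mul_mem_mul ha hb)
    simp only [D]
    rw [Ideal.Quotient.eq_zero_iff_mem.mpr this, map_zero]
  have hD_one : D 1 = 0 := by simp only [D, map_one]; exact hμone
  have hD_algebraMap : ∀ o : 𝒪, D (algebraMap 𝒪 A o) = 0 := by
    intro o
    have := hD_alg o 1
    rwa [mul_one, hD_one, mul_zero] at this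
  have hD_sub : ∀ a b, D (a - b) = D a - D b := fun a b => by simp only [D, map_sub]
  have hD_mul : ∀ a b, D (a * b) = r a * D b + r b * D a := by
    intro a b
    obtain ⟨oa, ha⟩ := hdecomp a
    obtain ⟨ob, hb⟩ := hdecomp b
    have hra : r a = residue 𝒪 oa := by
      have := (hr_zero _).mpr ha
      rw [map_sub, hr_alg, sub_eq_zero] at this
      exact this
    have hrb : r b = residue 𝒪 ob := by
      have := (hr_zero _).mpr hb
      rw [map_sub, hr_alg, sub_eq_zero] at this
      exact this
    have hab : a * b = algebraMap 𝒪 A oa * b + algebraMap 𝒪 A ob * (a - algebraMap 𝒪 A oa) +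
        (a - algebraMap 𝒪 A oa) * (b - algebraMap 𝒪 A ob) := by ring
    rw [hab, hD_add, hD_add, hD_alg, hD_alg, hD_sq _ _ ha hb, hD_sub, hD_algebraMap, hra, hrb]
    ring
  -- the algebra hom
  let φ : A →ₐ[𝒪] DualNumber k :=
    { toFun := fun a => TrivSqZeroExt.inl (r a) + TrivSqZeroExt.inr (D a)
      map_one' := by
        rw [map_one, hD_one]; simp
      map_mul' := by
        intro a b
        apply TrivSqZeroExt.ext
        · simp
        · simp [hD_mul a b, mul_comm]
      map_zero' := by
        have : D 0 = 0 := by simp [D]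
        rw [map_zero, this]; simp
      map_add' := by
        intro a b
        rw [map_add, hD_add]
        apply TrivSqZeroExt.ext <;> simp <;> ring
      commutes' := by
        intro o
        rw [halg, hr_alg, hD_algebraMap]; simp }
  refine ⟨φ, ?_⟩
  intro h0
  have : (φ x).snd = 0 := by rw [h0]; rfl
  apply hμx
  simpa [φ, D] using this


/-- If there are only finitely many `𝒪`-algebra homs `A → k[ε]`, then `m_A` is generated modulo
`m_A ^ 2 + m_𝒪 A` by a finite set of controlled size. -/
theorem exists_finset_sup_cotIdeal [IsLocalHom (algebraMap 𝒪 A)]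
    (hres : Function.Surjective (residue A ∘ algebraMap 𝒪 A))
    (halg : ∀ o : 𝒪, algebraMap 𝒪 (DualNumber (ResidueField 𝒪)) o =
      TrivSqZeroExt.inl (residue 𝒪 o))
    [Finite (ResidueField 𝒪)] [Finite (A →ₐ[𝒪] DualNumber (ResidueField 𝒪))] :
    ∃ s : Finset A, (∀ x ∈ s, x ∈ maximalIdeal A) ∧
      s.card ≤ Nat.card (DualNumber (ResidueField 𝒪)) ^
        Nat.card (A →ₐ[𝒪] DualNumber (ResidueField 𝒪)) ∧
      maximalIdeal A ≤ Ideal.span (s : Set A) ⊔ cotIdeal 𝒪 A := by
  classical
  set B := DualNumber (ResidueField 𝒪)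
  set H := (A →ₐ[𝒪] B)
  have hBfin : Finite B := by
    change Finite (ResidueField 𝒪 × ResidueField 𝒪)
    infer_instance
  let ev : A → (H → B) := fun a f => f a
  have hfinHB : Finite (H → B) := inferInstance
  let T : Set (H → B) := ev '' (maximalIdeal A : Set A)
  have hTfin : T.Finite := Set.toFinite T
  have hchoose : ∀ t : T, ∃ x : A, x ∈ maximalIdeal A ∧ ev x = t := by
    rintro ⟨t, x, hx, rfl⟩
    exact ⟨x, hx, rfl⟩
  let rep : T → A := fun t => (hchoose t).choose
  have hrep_mem : ∀ t, rep t ∈ maximalIdeal A := fun t => (hchoose t).choose_spec.1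
  have hrep_ev : ∀ t, ev (rep t) = t := fun t => (hchoose t).choose_spec.2
  have : Fintype T := hTfin.fintype
  refine ⟨Finset.univ.image rep, ?_, ?_, ?_⟩
  · intro x hx
    obtain ⟨t, -, rfl⟩ := Finset.mem_image.mp hx
    exact hrep_mem t
  · calc (Finset.univ.image rep).card ≤ (Finset.univ : Finset T).card := Finset.card_image_le
      _ = Nat.card T := by rw [Finset.card_univ, Nat.card_eq_fintype_card]
      _ ≤ Nat.card (H → B) := Nat.card_le_card_of_injective _ Subtype.val_injective
      _ = Nat.card B ^ Nat.card H := Nat.card_fun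
  · intro x hx
    let t : T := ⟨ev x, x, hx, rfl⟩
    have hdiff_mem : x - rep t ∈ maximalIdeal A := Ideal.sub_mem _ hx (hrep_mem t)
    have hdiffI : x - rep t ∈ cotIdeal 𝒪 A := by
      by_contra hnot
      obtain ⟨f, hf⟩ := exists_algHom_ne_zero hres halg hdiff_mem hnot
      apply hf
      rw [map_sub, sub_eq_zero]
      have := congrFun (hrep_ev t) f
      exact this.symm
    have : x = rep t + (x - rep t) := by ring
    rw [this]
    exact Ideal.add_mem _ (Ideal.mem_sup_left (Ideal.subset_span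
      (Finset.mem_coe.mpr (Finset.mem_image_of_mem rep (Finset.mem_univ t)))))
      (Ideal.mem_sup_right hdiffI)

/-- Nilpotent Nakayama: if `m ≤ I' ⊔ m ^ 2`, `I' ≤ m` and `m ^ n = ⊥`, then `m = I'`. -/
lemma eq_of_le_sup_sq {R : Type*} [CommRing R] (m I' : Ideal R) (hI' : I' ≤ m)
    (h : m ≤ I' ⊔ m ^ 2) {n : ℕ} (hn : m ^ n = ⊥) : m = I' := by
  have key : ∀ j : ℕ, m ≤ I' ⊔ m ^ (j + 1) := by
    intro j
    induction j with
    | zero => simp
    | succ j ih =>
      have h2 : m ^ 2 ≤ I' ⊔ m ^ (j + 2) := by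
        calc m ^ 2 = m * m := pow_two m
          _ ≤ m * (I' ⊔ m ^ (j + 1)) := Ideal.mul_mono_right ih
          _ = m * I' ⊔ m * m ^ (j + 1) := Ideal.mul_sup _ _ _
          _ ≤ I' ⊔ m ^ (j + 2) := by
            refine sup_le_sup Ideal.mul_le_right (le_of_eq ?_)
            rw [← pow_succ']
      exact h.trans (sup_le le_sup_left h2)
  refine le_antisymm ?_ hI'
  have hle : m ^ (n + 1) = ⊥ := by rw [pow_succ, hn, Ideal.bot_mul]
  have := key n
  rwa [hle, sup_bot_eq] at this


/-- Main cardinality bound: a local `𝒪`-algebra `A` with nilpotent maximal ideal, residue field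
`k = 𝒪 ⧸ m_𝒪` finite, `m_𝒪` principal, and at most `C` algebra homs to the dual numbers over `k`,
is finite of cardinality bounded in terms of `#k`, `C` and the nilpotency exponent only. -/
theorem card_le_of_card_algHom_le [IsLocalHom (algebraMap 𝒪 A)]
    (hres : Function.Surjective (residue A ∘ algebraMap 𝒪 A))
    (halg : ∀ o : 𝒪, algebraMap 𝒪 (DualNumber (ResidueField 𝒪)) o =
      TrivSqZeroExt.inl (residue 𝒪 o))
    [Finite (ResidueField 𝒪)] [Finite (A →ₐ[𝒪] DualNumber (ResidueField 𝒪))]
    {ϖ : 𝒪} (hϖ : maximalIdeal 𝒪 = Ideal.span {ϖ})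
    {C n : ℕ} (hC : Nat.card (A →ₐ[𝒪] DualNumber (ResidueField 𝒪)) ≤ C)
    (hn : maximalIdeal A ^ n = ⊥) :
    Finite A ∧ Nat.card A ≤ cardBound (Nat.card (ResidueField 𝒪))
      (Nat.card (DualNumber (ResidueField 𝒪)) ^ C + 1) n := by
  classical
  obtain ⟨s, hsmem, hscard, hsle⟩ := exists_finset_sup_cotIdeal (A := A) hres halg
  have hBfin : Finite (DualNumber (ResidueField 𝒪)) := by
    change Finite (ResidueField 𝒪 × ResidueField 𝒪)
    infer_instance
  have hBpos : 1 ≤ Nat.card (DualNumber (ResidueField 𝒪)) := Nat.one_le_iff_ne_zero.mpr Nat.card_pos.ne'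
  set s' : Finset A := insert (algebraMap 𝒪 A ϖ) s with hs'
  have hϖmem : algebraMap 𝒪 A ϖ ∈ maximalIdeal A := by
    refine (mem_maximalIdeal _).mpr (map_nonunit (algebraMap 𝒪 A) ϖ ?_)
    rw [hϖ]; exact Ideal.subset_span rfl
  have hI'le : Ideal.span (s' : Set A) ≤ maximalIdeal A := by
    rw [Ideal.span_le]
    intro x hx
    rcases Finset.mem_insert.mp (Finset.mem_coe.mp hx) with rfl | hx
    · exact hϖmem
    · exact hsmem x hx
  have hmap : (maximalIdeal 𝒪).map (algebraMap 𝒪 A) ≤ Ideal.span (s' : Set A) := by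
    rw [hϖ, Ideal.map_span, Set.image_singleton, Ideal.span_le]
    intro x hx
    rw [Set.mem_singleton_iff] at hx
    subst hx
    exact Ideal.subset_span (Finset.mem_coe.mpr (Finset.mem_insert_self _ _))
  have hss' : Ideal.span (s : Set A) ≤ Ideal.span (s' : Set A) :=
    Ideal.span_mono (Finset.coe_subset.mpr (Finset.subset_insert _ _))
  have hle : maximalIdeal A ≤ Ideal.span (s' : Set A) ⊔ maximalIdeal A ^ 2 := by
    refine hsle.trans (sup_le (hss'.trans le_sup_left) ?_)
    exact sup_le le_sup_right (hmap.trans le_sup_left)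
  have hspan : maximalIdeal A = Ideal.span (s' : Set A) := eq_of_le_sup_sq _ _ hI'le hle hn
  have hkA : Finite (ResidueField A) :=
    Finite.of_surjective _ (residueField_map_bijective (𝒪 := 𝒪) (A := A) hres).2
  have hcardk : Nat.card (ResidueField A) = Nat.card (ResidueField 𝒪) :=
    (Nat.card_congr (Equiv.ofBijective _ (residueField_map_bijective (𝒪 := 𝒪) (A := A) hres))).symm
  obtain ⟨hfin, hcard⟩ := card_le_of_pow_eq_bot s' hspan n hn
  refine ⟨hfin, hcard.trans ?_⟩
  rw [hcardk]
  have hkpos : 1 ≤ Nat.card (ResidueField 𝒪) := Nat.one_le_iff_ne_zero.mpr Nat.card_pos.ne'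
  refine (cardBound_mono_e _ ?_ hkpos n).1
  calc s'.card ≤ s.card + 1 := Finset.card_insert_le _ _
    _ ≤ Nat.card (DualNumber (ResidueField 𝒪)) ^
          Nat.card (A →ₐ[𝒪] DualNumber (ResidueField 𝒪)) + 1 := Nat.add_le_add_right hscard 1
    _ ≤ Nat.card (DualNumber (ResidueField 𝒪)) ^ C + 1 :=
        Nat.add_le_add_right (Nat.pow_le_pow_right hBpos hC) 1

end Tangent

end Fermat.Agent.S53.GoodTower
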