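import Mathlib

/-!
# Inverse limits of quotient towers are complete Noetherian local rings

Slice (S-f) of the S53 project.  Pure commutative algebra.

Given a commutative `𝒪`-algebra `U`, a maximal ideal `𝔪` of `U` and a decreasing sequence of
ideals `J n` of `U` with `𝔪 ^ n ≤ J n ≤ 𝔪` and `J n = J (n+1) ⊔ 𝔪 ^ n`, such that `𝔪` is
generated modulo every `J n` by finitely many fixed elements `t i`, the inverse limit
`lim U ⧸ J n` is a complete Noetherian local ring `R` with `R ⧸ 𝔪_R ^ n = U ⧸ J n`.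
-/

set_option autoImplicit false

namespace Fermat.Agent.S53.InverseLimitRing

open IsLocalRing

section Defs

variable (𝒪 : Type*) [CommRing 𝒪] {U : Type*} [CommRing U] [Algebra 𝒪 U]

/-- The inverse limit of the quotients `U ⧸ J n`, as an `𝒪`-subalgebra of the product ring. -/
def limSubalgebra (J : ℕ → Ideal U) : Subalgebra 𝒪 (∀ n, U ⧸ J n) where
  carrier := {x | ∀ (m n : ℕ), m ≤ n → ∀ (h : J n ≤ J m), Ideal.Quotient.factor h (x n) = x m}
  mul_mem' := by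
    intro x y hx hy m n hmn h
    simp only [Pi.mul_apply, map_mul, hx m n hmn h, hy m n hmn h]
  one_mem' := by
    intro m n _ h
    simp only [Pi.one_apply, map_one]
  add_mem' := by
    intro x y hx hy m n hmn h
    simp only [Pi.add_apply, map_add, hx m n hmn h, hy m n hmn h]
  zero_mem' := by
    intro m n _ h
    simp only [Pi.zero_apply, map_zero]
  algebraMap_mem' := by
    intro c m n _ h
    simp only [Pi.algebraMap_apply]
    rw [← Ideal.Quotient.mk_algebraMap, ← Ideal.Quotient.mk_algebraMap, Ideal.Quotient.factor_mk]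

/-- The inverse limit ring `lim U ⧸ J n`. -/
abbrev LimRing (J : ℕ → Ideal U) : Type _ := ↥(limSubalgebra 𝒪 J)

variable (J : ℕ → Ideal U)

/-- The projection `lim U ⧸ J n → U ⧸ J n`. -/
def proj (n : ℕ) : LimRing 𝒪 J →ₐ[𝒪] U ⧸ J n :=
  (Pi.evalAlgHom 𝒪 (fun n => U ⧸ J n) n).comp (limSubalgebra 𝒪 J).val

/-- The canonical map `U → lim U ⧸ J n`. -/
def ι : U →ₐ[𝒪] LimRing 𝒪 J :=
  AlgHom.codRestrict (AlgHom.pi (fun n => Ideal.Quotient.mkₐ 𝒪 (J n)))
    (limSubalgebra 𝒪 J) (by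
      intro u m n _ h
      simp only [AlgHom.pi_apply, Ideal.Quotient.mkₐ_eq_mk, Ideal.Quotient.factor_mk])

@[simp] lemma proj_ι (n : ℕ) (u : U) : proj 𝒪 J n (ι 𝒪 J u) = Ideal.Quotient.mk (J n) u := rfl

lemma proj_apply (n : ℕ) (x : LimRing 𝒪 J) : proj 𝒪 J n x = x.1 n := rfl

lemma factor_proj {m n : ℕ} (hmn : m ≤ n) (h : J n ≤ J m) (x : LimRing 𝒪 J) :
    Ideal.Quotient.factor h (proj 𝒪 J n x) = proj 𝒪 J m x := x.2 m n hmn h

lemma ext_proj {x y : LimRing 𝒪 J} (h : ∀ n, proj 𝒪 J n x = proj 𝒪 J n y) : x = y :=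
  Subtype.ext (funext h)

lemma proj_surjective (n : ℕ) : Function.Surjective (proj 𝒪 J n) := by
  intro a
  obtain ⟨u, rfl⟩ := Ideal.Quotient.mk_surjective a
  exact ⟨ι 𝒪 J u, rfl⟩

/-- The projection from the limit ring to `U ⧸ I`, for an ideal `I` containing some `J n`. -/
noncomputable def projTo (I : Ideal U) (hI : ∃ n, J n ≤ I) : LimRing 𝒪 J →ₐ[𝒪] U ⧸ I :=
  (Ideal.Quotient.factorₐ 𝒪 (Classical.choose_spec hI)).comp (proj 𝒪 J (Classical.choose hI))

@[simp] lemma projTo_ι (I : Ideal U) (hI : ∃ n, J n ≤ I) (u : U) :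
    projTo 𝒪 J I hI (ι 𝒪 J u) = Ideal.Quotient.mk I u := rfl

lemma projTo_surjective (I : Ideal U) (hI : ∃ n, J n ≤ I) :
    Function.Surjective (projTo 𝒪 J I hI) := by
  intro a
  obtain ⟨u, rfl⟩ := Ideal.Quotient.mk_surjective a
  exact ⟨ι 𝒪 J u, rfl⟩

end Defs

section Generation

variable {𝒪 : Type*} [CommRing 𝒪] {A : Type*} [CommRing A] [Algebra 𝒪 A]

/-- One approximation step: modulo `𝔫 ^ (k+1)`, every element of `𝔫 ^ k` is a polynomial in the
`t i` with coefficients in `𝒪`. -/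
lemma exists_mem_range_sub_mem_pow_succ {e : ℕ} (t : Fin e → A) (𝔫 : Ideal A)
    (ht : ∀ i, t i ∈ 𝔫) (hgen : 𝔫 ≤ Ideal.span (Set.range t))
    (hres : ∀ a : A, ∃ c : 𝒪, a - algebraMap 𝒪 A c ∈ 𝔫) (k : ℕ) :
    ∀ a ∈ 𝔫 ^ k, ∃ s ∈ (MvPolynomial.aeval t : MvPolynomial (Fin e) 𝒪 →ₐ[𝒪] A).range,
      a - s ∈ 𝔫 ^ (k + 1) := by
  induction k with
  | zero =>
    intro a _
    obtain ⟨c, hc⟩ := hres a
    refine ⟨algebraMap 𝒪 A c, Subalgebra.algebraMap_mem _ c, ?_⟩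
    simpa using hc
  | succ k ih =>
    intro a ha
    rw [pow_succ] at ha
    refine Submodule.mul_induction_on ha ?_ ?_
    · intro x hx y hy
      obtain ⟨b, rfl⟩ := (Ideal.mem_span_range_iff_exists_fun).mp (hgen hy)
      -- `x * ∑ b i * t i = ∑ t i * (x * b i)`
      have hxb : ∀ i, x * b i ∈ 𝔫 ^ k := fun i => Ideal.mul_mem_right _ _ hx
      choose s hs hs' using fun i => ih (x * b i) (hxb i)
      refine ⟨∑ i, t i * s i, ?_, ?_⟩
      · refine Subalgebra.sum_mem _ fun i _ => Subalgebra.mul_mem _ ?_ (hs i)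
        exact ⟨MvPolynomial.X i, by simp⟩
      · have : x * ∑ i, b i * t i - ∑ i, t i * s i = ∑ i, t i * (x * b i - s i) := by
          rw [Finset.mul_sum, ← Finset.sum_sub_distrib]
          refine Finset.sum_congr rfl fun i _ => ?_
          ring
        rw [this]
        refine Ideal.sum_mem _ fun i _ => ?_
        rw [pow_succ']
        exact Ideal.mul_mem_mul (ht i) (hs' i)
    · intro x y ⟨s, hs, hs'⟩ ⟨s', hs2, hs2'⟩
      refine ⟨s + s', Subalgebra.add_mem _ hs hs2, ?_⟩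
      have : x + y - (s + s') = (x - s) + (y - s') := by ring
      rw [this]
      exact Ideal.add_mem _ hs' hs2'

/-- If `𝔫` is a nilpotent ideal of the `𝒪`-algebra `A`, generated by the `t i`, with
`A = 𝒪 + 𝔫`, then `A` is generated by the `t i` as an `𝒪`-algebra. -/
lemma aeval_surjective_of_nilpotent {e : ℕ} (t : Fin e → A) (𝔫 : Ideal A)
    (ht : ∀ i, t i ∈ 𝔫) (hgen : 𝔫 ≤ Ideal.span (Set.range t))
    (hres : ∀ a : A, ∃ c : 𝒪, a - algebraMap 𝒪 A c ∈ 𝔫) {n : ℕ} (hn : 𝔫 ^ n = ⊥) :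
    Function.Surjective (MvPolynomial.aeval t : MvPolynomial (Fin e) 𝒪 →ₐ[𝒪] A) := by
  -- by downward induction, `𝔫 ^ k ≤ range`
  have key : ∀ j k, j + k = n → ∀ a ∈ 𝔫 ^ k,
      a ∈ (MvPolynomial.aeval t : MvPolynomial (Fin e) 𝒪 →ₐ[𝒪] A).range := by
    intro j
    induction j with
    | zero =>
      intro k hk a ha
      have : k = n := by omega
      subst this
      rw [hn, Ideal.mem_bot] at ha
      rw [ha]; exact Subalgebra.zero_mem _
    | succ j ih =>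
      intro k hk a ha
      obtain ⟨s, hs, hs'⟩ := exists_mem_range_sub_mem_pow_succ t 𝔫 ht hgen hres k a ha
      have h2 := ih (k + 1) (by omega) _ hs'
      have : a = (a - s) + s := by ring
      rw [this]
      exact Subalgebra.add_mem _ h2 hs
  intro a
  have := key n 0 (by omega) a (by simp)
  exact this

end Generation

section PowerSeriesOrder

variable {σ : Type*} {R : Type*} [CommRing R]

open MvPowerSeries

/-- The ideal of power series all of whose coefficients of total degree `< n` vanish. -/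
def ordIdeal (σ : Type*) (R : Type*) [CommRing R] (n : ℕ) : Ideal (MvPowerSeries σ R) where
  carrier := {p | ∀ x : σ →₀ ℕ, Finsupp.degree x < n → coeff x p = 0}
  add_mem' := by
    intro p q hp hq x hx
    rw [map_add, hp x hx, hq x hx, add_zero]
  zero_mem' := by
    intro x _
    simp
  smul_mem' := by
    classical
    intro c p hp x hx
    rw [smul_eq_mul, coeff_mul]
    refine Finset.sum_eq_zero fun ab hab => ?_
    have hab' : ab.1 + ab.2 = x := Finset.HasAntidiagonal.mem_antidiagonal.mp hab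
    have : Finsupp.degree ab.2 < n := by
      have : Finsupp.degree x = Finsupp.degree ab.1 + Finsupp.degree ab.2 := by
        rw [← hab', map_add]
      omega
    rw [hp _ this, mul_zero]

lemma mem_ordIdeal {n : ℕ} {p : MvPowerSeries σ R} :
    p ∈ ordIdeal σ R n ↔ ∀ x : σ →₀ ℕ, Finsupp.degree x < n → coeff x p = 0 := Iff.rfl

lemma ordIdeal_mul_le (a b : ℕ) : ordIdeal σ R a * ordIdeal σ R b ≤ ordIdeal σ R (a + b) := by
  classical
  rw [Ideal.mul_le]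
  intro p hp q hq x hx
  rw [coeff_mul]
  refine Finset.sum_eq_zero fun ab hab => ?_
  have hab' : ab.1 + ab.2 = x := Finset.HasAntidiagonal.mem_antidiagonal.mp hab
  have hdeg : Finsupp.degree x = Finsupp.degree ab.1 + Finsupp.degree ab.2 := by
    rw [← hab', map_add]
  by_cases h1 : Finsupp.degree ab.1 < a
  · rw [hp _ h1, zero_mul]
  · have : Finsupp.degree ab.2 < b := by omega
    rw [hq _ this, mul_zero]

lemma span_range_X_le_ordIdeal :
    Ideal.span (Set.range (X : σ → MvPowerSeries σ R)) ≤ ordIdeal σ R 1 := by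
  classical
  rw [Ideal.span_le]
  rintro _ ⟨i, rfl⟩ x hx
  have hx0 : x = 0 := by
    have : Finsupp.degree x = 0 := by omega
    exact (Finsupp.degree_eq_zero_iff x).mp this
  subst hx0
  rw [coeff_zero_X]

lemma span_range_X_pow_le_ordIdeal (n : ℕ) :
    Ideal.span (Set.range (X : σ → MvPowerSeries σ R)) ^ n ≤ ordIdeal σ R n := by
  induction n with
  | zero =>
    intro p _ x hx
    exact absurd hx (Nat.not_lt_zero _)
  | succ n ih =>
    rw [pow_succ]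
    exact (Ideal.mul_mono ih span_range_X_le_ordIdeal).trans (ordIdeal_mul_le n 1)

lemma truncTotal_eq_zero_of_mem_pow [Finite σ] {n : ℕ} {p : MvPowerSeries σ R}
    (hp : p ∈ Ideal.span (Set.range (X : σ → MvPowerSeries σ R)) ^ n) :
    truncTotal n p = 0 := by
  ext x
  rw [MvPolynomial.coeff_zero]
  by_cases hx : Finsupp.degree x < n
  · rw [coeff_truncTotal _ hx]
    exact span_range_X_pow_le_ordIdeal n hp x hx
  · exact coeff_truncTotal_eq_zero _ (not_lt.mp hx)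

end PowerSeriesOrder

section Tower

variable (𝒪 : Type*) [CommRing 𝒪] {U : Type*} [CommRing U] [Algebra 𝒪 U]

/-- The hypotheses on the tower of ideals `J n`. -/
structure IsTower (𝔪 : Ideal U) (J : ℕ → Ideal U) {e : ℕ} (t : Fin e → U) : Prop where
  isMaximal : 𝔪.IsMaximal
  residue : ∀ u : U, ∃ c : 𝒪, u - algebraMap 𝒪 U c ∈ 𝔪
  anti : Antitone J
  pow_le : ∀ n, 𝔪 ^ n ≤ J n
  le_one : J 1 ≤ 𝔪
  step : ∀ n, J n ≤ J (n + 1) ⊔ 𝔪 ^ n
  t_mem : ∀ i, t i ∈ 𝔪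
  gens : ∀ n, 𝔪 ≤ Ideal.span (Set.range t) ⊔ J n

/-- evaluation of polynomials at the images of the `t i` in `U ⧸ J n`. -/
noncomputable def evPoly (J : ℕ → Ideal U) {e : ℕ} (t : Fin e → U) (n : ℕ) :
    MvPolynomial (Fin e) 𝒪 →ₐ[𝒪] U ⧸ J n :=
  MvPolynomial.aeval fun i => Ideal.Quotient.mk (J n) (t i)

/-- The ideal of `𝒪⟦X₁,…,Xₑ⟧` generated by the variables. -/
noncomputable abbrev varsIdeal (e : ℕ) : Ideal (MvPowerSeries (Fin e) 𝒪) :=
  Ideal.span (Set.range (MvPowerSeries.X : Fin e → MvPowerSeries (Fin e) 𝒪))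

variable {𝒪}
variable {𝔪 : Ideal U} {J : ℕ → Ideal U} {e : ℕ} {t : Fin e → U}

lemma factor_evPoly {m n : ℕ} (hmn : J n ≤ J m) (p : MvPolynomial (Fin e) 𝒪) :
    Ideal.Quotient.factor hmn (evPoly 𝒪 J t n p) = evPoly 𝒪 J t m p := by
  have : ((Ideal.Quotient.factorₐ 𝒪 hmn).comp (evPoly 𝒪 J t n)) = evPoly 𝒪 J t m := by
    apply MvPolynomial.algHom_ext
    intro i
    simp [evPoly]
  exact congrArg (fun f => f p) this

namespace IsTower

variable (h : IsTower 𝒪 𝔪 J t)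
include h

/-- The image of `𝔪` in `U ⧸ J n` is generated by the images of the `t i`. -/
lemma map_mk_eq_span (n : ℕ) :
    𝔪.map (Ideal.Quotient.mk (J n)) =
      Ideal.span (Set.range fun i => Ideal.Quotient.mk (J n) (t i)) := by
  apply le_antisymm
  · rw [Ideal.map_le_iff_le_comap]
    intro x hx
    have := h.gens n hx
    rw [Ideal.mem_comap]
    obtain ⟨y, hy, z, hz, rfl⟩ := Submodule.mem_sup.mp this
    rw [map_add, Ideal.Quotient.eq_zero_iff_mem.mpr hz, add_zero]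
    have : Ideal.Quotient.mk (J n) y ∈ (Ideal.span (Set.range t)).map (Ideal.Quotient.mk (J n)) :=
      Ideal.mem_map_of_mem _ hy
    rwa [Ideal.map_span, ← Set.range_comp] at this
  · rw [Ideal.span_le]
    rintro _ ⟨i, rfl⟩
    exact Ideal.mem_map_of_mem _ (h.t_mem i)

lemma map_mk_pow_eq_bot (n : ℕ) : (𝔪.map (Ideal.Quotient.mk (J n))) ^ n = ⊥ := by
  rw [← Ideal.map_pow, Ideal.map_eq_bot_iff_le_ker, Ideal.mk_ker]
  exact h.pow_le n

lemma evPoly_surjective (n : ℕ) : Function.Surjective (evPoly 𝒪 J t n) := by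
  refine aeval_surjective_of_nilpotent _ (𝔪.map (Ideal.Quotient.mk (J n))) ?_ ?_ ?_
    (h.map_mk_pow_eq_bot n)
  · intro i
    exact Ideal.mem_map_of_mem _ (h.t_mem i)
  · exact (h.map_mk_eq_span n).le
  · intro a
    obtain ⟨u, rfl⟩ := Ideal.Quotient.mk_surjective a
    obtain ⟨c, hc⟩ := h.residue u
    refine ⟨c, ?_⟩
    rw [← Ideal.Quotient.mk_algebraMap, ← map_sub]
    exact Ideal.mem_map_of_mem _ hc

lemma evPoly_eq_zero_of_mem_pow (n : ℕ) {p : MvPolynomial (Fin e) 𝒪}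
    (hp : p ∈ MvPolynomial.idealOfVars (Fin e) 𝒪 ^ n) : evPoly 𝒪 J t n p = 0 := by
  have h1 : (MvPolynomial.idealOfVars (Fin e) 𝒪 ^ n).map (evPoly 𝒪 J t n).toRingHom ≤ ⊥ := by
    rw [Ideal.map_pow, ← h.map_mk_pow_eq_bot n, h.map_mk_eq_span n]
    refine Ideal.pow_right_mono ?_ n
    rw [MvPolynomial.idealOfVars, Ideal.map_span, ← Set.range_comp]
    refine Ideal.span_mono ?_
    rintro _ ⟨i, rfl⟩
    exact ⟨i, by simp [evPoly]⟩
  have := h1 (Ideal.mem_map_of_mem _ hp)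
  simpa using this

/-- evaluation of power series at the (nilpotent) images of the `t i` in `U ⧸ J n`. -/
noncomputable def ev (n : ℕ) : MvPowerSeries (Fin e) 𝒪 →ₐ[𝒪] U ⧸ J n :=
  (Ideal.Quotient.liftₐ (MvPolynomial.idealOfVars (Fin e) 𝒪 ^ n) (evPoly 𝒪 J t n)
    (fun _ ha => h.evPoly_eq_zero_of_mem_pow n ha)).comp
    ((MvPowerSeries.truncTotalAlgHom (Fin e) 𝒪 n).restrictScalars 𝒪)

lemma ev_apply (n : ℕ) (p : MvPowerSeries (Fin e) 𝒪) :
    h.ev n p = evPoly 𝒪 J t n (MvPowerSeries.truncTotal n p) := rfl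

lemma ev_coe (n : ℕ) (p : MvPolynomial (Fin e) 𝒪) :
    h.ev n (p : MvPowerSeries (Fin e) 𝒪) = evPoly 𝒪 J t n p := by
  have h1 : Ideal.Quotient.mk (MvPolynomial.idealOfVars (Fin e) 𝒪 ^ n)
      (MvPowerSeries.truncTotal n (p : MvPowerSeries (Fin e) 𝒪)) = Ideal.Quotient.mk _ p :=
    (MvPowerSeries.truncTotalAlgHom (Fin e) 𝒪 n).commutes p
  rw [ev_apply, ← sub_eq_zero, ← map_sub]
  exact h.evPoly_eq_zero_of_mem_pow n (Ideal.Quotient.eq.mp h1)

lemma ev_X (n : ℕ) (i : Fin e) :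
    h.ev n (MvPowerSeries.X i) = Ideal.Quotient.mk (J n) (t i) := by
  rw [← MvPolynomial.coe_X, h.ev_coe]
  simp [evPoly]

lemma ev_surjective (n : ℕ) : Function.Surjective (h.ev n) := by
  intro a
  obtain ⟨p, rfl⟩ := h.evPoly_surjective n a
  exact ⟨p, h.ev_coe n p⟩

lemma factor_ev {m n : ℕ} (hmn : m ≤ n) (hJ : J n ≤ J m) (p : MvPowerSeries (Fin e) 𝒪) :
    Ideal.Quotient.factor hJ (h.ev n p) = h.ev m p := by
  rw [ev_apply, ev_apply, factor_evPoly, ← sub_eq_zero, ← map_sub]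
  exact h.evPoly_eq_zero_of_mem_pow m
    (MvPowerSeries.truncTotal_sub_truncTotal_mem_pow_idealOfVars hmn le_rfl p)

lemma ev_eq_zero_of_mem_pow (n : ℕ) {p : MvPowerSeries (Fin e) 𝒪}
    (hp : p ∈ varsIdeal 𝒪 e ^ n) : h.ev n p = 0 := by
  rw [ev_apply, truncTotal_eq_zero_of_mem_pow hp, map_zero]

/-- The image of the ideal of variables under `ev n` is the maximal ideal of `U ⧸ J n`. -/
lemma map_ev_varsIdeal (n : ℕ) :
    (varsIdeal 𝒪 e).map (h.ev n) = 𝔪.map (Ideal.Quotient.mk (J n)) := by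
  rw [h.map_mk_eq_span n, varsIdeal, Ideal.map_span, ← Set.range_comp]
  congr 2
  funext i
  exact h.ev_X n i

/-- Key step: `ker (ev n) ≤ ker (ev (n+1)) ⊔ (X)^n`. -/
lemma exists_sub_mem_of_ev_eq_zero (n : ℕ) {p : MvPowerSeries (Fin e) 𝒪} (hp : h.ev n p = 0) :
    ∃ r ∈ varsIdeal 𝒪 e ^ n, h.ev (n + 1) (p - r) = 0 := by
  have hJ : J (n + 1) ≤ J n := h.anti (Nat.le_succ n)
  have h1 : h.ev (n + 1) p ∈ RingHom.ker (Ideal.Quotient.factor hJ) := by
    rw [RingHom.mem_ker, h.factor_ev (Nat.le_succ n) hJ, hp]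
  rw [Ideal.Quotient.factor_ker] at h1
  have h2 : (J n).map (Ideal.Quotient.mk (J (n + 1))) ≤
      (varsIdeal 𝒪 e ^ n).map (h.ev (n + 1)) := by
    rw [Ideal.map_pow, h.map_ev_varsIdeal (n + 1), ← Ideal.map_pow]
    refine (Ideal.map_mono (h.step n)).trans ?_
    rw [Ideal.map_sup, sup_le_iff]
    refine ⟨?_, le_rfl⟩
    rw [Ideal.map_le_iff_le_comap]
    intro x hx
    rw [Ideal.mem_comap, Ideal.Quotient.eq_zero_iff_mem.mpr hx]
    exact Ideal.zero_mem _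
  obtain ⟨r, hr, hr'⟩ := (Ideal.mem_map_iff_of_surjective (h.ev (n + 1))
    (h.ev_surjective (n + 1))).mp (h2 h1)
  exact ⟨r, hr, by rw [map_sub, hr', sub_self]⟩

/-- The evaluation map `𝒪⟦X₁,…,Xₑ⟧ → lim U ⧸ J n`, `X i ↦ t i`. -/
noncomputable def evLim : MvPowerSeries (Fin e) 𝒪 →ₐ[𝒪] LimRing 𝒪 J :=
  AlgHom.codRestrict (AlgHom.pi (fun n => h.ev n)) (limSubalgebra 𝒪 J) (by
    intro p m n hmn hJ
    exact h.factor_ev hmn hJ p)

lemma proj_evLim (n : ℕ) (p : MvPowerSeries (Fin e) 𝒪) :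
    proj 𝒪 J n (h.evLim p) = h.ev n p := rfl

lemma subsingleton_quot_zero : Subsingleton (U ⧸ J 0) := by
  rw [Ideal.Quotient.subsingleton_iff]
  exact top_le_iff.mp (by simpa using h.pow_le 0)

omit [CommRing U] [Algebra 𝒪 U] h in
lemma smodEq_iff_sub_mem (n : ℕ) (p q : MvPowerSeries (Fin e) 𝒪) :
    p ≡ q [SMOD (varsIdeal 𝒪 e ^ n • ⊤ : Submodule (MvPowerSeries (Fin e) 𝒪) _)] ↔
      p - q ∈ varsIdeal 𝒪 e ^ n := by
  rw [SModEq.sub_mem, smul_eq_mul, Ideal.mul_top]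

/-- Successive approximation: an element of the kernel of `ev n`, or more generally a compatible
family of approximate preimages, converges in `𝒪⟦X⟧`. -/
lemma exists_limit (y : ∀ n, U ⧸ J n)
    (hstep : ∀ n (p : MvPowerSeries (Fin e) 𝒪), h.ev n p = y n →
      ∃ p', h.ev (n + 1) p' = y (n + 1) ∧ p' - p ∈ varsIdeal 𝒪 e ^ n)
    (n₀ : ℕ) (p₀ : MvPowerSeries (Fin e) 𝒪) (hp₀ : h.ev n₀ p₀ = y n₀) :
    ∃ L : MvPowerSeries (Fin e) 𝒪, (∀ n, n₀ ≤ n → h.ev n L = y n) ∧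
      L - p₀ ∈ varsIdeal 𝒪 e ^ n₀ := by
  classical
  -- build the sequence, indexed by `k`, of approximations at level `n₀ + k`
  let g : ℕ → MvPowerSeries (Fin e) 𝒪 := fun k => Nat.rec p₀
    (fun k p => if hk : h.ev (n₀ + k) p = y (n₀ + k) then Classical.choose (hstep (n₀ + k) p hk)
      else p) k
  have hg0 : g 0 = p₀ := rfl
  have hgs : ∀ k, g (k + 1) = if hk : h.ev (n₀ + k) (g k) = y (n₀ + k) then
      Classical.choose (hstep (n₀ + k) (g k) hk) else g k := fun k => rfl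
  have hgy : ∀ k, h.ev (n₀ + k) (g k) = y (n₀ + k) := by
    intro k
    induction k with
    | zero => exact hp₀
    | succ k ih =>
      rw [hgs k, dif_pos ih]
      exact (Classical.choose_spec (hstep (n₀ + k) (g k) ih)).1
  have hgd : ∀ k, g (k + 1) - g k ∈ varsIdeal 𝒪 e ^ (n₀ + k) := by
    intro k
    rw [hgs k, dif_pos (hgy k)]
    exact (Classical.choose_spec (hstep (n₀ + k) (g k) (hgy k))).2
  -- the sequence `f n := g (n - n₀)` is Cauchy
  let f : ℕ → MvPowerSeries (Fin e) 𝒪 := fun n => g (n - n₀)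
  have hf : ∀ n, f (n + 1) - f n ∈ varsIdeal 𝒪 e ^ n := by
    intro n
    by_cases hn : n₀ ≤ n
    · obtain ⟨k, rfl⟩ := Nat.exists_eq_add_of_le hn
      show g (n₀ + k + 1 - n₀) - g (n₀ + k - n₀) ∈ _
      have h1 : n₀ + k + 1 - n₀ = k + 1 := by omega
      have h2 : n₀ + k - n₀ = k := by omega
      rw [h1, h2]
      exact hgd k
    · show g (n + 1 - n₀) - g (n - n₀) ∈ _
      have h1 : n + 1 - n₀ = 0 := by omega
      have h2 : n - n₀ = 0 := by omega
      rw [h1, h2, sub_self]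
      exact Ideal.zero_mem _
  have hcauchy : ∀ {m n : ℕ}, m ≤ n →
      f m ≡ f n [SMOD (varsIdeal 𝒪 e ^ m • ⊤ : Submodule (MvPowerSeries (Fin e) 𝒪) _)] := by
    intro m n hmn
    induction n, hmn using Nat.le_induction with
    | base => exact SModEq.refl _
    | succ n hmn ih =>
      refine ih.trans ?_
      rw [smodEq_iff_sub_mem]
      have h3 : f n - f (n + 1) = -(f (n + 1) - f n) := by ring
      rw [h3]
      exact (Ideal.neg_mem_iff _).mpr (Ideal.pow_le_pow_right hmn (hf n))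
  obtain ⟨L, hL⟩ := IsPrecomplete.prec
    (inferInstance : IsPrecomplete (varsIdeal 𝒪 e) (MvPowerSeries (Fin e) 𝒪)) hcauchy
  refine ⟨L, ?_, ?_⟩
  · intro n hn
    have h1 := (smodEq_iff_sub_mem n _ _).mp (hL n)
    have h2 : h.ev n (f n - L) = 0 := h.ev_eq_zero_of_mem_pow n h1
    rw [map_sub, sub_eq_zero] at h2
    rw [← h2]
    obtain ⟨k, rfl⟩ := Nat.exists_eq_add_of_le hn
    show h.ev (n₀ + k) (g (n₀ + k - n₀)) = _
    have h3 : n₀ + k - n₀ = k := by omega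
    rw [h3]
    exact hgy k
  · have h1 := (smodEq_iff_sub_mem n₀ _ _).mp (hL n₀)
    have h2 : f n₀ = p₀ := by
      show g (n₀ - n₀) = p₀
      rw [Nat.sub_self, hg0]
    rw [h2] at h1
    have h3 : L - p₀ = -(p₀ - L) := by ring
    rw [h3]
    exact (Ideal.neg_mem_iff _).mpr h1

lemma evLim_surjective : Function.Surjective h.evLim := by
  intro x
  have hstep : ∀ n (p : MvPowerSeries (Fin e) 𝒪), h.ev n p = proj 𝒪 J n x →
      ∃ p', h.ev (n + 1) p' = proj 𝒪 J (n + 1) x ∧ p' - p ∈ varsIdeal 𝒪 e ^ n := by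
    intro n p hp
    obtain ⟨q, hq⟩ := h.ev_surjective (n + 1) (proj 𝒪 J (n + 1) x)
    have hJ : J (n + 1) ≤ J n := h.anti (Nat.le_succ n)
    have h1 : h.ev n (q - p) = 0 := by
      rw [map_sub, ← h.factor_ev (Nat.le_succ n) hJ, hq, factor_proj 𝒪 J (Nat.le_succ n) hJ, hp,
        sub_self]
    obtain ⟨r, hr, hr'⟩ := h.exists_sub_mem_of_ev_eq_zero n h1
    refine ⟨p + r, ?_, by simpa using hr⟩
    have h2 : p + r = q - (q - p - r) := by ring
    rw [h2, map_sub, hr', sub_zero, hq]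
  have := h.subsingleton_quot_zero
  obtain ⟨L, hL, -⟩ := h.exists_limit (fun n => proj 𝒪 J n x) hstep 0 0 (Subsingleton.elim _ _)
  refine ⟨L, ext_proj 𝒪 J fun n => ?_⟩
  rw [proj_evLim]
  exact hL n (Nat.zero_le n)

lemma J_one : J 1 = 𝔪 := le_antisymm h.le_one (by simpa using h.pow_le 1)

/-- Elements of `lim U ⧸ J n` vanishing at level `n` come from `(X)^n`. -/
lemma exists_mem_pow_of_proj_eq_zero (n : ℕ) {x : LimRing 𝒪 J} (hx : proj 𝒪 J n x = 0) :
    ∃ L ∈ varsIdeal 𝒪 e ^ n, h.evLim L = x := by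
  have hstep : ∀ n (p : MvPowerSeries (Fin e) 𝒪), h.ev n p = proj 𝒪 J n x →
      ∃ p', h.ev (n + 1) p' = proj 𝒪 J (n + 1) x ∧ p' - p ∈ varsIdeal 𝒪 e ^ n := by
    intro n p hp
    obtain ⟨q, hq⟩ := h.ev_surjective (n + 1) (proj 𝒪 J (n + 1) x)
    have hJ : J (n + 1) ≤ J n := h.anti (Nat.le_succ n)
    have h1 : h.ev n (q - p) = 0 := by
      rw [map_sub, ← h.factor_ev (Nat.le_succ n) hJ, hq, factor_proj 𝒪 J (Nat.le_succ n) hJ, hp,
        sub_self]
    obtain ⟨r, hr, hr'⟩ := h.exists_sub_mem_of_ev_eq_zero n h1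
    refine ⟨p + r, ?_, by simpa using hr⟩
    have h2 : p + r = q - (q - p - r) := by ring
    rw [h2, map_sub, hr', sub_zero, hq]
  obtain ⟨L, hL, hL'⟩ := h.exists_limit (fun n => proj 𝒪 J n x) hstep n 0
    (by rw [map_zero, hx])
  refine ⟨L, by simpa using hL', ext_proj 𝒪 J fun m => ?_⟩
  rw [proj_evLim]
  by_cases hm : n ≤ m
  · exact hL m hm
  · have hmn : m ≤ n := (not_le.mp hm).le
    rw [← h.factor_ev hmn (h.anti hmn), hL n le_rfl, factor_proj 𝒪 J hmn]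

/-- The kernel of the projection to level `n` is the image of `(X)^n`. -/
lemma ker_proj_eq_map (n : ℕ) :
    RingHom.ker (proj 𝒪 J n) = (varsIdeal 𝒪 e ^ n).map h.evLim := by
  apply le_antisymm
  · intro x hx
    obtain ⟨L, hL, rfl⟩ := h.exists_mem_pow_of_proj_eq_zero n hx
    exact Ideal.mem_map_of_mem _ hL
  · rw [Ideal.map_le_iff_le_comap]
    intro p hp
    rw [Ideal.mem_comap, RingHom.mem_ker, proj_evLim]
    exact h.ev_eq_zero_of_mem_pow n hp

lemma ker_proj_eq_pow (n : ℕ) :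
    RingHom.ker (proj 𝒪 J n) = RingHom.ker (proj 𝒪 J 1) ^ n := by
  rw [h.ker_proj_eq_map, h.ker_proj_eq_map, pow_one, Ideal.map_pow]

lemma nontrivial_limRing : Nontrivial (LimRing 𝒪 J) := by
  have hne : J 1 ≠ ⊤ := by
    rw [h.J_one]
    exact h.isMaximal.ne_top
  have : Nontrivial (U ⧸ J 1) := Ideal.Quotient.nontrivial_iff.mpr hne
  exact (proj_surjective 𝒪 J 1).nontrivial

lemma isNoetherianRing_limRing [IsNoetherianRing 𝒪] : IsNoetherianRing (LimRing 𝒪 J) :=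
  isNoetherianRing_of_surjective _ _ h.evLim.toRingHom h.evLim_surjective

lemma isLocalRing_limRing [IsLocalRing 𝒪] : IsLocalRing (LimRing 𝒪 J) :=
  haveI := h.nontrivial_limRing
  IsLocalRing.of_surjective' h.evLim.toRingHom h.evLim_surjective


/-! ### The maximal ideal and completeness -/

lemma ker_proj_one_isMaximal : (RingHom.ker (proj 𝒪 J 1)).IsMaximal := by
  have : (J 1).IsMaximal := by rw [h.J_one]; exact h.isMaximal
  let _ := Ideal.Quotient.field (J 1)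
  exact RingHom.ker_isMaximal_of_surjective (proj 𝒪 J 1) (proj_surjective 𝒪 J 1)

lemma maximalIdeal_eq [IsLocalRing (LimRing 𝒪 J)] :
    maximalIdeal (LimRing 𝒪 J) = RingHom.ker (proj 𝒪 J 1) :=
  (IsLocalRing.eq_maximalIdeal h.ker_proj_one_isMaximal).symm

/-- `R ⧸ 𝔪_R ^ n = U ⧸ J n`. -/
lemma ker_proj_eq_maximalIdeal_pow [IsLocalRing (LimRing 𝒪 J)] (n : ℕ) :
    RingHom.ker (proj 𝒪 J n) = maximalIdeal (LimRing 𝒪 J) ^ n := by
  rw [h.maximalIdeal_eq, ← h.ker_proj_eq_pow]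

lemma mem_maximalIdeal_pow_iff [IsLocalRing (LimRing 𝒪 J)] (n : ℕ) (x : LimRing 𝒪 J) :
    x ∈ maximalIdeal (LimRing 𝒪 J) ^ n ↔ proj 𝒪 J n x = 0 := by
  rw [← h.ker_proj_eq_maximalIdeal_pow, RingHom.mem_ker]

/-- The maximal ideal of the limit ring is generated by the images of the `t i`. -/
lemma maximalIdeal_eq_span [IsLocalRing (LimRing 𝒪 J)] :
    maximalIdeal (LimRing 𝒪 J) = Ideal.span (Set.range fun i => ι 𝒪 J (t i)) := by
  have h1 := h.ker_proj_eq_map 1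
  rw [pow_one, varsIdeal, Ideal.map_span, ← Set.range_comp] at h1
  rw [h.maximalIdeal_eq, h1]
  congr 2
  funext i
  refine ext_proj 𝒪 J fun n => ?_
  simp only [Function.comp_apply]
  rw [proj_evLim, h.ev_X, proj_ι]

omit h in
lemma smodEq_pow_iff (I : Ideal (LimRing 𝒪 J)) (n : ℕ) (x y : LimRing 𝒪 J) :
    x ≡ y [SMOD (I ^ n • ⊤ : Submodule (LimRing 𝒪 J) (LimRing 𝒪 J))] ↔ x - y ∈ I ^ n := by
  rw [SModEq.sub_mem, smul_eq_mul, Ideal.mul_top]

lemma isHausdorff_limRing [IsLocalRing (LimRing 𝒪 J)] :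
    IsHausdorff (maximalIdeal (LimRing 𝒪 J)) (LimRing 𝒪 J) := by
  refine ⟨fun x hx => ext_proj 𝒪 J fun n => ?_⟩
  have h1 := (smodEq_pow_iff _ n x 0).mp (hx n)
  rw [sub_zero, h.mem_maximalIdeal_pow_iff] at h1
  rw [h1, map_zero]

lemma isPrecomplete_limRing [IsLocalRing (LimRing 𝒪 J)] :
    IsPrecomplete (maximalIdeal (LimRing 𝒪 J)) (LimRing 𝒪 J) := by
  refine ⟨fun f hf => ?_⟩
  have hmem : (fun n => proj 𝒪 J n (f n)) ∈ limSubalgebra 𝒪 J := by
    intro m n hmn hJ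
    show Ideal.Quotient.factor hJ (proj 𝒪 J n (f n)) = proj 𝒪 J m (f m)
    rw [factor_proj 𝒪 J hmn hJ]
    have h1 := (smodEq_pow_iff _ m _ _).mp (hf hmn)
    rw [h.mem_maximalIdeal_pow_iff, map_sub, sub_eq_zero] at h1
    exact h1.symm
  refine ⟨⟨_, hmem⟩, fun n => ?_⟩
  rw [smodEq_pow_iff, h.mem_maximalIdeal_pow_iff, map_sub, sub_eq_zero]
  rfl

/-- The limit ring is complete with respect to its maximal ideal. -/
lemma isAdicComplete_limRing [IsLocalRing (LimRing 𝒪 J)] :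
    IsAdicComplete (maximalIdeal (LimRing 𝒪 J)) (LimRing 𝒪 J) :=
  { toIsHausdorff := h.isHausdorff_limRing
    toIsPrecomplete := h.isPrecomplete_limRing }

/-! ### The `𝒪`-algebra structure -/

/-- Every element of the limit ring is congruent to a constant modulo the maximal ideal. -/
lemma exists_sub_algebraMap_mem [IsLocalRing (LimRing 𝒪 J)] (x : LimRing 𝒪 J) :
    ∃ c : 𝒪, x - algebraMap 𝒪 (LimRing 𝒪 J) c ∈ maximalIdeal (LimRing 𝒪 J) := by
  obtain ⟨u, hu⟩ := Ideal.Quotient.mk_surjective (proj 𝒪 J 1 x)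
  obtain ⟨c, hc⟩ := h.residue u
  refine ⟨c, ?_⟩
  rw [h.maximalIdeal_eq, RingHom.mem_ker, map_sub, AlgHom.commutes, ← hu,
    ← Ideal.Quotient.mk_algebraMap, ← map_sub, Ideal.Quotient.eq_zero_iff_mem, h.J_one]
  exact hc

lemma residue_comp_algebraMap_surjective [IsLocalRing (LimRing 𝒪 J)] :
    Function.Surjective
      (IsLocalRing.residue (LimRing 𝒪 J) ∘ algebraMap 𝒪 (LimRing 𝒪 J)) := by
  intro a
  obtain ⟨x, rfl⟩ := IsLocalRing.residue_surjective a
  obtain ⟨c, hc⟩ := h.exists_sub_algebraMap_mem x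
  refine ⟨c, ?_⟩
  rw [Function.comp_apply, eq_comm, ← sub_eq_zero, ← map_sub]
  exact (IsLocalRing.residue_eq_zero_iff _).mpr hc

/-- The structure map is a local homomorphism as soon as `𝔪` lies over the maximal ideal of
`𝒪`. -/
lemma isLocalHom_algebraMap [IsLocalRing 𝒪] [IsLocalRing (LimRing 𝒪 J)]
    (hloc : ∀ c ∈ maximalIdeal 𝒪, algebraMap 𝒪 U c ∈ 𝔪) :
    IsLocalHom (algebraMap 𝒪 (LimRing 𝒪 J)) := by
  refine ⟨fun c hc => ?_⟩
  by_contra hcu
  have h1 : c ∈ maximalIdeal 𝒪 := (IsLocalRing.mem_maximalIdeal c).mpr hcu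
  have h2 : algebraMap 𝒪 (LimRing 𝒪 J) c ∈ maximalIdeal (LimRing 𝒪 J) := by
    rw [h.maximalIdeal_eq, RingHom.mem_ker, AlgHom.commutes, ← Ideal.Quotient.mk_algebraMap,
      Ideal.Quotient.eq_zero_iff_mem, h.J_one]
    exact hloc c h1
  exact (IsLocalRing.mem_maximalIdeal _).mp h2 hc

/-! ### Density of `U` and factorisation of maps to Artinian rings -/

/-- The image of `U` is dense in the limit ring. -/
lemma exists_sub_ι_mem [IsLocalRing (LimRing 𝒪 J)] (n : ℕ) (x : LimRing 𝒪 J) :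
    ∃ u : U, x - ι 𝒪 J u ∈ maximalIdeal (LimRing 𝒪 J) ^ n := by
  obtain ⟨u, hu⟩ := Ideal.Quotient.mk_surjective (proj 𝒪 J n x)
  refine ⟨u, ?_⟩
  rw [h.mem_maximalIdeal_pow_iff, map_sub, proj_ι, hu, sub_self]

/-- An algebra homomorphism out of the limit ring which kills `𝔪_R ^ n` factors through
`U ⧸ J n`. -/
noncomputable def descend [IsLocalRing (LimRing 𝒪 J)] {B : Type*} [CommRing B] [Algebra 𝒪 B]
    (n : ℕ) (q : LimRing 𝒪 J →ₐ[𝒪] B)
    (hq : maximalIdeal (LimRing 𝒪 J) ^ n ≤ RingHom.ker q.toRingHom) : U ⧸ J n →ₐ[𝒪] B :=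
  AlgHom.liftOfSurjective (proj 𝒪 J n) (proj_surjective 𝒪 J n) q (by
    intro x hx
    exact hq ((h.mem_maximalIdeal_pow_iff n x).mpr hx))

lemma descend_proj [IsLocalRing (LimRing 𝒪 J)] {B : Type*} [CommRing B] [Algebra 𝒪 B]
    (n : ℕ) (q : LimRing 𝒪 J →ₐ[𝒪] B)
    (hq : maximalIdeal (LimRing 𝒪 J) ^ n ≤ RingHom.ker q.toRingHom) (x : LimRing 𝒪 J) :
    h.descend n q hq (proj 𝒪 J n x) = q x :=
  AlgHom.liftOfSurjective_apply _ _ _ _ x

lemma descend_comp_proj [IsLocalRing (LimRing 𝒪 J)] {B : Type*} [CommRing B] [Algebra 𝒪 B]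
    (n : ℕ) (q : LimRing 𝒪 J →ₐ[𝒪] B)
    (hq : maximalIdeal (LimRing 𝒪 J) ^ n ≤ RingHom.ker q.toRingHom) :
    (h.descend n q hq).comp (proj 𝒪 J n) = q :=
  AlgHom.ext fun x => h.descend_proj n q hq x

lemma descend_mk [IsLocalRing (LimRing 𝒪 J)] {B : Type*} [CommRing B] [Algebra 𝒪 B]
    (n : ℕ) (q : LimRing 𝒪 J →ₐ[𝒪] B)
    (hq : maximalIdeal (LimRing 𝒪 J) ^ n ≤ RingHom.ker q.toRingHom) (u : U) :
    h.descend n q hq (Ideal.Quotient.mk (J n) u) = q (ι 𝒪 J u) := by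
  rw [← proj_ι 𝒪 J n u, h.descend_proj]

/-! ### Projections to arbitrary ideals containing some `J n` -/

lemma projTo_eq (I : Ideal U) (hI : ∃ n, J n ≤ I) (n : ℕ) (hn : J n ≤ I) (x : LimRing 𝒪 J) :
    projTo 𝒪 J I hI x = Ideal.Quotient.factor hn (proj 𝒪 J n x) := by
  have key : ∀ (a b : ℕ) (ha : J a ≤ I) (hb : J b ≤ I), a ≤ b →
      Ideal.Quotient.factor ha (proj 𝒪 J a x) = Ideal.Quotient.factor hb (proj 𝒪 J b x) := by
    intro a b ha hb hab
    rw [← factor_proj 𝒪 J hab (h.anti hab) x, Ideal.Quotient.factor_comp_apply]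
  show Ideal.Quotient.factor (Classical.choose_spec hI) (proj 𝒪 J (Classical.choose hI) x) = _
  rcases le_total (Classical.choose hI) n with h1 | h1
  · exact key _ _ _ _ h1
  · exact (key _ _ _ _ h1).symm

lemma projTo_J (n : ℕ) (x : LimRing 𝒪 J) :
    projTo 𝒪 J (J n) ⟨n, le_rfl⟩ x = proj 𝒪 J n x := by
  rw [h.projTo_eq (J n) ⟨n, le_rfl⟩ n le_rfl, Ideal.Quotient.factor_eq, RingHom.id_apply]

lemma factor_projTo (I I' : Ideal U) (hI : ∃ n, J n ≤ I) (hI' : ∃ n, J n ≤ I') (hle : I ≤ I')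
    (x : LimRing 𝒪 J) :
    Ideal.Quotient.factor hle (projTo 𝒪 J I hI x) = projTo 𝒪 J I' hI' x := by
  obtain ⟨n, hn⟩ := hI
  rw [h.projTo_eq I ⟨n, hn⟩ n hn, h.projTo_eq I' hI' n (hn.trans hle),
    Ideal.Quotient.factor_comp_apply]

/-- Every compatible family indexed by a set of ideals in which the `J n` (`n ≠ 0`) are cofinal
comes from a unique element of the limit ring. -/
lemma existsUnique_of_compat (Good : Ideal U → Prop) (hgood : ∀ n, n ≠ 0 → Good (J n))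
    (hcof : ∀ I, Good I → ∃ n, J n ≤ I) (x : ∀ I, Good I → U ⧸ I)
    (hx : ∀ (I : Ideal U) (hI : Good I) (I' : Ideal U) (hI' : Good I') (hle : I ≤ I'),
      Ideal.Quotient.factor hle (x I hI) = x I' hI') :
    ∃! y : LimRing 𝒪 J, ∀ (I : Ideal U) (hI : Good I), projTo 𝒪 J I (hcof I hI) y = x I hI := by
  classical
  have hsub := h.subsingleton_quot_zero
  have hmem : (fun n => if hn : n ≠ 0 then x (J n) (hgood n hn) else 0) ∈ limSubalgebra 𝒪 J := by
    intro m n hmn hJ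
    by_cases hm : m ≠ 0
    · have hn : n ≠ 0 := by omega
      simp only [dif_pos hm, dif_pos hn]
      exact hx _ _ _ _ hJ
    · have hm0 : m = 0 := not_not.mp hm
      subst hm0
      exact Subsingleton.elim _ _
  refine ⟨⟨_, hmem⟩, ?_, ?_⟩
  · intro I hI
    obtain ⟨n, hn⟩ := hcof I hI
    have hn' : J (n + 1) ≤ I := (h.anti (Nat.le_succ n)).trans hn
    rw [h.projTo_eq I _ (n + 1) hn']
    show Ideal.Quotient.factor hn' (if hn : n + 1 ≠ 0 then x (J (n + 1)) (hgood (n + 1) hn)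
      else 0) = _
    rw [dif_pos (Nat.succ_ne_zero n)]
    exact hx _ _ _ _ hn'
  · intro y hy
    refine ext_proj 𝒪 J fun n => ?_
    by_cases hn : n ≠ 0
    · rw [← h.projTo_J n y, hy (J n) (hgood n hn)]
      show _ = (if hn : n ≠ 0 then x (J n) (hgood n hn) else 0)
      rw [dif_pos hn]
    · have hn0 : n = 0 := not_not.mp hn
      subst hn0
      exact Subsingleton.elim _ _

omit h in
/-- Every compatible sequence comes from a unique element of the limit ring. -/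
lemma existsUnique_of_compat_seq (x : ∀ n, U ⧸ J n)
    (hx : ∀ (m n : ℕ) (_ : m ≤ n) (hJ : J n ≤ J m), Ideal.Quotient.factor hJ (x n) = x m) :
    ∃! y : LimRing 𝒪 J, ∀ n, proj 𝒪 J n y = x n := by
  refine ⟨⟨x, hx⟩, fun n => rfl, fun y hy => ext_proj 𝒪 J fun n => ?_⟩
  rw [hy n]
  rfl

end IsTower

/-! ### Producing the generators: it suffices to generate `𝔪` modulo `J 2` -/

section Gens

omit [Algebra 𝒪 U] in
/-- Nakayama-type iteration: if `𝔪 ≤ I ⊔ 𝔪 ^ 2` then `𝔪 ≤ I ⊔ 𝔪 ^ (j + 1)` for all `j`. -/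
lemma le_sup_pow_of_le_sup_sq (𝔪 I : Ideal U) (hle : 𝔪 ≤ I ⊔ 𝔪 ^ 2) (j : ℕ) :
    𝔪 ≤ I ⊔ 𝔪 ^ (j + 1) := by
  induction j with
  | zero => simp
  | succ j ih =>
    have h2 : 𝔪 ^ 2 ≤ I ⊔ 𝔪 ^ (j + 2) := by
      calc 𝔪 ^ 2 = 𝔪 * 𝔪 := pow_two 𝔪
        _ ≤ 𝔪 * (I ⊔ 𝔪 ^ (j + 1)) := Ideal.mul_mono_right ih
        _ = 𝔪 * I ⊔ 𝔪 * 𝔪 ^ (j + 1) := Ideal.mul_sup _ _ _
        _ ≤ I ⊔ 𝔪 ^ (j + 2) := by
          refine sup_le_sup Ideal.mul_le_right (le_of_eq ?_)
          rw [← pow_succ']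
    exact hle.trans (sup_le le_sup_left h2)

omit [Algebra 𝒪 U] in
/-- In a tower with `J n ≤ J (n+1) ⊔ 𝔪 ^ n`, one has `J 2 ≤ J n ⊔ 𝔪 ^ 2` for all `n ≥ 2`. -/
lemma J_two_le_sup (𝔪 : Ideal U) (J : ℕ → Ideal U) (step : ∀ n, J n ≤ J (n + 1) ⊔ 𝔪 ^ n)
    (n : ℕ) (hn : 2 ≤ n) : J 2 ≤ J n ⊔ 𝔪 ^ 2 := by
  induction n, hn using Nat.le_induction with
  | base => exact le_sup_left
  | succ n hn ih =>
    refine ih.trans (sup_le ((step n).trans (sup_le le_sup_left ?_)) le_sup_right)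
    exact (Ideal.pow_le_pow_right hn).trans le_sup_right

/-- To check the generation hypothesis of `IsTower` it suffices to check it modulo `J 2`. -/
theorem IsTower.of_gens_two {𝔪 : Ideal U} {J : ℕ → Ideal U} {e : ℕ} {t : Fin e → U}
    (isMaximal : 𝔪.IsMaximal) (residue : ∀ u : U, ∃ c : 𝒪, u - algebraMap 𝒪 U c ∈ 𝔪)
    (anti : Antitone J) (pow_le : ∀ n, 𝔪 ^ n ≤ J n) (le_one : J 1 ≤ 𝔪)
    (step : ∀ n, J n ≤ J (n + 1) ⊔ 𝔪 ^ n) (t_mem : ∀ i, t i ∈ 𝔪)
    (gens_two : 𝔪 ≤ Ideal.span (Set.range t) ⊔ J 2) : IsTower 𝒪 𝔪 J t := by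
  refine ⟨isMaximal, residue, anti, pow_le, le_one, step, t_mem, fun n => ?_⟩
  by_cases hn : 2 ≤ n
  · -- `𝔪 ≤ (span t ⊔ J n) ⊔ 𝔪 ^ 2`, then iterate
    have h1 : 𝔪 ≤ (Ideal.span (Set.range t) ⊔ J n) ⊔ 𝔪 ^ 2 := by
      refine gens_two.trans (sup_le (le_sup_left.trans le_sup_left) ?_)
      refine (J_two_le_sup 𝔪 J step n hn).trans (sup_le ?_ le_sup_right)
      exact le_sup_right.trans le_sup_left
    obtain ⟨j, rfl⟩ : ∃ j, n = j + 1 := ⟨n - 1, by omega⟩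
    refine (le_sup_pow_of_le_sup_sq 𝔪 _ h1 j).trans (sup_le le_rfl ?_)
    exact (pow_le (j + 1)).trans le_sup_right
  · exact gens_two.trans (sup_le_sup_left (anti (by omega)) _)

/-- If the ideal `𝔪 / J 2` of `U ⧸ J 2` is finitely generated (e.g. if `U ⧸ J 2` is finite or
Noetherian), suitable generators `t` exist. -/
theorem exists_isTower {𝔪 : Ideal U} {J : ℕ → Ideal U}
    (isMaximal : 𝔪.IsMaximal) (residue : ∀ u : U, ∃ c : 𝒪, u - algebraMap 𝒪 U c ∈ 𝔪)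
    (anti : Antitone J) (pow_le : ∀ n, 𝔪 ^ n ≤ J n) (le_one : J 1 ≤ 𝔪)
    (step : ∀ n, J n ≤ J (n + 1) ⊔ 𝔪 ^ n)
    (hfg : (𝔪.map (Ideal.Quotient.mk (J 2))).FG) :
    ∃ (e : ℕ) (t : Fin e → U), IsTower 𝒪 𝔪 J t := by
  classical
  obtain ⟨s, hs⟩ := hfg
  -- lift the generators to elements of `𝔪`
  have hlift : ∀ a ∈ s, ∃ u ∈ 𝔪, Ideal.Quotient.mk (J 2) u = a := by
    intro a ha
    have h1 : a ∈ 𝔪.map (Ideal.Quotient.mk (J 2)) := by
      rw [← hs]; exact Ideal.subset_span ha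
    exact (Ideal.mem_map_iff_of_surjective _ Ideal.Quotient.mk_surjective).mp h1
  choose! f hf hf' using hlift
  obtain ⟨e, ⟨g⟩⟩ : ∃ e : ℕ, Nonempty (Fin e ≃ ↥s) :=
    ⟨s.card, ⟨(Fintype.equivFinOfCardEq (by simp)).symm⟩⟩
  refine ⟨e, fun i => f (g i), IsTower.of_gens_two isMaximal residue anti pow_le le_one step
    (fun i => hf _ (g i).2) ?_⟩
  intro x hx
  have h1 : Ideal.Quotient.mk (J 2) x ∈ Ideal.span (s : Set (U ⧸ J 2)) := by
    rw [hs]; exact Ideal.mem_map_of_mem _ hx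
  have h2 : Ideal.span (s : Set (U ⧸ J 2)) ≤
      (Ideal.span (Set.range fun i => f (g i))).map (Ideal.Quotient.mk (J 2)) := by
    rw [Ideal.span_le]
    intro a ha
    have : a = Ideal.Quotient.mk (J 2) (f (g (g.symm ⟨a, ha⟩))) := by
      rw [Equiv.apply_symm_apply, hf' a ha]
    rw [this]
    exact Ideal.mem_map_of_mem _ (Ideal.subset_span ⟨_, rfl⟩)
  obtain ⟨y, hy, hxy⟩ := (Ideal.mem_map_iff_of_surjective _ Ideal.Quotient.mk_surjective).mp
    (h2 h1)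
  have h3 : x - y ∈ J 2 := by
    rw [← Ideal.Quotient.eq_zero_iff_mem, map_sub, hxy, sub_self]
  have : x = y + (x - y) := by ring
  rw [this]
  exact Ideal.add_mem _ (Ideal.mem_sup_left hy) (Ideal.mem_sup_right h3)

end Gens

end Tower

end Fermat.Agent.S53.InverseLimitRing
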