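import Fermat.Agent.S53.GoodTower
import Fermat.Agent.S53.InverseLimitRing

/-!
# The limit ring of a good family of ideals

Bridge between `GoodTower` (least good ideals `level h n`) and `InverseLimitRing`
(the inverse limit of a tower of ideals is a complete Noetherian local ring).

For a `GoodFamily m0 Good` of ideals of an `𝒪`-algebra `U` with `m0` maximal and
`𝒪 → U ⧸ m0` surjective, the ring `R := LimRing 𝒪 (tower h)` is a complete Noetherian local
`𝒪`-algebra with compatible surjections `ιGood h I hI : R →ₐ[𝒪] U ⧸ I` for all good ideals `I`,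
such that the kernels of the `ιGood` for `I = tower h n` are the powers of the maximal ideal.
-/

set_option autoImplicit false

namespace Fermat.Agent.S53.GoodLimit

open IsLocalRing Fermat.Agent.S53.GoodTower Fermat.Agent.S53.InverseLimitRing

section Tower

variable {U : Type*} [CommRing U] {m0 : Ideal U} {Good : Ideal U → Prop}

/-- The tower of ideals attached to a good family: `⊤` at level `0`, and the least good ideal
containing `m0 ^ n` at level `n ≠ 0`. -/
noncomputable def tower (h : GoodFamily m0 Good) (n : ℕ) : Ideal U :=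
  if n = 0 then ⊤ else level h n

@[simp] lemma tower_zero (h : GoodFamily m0 Good) : tower h 0 = ⊤ := if_pos rfl

lemma tower_of_ne_zero (h : GoodFamily m0 Good) {n : ℕ} (hn : n ≠ 0) :
    tower h n = level h n := if_neg hn

@[simp] lemma tower_succ (h : GoodFamily m0 Good) (n : ℕ) : tower h (n + 1) = level h (n + 1) :=
  tower_of_ne_zero h (Nat.succ_ne_zero n)

lemma tower_good (h : GoodFamily m0 Good) {n : ℕ} (hn : n ≠ 0) : Good (tower h n) := by
  rw [tower_of_ne_zero h hn]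
  exact level_good h n

lemma tower_antitone (h : GoodFamily m0 Good) : Antitone (tower h) := by
  intro m n hmn
  by_cases hm : m = 0
  · subst hm
    rw [tower_zero]
    exact le_top
  · have hn : n ≠ 0 := by omega
    rw [tower_of_ne_zero h hm, tower_of_ne_zero h hn]
    exact level_antitone h hm hmn

lemma pow_le_tower (h : GoodFamily m0 Good) (n : ℕ) : m0 ^ n ≤ tower h n := by
  by_cases hn : n = 0
  · subst hn
    rw [tower_zero]
    exact le_top
  · rw [tower_of_ne_zero h hn]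
    exact pow_le_level h hn

lemma tower_le_m0 (h : GoodFamily m0 Good) {n : ℕ} (hn : n ≠ 0) : tower h n ≤ m0 := by
  rw [tower_of_ne_zero h hn]
  exact level_le_m0 h n

lemma tower_one (h : GoodFamily m0 Good) : tower h 1 = m0 :=
  le_antisymm (tower_le_m0 h one_ne_zero) (by simpa using pow_le_tower h 1)

lemma tower_step (h : GoodFamily m0 Good) (n : ℕ) : tower h n ≤ tower h (n + 1) ⊔ m0 ^ n := by
  by_cases hn : n = 0
  · subst hn
    simp
  · rw [tower_of_ne_zero h hn, tower_succ]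
    exact (level_eq_sup h hn).le

lemma tower_eq_sup (h : GoodFamily m0 Good) (n : ℕ) : tower h n = tower h (n + 1) ⊔ m0 ^ n :=
  le_antisymm (tower_step h n) (sup_le (tower_antitone h (Nat.le_succ n)) (pow_le_tower h n))

/-- The tower is cofinal among good ideals. -/
lemma exists_tower_le (h : GoodFamily m0 Good) {I : Ideal U} (hI : Good I) :
    ∃ n : ℕ, n ≠ 0 ∧ tower h n ≤ I := by
  obtain ⟨n, hn, hle⟩ := exists_level_le h hI
  exact ⟨n, hn, by rwa [tower_of_ne_zero h hn]⟩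

lemma exists_tower_le' (h : GoodFamily m0 Good) (I : Ideal U) (hI : Good I) :
    ∃ n : ℕ, tower h n ≤ I := by
  obtain ⟨n, -, hle⟩ := exists_tower_le h hI
  exact ⟨n, hle⟩

/-- The tower ideal at level `n ≠ 0` is the least good ideal containing `m0 ^ n`. -/
lemma tower_le_of_good (h : GoodFamily m0 Good) {n : ℕ} (hn : n ≠ 0) {I : Ideal U} (hI : Good I)
    (hnI : m0 ^ n ≤ I) : tower h n ≤ I := by
  rw [tower_of_ne_zero h hn]
  exact level_le h hn hI hnI

lemma finite_quotient_tower (h : GoodFamily m0 Good) (n : ℕ) : Finite (U ⧸ tower h n) := by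
  by_cases hn : n = 0
  · subst hn
    rw [tower_zero]
    have : Subsingleton (U ⧸ (⊤ : Ideal U)) := Ideal.Quotient.subsingleton_iff.mpr rfl
    infer_instance
  · rw [tower_of_ne_zero h hn]
    exact finite_quotient_level h n

end Tower

section Limit

variable (𝒪 : Type*) [CommRing 𝒪] {U : Type*} [CommRing U] [Algebra 𝒪 U]
  {m0 : Ideal U} {Good : Ideal U → Prop}

/-- The tower attached to a good family satisfies the hypotheses of `InverseLimitRing`. -/
theorem exists_isTower (h : GoodFamily m0 Good) (hmax : m0.IsMaximal)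
    (hres : ∀ u : U, ∃ c : 𝒪, u - algebraMap 𝒪 U c ∈ m0) :
    ∃ (e : ℕ) (t : Fin e → U), IsTower 𝒪 m0 (tower h) t := by
  refine InverseLimitRing.exists_isTower (𝒪 := 𝒪) hmax hres (tower_antitone h) (pow_le_tower h)
    (tower_le_m0 h one_ne_zero) (tower_step h) ?_
  have := finite_quotient_tower h 2
  exact IsNoetherian.noetherian _

/-- The limit ring of a good family. -/
abbrev R (h : GoodFamily m0 Good) : Type _ := LimRing 𝒪 (tower h)

/-- The projection of the limit ring onto `U ⧸ I`, for a good ideal `I`. -/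
noncomputable def ιGood (h : GoodFamily m0 Good) (I : Ideal U) (hI : Good I) :
    R 𝒪 h →ₐ[𝒪] U ⧸ I :=
  projTo 𝒪 (tower h) I (exists_tower_le' h I hI)

/-- The canonical map from `U` to the limit ring. -/
noncomputable def ιU (h : GoodFamily m0 Good) : U →ₐ[𝒪] R 𝒪 h := ι 𝒪 (tower h)

variable {𝒪}

@[simp] lemma ιGood_ιU (h : GoodFamily m0 Good) (I : Ideal U) (hI : Good I) (u : U) :
    ιGood 𝒪 h I hI (ιU 𝒪 h u) = Ideal.Quotient.mk I u := rfl

lemma ιGood_surjective (h : GoodFamily m0 Good) (I : Ideal U) (hI : Good I) :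
    Function.Surjective (ιGood 𝒪 h I hI) :=
  projTo_surjective 𝒪 (tower h) I _

section WithHyps

variable (h : GoodFamily m0 Good) (hmax : m0.IsMaximal)
  (hres : ∀ u : U, ∃ c : 𝒪, u - algebraMap 𝒪 U c ∈ m0)
include hmax hres

lemma ιGood_compat (I : Ideal U) (hI : Good I) (I' : Ideal U) (hI' : Good I') (hle : I ≤ I')
    (x : R 𝒪 h) :
    Ideal.Quotient.factor hle (ιGood 𝒪 h I hI x) = ιGood 𝒪 h I' hI' x := by
  obtain ⟨e, t, hT⟩ := exists_isTower 𝒪 h hmax hres
  exact hT.factor_projTo I I' _ _ hle x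

lemma ιGood_compat' (I : Ideal U) (hI : Good I) (I' : Ideal U) (hI' : Good I') (hle : I ≤ I') :
    (Ideal.Quotient.factorₐ 𝒪 hle).comp (ιGood 𝒪 h I hI) = ιGood 𝒪 h I' hI' :=
  AlgHom.ext fun x => ιGood_compat h hmax hres I hI I' hI' hle x

lemma ιGood_tower {n : ℕ} (hn : n ≠ 0) (x : R 𝒪 h) :
    ιGood 𝒪 h (tower h n) (tower_good h hn) x = proj 𝒪 (tower h) n x := by
  obtain ⟨e, t, hT⟩ := exists_isTower 𝒪 h hmax hres
  exact hT.projTo_J n x

theorem isNoetherianRing [IsNoetherianRing 𝒪] : IsNoetherianRing (R 𝒪 h) := by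
  obtain ⟨e, t, hT⟩ := exists_isTower 𝒪 h hmax hres
  exact hT.isNoetherianRing_limRing

theorem isLocalRing [IsLocalRing 𝒪] : IsLocalRing (R 𝒪 h) := by
  obtain ⟨e, t, hT⟩ := exists_isTower 𝒪 h hmax hres
  exact hT.isLocalRing_limRing

theorem isAdicComplete [IsLocalRing (R 𝒪 h)] :
    IsAdicComplete (maximalIdeal (R 𝒪 h)) (R 𝒪 h) := by
  obtain ⟨e, t, hT⟩ := exists_isTower 𝒪 h hmax hres
  exact hT.isAdicComplete_limRing

theorem residue_surjective [IsLocalRing (R 𝒪 h)] :
    Function.Surjective (IsLocalRing.residue (R 𝒪 h) ∘ algebraMap 𝒪 (R 𝒪 h)) := by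
  obtain ⟨e, t, hT⟩ := exists_isTower 𝒪 h hmax hres
  exact hT.residue_comp_algebraMap_surjective

theorem isLocalHom_algebraMap [IsLocalRing 𝒪] [IsLocalRing (R 𝒪 h)]
    (hloc : ∀ c ∈ maximalIdeal 𝒪, algebraMap 𝒪 U c ∈ m0) :
    IsLocalHom (algebraMap 𝒪 (R 𝒪 h)) := by
  obtain ⟨e, t, hT⟩ := exists_isTower 𝒪 h hmax hres
  exact hT.isLocalHom_algebraMap hloc

/-- `R ⧸ 𝔪_R ^ n = U ⧸ tower h n`. -/
theorem ker_ιGood_tower [IsLocalRing (R 𝒪 h)] {n : ℕ} (hn : n ≠ 0) :
    RingHom.ker (ιGood 𝒪 h (tower h n) (tower_good h hn)) = maximalIdeal (R 𝒪 h) ^ n := by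
  obtain ⟨e, t, hT⟩ := exists_isTower 𝒪 h hmax hres
  rw [← hT.ker_proj_eq_maximalIdeal_pow n]
  ext x
  rw [RingHom.mem_ker, RingHom.mem_ker, ιGood_tower h hmax hres hn]

theorem exists_ker_ιGood_eq_pow [IsLocalRing (R 𝒪 h)] {n : ℕ} (hn : n ≠ 0) :
    ∃ (I : Ideal U) (hI : Good I), RingHom.ker (ιGood 𝒪 h I hI) = maximalIdeal (R 𝒪 h) ^ n :=
  ⟨_, tower_good h hn, ker_ιGood_tower h hmax hres hn⟩

/-- For every good ideal `I`, some power of the maximal ideal of `R` is killed by `ιGood`. -/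
theorem exists_pow_le_ker_ιGood [IsLocalRing (R 𝒪 h)] (I : Ideal U) (hI : Good I) :
    ∃ n : ℕ, n ≠ 0 ∧ maximalIdeal (R 𝒪 h) ^ n ≤ RingHom.ker (ιGood 𝒪 h I hI) := by
  obtain ⟨n, hn, hle⟩ := exists_tower_le h hI
  refine ⟨n, hn, ?_⟩
  rw [← ker_ιGood_tower h hmax hres hn]
  intro x hx
  rw [RingHom.mem_ker] at hx ⊢
  rw [← ιGood_compat h hmax hres _ (tower_good h hn) I hI hle, hx, map_zero]

theorem mem_maximalIdeal_pow_iff [IsLocalRing (R 𝒪 h)] {n : ℕ} (hn : n ≠ 0) (x : R 𝒪 h) :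
    x ∈ maximalIdeal (R 𝒪 h) ^ n ↔ ιGood 𝒪 h (tower h n) (tower_good h hn) x = 0 := by
  rw [← ker_ιGood_tower h hmax hres hn, RingHom.mem_ker]

/-- The image of `U` is dense in `R`. -/
theorem exists_sub_ιU_mem [IsLocalRing (R 𝒪 h)] (n : ℕ) (x : R 𝒪 h) :
    ∃ u : U, x - ιU 𝒪 h u ∈ maximalIdeal (R 𝒪 h) ^ n := by
  obtain ⟨e, t, hT⟩ := exists_isTower 𝒪 h hmax hres
  exact hT.exists_sub_ι_mem n x

/-- Every compatible family over the good ideals comes from a unique element of `R`. -/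
theorem existsUnique_of_compat (x : ∀ I, Good I → U ⧸ I)
    (hx : ∀ (I : Ideal U) (hI : Good I) (I' : Ideal U) (hI' : Good I') (hle : I ≤ I'),
      Ideal.Quotient.factor hle (x I hI) = x I' hI') :
    ∃! y : R 𝒪 h, ∀ (I : Ideal U) (hI : Good I), ιGood 𝒪 h I hI y = x I hI := by
  obtain ⟨e, t, hT⟩ := exists_isTower 𝒪 h hmax hres
  exact hT.existsUnique_of_compat Good (fun n hn => tower_good h hn) (exists_tower_le' h) x hx

/-- Two elements of `R` with the same image in all `U ⧸ I`, `I` good, are equal. -/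
theorem ext_ιGood {x y : R 𝒪 h} (hxy : ∀ (I : Ideal U) (hI : Good I),
    ιGood 𝒪 h I hI x = ιGood 𝒪 h I hI y) : x = y := by
  obtain ⟨e, t, hT⟩ := exists_isTower 𝒪 h hmax hres
  have hsub := hT.subsingleton_quot_zero
  refine ext_proj 𝒪 (tower h) fun n => ?_
  by_cases hn : n = 0
  · subst hn
    exact Subsingleton.elim _ _
  · rw [← ιGood_tower h hmax hres hn, ← ιGood_tower h hmax hres hn]
    exact hxy _ _

/-- An algebra homomorphism out of `R` which kills `𝔪_R ^ n` (`n ≠ 0`) factors through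
`U ⧸ tower h n`. -/
theorem exists_factor [IsLocalRing (R 𝒪 h)] {B : Type*} [CommRing B] [Algebra 𝒪 B] {n : ℕ}
    (hn : n ≠ 0) (q : R 𝒪 h →ₐ[𝒪] B)
    (hq : maximalIdeal (R 𝒪 h) ^ n ≤ RingHom.ker q.toRingHom) :
    ∃ q' : U ⧸ tower h n →ₐ[𝒪] B, q'.comp (ιGood 𝒪 h (tower h n) (tower_good h hn)) = q := by
  obtain ⟨e, t, hT⟩ := exists_isTower 𝒪 h hmax hres
  refine ⟨hT.descend n q hq, AlgHom.ext fun x => ?_⟩
  rw [AlgHom.comp_apply, ιGood_tower h hmax hres hn, hT.descend_proj]

end WithHyps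

end Limit

end Fermat.Agent.S53.GoodLimit
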