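import Fermat.Agent.S53.Universal
import Fermat.Agent.S53.GoodLimit

/-!
# The universal matrix over the limit ring of a good family

Glue for S53.  `U = 𝒪[X_{σ,i,j}]` is the big polynomial ring, `h : GoodFamily m0 Good` a good
family of ideals of `U` such that for every good `I` the matrices `(X_{σ,i,j} mod I)` form a
monoid homomorphism `GQ →* Mat (U ⧸ I)`.  Then the images of the `X_{σ,i,j}` in the limit ring
`R = GoodLimit.R 𝒪 h` form a monoid homomorphism `runiv : GQ →* Mat R`; we prove that it is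
continuous, lifts `rbar`, is rigid, has dense entries, and the two factorisation statements
behind the fields `artin_type` and `artin_versal` of `Universal.IsUniversalRigid`.
-/

set_option autoImplicit false

namespace Fermat.Agent.S53.UnivMat

open IsLocalRing MvPolynomial Fermat.Agent.S53.Dictionary Fermat.Agent.S53.GoodTower
  Fermat.Agent.S53.GoodLimit Fermat.Agent.S53.Universal

/-- Index type of the variables of the big ring. -/
abbrev Idx : Type := GQ × Fin 2 × Fin 2

/-- The big polynomial ring (the same term as `GoodIdeals.U` and `BigRing`). -/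
abbrev BigU (𝒪 : Type) [CommRing 𝒪] : Type := MvPolynomial Idx 𝒪

variable {𝒪 : Type} [CommRing 𝒪] {m0 : Ideal (BigU 𝒪)} {Good : Ideal (BigU 𝒪) → Prop}

/-- The family of matrices `(X_{σ,i,j} mod I)` is multiplicative for every good ideal `I`. -/
def IsMulFamily (Good : Ideal (BigU 𝒪) → Prop) : Prop :=
  ∀ I : Ideal (BigU 𝒪), Good I → ∃ r : GQ →* Mat (BigU 𝒪 ⧸ I),
    ∀ σ i j, r σ i j = Ideal.Quotient.mk I (X (σ, i, j))

/-- The matrix over the limit ring with entries the images of the variables. -/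
noncomputable def univFun (h : GoodFamily m0 Good) (σ : GQ) : Mat (R 𝒪 h) :=
  Matrix.of fun i j => ιU 𝒪 h (X (σ, i, j))

@[simp] lemma univFun_apply (h : GoodFamily m0 Good) (σ : GQ) (i j : Fin 2) :
    univFun h σ i j = ιU 𝒪 h (X (σ, i, j)) := rfl

section

variable (h : GoodFamily m0 Good) (hmax : m0.IsMaximal)
  (hres : ∀ u : BigU 𝒪, ∃ c : 𝒪, u - algebraMap 𝒪 (BigU 𝒪) c ∈ m0)
  (hmul : IsMulFamily Good)

include hmax hres hmul in
lemma univFun_one : univFun h 1 = 1 := by
  refine Matrix.ext fun i j => ?_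
  refine ext_ιGood h hmax hres fun I hI => ?_
  obtain ⟨r, hr⟩ := hmul I hI
  rw [univFun_apply, ιGood_ιU, ← hr, map_one]
  by_cases hij : i = j
  · subst hij; simp
  · simp [Matrix.one_apply_ne hij]

include hmax hres hmul in
lemma univFun_mul (σ τ : GQ) : univFun h (σ * τ) = univFun h σ * univFun h τ := by
  refine Matrix.ext fun i j => ?_
  refine ext_ιGood h hmax hres fun I hI => ?_
  obtain ⟨r, hr⟩ := hmul I hI
  rw [univFun_apply, ιGood_ιU, ← hr, map_mul, Matrix.mul_apply, Matrix.mul_apply, map_sum]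
  refine Finset.sum_congr rfl fun k _ => ?_
  rw [map_mul, univFun_apply, univFun_apply, ιGood_ιU, ιGood_ιU, hr, hr]

/-- The universal matrix-valued homomorphism over the limit ring. -/
noncomputable def runiv : GQ →* Mat (R 𝒪 h) where
  toFun := univFun h
  map_one' := univFun_one h hmax hres hmul
  map_mul' := univFun_mul h hmax hres hmul

@[simp] lemma runiv_apply (σ : GQ) (i j : Fin 2) :
    runiv h hmax hres hmul σ i j = ιU 𝒪 h (X (σ, i, j)) := rfl

lemma ιGood_runiv (I : Ideal (BigU 𝒪)) (hI : Good I) (σ : GQ) (i j : Fin 2) :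
    ιGood 𝒪 h I hI (runiv h hmax hres hmul σ i j) = Ideal.Quotient.mk I (X (σ, i, j)) := rfl

/-- The universal matrix maps to the tautological matrix over `U ⧸ I` for every good `I`. -/
lemma mapMat_ιGood_runiv (I : Ideal (BigU 𝒪)) (hI : Good I) (r : GQ →* Mat (BigU 𝒪 ⧸ I))
    (hr : ∀ σ i j, r σ i j = Ideal.Quotient.mk I (X (σ, i, j))) :
    mapMat (ιGood 𝒪 h I hI : R 𝒪 h →+* BigU 𝒪 ⧸ I) (runiv h hmax hres hmul) = r := by
  ext σ i j
  rw [mapMat_apply, hr]
  rfl

/-- The image of `ιU` is the subalgebra generated by the entries of the universal matrix. -/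
lemma ιU_mem_adjoin (u : BigU 𝒪) :
    ιU 𝒪 h u ∈ Algebra.adjoin 𝒪
      (Set.range fun t : GQ × Fin 2 × Fin 2 => runiv h hmax hres hmul t.1 t.2.1 t.2.2) := by
  induction u using MvPolynomial.induction_on with
  | C a =>
    rw [← MvPolynomial.algebraMap_eq, AlgHom.commutes]
    exact Subalgebra.algebraMap_mem _ a
  | add p q hp hq =>
    rw [map_add]
    exact Subalgebra.add_mem _ hp hq
  | mul_X p x hp =>
    rw [map_mul]
    refine Subalgebra.mul_mem _ hp (Algebra.subset_adjoin ⟨x, ?_⟩)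
    rfl

/-- Field `dense` of `IsUniversalRigid`. -/
theorem dense_runiv [IsLocalRing (R 𝒪 h)] (n : ℕ) (x : R 𝒪 h) :
    ∃ p ∈ Algebra.adjoin 𝒪
      (Set.range fun t : GQ × Fin 2 × Fin 2 => runiv h hmax hres hmul t.1 t.2.1 t.2.2),
      x - p ∈ maximalIdeal (R 𝒪 h) ^ n := by
  obtain ⟨u, hu⟩ := exists_sub_ιU_mem h hmax hres n x
  exact ⟨ιU 𝒪 h u, ιU_mem_adjoin h hmax hres hmul u, hu⟩

/-- Field `cts` of `IsUniversalRigid`: continuity of the universal matrix, given that each
tautological matrix over `U ⧸ I` (`I` good) is trivial on an open subgroup. -/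
theorem isContMat_runiv [IsLocalRing (R 𝒪 h)]
    (hcts : ∀ I : Ideal (BigU 𝒪), Good I →
      ∃ L : IntermediateField ℚ (AlgebraicClosure ℚ), FiniteDimensional ℚ L ∧
        ∀ σ : GQ, (∀ x ∈ L, σ x = x) → ∀ i j : Fin 2,
          Ideal.Quotient.mk I (X (σ, i, j)) = (1 : Mat (BigU 𝒪 ⧸ I)) i j) :
    IsContMat (R 𝒪 h) (runiv h hmax hres hmul) := by
  intro n
  by_cases hn : n = 0
  · subst hn
    refine ⟨⊥, inferInstance, fun σ _ i j => ?_⟩
    simp
  · obtain ⟨L, hL, hσ⟩ := hcts (tower h n) (tower_good h hn)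
    refine ⟨L, hL, fun σ hσL i j => ?_⟩
    rw [GoodLimit.mem_maximalIdeal_pow_iff h hmax hres hn, Matrix.sub_apply, map_sub,
      ιGood_runiv, hσ σ hσL i j, sub_eq_zero]
    by_cases hij : i = j
    · subst hij; simp
    · simp [Matrix.one_apply_ne hij]

/-- Entries of the universal matrix which are constant modulo every good ideal are constant. -/
theorem runiv_eq_algebraMap (σ : GQ) (i j : Fin 2) (c : 𝒪)
    (hc : ∀ I : Ideal (BigU 𝒪), Good I →
      Ideal.Quotient.mk I (X (σ, i, j)) = algebraMap 𝒪 (BigU 𝒪 ⧸ I) c) :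
    runiv h hmax hres hmul σ i j = algebraMap 𝒪 (R 𝒪 h) c := by
  refine ext_ιGood h hmax hres fun I hI => ?_
  rw [ιGood_runiv, hc I hI, AlgHom.commutes]

/-- Field `lift` of `IsUniversalRigid`. -/
theorem liftsRbar_runiv [IsLocalRing 𝒪] [IsLocalRing (R 𝒪 h)]
    (rbar : GQ →* Mat (ResidueField 𝒪))
    (hm0 : ∀ σ i j, ∃ t : 𝒪, residue 𝒪 t = rbar σ i j ∧
      (X (σ, i, j) - C t : BigU 𝒪) ∈ m0) :
    LiftsRbar rbar (R 𝒪 h) (runiv h hmax hres hmul) := by
  intro σ i j
  obtain ⟨t, ht, hmem⟩ := hm0 σ i j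
  refine ⟨t, ht, ?_⟩
  have h1 : maximalIdeal (R 𝒪 h) = maximalIdeal (R 𝒪 h) ^ 1 := (pow_one _).symm
  rw [h1, GoodLimit.mem_maximalIdeal_pow_iff h hmax hres one_ne_zero, map_sub, ιGood_runiv,
    AlgHom.commutes, ← Ideal.Quotient.mk_algebraMap, ← map_sub, Ideal.Quotient.eq_zero_iff_mem,
    tower_one]
  exact hmem

/-- Factorisation behind the field `artin_type` of `IsUniversalRigid`: a local homomorphism from
the limit ring to a local ring with `𝔪_B ^ n = 0` factors through `U ⧸ tower h n`, and the image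
of the universal matrix is the image of the tautological matrix. -/
theorem exists_factor_of_nilpotent [IsLocalRing (R 𝒪 h)] {B : Type} [CommRing B] [IsLocalRing B]
    [Algebra 𝒪 B] {n : ℕ} (hn : n ≠ 0) (hB : maximalIdeal B ^ n = ⊥) (q : R 𝒪 h →ₐ[𝒪] B)
    (hq : IsLocalHom (q : R 𝒪 h →+* B)) :
    ∃ q' : BigU 𝒪 ⧸ tower h n →ₐ[𝒪] B,
      q'.comp (ιGood 𝒪 h (tower h n) (tower_good h hn)) = q ∧
      ∀ r : GQ →* Mat (BigU 𝒪 ⧸ tower h n),
        (∀ σ i j, r σ i j = Ideal.Quotient.mk (tower h n) (X (σ, i, j))) →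
        mapMat (q : R 𝒪 h →+* B) (runiv h hmax hres hmul) =
          mapMat (q' : BigU 𝒪 ⧸ tower h n →+* B) r := by
  have hker : maximalIdeal (R 𝒪 h) ^ n ≤ RingHom.ker q.toRingHom := by
    have h1 : (maximalIdeal (R 𝒪 h)).map (q : R 𝒪 h →+* B) ≤ maximalIdeal B := by
      rw [Ideal.map_le_iff_le_comap]
      intro x hx
      rw [Ideal.mem_comap, mem_maximalIdeal, mem_nonunits_iff]
      intro hu
      exact (mem_nonunits_iff.mp ((mem_maximalIdeal _).mp hx)) (hq.map_nonunit _ hu)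
    intro x hx
    have h2 : (q : R 𝒪 h →+* B) x ∈ (maximalIdeal (R 𝒪 h) ^ n).map (q : R 𝒪 h →+* B) :=
      Ideal.mem_map_of_mem _ hx
    rw [Ideal.map_pow] at h2
    have h3 := Ideal.pow_right_mono h1 n h2
    rw [hB, Ideal.mem_bot] at h3
    exact h3
  obtain ⟨q', hq'⟩ := exists_factor h hmax hres hn q hker
  refine ⟨q', hq', fun r hr => ?_⟩
  ext σ i j
  rw [mapMat_apply, mapMat_apply, hr]
  have := congrArg (fun f : R 𝒪 h →ₐ[𝒪] B => f (runiv h hmax hres hmul σ i j)) hq'
  simp only [AlgHom.comp_apply] at this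
  rw [ιGood_runiv] at this
  exact this.symm

/-- Factorisation behind the field `artin_versal` of `IsUniversalRigid`: a matrix-valued
homomorphism `s` over `B` whose classifying map has good kernel is the image of the universal
matrix under an algebra homomorphism `R → B`. -/
theorem exists_algHom_of_good_ker {B : Type} [CommRing B] [Algebra 𝒪 B] (s : GQ →* Mat B)
    (hs : Good (RingHom.ker
      (MvPolynomial.aeval (fun x : Idx => s x.1 x.2.1 x.2.2) : BigU 𝒪 →ₐ[𝒪] B))) :
    ∃ φ : R 𝒪 h →ₐ[𝒪] B, mapMat (φ : R 𝒪 h →+* B) (runiv h hmax hres hmul) = s := by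
  set e : BigU 𝒪 →ₐ[𝒪] B := MvPolynomial.aeval (fun x : Idx => s x.1 x.2.1 x.2.2) with he
  refine ⟨(Ideal.Quotient.liftₐ (RingHom.ker e) e (fun a ha => ha)).comp
    (ιGood 𝒪 h (RingHom.ker e) hs), ?_⟩
  ext σ i j
  rw [mapMat_apply]
  show (Ideal.Quotient.liftₐ (RingHom.ker e) e (fun a ha => ha))
    (ιGood 𝒪 h (RingHom.ker e) hs (runiv h hmax hres hmul σ i j)) = s σ i j
  rw [ιGood_runiv]
  show e (X (σ, i, j)) = s σ i j
  rw [he, MvPolynomial.aeval_X]

end

end Fermat.Agent.S53.UnivMat
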