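import Fermat.Agent.S53.FrontEnd
import Fermat.Agent.S53.UnivMat

/-!
# S53: final wiring

`FrontEnd` (setup + good family) + `GoodLimit` (the ring) + `UnivMat` (the universal matrix) +
`GoodIdeals` (closure properties of good ideals) give a `Universal.IsUniversalRigid`, and
`Universal.nonempty_deformationRingData` concludes.
-/

set_option autoImplicit false
set_option linter.unusedSectionVars false

namespace Fermat.Agent.S53.Final

open IsLocalRing GaloisRep MvPolynomial Fermat.Agent.S53 Fermat.Agent.S53.Dictionary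
open Fermat.Agent.S53.Lifts Fermat.Agent.S53.GoodIdeals Fermat.Agent.S53.GoodTower
open Fermat.Agent.S53.GoodLimit Fermat.Agent.S53.Universal

section Fields

variable {𝒪 : Type} [CommRing 𝒪] [IsLocalRing 𝒪] [Finite (ResidueField 𝒪)] (S : Setup 𝒪)
variable {𝒟 : ∀ ⦃A : Type⦄ [CommRing A] [IsLocalRing A] [Algebra 𝒪 A], GaloisRepAdic A → Prop}

/-- The tautological matrices modulo a good ideal form a homomorphism. -/
theorem isMulFamily : UnivMat.IsMulFamily (Good 𝒟 S.rbar (RigInst.rigidData S)) := by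
  intro I hI
  obtain ⟨_, _, _, r, hr, -⟩ := hI
  exact ⟨r, fun σ i j => by rw [hr σ]; rfl⟩

variable (h : GoodFamily (m0 S.rbar) (Good 𝒟 S.rbar (RigInst.rigidData S)))

/-- The universal matrix over the limit ring. -/
noncomputable def runiv : GQ →* Mat (R 𝒪 h) :=
  UnivMat.runiv h (m0_isMaximal S.rbar) (FrontEnd.exists_sub_mem_m0 S.rbar) (isMulFamily S)

theorem isContMat_runiv [IsLocalRing (R 𝒪 h)] : IsContMat (R 𝒪 h) (runiv S h) := by
  refine UnivMat.isContMat_runiv h _ _ _ fun I hI => ?_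
  obtain ⟨_, _, ht, r, hr, hl, -, -⟩ := hI
  obtain ⟨L, hL, hσ⟩ := factors_of_isContMat r (testAlgebra_nilpotent ht) hl.1
  refine ⟨L, hL, fun σ hσL i j => ?_⟩
  have := hσ σ hσL
  rw [hr σ] at this
  rw [← this]
  rfl

theorem liftsRbar_runiv [IsLocalRing (R 𝒪 h)] : LiftsRbar S.rbar (R 𝒪 h) (runiv S h) := by
  refine UnivMat.liftsRbar_runiv h _ _ _ S.rbar fun σ i j => ?_
  refine ⟨S.rtil σ i j, S.rtil_spec σ i j, ?_⟩
  rw [mem_m0_iff, map_sub, sub_eq_zero]
  simp only [pi0, GoodIdeals.evalHom, algHom_C, aeval_X]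
  exact (S.rtil_spec σ i j).symm

theorem rig_runiv : RigInst.Rig S (runiv S h) := by
  intro a
  refine UnivMat.runiv_eq_algebraMap h _ _ _ _ _ _ _ fun I hI => ?_
  obtain ⟨_, _, _, r, hr, -, hrig, -⟩ := hI
  have := hrig a
  rw [hr] at this
  exact this

theorem dense_runiv [IsLocalRing (R 𝒪 h)] (n : ℕ) (x : R 𝒪 h) :
    ∃ p ∈ Algebra.adjoin 𝒪
      (Set.range fun t : GQ × Fin 2 × Fin 2 => runiv S h t.1 t.2.1 t.2.2),
      x - p ∈ maximalIdeal (R 𝒪 h) ^ n :=
  UnivMat.dense_runiv h _ _ _ n x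

theorem artin_type_runiv [IsLocalRing (R 𝒪 h)] (h𝒟 : IsDeformationCondition 𝒪 𝒟)
    (B : Type) [CommRing B] [IsLocalRing B] [Algebra 𝒪 B] (hB : IsArtinianTestAlgebra 𝒪 B)
    (q : R 𝒪 h →ₐ[𝒪] B) (hq : IsLocalHom (q : R 𝒪 h →+* B))
    (hcts : IsContMat B (mapMat (q : R 𝒪 h →+* B) (runiv S h))) :
    𝒟 (ofMat (mapMat (q : R 𝒪 h →+* B) (runiv S h)) hcts) := by
  obtain ⟨n, hn⟩ := testAlgebra_nilpotent hB
  have hn1 : maximalIdeal B ^ (n + 1) = ⊥ := by
    rw [pow_succ, hn, Ideal.bot_mul]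
  obtain ⟨q', hq', hmap⟩ := UnivMat.exists_factor_of_nilpotent h (m0_isMaximal S.rbar)
    (FrontEnd.exists_sub_mem_m0 S.rbar) (isMulFamily S) (Nat.succ_ne_zero n) hn1 q hq
  obtain ⟨hloc', hlh', ht', r, hr, hl, hrig, hD⟩ := tower_good h (Nat.succ_ne_zero n)
  have hqloc : IsLocalHom (q' : U 𝒪 ⧸ tower h (n + 1) →+* B) := by
    constructor
    intro x hx
    obtain ⟨y, rfl⟩ := ιGood_surjective (𝒪 := 𝒪) h (tower h (n + 1))
      (tower_good h (Nat.succ_ne_zero n)) x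
    have hy : IsUnit ((q : R 𝒪 h →+* B) y) := by
      have := congrArg (fun f : R 𝒪 h →ₐ[𝒪] B => f y) hq'
      simp only [AlgHom.comp_apply] at this
      rw [RingHom.coe_coe, ← this]
      exact hx
    exact (hq.map_nonunit y hy).map _
  have hEq := hmap r (fun σ i j => by rw [hr σ]; rfl)
  obtain ⟨hc, hDq⟩ := hD.map h𝒟 ht' hB q' hqloc
  exact h𝒟.of_isEquiv hB (ofMat_congr hc hcts hEq.symm) hDq

theorem artin_versal_runiv (h𝒟 : IsDeformationCondition 𝒪 𝒟)
    (B : Type) [CommRing B] [IsLocalRing B] [Algebra 𝒪 B] (hB : IsArtinianTestAlgebra 𝒪 B)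
    (s : GQ →* Mat B) (hs : IsContMat B s) (hl : LiftsRbar S.rbar B s) (hrig : RigInst.Rig S s)
    (hD : 𝒟 (ofMat s hs)) :
    ∃ φ : R 𝒪 h →ₐ[𝒪] B, mapMat (φ : R 𝒪 h →+* B) (runiv S h) = s := by
  have := hB.isLocalHom
  refine UnivMat.exists_algHom_of_good_ker h _ _ _ s ?_
  exact good_ker_evalHom h𝒟 hB s ⟨hs, (liftsRbar_iff s).mp hl⟩ hrig ⟨hs, hD⟩

/-- The universal matrix over the limit ring is a universal rigid lift. -/
theorem isUniversalRigid [IsLocalRing (R 𝒪 h)] (h𝒟 : IsDeformationCondition 𝒪 𝒟) :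
    IsUniversalRigid S.rbar 𝒟 (RigInst.Rig S) (R 𝒪 h) (runiv S h) where
  cts := isContMat_runiv S h
  lift := liftsRbar_runiv S h
  rigid := rig_runiv S h
  dense := dense_runiv S h
  artin_type := fun B _ _ _ hB q hq => artin_type_runiv S h h𝒟 B hB q hq _
  artin_versal := fun B _ _ _ hB s hs hl hrig hD => artin_versal_runiv S h h𝒟 B hB s hs hl hrig hD

end Fields

section Main

/-- **Existence of the universal deformation ring.** -/
theorem nonempty_deformationRingData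
    (𝒪 : Type) [CommRing 𝒪] [IsDomain 𝒪] [IsDiscreteValuationRing 𝒪]
    [IsAdicComplete (IsLocalRing.maximalIdeal 𝒪) 𝒪] [Finite (IsLocalRing.ResidueField 𝒪)]
    (ρbar : ResidualGaloisRep (IsLocalRing.ResidueField 𝒪))
    (𝒟 : ∀ ⦃A : Type⦄ [CommRing A] [IsLocalRing A] [Algebra 𝒪 A], GaloisRepAdic A → Prop)
    (habs : ρbar.IsAbsolutelyIrreducible)
    (h𝒟 : GaloisRep.IsDeformationCondition 𝒪 𝒟)
    (hbar : 𝒟 (GaloisRepAdic.ofResidualGaloisRep ρbar))
    (hfin : GaloisRep.TangentFinite 𝒪 ρbar 𝒟) :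
    Nonempty (GaloisRep.DeformationRingData 𝒪 ρbar 𝒟) := by
  obtain ⟨S, hrbar, hc, e0, h⟩ := FrontEnd.exists_frontEnd ρbar habs h𝒟 hbar hfin
  have hmax := m0_isMaximal S.rbar
  have hres := FrontEnd.exists_sub_mem_m0 S.rbar
  have : IsLocalRing (R 𝒪 h) := GoodLimit.isLocalRing h hmax hres
  have : IsNoetherianRing (R 𝒪 h) := GoodLimit.isNoetherianRing h hmax hres
  have : IsAdicComplete (maximalIdeal (R 𝒪 h)) (R 𝒪 h) := GoodLimit.isAdicComplete h hmax hres
  have : IsLocalHom (algebraMap 𝒪 (R 𝒪 h)) :=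
    GoodLimit.isLocalHom_algebraMap h hmax hres (FrontEnd.algebraMap_mem_m0 S.rbar)
  exact Universal.nonempty_deformationRingData habs h𝒟 hrbar e0 (RigInst.rigMap S)
    (RigInst.rigidExists S hc) (RigInst.rigidUnique S hc)
    (GoodLimit.residue_surjective h hmax hres) (isUniversalRigid S h h𝒟)

end Main

end Fermat.Agent.S53.Final
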