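import Mathlib
import Fermat.Prelude.Def_GaloisRep_DeformationCondition
import Fermat.Agent.S53.Dictionary

set_option autoImplicit false

/-!
# Matrix lifts of a residual representation: rigidity data, deformation conditions

Generic bookkeeping for slice (S-d) of the S53 plan: the notions `IsLift`, `IsRigid`, `DMat`
for matrix-valued homomorphisms and their behaviour under local `𝒪`-algebra homomorphisms
(push-forward, and restriction along injective maps).
-/

namespace Fermat.Agent.S53.Lifts

open IsLocalRing Fermat.Agent.S53.Dictionary GaloisRep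

section Nilpotent

variable {A : Type} [CommRing A] [IsLocalRing A]

theorem isContMat_of_factors (r : GQ →* Mat A) (h : GaloisFactorsThroughFiniteLevel r) :
    IsContMat A r := by
  obtain ⟨L, hL, h1⟩ := h
  intro n
  refine ⟨L, hL, fun σ hσ i j => ?_⟩
  rw [h1 σ hσ, sub_self]
  exact Ideal.zero_mem _

theorem factors_of_isContMat (r : GQ →* Mat A) (hnil : ∃ n, maximalIdeal A ^ n = ⊥)
    (h : IsContMat A r) : GaloisFactorsThroughFiniteLevel r := by
  obtain ⟨n, hn⟩ := hnil
  obtain ⟨L, hL, h1⟩ := h n
  refine ⟨L, hL, fun σ hσ => ?_⟩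
  ext i j
  have := h1 σ hσ i j
  rw [hn, Ideal.mem_bot, Matrix.sub_apply, sub_eq_zero] at this
  exact this

end Nilpotent

section TestAlgebra

variable {𝒪 : Type} [CommRing 𝒪] [IsLocalRing 𝒪]
variable {A : Type} [CommRing A] [IsLocalRing A] [Algebra 𝒪 A]

theorem nilpotent_of_isArtinianRing [IsArtinianRing A] : ∃ n, maximalIdeal A ^ n = ⊥ := by
  have h := IsArtinianRing.isNilpotent_jacobson_bot (R := A)
  rw [IsLocalRing.jacobson_eq_maximalIdeal ⊥ bot_ne_top] at h
  obtain ⟨n, hn⟩ := h
  exact ⟨n, hn⟩

theorem testAlgebra_nilpotent (h : IsArtinianTestAlgebra 𝒪 A) :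
    ∃ n, maximalIdeal A ^ n = ⊥ :=
  have := h.isArtinian
  nilpotent_of_isArtinianRing

/-- A module of finite length over a local ring with finite residue field is finite. -/
theorem finite_of_isFiniteLength {B : Type} [CommRing B] [IsLocalRing B]
    [Finite (ResidueField B)] {M : Type} [AddCommGroup M] [Module B M]
    (h : IsFiniteLength B M) : Finite M := by
  induction h with
  | of_subsingleton => infer_instance
  | @of_simple_quotient M _ _ N _ _ ih =>
    obtain ⟨I, hI, ⟨e⟩⟩ := isSimpleModule_iff_quot_maximal.mp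
      (inferInstance : IsSimpleModule B (M ⧸ N))
    have hIm : I = maximalIdeal B := IsLocalRing.eq_maximalIdeal hI
    subst hIm
    have : Finite (M ⧸ N) := Finite.of_equiv (ResidueField B) e.symm.toEquiv
    have : Finite N := ih
    have : Finite (M ⧸ N.toAddSubgroup) := ‹Finite (M ⧸ N)›
    have : Finite N.toAddSubgroup := ‹Finite N›
    exact Finite.of_equiv _
      (AddSubgroup.addGroupEquivQuotientProdAddSubgroup (s := N.toAddSubgroup)).symm

theorem finite_residueField_of_surjective [Finite (ResidueField 𝒪)]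
    [IsLocalHom (algebraMap 𝒪 A)]
    (hs : Function.Surjective (IsLocalRing.residue A ∘ algebraMap 𝒪 A)) :
    Finite (ResidueField A) := by
  have hs' : Function.Surjective (ResidueField.map (algebraMap 𝒪 A)) := by
    intro x
    obtain ⟨o, rfl⟩ := hs x
    exact ⟨residue 𝒪 o, ResidueField.map_residue _ o⟩
  exact Finite.of_surjective _ hs'

theorem testAlgebra_finite [Finite (ResidueField 𝒪)]
    (h : IsArtinianTestAlgebra 𝒪 A) : Finite A := by
  have := h.isLocalHom
  have := h.isArtinian
  have : Finite (ResidueField A) := finite_residueField_of_surjective h.residue_surjective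
  exact finite_of_isFiniteLength (B := A)
    (isFiniteLength_iff_isNoetherian_isArtinian.mpr ⟨inferInstance, inferInstance⟩)

end TestAlgebra

/-- The three pinned matrix entries used for rigidification. -/
structure RigidData (𝒪 : Type) where
  /-- group elements -/
  g : Fin 3 → GQ
  /-- row indices -/
  i : Fin 3 → Fin 2
  /-- column indices -/
  j : Fin 3 → Fin 2
  /-- prescribed values -/
  τ : Fin 3 → 𝒪

section LiftDefs

variable {𝒪 : Type} [CommRing 𝒪] [IsLocalRing 𝒪]
variable (rbar : GQ →* Mat (ResidueField 𝒪))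
variable (𝒟 : ∀ ⦃A : Type⦄ [CommRing A] [IsLocalRing A] [Algebra 𝒪 A], GaloisRepAdic A → Prop)
variable {A : Type} [CommRing A] [IsLocalRing A] [Algebra 𝒪 A]

/-- `r` is a continuous lift of `rbar`. -/
def IsLift [IsLocalHom (algebraMap 𝒪 A)] (r : GQ →* Mat A) : Prop :=
  IsContMat A r ∧ mapMat (residue A) r = mapMat (ResidueField.map (algebraMap 𝒪 A)) rbar

/-- `r` has the prescribed entries. -/
def IsRigid (c : RigidData 𝒪) (r : GQ →* Mat A) : Prop :=
  ∀ a, r (c.g a) (c.i a) (c.j a) = algebraMap 𝒪 A (c.τ a)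

/-- The representation of `r` satisfies the deformation condition. -/
def DMat (r : GQ →* Mat A) : Prop :=
  ∃ h : IsContMat A r, 𝒟 (ofMat r h)

end LiftDefs

section Maps

variable {𝒪 : Type} [CommRing 𝒪] [IsLocalRing 𝒪]
variable {rbar : GQ →* Mat (ResidueField 𝒪)}
variable {𝒟 : ∀ ⦃A : Type⦄ [CommRing A] [IsLocalRing A] [Algebra 𝒪 A], GaloisRepAdic A → Prop}
variable {A : Type} [CommRing A] [IsLocalRing A] [Algebra 𝒪 A]
variable {B : Type} [CommRing B] [IsLocalRing B] [Algebra 𝒪 B]

theorem residueField_map_comp [IsLocalHom (algebraMap 𝒪 A)] [IsLocalHom (algebraMap 𝒪 B)]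
    (φ : A →ₐ[𝒪] B) [IsLocalHom (φ : A →+* B)] (x : ResidueField 𝒪) :
    ResidueField.map (φ : A →+* B) (ResidueField.map (algebraMap 𝒪 A) x) =
      ResidueField.map (algebraMap 𝒪 B) x := by
  obtain ⟨o, rfl⟩ := residue_surjective x
  rw [ResidueField.map_residue, ResidueField.map_residue, ResidueField.map_residue]
  congr 1
  exact φ.commutes o

theorem IsLift.map [IsLocalHom (algebraMap 𝒪 A)] [IsLocalHom (algebraMap 𝒪 B)]
    (φ : A →ₐ[𝒪] B) (hφ : IsLocalHom (φ : A →+* B)) {r : GQ →* Mat A} (h : IsLift rbar r) :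
    IsLift rbar (mapMat (φ : A →+* B) r) := by
  refine ⟨isContMat_mapMat _ hφ r h.1, ?_⟩
  ext σ i j
  have h2 : residue A (r σ i j) = ResidueField.map (algebraMap 𝒪 A) (rbar σ i j) := by
    have := congrArg (fun s : GQ →* Mat (ResidueField A) => s σ i j) h.2
    simpa using this
  rw [mapMat_apply, mapMat_apply, mapMat_apply]
  have h3 : residue B ((φ : A →+* B) (r σ i j)) =
      ResidueField.map (φ : A →+* B) (residue A (r σ i j)) :=
    (ResidueField.map_residue _ _).symm
  rw [h3, h2, residueField_map_comp]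

theorem IsRigid.map (φ : A →ₐ[𝒪] B) {c : RigidData 𝒪} {r : GQ →* Mat A} (h : IsRigid c r) :
    IsRigid c (mapMat (φ : A →+* B) r) := by
  intro a
  rw [mapMat_apply, h a]
  exact φ.commutes _

theorem DMat.map (h𝒟 : IsDeformationCondition 𝒪 𝒟) (hA : IsArtinianTestAlgebra 𝒪 A)
    (hB : IsArtinianTestAlgebra 𝒪 B) (φ : A →ₐ[𝒪] B) (hφ : IsLocalHom (φ : A →+* B))
    {r : GQ →* Mat A} (h : DMat 𝒟 r) : DMat 𝒟 (mapMat (φ : A →+* B) r) := by
  obtain ⟨hc, hD⟩ := h
  refine ⟨isContMat_mapMat _ hφ r hc, ?_⟩
  have h1 := h𝒟.baseChangeAlong hA hB φ hφ hD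
  exact h𝒟.of_isEquiv hB (baseChangeAlong_ofMat _ hφ r hc) h1

/-- A ring hom between local rings that is injective is automatically... not local in general;
but an injective hom into a local ring whose source has nilpotent maximal ideal is. We only need
the following: restriction of the residue-field map is injective. -/
theorem residueField_map_injective (φ : A →+* B) [IsLocalHom φ] :
    Function.Injective (ResidueField.map φ) :=
  (ResidueField.map φ).injective

/-- The residual condition can be checked after push-forward along a local algebra map. -/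
theorem residual_of_map [IsLocalHom (algebraMap 𝒪 A)] [IsLocalHom (algebraMap 𝒪 B)]
    (φ : A →ₐ[𝒪] B) (hφ : IsLocalHom (φ : A →+* B)) {s : GQ →* Mat A}
    (h : mapMat (residue B) (mapMat (φ : A →+* B) s) =
      mapMat (ResidueField.map (algebraMap 𝒪 B)) rbar) :
    mapMat (residue A) s = mapMat (ResidueField.map (algebraMap 𝒪 A)) rbar := by
  ext σ i j
  have h2 : residue B ((φ : A →+* B) (s σ i j)) =
      ResidueField.map (algebraMap 𝒪 B) (rbar σ i j) := by
    have := congrArg (fun t : GQ →* Mat (ResidueField B) => t σ i j) h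
    simpa using this
  rw [mapMat_apply, mapMat_apply]
  apply residueField_map_injective (φ : A →+* B)
  rw [ResidueField.map_residue, h2, residueField_map_comp]

/-- Restriction of a lift along an injective local algebra map (nilpotent case). -/
theorem IsLift.of_map_injective [IsLocalHom (algebraMap 𝒪 A)] [IsLocalHom (algebraMap 𝒪 B)]
    (φ : A →ₐ[𝒪] B) (hφ : IsLocalHom (φ : A →+* B)) (hinj : Function.Injective φ)
    (hnilB : ∃ n, maximalIdeal B ^ n = ⊥) {s : GQ →* Mat A}
    (h : IsLift rbar (mapMat (φ : A →+* B) s)) : IsLift rbar s := by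
  have hinj' : Function.Injective (mapMatHom (φ : A →+* B)) := by
    intro M N hMN
    ext i j
    have := congrArg (fun X : Mat B => X i j) hMN
    exact hinj (by simpa using this)
  constructor
  · apply isContMat_of_factors
    obtain ⟨L, hL, h1⟩ := factors_of_isContMat _ hnilB h.1
    refine ⟨L, hL, fun σ hσ => hinj' ?_⟩
    rw [map_one]
    exact h1 σ hσ
  · exact residual_of_map φ hφ h.2

theorem IsRigid.of_map_injective (φ : A →ₐ[𝒪] B) (hinj : Function.Injective φ)
    {c : RigidData 𝒪} {s : GQ →* Mat A} (h : IsRigid c (mapMat (φ : A →+* B) s)) :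
    IsRigid c s := by
  intro a
  apply hinj
  have := h a
  rw [mapMat_apply] at this
  rw [φ.commutes]
  exact this

theorem DMat.of_map_injective (h𝒟 : IsDeformationCondition 𝒪 𝒟)
    (hA : IsArtinianTestAlgebra 𝒪 A) (hB : IsArtinianTestAlgebra 𝒪 B) (φ : A →ₐ[𝒪] B)
    (hφ : IsLocalHom (φ : A →+* B)) (hinj : Function.Injective φ) {s : GQ →* Mat A}
    (hs : IsContMat A s) (h : DMat 𝒟 (mapMat (φ : A →+* B) s)) : DMat 𝒟 s := by
  obtain ⟨hc, hD⟩ := h
  refine ⟨hs, ?_⟩
  apply h𝒟.of_baseChangeAlong_injective hA hB φ hφ hinj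
  exact h𝒟.of_isEquiv hB (isEquiv_symm (baseChangeAlong_ofMat _ hφ s hs)) hD

end Maps

end Fermat.Agent.S53.Lifts
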