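import Mathlib
import Fermat.Prelude.Def_GaloisRep_DeformationCondition
import Fermat.Agent.S53.Dictionary
import Fermat.Agent.S53.Lifts

set_option autoImplicit false

/-!
# Good ideals of the big polynomial ring

Slice (S-d) of the S53 plan.  `U = 𝒪[X_{σ,i,j}]` is the polynomial ring on the matrix entries of a
would-be representation.  An ideal `J` of `U` is *good* if `U ⧸ J` is a finite local test algebra
and `σ ↦ (X_{σ,i,j} mod J)` is a rigid lift of `rbar` of type `𝒟`.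
-/

namespace Fermat.Agent.S53.GoodIdeals

open IsLocalRing MvPolynomial Fermat.Agent.S53.Dictionary Fermat.Agent.S53.Lifts GaloisRep

/-- Index type of the variables of the big ring. -/
abbrev Idx : Type := GQ × Fin 2 × Fin 2

/-- The big polynomial ring. -/
abbrev U (𝒪 : Type) [CommRing 𝒪] : Type := MvPolynomial Idx 𝒪

section Basic

variable {𝒪 : Type} [CommRing 𝒪]

/-- The classifying map of a matrix-valued function. -/
noncomputable def evalHom {A : Type} [CommRing A] [Algebra 𝒪 A] (r : GQ → Mat A) :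
    U 𝒪 →ₐ[𝒪] A :=
  MvPolynomial.aeval (fun x : Idx => r x.1 x.2.1 x.2.2)

@[simp] theorem evalHom_X {A : Type} [CommRing A] [Algebra 𝒪 A] (r : GQ → Mat A) (σ : GQ)
    (i j : Fin 2) : evalHom (𝒪 := 𝒪) r (X (σ, i, j)) = r σ i j := by
  simp [evalHom]

theorem evalHom_comp {A B : Type} [CommRing A] [Algebra 𝒪 A] [CommRing B] [Algebra 𝒪 B]
    (φ : A →ₐ[𝒪] B) (r : GQ → Mat A) :
    φ.comp (evalHom r) = evalHom (fun σ => (r σ).map φ) := by
  apply MvPolynomial.algHom_ext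
  rintro ⟨σ, i, j⟩
  simp

/-- The universal matrix modulo an ideal. -/
noncomputable def Xmat (J : Ideal (U 𝒪)) (σ : GQ) : Mat (U 𝒪 ⧸ J) :=
  Matrix.of fun i j => Ideal.Quotient.mk J (X (σ, i, j))

@[simp] theorem Xmat_apply (J : Ideal (U 𝒪)) (σ : GQ) (i j : Fin 2) :
    Xmat J σ i j = Ideal.Quotient.mk J (X (σ, i, j)) := rfl

/-- Two `𝒪`-algebra maps out of a quotient of `U` agreeing on the variables are equal. -/
theorem quotient_algHom_ext {A : Type} [CommRing A] [Algebra 𝒪 A] (J : Ideal (U 𝒪))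
    {f g : (U 𝒪 ⧸ J) →ₐ[𝒪] A}
    (h : ∀ σ i j, f (Ideal.Quotient.mk J (X (σ, i, j))) = g (Ideal.Quotient.mk J (X (σ, i, j)))) :
    f = g := by
  have h2 : f.comp (Ideal.Quotient.mkₐ 𝒪 J) = g.comp (Ideal.Quotient.mkₐ 𝒪 J) := by
    apply MvPolynomial.algHom_ext
    rintro ⟨σ, i, j⟩
    exact h σ i j
  ext x
  obtain ⟨u, rfl⟩ := Ideal.Quotient.mk_surjective x
  exact congrArg (fun F : U 𝒪 →ₐ[𝒪] A => F u) h2

end Basic

section Local

variable {𝒪 : Type} [CommRing 𝒪] [IsLocalRing 𝒪]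
variable (rbar : GQ →* Mat (ResidueField 𝒪))

/-- The reduction map `U → k`. -/
noncomputable def pi0 : U 𝒪 →ₐ[𝒪] ResidueField 𝒪 :=
  evalHom (fun σ => rbar σ)

theorem pi0_surjective : Function.Surjective (pi0 rbar) := by
  intro x
  obtain ⟨o, rfl⟩ := residue_surjective x
  exact ⟨C o, by simp [pi0, evalHom]⟩

/-- The maximal ideal of `U` at the residual representation. -/
noncomputable def m0 : Ideal (U 𝒪) := RingHom.ker (pi0 rbar)

instance m0_isMaximal : (m0 rbar).IsMaximal :=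
  RingHom.ker_isMaximal_of_surjective _ (pi0_surjective rbar)

theorem mem_m0_iff (u : U 𝒪) : u ∈ m0 rbar ↔ pi0 rbar u = 0 := RingHom.mem_ker

variable {rbar}

/-- `U ⧸ J` is local as soon as `𝔪₀ ^ n ≤ J ≤ 𝔪₀`. -/
theorem isLocalRing_quotient {J : Ideal (U 𝒪)} (hle : J ≤ m0 rbar)
    (hpow : ∃ n, m0 rbar ^ n ≤ J) : IsLocalRing (U 𝒪 ⧸ J) := by
  apply IsLocalRing.of_unique_max_ideal
  have hker : RingHom.ker (Ideal.Quotient.mk J) ≤ m0 rbar := by rwa [Ideal.mk_ker]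
  refine ⟨(m0 rbar).map (Ideal.Quotient.mk J),
    Ideal.IsMaximal.map_of_surjective_of_ker_le Ideal.Quotient.mk_surjective hker, ?_⟩
  intro M hM
  have hc : (M.comap (Ideal.Quotient.mk J)).IsMaximal :=
    Ideal.comap_isMaximal_of_surjective _ Ideal.Quotient.mk_surjective
  obtain ⟨n, hn⟩ := hpow
  have h1 : m0 rbar ^ n ≤ M.comap (Ideal.Quotient.mk J) := by
    intro x hx
    rw [Ideal.mem_comap, Ideal.Quotient.eq_zero_iff_mem.mpr (hn hx)]
    exact Ideal.zero_mem _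
  have h2 : m0 rbar ≤ M.comap (Ideal.Quotient.mk J) := hc.isPrime.le_of_pow_le h1
  have h3 : m0 rbar = M.comap (Ideal.Quotient.mk J) :=
    (m0_isMaximal rbar).eq_of_le hc.ne_top h2
  rw [h3, Ideal.map_comap_of_surjective _ Ideal.Quotient.mk_surjective]

theorem maximalIdeal_quotient {J : Ideal (U 𝒪)} [IsLocalRing (U 𝒪 ⧸ J)] (hle : J ≤ m0 rbar) :
    maximalIdeal (U 𝒪 ⧸ J) = (m0 rbar).map (Ideal.Quotient.mk J) := by
  have hker : RingHom.ker (Ideal.Quotient.mk J) ≤ m0 rbar := by rwa [Ideal.mk_ker]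
  exact (IsLocalRing.eq_maximalIdeal
    (Ideal.IsMaximal.map_of_surjective_of_ker_le Ideal.Quotient.mk_surjective hker)).symm

theorem mk_mem_maximalIdeal_iff {J : Ideal (U 𝒪)} [IsLocalRing (U 𝒪 ⧸ J)] (hle : J ≤ m0 rbar)
    (u : U 𝒪) : Ideal.Quotient.mk J u ∈ maximalIdeal (U 𝒪 ⧸ J) ↔ u ∈ m0 rbar := by
  rw [maximalIdeal_quotient hle]
  constructor
  · intro h
    obtain ⟨v, hv, hvu⟩ := (Ideal.mem_map_iff_of_surjective _ Ideal.Quotient.mk_surjective).mp h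
    have : v - u ∈ J := by
      rw [← Ideal.Quotient.eq_zero_iff_mem, map_sub, hvu, sub_self]
    have h2 : u = v - (v - u) := by ring
    rw [h2]
    exact Ideal.sub_mem _ hv (hle this)
  · exact fun h => Ideal.mem_map_of_mem _ h

/-- `U ⧸ J` is a test algebra as soon as it is finite and local with `J ≤ 𝔪₀`. -/
theorem isArtinianTestAlgebra_quotient {J : Ideal (U 𝒪)} [IsLocalRing (U 𝒪 ⧸ J)]
    [Finite (U 𝒪 ⧸ J)] (hle : J ≤ m0 rbar) : IsArtinianTestAlgebra 𝒪 (U 𝒪 ⧸ J) where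
  isLocalHom := by
    constructor
    intro o ho
    by_contra hno
    have h1 : residue 𝒪 o = 0 := (residue_eq_zero_iff o).mpr ((mem_maximalIdeal o).mpr hno)
    have h2 : (C o : U 𝒪) ∈ m0 rbar := by
      rw [mem_m0_iff]
      simp only [pi0, evalHom, algHom_C]
      exact h1
    have h3 := (mk_mem_maximalIdeal_iff hle (C o)).mpr h2
    exact (mem_maximalIdeal _).mp h3 ho
  residue_surjective := by
    intro x
    obtain ⟨y, rfl⟩ := residue_surjective x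
    obtain ⟨u, rfl⟩ := Ideal.Quotient.mk_surjective y
    obtain ⟨o, ho⟩ := residue_surjective (pi0 rbar u)
    refine ⟨o, ?_⟩
    rw [Function.comp_apply, ← sub_eq_zero, ← map_sub, residue_eq_zero_iff]
    have h1 : algebraMap 𝒪 (U 𝒪 ⧸ J) o - Ideal.Quotient.mk J u =
        Ideal.Quotient.mk J (C o - u) := by
      rw [map_sub]; rfl
    rw [h1, mk_mem_maximalIdeal_iff hle, mem_m0_iff, map_sub, sub_eq_zero]
    simp only [pi0, evalHom, algHom_C]
    exact ho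
  isArtinian := inferInstance

end Local

section Good

variable {𝒪 : Type} [CommRing 𝒪] [IsLocalRing 𝒪]
variable (𝒟 : ∀ ⦃A : Type⦄ [CommRing A] [IsLocalRing A] [Algebra 𝒪 A], GaloisRepAdic A → Prop)
variable (rbar : GQ →* Mat (ResidueField 𝒪)) (c : RigidData 𝒪)

/-- An ideal `J` of the big ring is good if `U ⧸ J` is a local test algebra and the universal
matrices modulo `J` form a rigid lift of `rbar` of type `𝒟`. -/
def Good (J : Ideal (U 𝒪)) : Prop :=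
  ∃ (_ : IsLocalRing (U 𝒪 ⧸ J)) (_ : IsLocalHom (algebraMap 𝒪 (U 𝒪 ⧸ J))),
    IsArtinianTestAlgebra 𝒪 (U 𝒪 ⧸ J) ∧
    ∃ r : GQ →* Mat (U 𝒪 ⧸ J), (∀ σ, r σ = Xmat J σ) ∧ IsLift rbar r ∧ IsRigid c r ∧ DMat 𝒟 r

variable {𝒟 rbar c}

/-- For a lift `r` over `U ⧸ J` given by the universal matrices, reduction to the residue field
factors through `pi0`. -/
theorem residue_mk_eq {J : Ideal (U 𝒪)} [IsLocalRing (U 𝒪 ⧸ J)]
    [IsLocalHom (algebraMap 𝒪 (U 𝒪 ⧸ J))] {r : GQ →* Mat (U 𝒪 ⧸ J)}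
    (hr : ∀ σ, r σ = Xmat J σ) (hl : IsLift rbar r) (u : U 𝒪) :
    residue (U 𝒪 ⧸ J) (Ideal.Quotient.mk J u) =
      ResidueField.map (algebraMap 𝒪 (U 𝒪 ⧸ J)) (pi0 rbar u) := by
  have key : ((residue (U 𝒪 ⧸ J)).comp (Ideal.Quotient.mk J) : U 𝒪 →+* _) =
      (ResidueField.map (algebraMap 𝒪 (U 𝒪 ⧸ J))).comp (pi0 rbar : U 𝒪 →+* ResidueField 𝒪) := by
    apply MvPolynomial.ringHom_ext
    · intro o
      simp only [RingHom.comp_apply, RingHom.coe_coe, pi0, evalHom, algHom_C]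
      rw [show algebraMap 𝒪 (ResidueField 𝒪) o = residue 𝒪 o from rfl, ResidueField.map_residue]
      rfl
    · rintro ⟨σ, i, j⟩
      simp only [RingHom.comp_apply, RingHom.coe_coe, pi0, evalHom_X]
      have h2 := congrArg (fun s : GQ →* Mat (ResidueField (U 𝒪 ⧸ J)) => s σ i j) hl.2
      simp only [mapMat_apply] at h2
      rw [← h2, hr σ, Xmat_apply]
  exact congrArg (fun F : U 𝒪 →+* _ => F u) key

theorem mk_mem_maximalIdeal_iff' {J : Ideal (U 𝒪)} [IsLocalRing (U 𝒪 ⧸ J)]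
    [IsLocalHom (algebraMap 𝒪 (U 𝒪 ⧸ J))] {r : GQ →* Mat (U 𝒪 ⧸ J)}
    (hr : ∀ σ, r σ = Xmat J σ) (hl : IsLift rbar r) (u : U 𝒪) :
    Ideal.Quotient.mk J u ∈ maximalIdeal (U 𝒪 ⧸ J) ↔ u ∈ m0 rbar := by
  rw [← residue_eq_zero_iff, residue_mk_eq hr hl, mem_m0_iff, map_eq_zero]

theorem Good.le_m0 {J : Ideal (U 𝒪)} (h : Good 𝒟 rbar c J) : J ≤ m0 rbar := by
  obtain ⟨_, _, _, r, hr, hl, -, -⟩ := h
  intro u hu
  rw [← mk_mem_maximalIdeal_iff' hr hl, Ideal.Quotient.eq_zero_iff_mem.mpr hu]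
  exact Ideal.zero_mem _

theorem Good.pow_le {J : Ideal (U 𝒪)} (h : Good 𝒟 rbar c J) : ∃ n, m0 rbar ^ n ≤ J := by
  have hle := h.le_m0
  obtain ⟨_, _, ht, r, hr, hl, -, -⟩ := h
  obtain ⟨n, hn⟩ := testAlgebra_nilpotent ht
  refine ⟨n, fun x hx => ?_⟩
  rw [← Ideal.Quotient.eq_zero_iff_mem, ← Ideal.mem_bot, ← hn, maximalIdeal_quotient hle,
    ← Ideal.map_pow]
  exact Ideal.mem_map_of_mem _ hx

theorem Good.finite [Finite (ResidueField 𝒪)] {J : Ideal (U 𝒪)} (h : Good 𝒟 rbar c J) :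
    Finite (U 𝒪 ⧸ J) := by
  obtain ⟨_, _, ht, -⟩ := h
  exact testAlgebra_finite ht

/-- The transition maps between local quotients of `U` below `𝔪₀` are local. -/
theorem isLocalHom_factor {J J' : Ideal (U 𝒪)} [IsLocalRing (U 𝒪 ⧸ J)]
    [IsLocalRing (U 𝒪 ⧸ J')] (hJ : J ≤ m0 rbar) (hJ' : J' ≤ m0 rbar) (hJJ' : J ≤ J') :
    IsLocalHom ((Ideal.Quotient.factorₐ 𝒪 hJJ' : (U 𝒪 ⧸ J) →ₐ[𝒪] (U 𝒪 ⧸ J')) :
      (U 𝒪 ⧸ J) →+* (U 𝒪 ⧸ J')) := by
  constructor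
  intro x hx
  obtain ⟨u, rfl⟩ := Ideal.Quotient.mk_surjective x
  by_contra hnu
  have h1 : Ideal.Quotient.mk J u ∈ maximalIdeal (U 𝒪 ⧸ J) := (mem_maximalIdeal _).mpr hnu
  have h2 : u ∈ m0 rbar := (mk_mem_maximalIdeal_iff hJ u).mp h1
  have h3 : Ideal.Quotient.mk J' u ∈ maximalIdeal (U 𝒪 ⧸ J') :=
    (mk_mem_maximalIdeal_iff hJ' u).mpr h2
  apply (mem_maximalIdeal _).mp h3
  simpa using hx

theorem mapMat_factor_Xmat {J J' : Ideal (U 𝒪)} (hJJ' : J ≤ J') (r : GQ →* Mat (U 𝒪 ⧸ J))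
    (hr : ∀ σ, r σ = Xmat J σ) (σ : GQ) :
    mapMat ((Ideal.Quotient.factorₐ 𝒪 hJJ' : (U 𝒪 ⧸ J) →ₐ[𝒪] (U 𝒪 ⧸ J')) :
      (U 𝒪 ⧸ J) →+* (U 𝒪 ⧸ J')) r σ = Xmat J' σ := by
  ext i j
  rw [mapMat_apply, hr σ, Xmat_apply, Xmat_apply]
  simp

/-- Good ideals are upward closed below `𝔪₀`. -/
theorem Good.up [Finite (ResidueField 𝒪)] (h𝒟 : IsDeformationCondition 𝒪 𝒟) {J J' : Ideal (U 𝒪)}
    (h : Good 𝒟 rbar c J) (hJJ' : J ≤ J') (hJ' : J' ≤ m0 rbar) : Good 𝒟 rbar c J' := by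
  have hJ := h.le_m0
  obtain ⟨n, hn⟩ := h.pow_le
  have hfin := h.finite
  obtain ⟨hloc, hlh, ht, r, hr, hl, hrig, hD⟩ := h
  have hloc' : IsLocalRing (U 𝒪 ⧸ J') := isLocalRing_quotient hJ' ⟨n, hn.trans hJJ'⟩
  have hfin' : Finite (U 𝒪 ⧸ J') :=
    Finite.of_surjective (Ideal.Quotient.factor hJJ') (Ideal.Quotient.factor_surjective hJJ')
  have ht' : IsArtinianTestAlgebra 𝒪 (U 𝒪 ⧸ J') := isArtinianTestAlgebra_quotient hJ'
  have hlh' : IsLocalHom (algebraMap 𝒪 (U 𝒪 ⧸ J')) := ht'.isLocalHom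
  have hφ := isLocalHom_factor (𝒪 := 𝒪) hJ hJ' hJJ'
  refine ⟨hloc', hlh', ht', mapMat ((Ideal.Quotient.factorₐ 𝒪 hJJ' :
    (U 𝒪 ⧸ J) →ₐ[𝒪] (U 𝒪 ⧸ J')) : (U 𝒪 ⧸ J) →+* (U 𝒪 ⧸ J')) r,
    mapMat_factor_Xmat hJJ' r hr, hl.map _ hφ, hrig.map _, hD.map h𝒟 ht ht' _ hφ⟩

/-- A function into matrices over `B` whose image under an injective ring hom is a monoid hom is
itself a monoid hom. -/
noncomputable def monoidHomOfInjective {A B : Type} [CommRing A] [CommRing B] (φ : B →+* A)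
    (hinj : Function.Injective φ) (r : GQ →* Mat A) (s : GQ → Mat B)
    (hs : ∀ σ, mapMatHom φ (s σ) = r σ) : GQ →* Mat B :=
  have hinj' : Function.Injective (mapMatHom φ) := by
    intro M N hMN
    ext i j
    have := congrArg (fun X : Mat A => X i j) hMN
    exact hinj (by simpa using this)
  { toFun := s
    map_one' := hinj' (by rw [hs, map_one, map_one])
    map_mul' := fun σ τ => hinj' (by rw [hs, map_mul, map_mul, hs, hs]) }

@[simp] theorem monoidHomOfInjective_apply {A B : Type} [CommRing A] [CommRing B] (φ : B →+* A)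
    (hinj : Function.Injective φ) (r : GQ →* Mat A) (s : GQ → Mat B)
    (hs : ∀ σ, mapMatHom φ (s σ) = r σ) (σ : GQ) :
    monoidHomOfInjective φ hinj r s hs σ = s σ := rfl

theorem mapMat_monoidHomOfInjective {A B : Type} [CommRing A] [CommRing B] (φ : B →+* A)
    (hinj : Function.Injective φ) (r : GQ →* Mat A) (s : GQ → Mat B)
    (hs : ∀ σ, mapMatHom φ (s σ) = r σ) :
    mapMat φ (monoidHomOfInjective φ hinj r s hs) = r := by
  ext σ : 1
  exact hs σ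

section KerEval

variable {A : Type} [CommRing A] [IsLocalRing A] [Algebra 𝒪 A] [IsLocalHom (algebraMap 𝒪 A)]

theorem residue_evalHom_eq {r : GQ →* Mat A} (hl : IsLift rbar r) (u : U 𝒪) :
    residue A (evalHom (𝒪 := 𝒪) (fun σ => r σ) u) =
      ResidueField.map (algebraMap 𝒪 A) (pi0 rbar u) := by
  have key : ((residue A).comp (evalHom (𝒪 := 𝒪) (fun σ => r σ) : U 𝒪 →+* A) : U 𝒪 →+* _) =
      (ResidueField.map (algebraMap 𝒪 A)).comp (pi0 rbar : U 𝒪 →+* ResidueField 𝒪) := by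
    apply MvPolynomial.ringHom_ext
    · intro o
      simp only [RingHom.comp_apply, RingHom.coe_coe, pi0, evalHom, algHom_C]
      rw [show algebraMap 𝒪 (ResidueField 𝒪) o = residue 𝒪 o from rfl, ResidueField.map_residue]
    · rintro ⟨σ, i, j⟩
      simp only [RingHom.comp_apply, RingHom.coe_coe, pi0, evalHom_X]
      have h2 := congrArg (fun s : GQ →* Mat (ResidueField A) => s σ i j) hl.2
      simp only [mapMat_apply] at h2
      exact h2
  exact congrArg (fun F : U 𝒪 →+* _ => F u) key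

theorem evalHom_mem_maximalIdeal_iff {r : GQ →* Mat A} (hl : IsLift rbar r) (u : U 𝒪) :
    evalHom (𝒪 := 𝒪) (fun σ => r σ) u ∈ maximalIdeal A ↔ u ∈ m0 rbar := by
  rw [← residue_eq_zero_iff, residue_evalHom_eq hl, mem_m0_iff, map_eq_zero]

/-- **(G1)** The kernel of the classifying map of a rigid lift of type `𝒟` over a test algebra is
a good ideal. -/
theorem good_ker_evalHom [Finite (ResidueField 𝒪)] (h𝒟 : IsDeformationCondition 𝒪 𝒟)
    (hA : IsArtinianTestAlgebra 𝒪 A) (r : GQ →* Mat A) (hl : IsLift rbar r)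
    (hrig : IsRigid c r) (hD : DMat 𝒟 r) :
    Good 𝒟 rbar c (RingHom.ker (evalHom (𝒪 := 𝒪) (fun σ => r σ))) := by
  set f : U 𝒪 →ₐ[𝒪] A := evalHom (𝒪 := 𝒪) (fun σ => r σ) with hf
  have hJ : RingHom.ker f ≤ m0 rbar := by
    intro u hu
    rw [← evalHom_mem_maximalIdeal_iff hl, ← hf, (RingHom.mem_ker).mp hu]
    exact Ideal.zero_mem _
  obtain ⟨n, hn⟩ := testAlgebra_nilpotent hA
  have hpow : m0 rbar ^ n ≤ RingHom.ker f := by
    intro x hx
    rw [RingHom.mem_ker, ← Ideal.mem_bot, ← hn]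
    have h1 : (m0 rbar).map f ≤ maximalIdeal A := by
      rw [Ideal.map_le_iff_le_comap]
      intro u hu
      exact (evalHom_mem_maximalIdeal_iff hl u).mpr hu
    have h2 : f x ∈ ((m0 rbar) ^ n).map f := Ideal.mem_map_of_mem _ hx
    rw [Ideal.map_pow] at h2
    exact Ideal.pow_right_mono h1 n h2
  have hloc : IsLocalRing (U 𝒪 ⧸ RingHom.ker f) := isLocalRing_quotient hJ ⟨n, hpow⟩
  have hfinA : Finite A := testAlgebra_finite hA
  have hfin : Finite (U 𝒪 ⧸ RingHom.ker f) :=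
    Finite.of_injective _ (Ideal.kerLiftAlg_injective f)
  have ht : IsArtinianTestAlgebra 𝒪 (U 𝒪 ⧸ RingHom.ker f) := isArtinianTestAlgebra_quotient hJ
  have hlh : IsLocalHom (algebraMap 𝒪 (U 𝒪 ⧸ RingHom.ker f)) := ht.isLocalHom
  let ψ : (U 𝒪 ⧸ RingHom.ker f) →ₐ[𝒪] A := Ideal.kerLiftAlg f
  have hψinj : Function.Injective ψ := Ideal.kerLiftAlg_injective f
  have hψmk : ∀ u, ψ (Ideal.Quotient.mk _ u) = f u := Ideal.kerLiftAlg_mk f
  have hψ : IsLocalHom (ψ : (U 𝒪 ⧸ RingHom.ker f) →+* A) := by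
    constructor
    intro x hx
    obtain ⟨u, rfl⟩ := Ideal.Quotient.mk_surjective x
    by_contra hnu
    have h1 : Ideal.Quotient.mk (RingHom.ker f) u ∈ maximalIdeal (U 𝒪 ⧸ RingHom.ker f) :=
      (mem_maximalIdeal _).mpr hnu
    have h2 : u ∈ m0 rbar := (mk_mem_maximalIdeal_iff hJ u).mp h1
    have h3 : f u ∈ maximalIdeal A := (evalHom_mem_maximalIdeal_iff hl u).mpr h2
    apply (mem_maximalIdeal _).mp h3
    have : (ψ : (U 𝒪 ⧸ RingHom.ker f) →+* A) (Ideal.Quotient.mk _ u) = f u := hψmk u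
    rw [← this]
    exact hx
  have hs : ∀ σ, mapMatHom (ψ : (U 𝒪 ⧸ RingHom.ker f) →+* A) (Xmat (RingHom.ker f) σ) = r σ := by
    intro σ
    ext i j
    rw [mapMatHom_apply, Xmat_apply]
    change ψ (Ideal.Quotient.mk _ (X (σ, i, j))) = r σ i j
    rw [hψmk, hf, evalHom_X]
  let s : GQ →* Mat (U 𝒪 ⧸ RingHom.ker f) :=
    monoidHomOfInjective (ψ : (U 𝒪 ⧸ RingHom.ker f) →+* A) hψinj r (Xmat (RingHom.ker f)) hs
  have hms : mapMat (ψ : (U 𝒪 ⧸ RingHom.ker f) →+* A) s = r :=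
    mapMat_monoidHomOfInjective _ hψinj r _ hs
  have hls : IsLift rbar s :=
    IsLift.of_map_injective ψ hψ hψinj ⟨n, hn⟩ (by rw [hms]; exact hl)
  refine ⟨hloc, hlh, ht, s, fun σ => rfl, hls, ?_, ?_⟩
  · exact IsRigid.of_map_injective ψ hψinj (by rw [hms]; exact hrig)
  · exact DMat.of_map_injective h𝒟 ht hA ψ hψ hψinj hls.1 (by rw [hms]; exact hD)

/-- The classifying map of a lift factors through `U ⧸ J` for every `J` inside its kernel, and
carries the universal matrices to the lift. -/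
theorem liftₐ_Xmat {J : Ideal (U 𝒪)} (r : GQ →* Mat A)
    (hJ : ∀ a ∈ J, evalHom (𝒪 := 𝒪) (fun σ => r σ) a = 0) (σ : GQ) (i j : Fin 2) :
    Ideal.Quotient.liftₐ J (evalHom (𝒪 := 𝒪) (fun σ => r σ)) hJ (Xmat J σ i j) = r σ i j := by
  rw [Xmat_apply]
  change Ideal.Quotient.liftₐ J _ hJ (Ideal.Quotient.mkₐ 𝒪 J (X (σ, i, j))) = _
  rw [Ideal.Quotient.liftₐ_apply]
  simp

end KerEval

section Inf

variable {J J' : Ideal (U 𝒪)}

theorem mk_eq_of_mk_eq {x y : U 𝒪 ⧸ (J ⊓ J')}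
    (h1 : Ideal.Quotient.factor (inf_le_left : J ⊓ J' ≤ J) x =
      Ideal.Quotient.factor (inf_le_left : J ⊓ J' ≤ J) y)
    (h2 : Ideal.Quotient.factor (inf_le_right : J ⊓ J' ≤ J') x =
      Ideal.Quotient.factor (inf_le_right : J ⊓ J' ≤ J') y) : x = y := by
  obtain ⟨u, rfl⟩ := Ideal.Quotient.mk_surjective x
  obtain ⟨v, rfl⟩ := Ideal.Quotient.mk_surjective y
  rw [Ideal.Quotient.factor_mk, Ideal.Quotient.factor_mk, Ideal.Quotient.eq] at h1 h2
  rw [Ideal.Quotient.eq]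
  exact ⟨h1, h2⟩

theorem mat_eq_of_map_eq {M N : Mat (U 𝒪 ⧸ (J ⊓ J'))}
    (h1 : mapMatHom (Ideal.Quotient.factor (inf_le_left : J ⊓ J' ≤ J)) M =
      mapMatHom (Ideal.Quotient.factor (inf_le_left : J ⊓ J' ≤ J)) N)
    (h2 : mapMatHom (Ideal.Quotient.factor (inf_le_right : J ⊓ J' ≤ J')) M =
      mapMatHom (Ideal.Quotient.factor (inf_le_right : J ⊓ J' ≤ J')) N) : M = N := by
  ext i j
  apply mk_eq_of_mk_eq
  · have := congrArg (fun X : Mat (U 𝒪 ⧸ J) => X i j) h1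
    simpa using this
  · have := congrArg (fun X : Mat (U 𝒪 ⧸ J') => X i j) h2
    simpa using this

theorem mapMatHom_factor_Xmat {K K' : Ideal (U 𝒪)} (hKK' : K ≤ K') (σ : GQ) :
    mapMatHom (Ideal.Quotient.factor hKK') (Xmat K σ) = Xmat K' σ := by
  ext i j
  simp

/-- The universal matrices modulo `J ⊓ J'` form a monoid hom if they do modulo `J` and `J'`. -/
noncomputable def infHom (r : GQ →* Mat (U 𝒪 ⧸ J)) (hr : ∀ σ, r σ = Xmat J σ)
    (r' : GQ →* Mat (U 𝒪 ⧸ J')) (hr' : ∀ σ, r' σ = Xmat J' σ) :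
    GQ →* Mat (U 𝒪 ⧸ (J ⊓ J')) :=
  { toFun := Xmat (J ⊓ J')
    map_one' := by
      apply mat_eq_of_map_eq
      · rw [mapMatHom_factor_Xmat, map_one, ← hr, map_one]
      · rw [mapMatHom_factor_Xmat, map_one, ← hr', map_one]
    map_mul' := fun σ τ => by
      apply mat_eq_of_map_eq
      · rw [map_mul, mapMatHom_factor_Xmat, mapMatHom_factor_Xmat, mapMatHom_factor_Xmat,
          ← hr, ← hr, ← hr, map_mul]
      · rw [map_mul, mapMatHom_factor_Xmat, mapMatHom_factor_Xmat, mapMatHom_factor_Xmat,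
          ← hr', ← hr', ← hr', map_mul] }

/-- **(G2)** Good ideals are closed under intersection. -/
theorem Good.inf [Finite (ResidueField 𝒪)] (h𝒟 : IsDeformationCondition 𝒪 𝒟)
    (h : Good 𝒟 rbar c J) (h' : Good 𝒟 rbar c J') : Good 𝒟 rbar c (J ⊓ J') := by
  have hJ := h.le_m0
  have hJ' := h'.le_m0
  obtain ⟨n, hn⟩ := h.pow_le
  obtain ⟨n', hn'⟩ := h'.pow_le
  have hfin := h.finite
  have hfin' := h'.finite
  obtain ⟨hloc, hlh, ht, r, hr, hl, hrig, hD⟩ := h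
  obtain ⟨hloc', hlh', ht', r', hr', hl', hrig', hD'⟩ := h'
  -- the intersection
  have hK : J ⊓ J' ≤ m0 rbar := inf_le_left.trans hJ
  have hKpow : m0 rbar ^ (max n n') ≤ J ⊓ J' :=
    le_inf ((Ideal.pow_le_pow_right (le_max_left n n')).trans hn)
      ((Ideal.pow_le_pow_right (le_max_right n n')).trans hn')
  have hlocK : IsLocalRing (U 𝒪 ⧸ (J ⊓ J')) := isLocalRing_quotient hK ⟨_, hKpow⟩
  have hfinK : Finite (U 𝒪 ⧸ (J ⊓ J')) := by
    refine Finite.of_injective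
      (fun x => (Ideal.Quotient.factor (inf_le_left : J ⊓ J' ≤ J) x,
        Ideal.Quotient.factor (inf_le_right : J ⊓ J' ≤ J') x)) ?_
    intro x y hxy
    exact mk_eq_of_mk_eq (congrArg Prod.fst hxy) (congrArg Prod.snd hxy)
  have htK : IsArtinianTestAlgebra 𝒪 (U 𝒪 ⧸ (J ⊓ J')) := isArtinianTestAlgebra_quotient hK
  have hlhK : IsLocalHom (algebraMap 𝒪 (U 𝒪 ⧸ (J ⊓ J'))) := htK.isLocalHom
  -- the sum
  have hC : J ⊔ J' ≤ m0 rbar := sup_le hJ hJ'
  have hlocC : IsLocalRing (U 𝒪 ⧸ (J ⊔ J')) :=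
    isLocalRing_quotient hC ⟨n, hn.trans le_sup_left⟩
  have hfinC : Finite (U 𝒪 ⧸ (J ⊔ J')) :=
    Finite.of_surjective (Ideal.Quotient.factor (le_sup_left : J ≤ J ⊔ J'))
      (Ideal.Quotient.factor_surjective _)
  have htC : IsArtinianTestAlgebra 𝒪 (U 𝒪 ⧸ (J ⊔ J')) := isArtinianTestAlgebra_quotient hC
  -- the four maps
  let pA : (U 𝒪 ⧸ (J ⊓ J')) →ₐ[𝒪] (U 𝒪 ⧸ J) := Ideal.Quotient.factorₐ 𝒪 inf_le_left
  let pB : (U 𝒪 ⧸ (J ⊓ J')) →ₐ[𝒪] (U 𝒪 ⧸ J') := Ideal.Quotient.factorₐ 𝒪 inf_le_right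
  let f : (U 𝒪 ⧸ J) →ₐ[𝒪] (U 𝒪 ⧸ (J ⊔ J')) := Ideal.Quotient.factorₐ 𝒪 le_sup_left
  let g : (U 𝒪 ⧸ J') →ₐ[𝒪] (U 𝒪 ⧸ (J ⊔ J')) := Ideal.Quotient.factorₐ 𝒪 le_sup_right
  have hpA : IsLocalHom (pA : (U 𝒪 ⧸ (J ⊓ J')) →+* (U 𝒪 ⧸ J)) :=
    isLocalHom_factor (𝒪 := 𝒪) hK hJ inf_le_left
  have hpB : IsLocalHom (pB : (U 𝒪 ⧸ (J ⊓ J')) →+* (U 𝒪 ⧸ J')) :=
    isLocalHom_factor (𝒪 := 𝒪) hK hJ' inf_le_right
  -- the lift
  let s : GQ →* Mat (U 𝒪 ⧸ (J ⊓ J')) := infHom r hr r' hr'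
  have hsA : mapMat (pA : (U 𝒪 ⧸ (J ⊓ J')) →+* (U 𝒪 ⧸ J)) s = r := by
    ext σ : 1
    rw [hr σ]
    exact mapMat_factor_Xmat inf_le_left s (fun _ => rfl) σ
  have hsB : mapMat (pB : (U 𝒪 ⧸ (J ⊓ J')) →+* (U 𝒪 ⧸ J')) s = r' := by
    ext σ : 1
    rw [hr' σ]
    exact mapMat_factor_Xmat inf_le_right s (fun _ => rfl) σ
  have hcont : IsContMat (U 𝒪 ⧸ (J ⊓ J')) s := by
    apply isContMat_of_factors
    obtain ⟨L, hL, h1⟩ := factors_of_isContMat r (testAlgebra_nilpotent ht) hl.1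
    obtain ⟨L', hL', h1'⟩ := factors_of_isContMat r' (testAlgebra_nilpotent ht') hl'.1
    refine ⟨L ⊔ L', IntermediateField.finiteDimensional_sup L L', fun σ hσ => ?_⟩
    have e1 : r σ = 1 := h1 σ fun x hx => hσ x ((le_sup_left : L ≤ L ⊔ L') hx)
    have e2 : r' σ = 1 := h1' σ fun x hx => hσ x ((le_sup_right : L' ≤ L ⊔ L') hx)
    apply mat_eq_of_map_eq
    · change mapMatHom (Ideal.Quotient.factor (inf_le_left : J ⊓ J' ≤ J)) (Xmat (J ⊓ J') σ) = _
      rw [mapMatHom_factor_Xmat, map_one, ← hr, e1]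
    · change mapMatHom (Ideal.Quotient.factor (inf_le_right : J ⊓ J' ≤ J')) (Xmat (J ⊓ J') σ) = _
      rw [mapMatHom_factor_Xmat, map_one, ← hr', e2]
  have hls : IsLift rbar s :=
    ⟨hcont, residual_of_map pA hpA (by rw [hsA]; exact hl.2)⟩
  have hrigs : IsRigid c s := by
    intro a
    apply mk_eq_of_mk_eq
    · have := hrig a
      rw [hr, Xmat_apply] at this
      change Ideal.Quotient.factor _ (Ideal.Quotient.mk _ _) =
        Ideal.Quotient.factor _ (Ideal.Quotient.mk _ (C (c.τ a)))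
      rw [Ideal.Quotient.factor_mk, Ideal.Quotient.factor_mk, this]
      rfl
    · have := hrig' a
      rw [hr', Xmat_apply] at this
      change Ideal.Quotient.factor _ (Ideal.Quotient.mk _ _) =
        Ideal.Quotient.factor _ (Ideal.Quotient.mk _ (C (c.τ a)))
      rw [Ideal.Quotient.factor_mk, Ideal.Quotient.factor_mk, this]
      rfl
  refine ⟨hlocK, hlhK, htK, s, fun _ => rfl, hls, hrigs, hcont, ?_⟩
  obtain ⟨hc, hDr⟩ := hD
  obtain ⟨hc', hDr'⟩ := hD'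
  refine h𝒟.of_fibreProduct ht ht' htC htK f g pA pB hpA hpB ?_ ?_ ?_ ?_ ?_
  · apply quotient_algHom_ext
    intro σ i j
    simp [f, g, pA, pB]
  · intro x y hxy
    exact mk_eq_of_mk_eq (congrArg Prod.fst hxy) (congrArg Prod.snd hxy)
  · intro a b hab
    obtain ⟨u, rfl⟩ := Ideal.Quotient.mk_surjective a
    obtain ⟨v, rfl⟩ := Ideal.Quotient.mk_surjective b
    have h1 : u - v ∈ J ⊔ J' := by
      rw [← Ideal.Quotient.eq]
      simpa [f, g] using hab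
    obtain ⟨j, hj, j', hj', hjj'⟩ := Submodule.mem_sup.mp h1
    refine ⟨Ideal.Quotient.mk _ (u - j), ?_, ?_⟩
    · simp only [pA, Ideal.Quotient.factorₐ_apply_mk]
      rw [Ideal.Quotient.eq]
      have : u - j - u = -j := by ring
      rw [this]
      exact neg_mem hj
    · simp only [pB, Ideal.Quotient.factorₐ_apply_mk]
      rw [Ideal.Quotient.eq]
      have : u - j - v = j' := by
        have : u - v = j + j' := hjj'.symm
        linear_combination this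
      rw [this]
      exact hj'
  · have e := baseChangeAlong_ofMat (pA : (U 𝒪 ⧸ (J ⊓ J')) →+* (U 𝒪 ⧸ J)) hpA s hcont
    have e2 := ofMat_congr (isContMat_mapMat _ hpA s hcont) hc hsA
    exact h𝒟.of_isEquiv ht (isEquiv_symm (isEquiv_trans e e2)) hDr
  · have e := baseChangeAlong_ofMat (pB : (U 𝒪 ⧸ (J ⊓ J')) →+* (U 𝒪 ⧸ J')) hpB s hcont
    have e2 := ofMat_congr (isContMat_mapMat _ hpB s hcont) hc' hsB
    exact h𝒟.of_isEquiv ht' (isEquiv_symm (isEquiv_trans e e2)) hDr'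

end Inf

section Base

instance isLocalHom_algebraMap_residueField : IsLocalHom (algebraMap 𝒪 (ResidueField 𝒪)) :=
  show IsLocalHom (residue 𝒪) from inferInstance

theorem isArtinianTestAlgebra_residueField : IsArtinianTestAlgebra 𝒪 (ResidueField 𝒪) where
  isLocalHom := inferInstance
  residue_surjective :=
    (residue_surjective (R := ResidueField 𝒪)).comp (residue_surjective (R := 𝒪))
  isArtinian := inferInstance

theorem isLift_rbar (hrbar : GaloisFactorsThroughFiniteLevel rbar) : IsLift rbar rbar := by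
  refine ⟨isContMat_of_factors rbar hrbar, ?_⟩
  ext σ i j
  rw [mapMat_apply, mapMat_apply]
  obtain ⟨o, ho⟩ := residue_surjective (rbar σ i j)
  rw [← ho, ResidueField.map_residue]
  rfl

/-- **(G5)** The maximal ideal `𝔪₀` is good. -/
theorem good_m0 [Finite (ResidueField 𝒪)] (h𝒟 : IsDeformationCondition 𝒪 𝒟)
    (hrbar : GaloisFactorsThroughFiniteLevel rbar)
    (hτ : ∀ a, rbar (c.g a) (c.i a) (c.j a) = residue 𝒪 (c.τ a)) (hD : DMat 𝒟 rbar) :
    Good 𝒟 rbar c (m0 rbar) :=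
  good_ker_evalHom h𝒟 isArtinianTestAlgebra_residueField rbar (isLift_rbar hrbar)
    (fun a => hτ a) hD

/-- The hypothesis `hbar` of S53 in matrix form. -/
theorem dmat_of_hbar (h𝒟 : IsDeformationCondition 𝒪 𝒟)
    (ρbar : ResidualGaloisRep (ResidueField 𝒪)) (hrbar : GaloisFactorsThroughFiniteLevel rbar)
    (e0 : ρbar.IsEquiv (resOfMat rbar hrbar))
    (hbar : 𝒟 (GaloisRepAdic.ofResidualGaloisRep ρbar)) : DMat 𝒟 rbar := by
  obtain ⟨e0⟩ := e0
  refine ⟨isContMat_of_factors rbar hrbar, ?_⟩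
  refine h𝒟.of_isEquiv isArtinianTestAlgebra_residueField ?_ hbar
  exact ⟨{ toLinearEquiv := e0.toLinearEquiv
           map_apply := fun σ x => e0.map_apply σ x }⟩

end Base

end Good

end Fermat.Agent.S53.GoodIdeals
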