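import Fermat.Agent.S53.Universal
import Fermat.Agent.S53.GoodLimit
import Fermat.Agent.S53.GoodIdeals

/-!
# The Artinian fields of `Universal.IsUniversalRigid` for the limit ring of the good ideals

`h : GoodFamily (m0 rbar) (Good 𝒟 rbar c)` is the family of good ideals of the big polynomial
ring `U 𝒪`, `R = GoodLimit.R 𝒪 h` its limit ring and `runiv : GQ →* Mat R` any matrix valued
homomorphism whose entries are the images of the variables.

* `artin_type_of` : every local `𝒪`-algebra map `q : R → B` to an Artinian test algebra pushes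
  `runiv` to a representation of type `𝒟`.
* `artin_versal_of` : every rigid lift of type `𝒟` over an Artinian test algebra `B` is the image
  of `runiv` under an `𝒪`-algebra map `R → B`.
-/

set_option autoImplicit false
set_option linter.unusedSectionVars false

namespace Fermat.Agent.S53.ArtinFields

open IsLocalRing MvPolynomial GaloisRep Fermat.Agent.S53.Dictionary Fermat.Agent.S53.Lifts
  Fermat.Agent.S53.GoodIdeals Fermat.Agent.S53.GoodTower Fermat.Agent.S53.GoodLimit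

variable {𝒪 : Type} [CommRing 𝒪] [IsLocalRing 𝒪] [Finite (ResidueField 𝒪)]
  {𝒟 : ∀ ⦃A : Type⦄ [CommRing A] [IsLocalRing A] [Algebra 𝒪 A], GaloisRepAdic A → Prop}
  {rbar : GQ →* Mat (ResidueField 𝒪)} {c : RigidData 𝒪}
  (h : GoodFamily (m0 rbar) (Good 𝒟 rbar c))
  (hres : ∀ u : U 𝒪, ∃ o : 𝒪, u - algebraMap 𝒪 (U 𝒪) o ∈ m0 rbar)

/-- A local homomorphism maps the maximal ideal into the maximal ideal. -/
theorem map_maximalIdeal_le {A B : Type*} [CommRing A] [IsLocalRing A] [CommRing B]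
    [IsLocalRing B] (q : A →+* B) (hq : IsLocalHom q) :
    (maximalIdeal A).map q ≤ maximalIdeal B := by
  rw [Ideal.map_le_iff_le_comap]
  intro x hx
  rw [Ideal.mem_comap, mem_maximalIdeal, mem_nonunits_iff]
  intro hu
  exact (mem_nonunits_iff.mp ((mem_maximalIdeal _).mp hx)) (hq.map_nonunit _ hu)

/-- A local homomorphism to a ring with `𝔪_B ^ n = 0` kills `𝔪_A ^ n`. -/
theorem pow_le_ker_of_nilpotent {A B : Type*} [CommRing A] [IsLocalRing A] [CommRing B]
    [IsLocalRing B] (q : A →+* B) (hq : IsLocalHom q) {n : ℕ} (hB : maximalIdeal B ^ n = ⊥) :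
    maximalIdeal A ^ n ≤ RingHom.ker q := by
  intro x hx
  have h2 : q x ∈ (maximalIdeal A ^ n).map q := Ideal.mem_map_of_mem _ hx
  rw [Ideal.map_pow] at h2
  have h3 := Ideal.pow_right_mono (map_maximalIdeal_le q hq) n h2
  rw [hB, Ideal.mem_bot] at h3
  exact h3

/-- If `q' ∘ p = q` with `p` surjective and `q` local then `q'` is local. -/
theorem isLocalHom_of_comp_surjective {A A' B : Type*} [CommRing A] [CommRing A'] [CommRing B]
    (p : A →+* A') (hp : Function.Surjective p) (q' : A' →+* B)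
    (hq : IsLocalHom (q'.comp p)) : IsLocalHom q' := by
  constructor
  intro x hx
  obtain ⟨y, rfl⟩ := hp x
  exact (hq.map_nonunit y hx).map p

section Fields

variable [IsLocalRing (R 𝒪 h)] (runiv : GQ →* Mat (R 𝒪 h))
  (hruniv : ∀ σ i j, runiv σ i j = ιU 𝒪 h (X (σ, i, j)))

include hruniv in
/-- The universal matrix maps to the tautological matrix over `U ⧸ I` for every good `I`. -/
theorem ιGood_runiv (I : Ideal (U 𝒪)) (hI : Good 𝒟 rbar c I) (σ : GQ) (i j : Fin 2) :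
    ιGood 𝒪 h I hI (runiv σ i j) = Ideal.Quotient.mk I (X (σ, i, j)) := by
  rw [hruniv, ιGood_ιU]

include hres hruniv in
/-- **Field `artin_type`.** -/
theorem artin_type_of (hcts : IsContMat (R 𝒪 h) runiv) (h𝒟 : IsDeformationCondition 𝒪 𝒟)
    (B : Type) [CommRing B] [IsLocalRing B] [Algebra 𝒪 B] (hB : IsArtinianTestAlgebra 𝒪 B)
    (q : R 𝒪 h →ₐ[𝒪] B) (hq : IsLocalHom (q : R 𝒪 h →+* B)) :
    𝒟 (ofMat (mapMat (q : R 𝒪 h →+* B) runiv) (isContMat_mapMat _ hq _ hcts)) := by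
  have hmax : (m0 rbar).IsMaximal := m0_isMaximal rbar
  -- nilpotency of `𝔪_B`
  obtain ⟨n, hn⟩ := testAlgebra_nilpotent hB
  have hn1 : maximalIdeal B ^ (n + 1) = ⊥ := by rw [pow_succ, hn, Ideal.bot_mul]
  have hne : n + 1 ≠ 0 := Nat.succ_ne_zero n
  have hker : maximalIdeal (R 𝒪 h) ^ (n + 1) ≤ RingHom.ker q.toRingHom :=
    pow_le_ker_of_nilpotent (q : R 𝒪 h →+* B) hq hn1
  obtain ⟨q', hq'⟩ := exists_factor h hmax hres hne q hker
  -- the good ideal at level `n + 1`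
  obtain ⟨hloc, hlh, ht, r, hr, hl, hrig, hD⟩ := tower_good h hne
  have hq'loc : IsLocalHom (q' : U 𝒪 ⧸ tower h (n + 1) →+* B) := by
    refine isLocalHom_of_comp_surjective
      (ιGood 𝒪 h (tower h (n + 1)) (tower_good h hne) : R 𝒪 h →+* U 𝒪 ⧸ tower h (n + 1))
      (ιGood_surjective h _ (tower_good h hne)) _ ?_
    have : (q' : U 𝒪 ⧸ tower h (n + 1) →+* B).comp
        (ιGood 𝒪 h (tower h (n + 1)) (tower_good h hne) : R 𝒪 h →+* U 𝒪 ⧸ tower h (n + 1)) =
        (q : R 𝒪 h →+* B) := by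
      ext x
      exact congrArg (fun f : R 𝒪 h →ₐ[𝒪] B => f x) hq'
    rw [this]
    exact hq
  have heq : mapMat (q : R 𝒪 h →+* B) runiv =
      mapMat (q' : U 𝒪 ⧸ tower h (n + 1) →+* B) r := by
    ext σ i j
    rw [mapMat_apply, mapMat_apply, hr σ, Xmat_apply]
    have := congrArg (fun f : R 𝒪 h →ₐ[𝒪] B => f (runiv σ i j)) hq'
    simp only [AlgHom.comp_apply] at this
    rw [ιGood_runiv h runiv hruniv] at this
    exact this.symm
  obtain ⟨hc', hD'⟩ := hD.map h𝒟 ht hB q' hq'loc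
  have key : ∀ (s : GQ →* Mat B) (hs : IsContMat B s),
      s = mapMat (q' : U 𝒪 ⧸ tower h (n + 1) →+* B) r → 𝒟 (ofMat s hs) := by
    rintro s hs rfl
    exact hD'
  exact key _ _ heq

include hruniv in
/-- **Field `artin_versal`.** -/
theorem artin_versal_of (h𝒟 : IsDeformationCondition 𝒪 𝒟)
    (B : Type) [CommRing B] [IsLocalRing B] [Algebra 𝒪 B] (hB : IsArtinianTestAlgebra 𝒪 B)
    (s : GQ →* Mat B) (hs : IsContMat B s) (hlift : Universal.LiftsRbar rbar B s)
    (hrig : Lifts.IsRigid c s) (hD : 𝒟 (ofMat s hs)) :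
    ∃ φ : R 𝒪 h →ₐ[𝒪] B, mapMat (φ : R 𝒪 h →+* B) runiv = s := by
  have : IsLocalHom (algebraMap 𝒪 B) := hB.isLocalHom
  have hl : Lifts.IsLift rbar s := ⟨hs, (Universal.liftsRbar_iff s).mp hlift⟩
  have hI : Good 𝒟 rbar c (RingHom.ker (GoodIdeals.evalHom (𝒪 := 𝒪) (fun σ => s σ))) :=
    good_ker_evalHom h𝒟 hB s hl hrig ⟨hs, hD⟩
  refine ⟨(Ideal.kerLiftAlg (GoodIdeals.evalHom (𝒪 := 𝒪) (fun σ => s σ))).comp
    (ιGood 𝒪 h _ hI), ?_⟩
  ext σ i j
  rw [mapMat_apply]
  change (Ideal.kerLiftAlg (GoodIdeals.evalHom (𝒪 := 𝒪) (fun σ => s σ)))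
    (ιGood 𝒪 h _ hI (runiv σ i j)) = s σ i j
  rw [ιGood_runiv h runiv hruniv, Ideal.kerLiftAlg_mk, GoodIdeals.evalHom_X]

end Fields

end Fermat.Agent.S53.ArtinFields
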