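import Mathlib
import Fermat.Prelude.Def_GaloisRep_Adic
import Fermat.Prelude.Def_GaloisRep_DeformationCondition

/-!
# Dictionary between adic Galois representations and matrix-valued homomorphisms

Slice (S-c) of the S53 project: `GaloisRepAdic A` (free rank two module with a Galois action)
versus monoid homomorphisms `Gal →* Matrix (Fin 2) (Fin 2) A`.
-/

set_option autoImplicit false

noncomputable section

namespace Fermat.Agent.S53.MatrixLift

open IsLocalRing
open scoped TensorProduct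

/-- The absolute Galois group of `ℚ`. -/
abbrev Gal : Type := AlgebraicClosure ℚ ≃ₐ[ℚ] AlgebraicClosure ℚ

/-- `2 × 2` matrices. -/
abbrev M2 (A : Type) : Type := Matrix (Fin 2) (Fin 2) A

section Generic

variable {A : Type} [CommRing A]

/-- Membership in `I • ⊤` for a finite power of the ring is coordinatewise. -/
theorem mem_smul_top_pi_iff {ι : Type} [Fintype ι] [DecidableEq ι] (I : Ideal A) (v : ι → A) :
    v ∈ I • (⊤ : Submodule A (ι → A)) ↔ ∀ i, v i ∈ I := by
  constructor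
  · intro hv
    refine Submodule.smul_induction_on hv ?_ ?_
    · intro a ha w _ i
      rw [Pi.smul_apply, smul_eq_mul]
      exact I.mul_mem_right _ ha
    · intro x y hx hy i
      rw [Pi.add_apply]
      exact I.add_mem (hx i) (hy i)
  · intro hv
    rw [pi_eq_sum_univ v]
    refine Submodule.sum_mem _ fun i _ => ?_
    exact Submodule.smul_mem_smul (hv i) Submodule.mem_top

/-- A linear equivalence preserves `I • ⊤`. -/
theorem mem_smul_top_iff_of_linearEquiv {V W : Type} [AddCommGroup V] [Module A V]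
    [AddCommGroup W] [Module A W] (e : V ≃ₗ[A] W) (I : Ideal A) (x : V) :
    e x ∈ I • (⊤ : Submodule A W) ↔ x ∈ I • (⊤ : Submodule A V) := by
  have h : (I • (⊤ : Submodule A V)).map (e : V →ₗ[A] W) = I • (⊤ : Submodule A W) := by
    rw [Submodule.map_smul'', Submodule.map_top, LinearMap.range_eq_top.mpr e.surjective]
  rw [← h]
  constructor
  · rintro ⟨y, hy, hyx⟩
    have : y = x := e.injective hyx
    rwa [← this]
  · intro hx
    exact ⟨x, hx, rfl⟩

/-- Coordinates of elements of `I • ⊤` with respect to a basis. -/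
theorem mem_smul_top_iff_repr {ι : Type} [Fintype ι] [DecidableEq ι] {V : Type} [AddCommGroup V]
    [Module A V] (b : Module.Basis ι A V) (I : Ideal A) (x : V) :
    x ∈ I • (⊤ : Submodule A V) ↔ ∀ i, b.repr x i ∈ I := by
  rw [← mem_smul_top_iff_of_linearEquiv b.equivFun, mem_smul_top_pi_iff]
  rfl

end Generic

section MatHom

variable {A : Type} [CommRing A] {Γ : Type} [Monoid Γ]
variable {V : Type} [AddCommGroup V] [Module A V]
variable {W : Type} [AddCommGroup W] [Module A W]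

/-- The matrix-valued homomorphism attached to a representation and a basis. -/
def matHom (b : Module.Basis (Fin 2) A V) (ρ : Γ →* Module.End A V) : Γ →* M2 A :=
  (MonoidHomClass.toMonoidHom (LinearMap.toMatrixAlgEquiv b)).comp ρ

theorem matHom_apply (b : Module.Basis (Fin 2) A V) (ρ : Γ →* Module.End A V) (g : Γ) :
    matHom b ρ g = LinearMap.toMatrix b b (ρ g) := rfl

theorem equivFun_rho (b : Module.Basis (Fin 2) A V) (ρ : Γ →* Module.End A V) (g : Γ) (x : V) :
    b.equivFun (ρ g x) = (matHom b ρ g).mulVec (b.equivFun x) := by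
  rw [matHom_apply, Module.Basis.equivFun_apply, Module.Basis.equivFun_apply,
    LinearMap.toMatrix_mulVec_repr]

/-- The endomorphism-valued homomorphism attached to a matrix-valued one. -/
def linHom (r : Γ →* M2 A) : Γ →* Module.End A (Fin 2 → A) :=
  (MonoidHomClass.toMonoidHom (Matrix.toLinAlgEquiv' (R := A) (n := Fin 2))).comp r

theorem linHom_apply (r : Γ →* M2 A) (g : Γ) (v : Fin 2 → A) :
    linHom r g v = (r g).mulVec v := rfl

theorem matHom_linHom (r : Γ →* M2 A) : matHom (Pi.basisFun A (Fin 2)) (linHom r) = r := by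
  ext g : 1
  rw [matHom_apply, LinearMap.toMatrix_eq_toMatrix']
  exact LinearMap.toMatrix'_toLin' (r g)

/-- An intertwining linear equivalence gives a conjugating matrix. -/
theorem matHom_mul_toMatrix (b₁ : Module.Basis (Fin 2) A V) (b₂ : Module.Basis (Fin 2) A W)
    (ρ₁ : Γ →* Module.End A V) (ρ₂ : Γ →* Module.End A W) (e : V ≃ₗ[A] W)
    (he : ∀ g x, e (ρ₁ g x) = ρ₂ g (e x)) (g : Γ) :
    matHom b₂ ρ₂ g * LinearMap.toMatrix b₁ b₂ (e : V →ₗ[A] W) =
      LinearMap.toMatrix b₁ b₂ (e : V →ₗ[A] W) * matHom b₁ ρ₁ g := by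
  rw [matHom_apply, matHom_apply, ← LinearMap.toMatrix_comp, ← LinearMap.toMatrix_comp]
  congr 1
  ext x
  simp only [LinearMap.comp_apply, LinearEquiv.coe_coe]
  exact (he g x).symm

/-- The matrix of a linear equivalence is a unit. -/
def toMatrixUnit (b₁ : Module.Basis (Fin 2) A V) (b₂ : Module.Basis (Fin 2) A W) (e : V ≃ₗ[A] W) :
    (M2 A)ˣ where
  val := LinearMap.toMatrix b₁ b₂ (e : V →ₗ[A] W)
  inv := LinearMap.toMatrix b₂ b₁ (e.symm : W →ₗ[A] V)
  val_inv := by
    rw [← LinearMap.toMatrix_comp, LinearEquiv.comp_coe, LinearEquiv.symm_trans_self,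
      LinearEquiv.refl_toLinearMap, LinearMap.toMatrix_id]
  inv_val := by
    rw [← LinearMap.toMatrix_comp, LinearEquiv.comp_coe, LinearEquiv.self_trans_symm,
      LinearEquiv.refl_toLinearMap, LinearMap.toMatrix_id]

/-- Isomorphic representations have conjugate matrix homomorphisms. -/
theorem exists_conj_of_intertwine (b₁ : Module.Basis (Fin 2) A V) (b₂ : Module.Basis (Fin 2) A W)
    (ρ₁ : Γ →* Module.End A V) (ρ₂ : Γ →* Module.End A W) (e : V ≃ₗ[A] W)
    (he : ∀ g x, e (ρ₁ g x) = ρ₂ g (e x)) :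
    ∃ P : (M2 A)ˣ, ∀ g,
      matHom b₂ ρ₂ g = (P : M2 A) * matHom b₁ ρ₁ g * ((P⁻¹ : (M2 A)ˣ) : M2 A) := by
  refine ⟨toMatrixUnit b₁ b₂ e, fun g => ?_⟩
  have h := matHom_mul_toMatrix b₁ b₂ ρ₁ ρ₂ e he g
  have h2 : (toMatrixUnit b₁ b₂ e : M2 A) = LinearMap.toMatrix b₁ b₂ (e : V →ₗ[A] W) := rfl
  rw [← h2] at h
  rw [← h, mul_assoc, Units.mul_inv, mul_one]

/-- The linear equivalence of `Fin 2 → A` given by an invertible matrix. -/
def unitLinearEquiv (P : (M2 A)ˣ) : (Fin 2 → A) ≃ₗ[A] (Fin 2 → A) :=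
  Matrix.toLin'OfInv (M := ((P⁻¹ : (M2 A)ˣ) : M2 A)) (M' := (P : M2 A)) P.inv_mul P.mul_inv

theorem unitLinearEquiv_apply (P : (M2 A)ˣ) (v : Fin 2 → A) :
    unitLinearEquiv P v = (P : M2 A).mulVec v := rfl

/-- A conjugating matrix gives an intertwining linear equivalence. -/
def intertwineOfConj (b₁ : Module.Basis (Fin 2) A V) (b₂ : Module.Basis (Fin 2) A W)
    (P : (M2 A)ˣ) : V ≃ₗ[A] W :=
  (b₁.equivFun.trans (unitLinearEquiv P)).trans b₂.equivFun.symm

theorem intertwineOfConj_apply (b₁ : Module.Basis (Fin 2) A V) (b₂ : Module.Basis (Fin 2) A W)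
    (ρ₁ : Γ →* Module.End A V) (ρ₂ : Γ →* Module.End A W) (P : (M2 A)ˣ)
    (h : ∀ g, matHom b₂ ρ₂ g = (P : M2 A) * matHom b₁ ρ₁ g * ((P⁻¹ : (M2 A)ˣ) : M2 A))
    (g : Γ) (x : V) :
    intertwineOfConj b₁ b₂ P (ρ₁ g x) = ρ₂ g (intertwineOfConj b₁ b₂ P x) := by
  apply b₂.equivFun.injective
  rw [equivFun_rho b₂ ρ₂]
  simp only [intertwineOfConj, LinearEquiv.trans_apply, LinearEquiv.apply_symm_apply,
    unitLinearEquiv_apply]
  rw [equivFun_rho b₁ ρ₁, Matrix.mulVec_mulVec, Matrix.mulVec_mulVec, h g, mul_assoc, mul_assoc,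
    Units.inv_mul, mul_one]

/-- Matrices of a base-changed representation in the base-changed basis. -/
theorem matHom_baseChange {B : Type} [CommRing B] [Algebra A B] (b : Module.Basis (Fin 2) A V)
    (ρ : Γ →* Module.End A V) (ρ' : Γ →* Module.End B (B ⊗[A] V))
    (h : ∀ g, ρ' g = (ρ g).baseChange B) (g : Γ) :
    matHom (Algebra.TensorProduct.basis B b) ρ' g = (algebraMap A B).mapMatrix (matHom b ρ g) := by
  rw [matHom_apply, h g, LinearMap.toMatrix_baseChange, matHom_apply]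
  rfl

/-- Conjugate of a matrix-valued homomorphism by an invertible matrix. -/
def conjHom (P : (M2 A)ˣ) (r : Γ →* M2 A) : Γ →* M2 A where
  toFun g := (P : M2 A) * r g * ((P⁻¹ : (M2 A)ˣ) : M2 A)
  map_one' := by rw [map_one, mul_one, Units.mul_inv]
  map_mul' g h := by
    rw [map_mul]
    calc (P : M2 A) * (r g * r h) * ((P⁻¹ : (M2 A)ˣ) : M2 A)
        = (P : M2 A) * r g * (1 : M2 A) * r h * ((P⁻¹ : (M2 A)ˣ) : M2 A) := by
          simp only [mul_one, mul_assoc]
      _ = (P : M2 A) * r g * (((P⁻¹ : (M2 A)ˣ) : M2 A) * (P : M2 A)) * r h *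
            ((P⁻¹ : (M2 A)ˣ) : M2 A) := by rw [Units.inv_mul]
      _ = _ := by simp only [mul_assoc]

theorem conjHom_apply (P : (M2 A)ˣ) (r : Γ →* M2 A) (g : Γ) :
    conjHom P r g = (P : M2 A) * r g * ((P⁻¹ : (M2 A)ˣ) : M2 A) := rfl

/-- Composition of a matrix-valued homomorphism with a ring homomorphism on entries. -/
def mapHom {B : Type} [CommRing B] (φ : A →+* B) (r : Γ →* M2 A) : Γ →* M2 B :=
  (MonoidHomClass.toMonoidHom φ.mapMatrix).comp r

theorem mapHom_apply {B : Type} [CommRing B] (φ : A →+* B) (r : Γ →* M2 A) (g : Γ) :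
    mapHom φ r g = φ.mapMatrix (r g) := rfl

theorem mapHom_apply_apply {B : Type} [CommRing B] (φ : A →+* B) (r : Γ →* M2 A) (g : Γ)
    (i j : Fin 2) : mapHom φ r g i j = φ (r g i j) := rfl

theorem mul_mul_apply_mem (I : Ideal A) (P Q M : M2 A) (hM : ∀ i j, M i j ∈ I) (i j : Fin 2) :
    (P * M * Q) i j ∈ I := by
  rw [Matrix.mul_apply]
  refine Ideal.sum_mem _ fun a _ => Ideal.mul_mem_right _ _ ?_
  rw [Matrix.mul_apply]
  exact Ideal.sum_mem _ fun b _ => Ideal.mul_mem_left _ _ (hM b a)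

theorem sub_one_mulVec_apply (M : M2 A) (v : Fin 2 → A) (i : Fin 2) :
    (M.mulVec v - v) i = ∑ j, (M - 1) i j * v j := by
  rw [Pi.sub_apply, Matrix.mulVec, dotProduct]
  simp only [Matrix.sub_apply, sub_mul, Finset.sum_sub_distrib, Matrix.one_apply, ite_mul,
    one_mul, zero_mul, Finset.sum_ite_eq, Finset.mem_univ, if_true]

end MatHom

section OfMatrix
variable {A : Type} [CommRing A] [IsLocalRing A]

/-- Adic continuity of a matrix-valued homomorphism. -/
def IsAdicCts (r : Gal →* M2 A) : Prop :=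
  ∀ n : ℕ, ∃ L : IntermediateField ℚ (AlgebraicClosure ℚ), FiniteDimensional ℚ L ∧
    ∀ σ : Gal, (∀ x ∈ L, σ x = x) → ∀ i j, (r σ - 1) i j ∈ maximalIdeal A ^ n

/-- The adic Galois representation attached to a continuous matrix-valued homomorphism. -/
def ofMatrix (r : Gal →* M2 A) (hr : IsAdicCts r) : GaloisRepAdic A where
  V := Fin 2 → A
  finrank_eq := by simp
  ρ := linHom r
  isAdicContinuous := by
    intro n
    obtain ⟨L, hL, h⟩ := hr n
    refine ⟨L, hL, fun σ hσ v => ?_⟩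
    rw [mem_smul_top_pi_iff]
    intro i
    rw [linHom_apply, sub_one_mulVec_apply]
    exact Ideal.sum_mem _ fun j _ => Ideal.mul_mem_right _ _ (h σ hσ i j)

/-- The standard basis of `ofMatrix`. -/
def ofMatrixBasis (r : Gal →* M2 A) (hr : IsAdicCts r) :
    Module.Basis (Fin 2) A (ofMatrix r hr).V :=
  Pi.basisFun A (Fin 2)

theorem matHom_ofMatrix (r : Gal →* M2 A) (hr : IsAdicCts r) :
    matHom (ofMatrixBasis r hr) (ofMatrix r hr).ρ = r :=
  matHom_linHom r

/-- The matrix homomorphism of an adic representation in a basis is adically continuous. -/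
theorem isAdicCts_matHom (ρ : GaloisRepAdic A) (b : Module.Basis (Fin 2) A ρ.V) :
    IsAdicCts (matHom b ρ.ρ) := by
  intro n
  obtain ⟨L, hL, h⟩ := ρ.isAdicContinuous n
  refine ⟨L, hL, fun σ hσ i j => ?_⟩
  have h1 := (mem_smul_top_iff_repr b _ _).mp (h σ hσ (b j)) i
  rw [Matrix.sub_apply, matHom_apply, LinearMap.toMatrix_apply, Matrix.one_apply]
  rw [map_sub, Finsupp.sub_apply, Module.Basis.repr_self, Finsupp.single_apply] at h1
  by_cases hij : i = j
  · rw [if_pos hij]; rw [if_pos hij.symm] at h1; exact h1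
  · rw [if_neg hij]; rw [if_neg (Ne.symm hij)] at h1; exact h1

/-- Every adic representation is equivalent to the one given by its matrices in a basis. -/
def equivOfMatrix (ρ : GaloisRepAdic A) (b : Module.Basis (Fin 2) A ρ.V) :
    GaloisRepAdic.Equiv ρ (ofMatrix (matHom b ρ.ρ) (isAdicCts_matHom ρ b)) where
  toLinearEquiv := b.equivFun
  map_apply σ x := by
    change b.equivFun (ρ.ρ σ x) = (matHom b ρ.ρ σ).mulVec (b.equivFun x)
    exact equivFun_rho b ρ.ρ σ x

/-- A basis of the underlying module of an adic representation. -/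
def stdBasis (ρ : GaloisRepAdic A) : Module.Basis (Fin 2) A ρ.V :=
  Module.finBasisOfFinrankEq A ρ.V ρ.finrank_eq

theorem exists_ofMatrix_isEquiv (ρ : GaloisRepAdic A) :
    ∃ (r : Gal →* M2 A) (hr : IsAdicCts r), ρ.IsEquiv (ofMatrix r hr) :=
  ⟨_, _, ⟨equivOfMatrix ρ (stdBasis ρ)⟩⟩

/-- Equal matrix homomorphisms give equivalent representations. -/
def ofMatrixCongr {r r' : Gal →* M2 A} (h : r = r') (hr : IsAdicCts r) (hr' : IsAdicCts r') :
    GaloisRepAdic.Equiv (ofMatrix r hr) (ofMatrix r' hr') := by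
  subst h
  exact GaloisRepAdic.Equiv.refl _

/-- Conjugation preserves adic continuity. -/
theorem IsAdicCts.conj {r : Gal →* M2 A} (hr : IsAdicCts r) (P : (M2 A)ˣ) :
    IsAdicCts (conjHom P r) := by
  intro n
  obtain ⟨L, hL, h⟩ := hr n
  refine ⟨L, hL, fun σ hσ i j => ?_⟩
  have : conjHom P r σ - 1 = (P : M2 A) * (r σ - 1) * ((P⁻¹ : (M2 A)ˣ) : M2 A) := by
    rw [conjHom_apply, mul_sub, sub_mul, mul_one, Units.mul_inv]
  rw [this]
  exact mul_mul_apply_mem _ _ _ _ (h σ hσ) i j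

/-- Entrywise ring homomorphisms that are local preserve adic continuity. -/
theorem IsAdicCts.map {B : Type} [CommRing B] [IsLocalRing B] {r : Gal →* M2 A}
    (hr : IsAdicCts r) (φ : A →+* B) (hφ : IsLocalHom φ) : IsAdicCts (mapHom φ r) := by
  intro n
  obtain ⟨L, hL, h⟩ := hr n
  refine ⟨L, hL, fun σ hσ i j => ?_⟩
  have hmap : (maximalIdeal A ^ n).map φ ≤ maximalIdeal B ^ n := by
    rw [Ideal.map_pow]
    exact Ideal.pow_right_mono (Ideal.map_le_iff_le_comap.mpr fun a ha =>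
      Ideal.mem_comap.mpr (haveI := hφ; map_nonunit φ a ha)) n
  have : (mapHom φ r σ - 1) i j = φ ((r σ - 1) i j) := by
    rw [Matrix.sub_apply, Matrix.sub_apply, mapHom_apply_apply, map_sub, Matrix.one_apply,
      Matrix.one_apply]
    split_ifs <;> simp
  rw [this]
  exact hmap (Ideal.mem_map_of_mem φ (h σ hσ i j))

omit [IsLocalRing A] in
theorem conj_mulVec (P : (M2 A)ˣ) (r : Gal →* M2 A) (σ : Gal) (x : Fin 2 → A) :
    (P : M2 A).mulVec ((r σ).mulVec x) = (conjHom P r σ).mulVec ((P : M2 A).mulVec x) := by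
  rw [Matrix.mulVec_mulVec, Matrix.mulVec_mulVec, conjHom_apply, mul_assoc, Units.inv_mul,
    mul_one]

/-- Conjugate matrix homomorphisms give equivalent representations. -/
def equivOfConj (r : Gal →* M2 A) (hr : IsAdicCts r) (P : (M2 A)ˣ) :
    GaloisRepAdic.Equiv (ofMatrix r hr) (ofMatrix (conjHom P r) (hr.conj P)) where
  toLinearEquiv := unitLinearEquiv P
  map_apply σ x := conj_mulVec P r σ x

/-- Equivalent representations have conjugate matrix homomorphisms (in any bases). -/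
theorem exists_conj_of_isEquiv {ρ₁ ρ₂ : GaloisRepAdic A} (h : ρ₁.IsEquiv ρ₂)
    (b₁ : Module.Basis (Fin 2) A ρ₁.V) (b₂ : Module.Basis (Fin 2) A ρ₂.V) :
    ∃ P : (M2 A)ˣ, matHom b₂ ρ₂.ρ = conjHom P (matHom b₁ ρ₁.ρ) := by
  obtain ⟨e⟩ := h
  obtain ⟨P, hP⟩ := exists_conj_of_intertwine b₁ b₂ ρ₁.ρ ρ₂.ρ e.toLinearEquiv e.map_apply
  exact ⟨P, MonoidHom.ext hP⟩

/-- `ofMatrix` representations are equivalent iff the matrix homomorphisms are conjugate. -/
theorem ofMatrix_isEquiv_iff (r r' : Gal →* M2 A) (hr : IsAdicCts r) (hr' : IsAdicCts r') :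
    (ofMatrix r hr).IsEquiv (ofMatrix r' hr') ↔ ∃ P : (M2 A)ˣ, r' = conjHom P r := by
  constructor
  · intro h
    obtain ⟨P, hP⟩ := exists_conj_of_isEquiv h (ofMatrixBasis r hr) (ofMatrixBasis r' hr')
    rw [matHom_ofMatrix, matHom_ofMatrix] at hP
    exact ⟨P, hP⟩
  · rintro ⟨P, rfl⟩
    exact ⟨equivOfConj r hr P⟩

end OfMatrix

section BaseChange

variable {A : Type} [CommRing A] [IsLocalRing A] {B : Type} [CommRing B] [IsLocalRing B]

/-- The base-changed basis. -/
def baseChangeBasis (ρ : GaloisRepAdic A) (φ : A →+* B) (hφ : IsLocalHom φ)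
    (b : Module.Basis (Fin 2) A ρ.V) : Module.Basis (Fin 2) B (ρ.baseChangeAlong φ hφ).V :=
  letI : Algebra A B := φ.toAlgebra
  Algebra.TensorProduct.basis B b

theorem matHom_baseChangeAlong (ρ : GaloisRepAdic A) (φ : A →+* B) (hφ : IsLocalHom φ)
    (b : Module.Basis (Fin 2) A ρ.V) :
    matHom (baseChangeBasis ρ φ hφ b) (ρ.baseChangeAlong φ hφ).ρ = mapHom φ (matHom b ρ.ρ) := by
  let _ : Algebra A B := φ.toAlgebra
  ext σ : 1
  exact matHom_baseChange b ρ.ρ (ρ.baseChangeAlong φ hφ).ρ (fun _ => rfl) σ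

/-- Base change of `ofMatrix` is `ofMatrix` of the entrywise image. -/
def equivBaseChangeOfMatrix (r : Gal →* M2 A) (hr : IsAdicCts r) (φ : A →+* B)
    (hφ : IsLocalHom φ) :
    GaloisRepAdic.Equiv ((ofMatrix r hr).baseChangeAlong φ hφ)
      (ofMatrix (mapHom φ r) (hr.map φ hφ)) :=
  (equivOfMatrix ((ofMatrix r hr).baseChangeAlong φ hφ)
    (baseChangeBasis (ofMatrix r hr) φ hφ (ofMatrixBasis r hr))).trans
    (ofMatrixCongr (by rw [matHom_baseChangeAlong, matHom_ofMatrix]) _ _)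

/-- The basis of the residual representation induced by a basis. -/
def residualBasis (ρ : GaloisRepAdic A) (b : Module.Basis (Fin 2) A ρ.V) :
    Module.Basis (Fin 2) (ResidueField A) ρ.residual.V :=
  Algebra.TensorProduct.basis (ResidueField A) b

theorem matHom_residual (ρ : GaloisRepAdic A) (b : Module.Basis (Fin 2) A ρ.V) :
    matHom (residualBasis ρ b) ρ.residual.ρ = mapHom (residue A) (matHom b ρ.ρ) := by
  ext σ : 1
  exact matHom_baseChange b ρ.ρ ρ.residual.ρ (fun _ => rfl) σ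

variable {k k' : Type} [Field k] [Field k']

/-- The base-changed basis of a residual representation. -/
def resBaseChangeBasis (ρ : ResidualGaloisRep k) (κ : k →+* k')
    (b : Module.Basis (Fin 2) k ρ.V) : Module.Basis (Fin 2) k' (ρ.baseChangeAlong κ).V :=
  letI : Algebra k k' := κ.toAlgebra
  Algebra.TensorProduct.basis k' b

theorem matHom_resBaseChangeAlong (ρ : ResidualGaloisRep k) (κ : k →+* k')
    (b : Module.Basis (Fin 2) k ρ.V) :
    matHom (resBaseChangeBasis ρ κ b) (ρ.baseChangeAlong κ).ρ = mapHom κ (matHom b ρ.ρ) := by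
  let _ : Algebra k k' := κ.toAlgebra
  ext σ : 1
  exact matHom_baseChange b ρ.ρ (ρ.baseChangeAlong κ).ρ (fun _ => rfl) σ

end BaseChange

section Lift

variable {A : Type} [CommRing A] [IsLocalRing A]

/-- Invertible matrices over the residue field lift to invertible matrices. -/
theorem exists_unit_lift (Pbar : (M2 (ResidueField A))ˣ) :
    ∃ P : (M2 A)ˣ, (residue A).mapMatrix (P : M2 A) = (Pbar : M2 (ResidueField A)) := by
  choose f hf using fun i j => residue_surjective (R := A) ((Pbar : M2 (ResidueField A)) i j)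
  let P0 : M2 A := Matrix.of f
  have hP0 : (residue A).mapMatrix P0 = (Pbar : M2 (ResidueField A)) := by
    ext i j
    exact hf i j
  have hdet : IsUnit P0.det := by
    have h1 : (residue A) P0.det = ((Pbar : M2 (ResidueField A))).det := by
      rw [RingHom.map_det, hP0]
    have h2 : IsUnit ((residue A) P0.det) := by
      rw [h1]
      exact (Matrix.isUnit_iff_isUnit_det _).mp Pbar.isUnit
    exact isUnit_of_map_unit (residue A) _ h2
  obtain ⟨P, hP⟩ := (Matrix.isUnit_iff_isUnit_det P0).mpr hdet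
  exact ⟨P, by rw [hP, hP0]⟩

omit [IsLocalRing A] in
theorem mapHom_conjHom {B : Type} [CommRing B] {Γ : Type} [Monoid Γ] (φ : A →+* B) (P : (M2 A)ˣ)
    (r : Γ →* M2 A) :
    mapHom φ (conjHom P r) = conjHom (Units.map (MonoidHomClass.toMonoidHom φ.mapMatrix) P)
      (mapHom φ r) := by
  ext g : 1
  rw [mapHom_apply, conjHom_apply, conjHom_apply, map_mul, map_mul, mapHom_apply]
  rfl

variable {k : Type} [Field k]

/-- **Normalised matrix lift.** If the residual representation of `ρ` is equivalent to the base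
change of `ρbar`, then `ρ` is equivalent to `ofMatrix r` for a matrix homomorphism `r` reducing
exactly to the matrices of `ρbar` in the given basis. -/
theorem exists_lift_of_residual_isEquiv (ρ : GaloisRepAdic A) (ρbar : ResidualGaloisRep k)
    (bbar : Module.Basis (Fin 2) k ρbar.V) (κ : k →+* ResidueField A)
    (h : ρ.residual.IsEquiv (ρbar.baseChangeAlong κ)) :
    ∃ (r : Gal →* M2 A) (hr : IsAdicCts r), ρ.IsEquiv (ofMatrix r hr) ∧
      mapHom (residue A) r = mapHom κ (matHom bbar ρbar.ρ) := by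
  obtain ⟨e⟩ := h
  obtain ⟨Pbar, hPbar⟩ := exists_conj_of_intertwine (residualBasis ρ (stdBasis ρ))
    (resBaseChangeBasis ρbar κ bbar) ρ.residual.ρ (ρbar.baseChangeAlong κ).ρ e.toLinearEquiv
    e.map_apply
  obtain ⟨P, hP⟩ := exists_unit_lift Pbar
  refine ⟨conjHom P (matHom (stdBasis ρ) ρ.ρ), (isAdicCts_matHom ρ (stdBasis ρ)).conj P,
    ⟨(equivOfMatrix ρ (stdBasis ρ)).trans (equivOfConj _ _ P)⟩, ?_⟩
  rw [mapHom_conjHom, ← matHom_residual, ← matHom_resBaseChangeAlong]
  have hU : Units.map (MonoidHomClass.toMonoidHom (residue A).mapMatrix) P = Pbar :=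
    Units.ext hP
  rw [hU]
  exact (MonoidHom.ext hPbar).symm

/-- Conversely, a matrix lift of `ρbar` has residual representation equivalent to the base change
of `ρbar`. -/
theorem residual_isEquiv_of_lift (r : Gal →* M2 A) (hr : IsAdicCts r)
    (ρbar : ResidualGaloisRep k) (bbar : Module.Basis (Fin 2) k ρbar.V)
    (κ : k →+* ResidueField A)
    (h : mapHom (residue A) r = mapHom κ (matHom bbar ρbar.ρ)) :
    (ofMatrix r hr).residual.IsEquiv (ρbar.baseChangeAlong κ) := by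
  have hconj : ∀ g, matHom (resBaseChangeBasis ρbar κ bbar) (ρbar.baseChangeAlong κ).ρ g =
      ((1 : (M2 (ResidueField A))ˣ) : M2 (ResidueField A)) *
        matHom (residualBasis (ofMatrix r hr) (ofMatrixBasis r hr)) (ofMatrix r hr).residual.ρ g *
        (((1 : (M2 (ResidueField A))ˣ)⁻¹ : (M2 (ResidueField A))ˣ) : M2 (ResidueField A)) := by
    intro g
    rw [matHom_resBaseChangeAlong, matHom_residual, matHom_ofMatrix, h]
    simp
  exact ⟨{ toLinearEquiv := intertwineOfConj _ _ 1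
           map_apply := intertwineOfConj_apply _ _ _ _ 1 hconj }⟩

end Lift

section Condition

variable {𝒪 : Type} [CommRing 𝒪]
variable {𝒟 : ∀ ⦃A : Type⦄ [CommRing A] [IsLocalRing A] [Algebra 𝒪 A], GaloisRepAdic A → Prop}
variable {A : Type} [CommRing A] [IsLocalRing A] [Algebra 𝒪 A]
variable {B : Type} [CommRing B] [IsLocalRing B] [Algebra 𝒪 B]

theorem cond_iff_of_isEquiv (h𝒟 : GaloisRep.IsDeformationCondition 𝒪 𝒟)
    (hA : GaloisRep.IsArtinianTestAlgebra 𝒪 A) {ρ ρ' : GaloisRepAdic A} (h : ρ.IsEquiv ρ') :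
    𝒟 ρ ↔ 𝒟 ρ' :=
  ⟨h𝒟.of_isEquiv hA h, h𝒟.of_isEquiv hA (h.elim fun e => ⟨e.symm⟩)⟩

theorem cond_ofMatrix_matHom_iff (h𝒟 : GaloisRep.IsDeformationCondition 𝒪 𝒟)
    (hA : GaloisRep.IsArtinianTestAlgebra 𝒪 A) (ρ : GaloisRepAdic A)
    (b : Module.Basis (Fin 2) A ρ.V) :
    𝒟 (ofMatrix (matHom b ρ.ρ) (isAdicCts_matHom ρ b)) ↔ 𝒟 ρ :=
  (cond_iff_of_isEquiv h𝒟 hA ⟨equivOfMatrix ρ b⟩).symm

theorem cond_conj_iff (h𝒟 : GaloisRep.IsDeformationCondition 𝒪 𝒟)
    (hA : GaloisRep.IsArtinianTestAlgebra 𝒪 A) (r : Gal →* M2 A) (hr : IsAdicCts r)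
    (P : (M2 A)ˣ) :
    𝒟 (ofMatrix (conjHom P r) (hr.conj P)) ↔ 𝒟 (ofMatrix r hr) :=
  (cond_iff_of_isEquiv h𝒟 hA ⟨equivOfConj r hr P⟩).symm

theorem cond_mapHom (h𝒟 : GaloisRep.IsDeformationCondition 𝒪 𝒟)
    (hA : GaloisRep.IsArtinianTestAlgebra 𝒪 A) (hB : GaloisRep.IsArtinianTestAlgebra 𝒪 B)
    (φ : A →ₐ[𝒪] B) (hφ : IsLocalHom (φ : A →+* B)) (r : Gal →* M2 A) (hr : IsAdicCts r)
    (h : 𝒟 (ofMatrix r hr)) :
    𝒟 (ofMatrix (mapHom (φ : A →+* B) r) (hr.map _ hφ)) :=
  h𝒟.of_isEquiv hB ⟨equivBaseChangeOfMatrix r hr _ hφ⟩ (h𝒟.baseChangeAlong hA hB φ hφ h)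

theorem cond_of_mapHom_injective (h𝒟 : GaloisRep.IsDeformationCondition 𝒪 𝒟)
    (hA : GaloisRep.IsArtinianTestAlgebra 𝒪 A) (hB : GaloisRep.IsArtinianTestAlgebra 𝒪 B)
    (φ : A →ₐ[𝒪] B) (hφ : IsLocalHom (φ : A →+* B)) (hinj : Function.Injective φ)
    (r : Gal →* M2 A) (hr : IsAdicCts r)
    (h : 𝒟 (ofMatrix (mapHom (φ : A →+* B) r) (hr.map _ hφ))) :
    𝒟 (ofMatrix r hr) :=
  h𝒟.of_baseChangeAlong_injective hA hB φ hφ hinj
    (h𝒟.of_isEquiv hB ⟨(equivBaseChangeOfMatrix r hr _ hφ).symm⟩ h)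

theorem cond_of_fibreProduct (h𝒟 : GaloisRep.IsDeformationCondition 𝒪 𝒟)
    {C P : Type} [CommRing C] [IsLocalRing C] [Algebra 𝒪 C] [CommRing P] [IsLocalRing P]
    [Algebra 𝒪 P]
    (hA : GaloisRep.IsArtinianTestAlgebra 𝒪 A) (hB : GaloisRep.IsArtinianTestAlgebra 𝒪 B)
    (hC : GaloisRep.IsArtinianTestAlgebra 𝒪 C) (hP : GaloisRep.IsArtinianTestAlgebra 𝒪 P)
    (f : A →ₐ[𝒪] C) (g : B →ₐ[𝒪] C) (pA : P →ₐ[𝒪] A) (pB : P →ₐ[𝒪] B)
    (hpA : IsLocalHom (pA : P →+* A)) (hpB : IsLocalHom (pB : P →+* B))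
    (hcomm : f.comp pA = g.comp pB)
    (hinj : Function.Injective (fun x => (pA x, pB x)))
    (hsurj : ∀ a b, f a = g b → ∃ x, pA x = a ∧ pB x = b)
    (r : Gal →* M2 P) (hr : IsAdicCts r)
    (h1 : 𝒟 (ofMatrix (mapHom (pA : P →+* A) r) (hr.map _ hpA)))
    (h2 : 𝒟 (ofMatrix (mapHom (pB : P →+* B) r) (hr.map _ hpB))) :
    𝒟 (ofMatrix r hr) :=
  h𝒟.of_fibreProduct hA hB hC hP f g pA pB hpA hpB hcomm hinj hsurj
    (h𝒟.of_isEquiv hA ⟨(equivBaseChangeOfMatrix r hr _ hpA).symm⟩ h1)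
    (h𝒟.of_isEquiv hB ⟨(equivBaseChangeOfMatrix r hr _ hpB).symm⟩ h2)

/-- Invariance of a deformation condition under equivalence, over complete Noetherian local
algebras (reduction to Artinian quotients). -/
theorem cond_iff_of_isEquiv_complete (h𝒟 : GaloisRep.IsDeformationCondition 𝒪 𝒟)
    [IsNoetherianRing A] [IsAdicComplete (maximalIdeal A) A]
    (hloc : IsLocalHom (algebraMap 𝒪 A))
    (hres : Function.Surjective (IsLocalRing.residue A ∘ algebraMap 𝒪 A))
    {ρ ρ' : GaloisRepAdic A} (h : ρ.IsEquiv ρ') : 𝒟 ρ ↔ 𝒟 ρ' := by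
  obtain ⟨e⟩ := h
  rw [h𝒟.iff_forall_surjective hloc hres ρ, h𝒟.iff_forall_surjective hloc hres ρ']
  constructor
  · intro H C _ _ _ hC q hq hqs
    exact h𝒟.of_isEquiv hC ⟨e.baseChangeAlong _ hq⟩ (H hC q hq hqs)
  · intro H C _ _ _ hC q hq hqs
    exact h𝒟.of_isEquiv hC ⟨(e.baseChangeAlong _ hq).symm⟩ (H hC q hq hqs)

end Condition

section Continuity

variable {A : Type} [CommRing A] [IsLocalRing A]

/-- A matrix homomorphism which is trivial on an open subgroup is adically continuous. -/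
theorem isAdicCts_of_finiteLevel (r : Gal →* M2 A)
    (h : ∃ L : IntermediateField ℚ (AlgebraicClosure ℚ), FiniteDimensional ℚ L ∧
      ∀ σ : Gal, (∀ x ∈ L, σ x = x) → r σ = 1) : IsAdicCts r := by
  obtain ⟨L, hL, h1⟩ := h
  intro n
  refine ⟨L, hL, fun σ hσ i j => ?_⟩
  rw [h1 σ hσ, sub_self]
  exact Ideal.zero_mem _

/-- Over a local ring with nilpotent maximal ideal, adic continuity means factoring through a
finite level. -/
theorem isAdicCts_iff_finiteLevel {N : ℕ} (hN : maximalIdeal A ^ N = ⊥) (r : Gal →* M2 A) :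
    IsAdicCts r ↔ ∃ L : IntermediateField ℚ (AlgebraicClosure ℚ), FiniteDimensional ℚ L ∧
      ∀ σ : Gal, (∀ x ∈ L, σ x = x) → r σ = 1 := by
  refine ⟨fun h => ?_, isAdicCts_of_finiteLevel r⟩
  obtain ⟨L, hL, h1⟩ := h N
  refine ⟨L, hL, fun σ hσ => ?_⟩
  ext i j
  have := h1 σ hσ i j
  rw [hN, Ideal.mem_bot, Matrix.sub_apply, sub_eq_zero] at this
  exact this

/-- Adic continuity can be tested on the reductions modulo powers of the maximal ideal. -/
theorem isAdicCts_iff_forall_quotient (r : Gal →* M2 A) :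
    IsAdicCts r ↔ ∀ n : ℕ, ∃ L : IntermediateField ℚ (AlgebraicClosure ℚ),
      FiniteDimensional ℚ L ∧ ∀ σ : Gal, (∀ x ∈ L, σ x = x) →
        mapHom (Ideal.Quotient.mk (maximalIdeal A ^ n)) r σ = 1 := by
  refine forall_congr' fun n => exists_congr fun L => and_congr_right fun _ =>
    forall_congr' fun σ => forall_congr' fun _ => ?_
  constructor
  · intro h
    ext i j
    rw [mapHom_apply_apply, Matrix.one_apply]
    have := h i j
    rw [Matrix.sub_apply, Matrix.one_apply, ← Ideal.Quotient.eq] at this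
    rw [this]
    split_ifs <;> simp
  · intro h i j
    have := congrFun (congrFun h i) j
    rw [mapHom_apply_apply, Matrix.one_apply] at this
    rw [Matrix.sub_apply, Matrix.one_apply, ← Ideal.Quotient.eq, this]
    split_ifs <;> simp

end Continuity

end Fermat.Agent.S53.MatrixLift
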