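import Mathlib
import Fermat.Agent.S53.Defs
import Fermat.Agent.S53.MatrixLift

/-!
# Slice (S-c) of S53 over the shared definitions of `Fermat.Agent.S53.Defs`

Dictionary statements (`D3`, `D4`, `D6`) phrased with `Fermat.Agent.S53.ofMatrix`,
`Fermat.Agent.S53.IsAdicCts`, `Setup.IsLift`, `Setup.IsRigid`.
The entrywise image `mapHom φ r`, the conjugate `conjHom P r` and the matrix form
`matHom b ρ` are the ones of `Fermat.Agent.S53.MatrixLift`.
-/

set_option autoImplicit false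

noncomputable section

namespace Fermat.Agent.S53.Bridge

open IsLocalRing
open Fermat.Agent.S53.MatrixLift (mapHom conjHom matHom mapHom_apply mapHom_apply_apply
  conjHom_apply)

section Basic

variable {A : Type} [CommRing A] [IsLocalRing A]

/-- The two notions of adic continuity agree. -/
theorem isAdicCts_iff (r : Gal →* M2 A) :
    Fermat.Agent.S53.IsAdicCts r ↔ Fermat.Agent.S53.MatrixLift.IsAdicCts r := Iff.rfl

/-- The two `ofMatrix` constructions are equivalent (identity on `Fin 2 → A`). -/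
def equivDefs (r : Gal →* M2 A) (hr : IsAdicCts r) :
    GaloisRepAdic.Equiv (ofMatrix r hr)
      (Fermat.Agent.S53.MatrixLift.ofMatrix r ((isAdicCts_iff r).mp hr)) where
  toLinearEquiv := LinearEquiv.refl A (Fin 2 → A)
  map_apply _ _ := rfl

theorem isEquiv_symm {ρ ρ' : GaloisRepAdic A} (h : ρ.IsEquiv ρ') : ρ'.IsEquiv ρ :=
  h.elim fun e => ⟨e.symm⟩

theorem isEquiv_trans {ρ ρ' ρ'' : GaloisRepAdic A} (h : ρ.IsEquiv ρ') (h' : ρ'.IsEquiv ρ'') :
    ρ.IsEquiv ρ'' :=
  h.elim fun e => h'.elim fun e' => ⟨e.trans e'⟩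

theorem isEquiv_refl (ρ : GaloisRepAdic A) : ρ.IsEquiv ρ := ⟨GaloisRepAdic.Equiv.refl ρ⟩

/-- **D2.** Every adic representation is equivalent to some `ofMatrix r hr`. -/
theorem exists_ofMatrix_isEquiv (ρ : GaloisRepAdic A) :
    ∃ (r : Gal →* M2 A) (hr : IsAdicCts r), ρ.IsEquiv (ofMatrix r hr) := by
  obtain ⟨r, hr, h⟩ := Fermat.Agent.S53.MatrixLift.exists_ofMatrix_isEquiv ρ
  exact ⟨r, hr, isEquiv_trans h ⟨(equivDefs r hr).symm⟩⟩

/-- Conjugation preserves adic continuity. -/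
theorem isAdicCts_conjHom {r : Gal →* M2 A} (hr : IsAdicCts r) (P : (M2 A)ˣ) :
    IsAdicCts (conjHom P r) :=
  Fermat.Agent.S53.MatrixLift.IsAdicCts.conj hr P

/-- Entrywise image under a local ring homomorphism preserves adic continuity. -/
theorem isAdicCts_mapHom {B : Type} [CommRing B] [IsLocalRing B] {r : Gal →* M2 A}
    (hr : IsAdicCts r) (φ : A →+* B) (hφ : IsLocalHom φ) : IsAdicCts (mapHom φ r) :=
  Fermat.Agent.S53.MatrixLift.IsAdicCts.map hr φ hφ

/-- **D3 (conjugate form).** -/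
theorem ofMatrix_isEquiv_iff_conj (r r' : Gal →* M2 A) (hr : IsAdicCts r) (hr' : IsAdicCts r') :
    (ofMatrix r hr).IsEquiv (ofMatrix r' hr') ↔ ∃ P : (M2 A)ˣ, r' = conjHom P r := by
  rw [← Fermat.Agent.S53.MatrixLift.ofMatrix_isEquiv_iff r r' hr hr']
  constructor
  · intro h
    exact isEquiv_trans (isEquiv_trans ⟨(equivDefs r hr).symm⟩ h) ⟨equivDefs r' hr'⟩
  · intro h
    exact isEquiv_trans (isEquiv_trans ⟨equivDefs r hr⟩ h) ⟨(equivDefs r' hr').symm⟩

/-- **D3 (intertwiner form).** -/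
theorem ofMatrix_isEquiv_iff (r r' : Gal →* M2 A) (hr : IsAdicCts r) (hr' : IsAdicCts r') :
    (ofMatrix r hr).IsEquiv (ofMatrix r' hr') ↔
      ∃ N : (M2 A)ˣ, ∀ σ, (N : M2 A) * r σ = r' σ * (N : M2 A) := by
  rw [ofMatrix_isEquiv_iff_conj]
  constructor
  · rintro ⟨P, rfl⟩
    refine ⟨P, fun σ => ?_⟩
    rw [conjHom_apply, mul_assoc, mul_assoc, Units.inv_mul, mul_one]
  · rintro ⟨N, hN⟩
    refine ⟨N, MonoidHom.ext fun σ => ?_⟩
    rw [conjHom_apply, hN σ, mul_assoc, Units.mul_inv, mul_one]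

/-- Conjugate matrix homomorphisms give equivalent representations. -/
theorem ofMatrix_isEquiv_conjHom (r : Gal →* M2 A) (hr : IsAdicCts r) (P : (M2 A)ˣ) :
    (ofMatrix r hr).IsEquiv (ofMatrix (conjHom P r) (isAdicCts_conjHom hr P)) :=
  (ofMatrix_isEquiv_iff_conj r _ hr _).mpr ⟨P, rfl⟩

/-- **D4.** Base change of `ofMatrix r` is `ofMatrix` of the entrywise image. -/
theorem baseChangeAlong_ofMatrix_isEquiv {B : Type} [CommRing B] [IsLocalRing B]
    (r : Gal →* M2 A) (hr : IsAdicCts r) (φ : A →+* B) (hφ : IsLocalHom φ) :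
    ((ofMatrix r hr).baseChangeAlong φ hφ).IsEquiv
      (ofMatrix (mapHom φ r) (isAdicCts_mapHom hr φ hφ)) :=
  isEquiv_trans ⟨(equivDefs r hr).baseChangeAlong φ hφ⟩
    (isEquiv_trans ⟨Fermat.Agent.S53.MatrixLift.equivBaseChangeOfMatrix r hr φ hφ⟩
      ⟨(equivDefs _ (isAdicCts_mapHom hr φ hφ)).symm⟩)

end Basic

section Setup

variable {𝒪 : Type} [CommRing 𝒪] [IsLocalRing 𝒪] (S : Setup 𝒪)
variable {A : Type} [CommRing A] [IsLocalRing A] [Algebra 𝒪 A]
variable {B : Type} [CommRing B] [IsLocalRing B] [Algebra 𝒪 B]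

/-- `IsLift` means: the reduction of `r` is the image of `rbar` in the residue field of `A`. -/
theorem isLift_iff [IsLocalHom (algebraMap 𝒪 A)] (r : Gal →* M2 A) :
    S.IsLift r ↔ mapHom (residue A) r = mapHom (ResidueField.map (algebraMap 𝒪 A)) S.rbar := by
  constructor
  · intro h
    ext σ i j
    rw [mapHom_apply_apply, mapHom_apply_apply, ← S.rtil_spec σ i j, ResidueField.map_residue]
    have := h σ i j
    rwa [← Ideal.Quotient.eq] at this
  · intro h σ i j
    have h1 := congrFun (congrFun (DFunLike.congr_fun h σ) i) j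
    rw [mapHom_apply_apply, mapHom_apply_apply, ← S.rtil_spec σ i j,
      ResidueField.map_residue] at h1
    exact Ideal.Quotient.eq.mp h1

/-- `IsLift` is preserved by local `𝒪`-algebra homomorphisms. -/
theorem isLift_mapHom {r : Gal →* M2 A} (h : S.IsLift r) (φ : A →ₐ[𝒪] B)
    (hφ : IsLocalHom (φ : A →+* B)) : S.IsLift (mapHom (φ : A →+* B) r) := by
  intro σ i j
  have h1 : mapHom (φ : A →+* B) r σ i j - algebraMap 𝒪 B (S.rtil σ i j) =
      φ (r σ i j - algebraMap 𝒪 A (S.rtil σ i j)) := by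
    rw [map_sub, AlgHom.commutes]
    rfl
  rw [h1]
  exact (haveI := hφ; map_nonunit (φ : A →+* B) _ (h σ i j))

omit [IsLocalRing A] [IsLocalRing B] in
/-- `IsRigid` is preserved by `𝒪`-algebra homomorphisms. -/
theorem isRigid_mapHom {r : Gal →* M2 A} (h : S.IsRigid r) (φ : A →ₐ[𝒪] B) :
    S.IsRigid (mapHom (φ : A →+* B) r) := by
  intro a
  rw [mapHom_apply_apply, h a]
  exact φ.commutes _

/-- Conjugation by a matrix congruent to `1` preserves `IsLift`. -/
theorem isLift_conjHom {r : Gal →* M2 A} (h : S.IsLift r) (P : (M2 A)ˣ)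
    (hP : ∀ i j, ((P : M2 A) - 1) i j ∈ maximalIdeal A) : S.IsLift (conjHom P r) := by
  intro σ i j
  -- `P r P⁻¹ - r = (P - 1) r P⁻¹ - r (P - 1) P⁻¹`
  have key : conjHom P r σ - r σ =
      ((P : M2 A) - 1) * r σ * ((P⁻¹ : (M2 A)ˣ) : M2 A) -
        1 * (r σ * ((P : M2 A) - 1)) * ((P⁻¹ : (M2 A)ˣ) : M2 A) := by
    rw [conjHom_apply, one_mul, mul_sub, sub_mul, sub_mul, sub_mul, one_mul, mul_one,
      mul_assoc (r σ), Units.mul_inv, mul_one]
    abel
  have h1 : (conjHom P r σ - r σ) i j ∈ maximalIdeal A := by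
    rw [key, Matrix.sub_apply]
    refine Ideal.sub_mem _ ?_ ?_
    · rw [mul_assoc]
      have := Fermat.Agent.S53.MatrixLift.mul_mul_apply_mem (maximalIdeal A) 1
        (r σ * ((P⁻¹ : (M2 A)ˣ) : M2 A)) ((P : M2 A) - 1) hP i j
      rwa [one_mul] at this
    · have hM : ∀ a b, (r σ * ((P : M2 A) - 1)) a b ∈ maximalIdeal A := by
        intro a b
        have := Fermat.Agent.S53.MatrixLift.mul_mul_apply_mem (maximalIdeal A) (r σ) 1
          ((P : M2 A) - 1) hP a b
        rwa [mul_one] at this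
      exact Fermat.Agent.S53.MatrixLift.mul_mul_apply_mem (maximalIdeal A) 1 _ _ hM i j
  have h2 : conjHom P r σ i j - algebraMap 𝒪 A (S.rtil σ i j) =
      (conjHom P r σ - r σ) i j + (r σ i j - algebraMap 𝒪 A (S.rtil σ i j)) := by
    rw [Matrix.sub_apply]
    ring
  rw [h2]
  exact Ideal.add_mem _ h1 (h σ i j)

variable (ρbar : ResidualGaloisRep (ResidueField 𝒪))
  (bbar : Module.Basis (Fin 2) (ResidueField 𝒪) ρbar.V)

/-- **D6.** A representation over `A` whose residual representation is equivalent to the base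
change of `ρbar` is equivalent to `ofMatrix r hr` for an honest matrix lift `r` of `S.rbar`
(where `S.rbar` is the matrix form of `ρbar` in the basis `bbar`). -/
theorem exists_isLift_of_residual_isEquiv [IsLocalHom (algebraMap 𝒪 A)]
    (hS : S.rbar = matHom bbar ρbar.ρ) (ρ : GaloisRepAdic A)
    (hres : ρ.residual.IsEquiv
      (ρbar.baseChangeAlong (ResidueField.map (algebraMap 𝒪 A)))) :
    ∃ (r : Gal →* M2 A) (hr : IsAdicCts r), ρ.IsEquiv (ofMatrix r hr) ∧ S.IsLift r := by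
  obtain ⟨r, hr, h1, h2⟩ := Fermat.Agent.S53.MatrixLift.exists_lift_of_residual_isEquiv ρ ρbar
    bbar (ResidueField.map (algebraMap 𝒪 A)) hres
  refine ⟨r, hr, isEquiv_trans h1 ⟨(equivDefs r hr).symm⟩, ?_⟩
  rw [isLift_iff, hS]
  exact h2

/-- **D6, converse.** A matrix lift of `S.rbar` has the right residual representation. -/
theorem residual_isEquiv_of_isLift [IsLocalHom (algebraMap 𝒪 A)]
    (hS : S.rbar = matHom bbar ρbar.ρ) (r : Gal →* M2 A) (hr : IsAdicCts r)
    (h : S.IsLift r) :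
    (ofMatrix r hr).residual.IsEquiv
      (ρbar.baseChangeAlong (ResidueField.map (algebraMap 𝒪 A))) := by
  rw [isLift_iff, hS] at h
  obtain ⟨e⟩ := Fermat.Agent.S53.MatrixLift.residual_isEquiv_of_lift r hr ρbar bbar
    (ResidueField.map (algebraMap 𝒪 A)) h
  exact ⟨((equivDefs r hr).residual).trans e⟩

end Setup

end Fermat.Agent.S53.Bridge
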