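import Mathlib
import Fermat.Agent.S53.Defs
import Fermat.Agent.S53.Dictionary
import Fermat.Agent.S53.Bridge

/-!
# Bridge lemmas for the S53 assembly (in the language of `Dictionary.lean`)

* `Setup.IsLift` in terms of `Dictionary.mapMat`;
* `Setup.IsLift`, `Setup.IsRigid` preserved by `Dictionary.mapMat φ` and (for `IsLift`) by
  `Dictionary.conjMat M` with `M ≡ 1`;
* quotients `A ⧸ I` (with `𝔪 ^ n ≤ I ≠ ⊤`) of Noetherian local test algebras are Artinian test
  algebras.
-/

set_option autoImplicit false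

noncomputable section

namespace Fermat.Agent.S53.LiftBridge

open IsLocalRing
open Fermat.Agent.S53.Dictionary (mapMat conjMat mapMat_apply conjMat_apply)

section Compare

variable {A : Type} [CommRing A]

/-- The two "entrywise image" constructions agree. -/
theorem mapHom_eq_mapMat {B : Type} [CommRing B] (φ : A →+* B) (r : Gal →* M2 A) :
    Fermat.Agent.S53.MatrixLift.mapHom φ r = mapMat φ r :=
  MonoidHom.ext fun _ => rfl

/-- The two "conjugate" constructions agree. -/
theorem conjHom_eq_conjMat (M : (M2 A)ˣ) (r : Gal →* M2 A) :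
    Fermat.Agent.S53.MatrixLift.conjHom M r = conjMat M r :=
  MonoidHom.ext fun _ => rfl

end Compare

section Setup

variable {𝒪 : Type} [CommRing 𝒪] [IsLocalRing 𝒪] (S : Setup 𝒪)
variable {A : Type} [CommRing A] [IsLocalRing A] [Algebra 𝒪 A]
variable {B : Type} [CommRing B] [IsLocalRing B] [Algebra 𝒪 B]

/-- `IsLift` means: the reduction of `r` is the image of `rbar` in the residue field of `A`. -/
theorem isLift_iff_mapMat [IsLocalHom (algebraMap 𝒪 A)] (r : Gal →* M2 A) :
    S.IsLift r ↔ mapMat (residue A) r = mapMat (ResidueField.map (algebraMap 𝒪 A)) S.rbar := by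
  rw [Fermat.Agent.S53.Bridge.isLift_iff, mapHom_eq_mapMat, mapHom_eq_mapMat]

/-- `IsLift` is preserved by local `𝒪`-algebra homomorphisms. -/
theorem isLift_mapMat {r : Gal →* M2 A} (h : S.IsLift r) (φ : A →ₐ[𝒪] B)
    (hφ : IsLocalHom (φ : A →+* B)) : S.IsLift (mapMat (φ : A →+* B) r) := by
  rw [← mapHom_eq_mapMat]
  exact Fermat.Agent.S53.Bridge.isLift_mapHom S h φ hφ

omit [IsLocalRing A] [IsLocalRing B] in
/-- `IsRigid` is preserved by `𝒪`-algebra homomorphisms. -/
theorem isRigid_mapMat {r : Gal →* M2 A} (h : S.IsRigid r) (φ : A →ₐ[𝒪] B) :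
    S.IsRigid (mapMat (φ : A →+* B) r) := by
  rw [← mapHom_eq_mapMat]
  exact Fermat.Agent.S53.Bridge.isRigid_mapHom S h φ

/-- Adic continuity is preserved by local ring homomorphisms. -/
theorem isAdicCts_mapMat {r : Gal →* M2 A} (h : IsAdicCts r) (φ : A →+* B)
    (hφ : IsLocalHom φ) : IsAdicCts (mapMat φ r) := by
  rw [← mapHom_eq_mapMat]
  exact Fermat.Agent.S53.Bridge.isAdicCts_mapHom h φ hφ

/-- Conjugation by a matrix congruent to `1` preserves `IsLift`. -/
theorem isLift_conjMat {r : Gal →* M2 A} (h : S.IsLift r) (M : (M2 A)ˣ)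
    (hM : ∀ i j, ((M : M2 A) - 1) i j ∈ maximalIdeal A) : S.IsLift (conjMat M r) := by
  rw [← conjHom_eq_conjMat]
  exact Fermat.Agent.S53.Bridge.isLift_conjHom S h M hM

/-- Conjugation preserves adic continuity. -/
theorem isAdicCts_conjMat {r : Gal →* M2 A} (h : IsAdicCts r) (M : (M2 A)ˣ) :
    IsAdicCts (conjMat M r) := by
  rw [← conjHom_eq_conjMat]
  exact Fermat.Agent.S53.Bridge.isAdicCts_conjHom h M

end Setup

section TestAlgebra

variable {𝒪 : Type} [CommRing 𝒪]
variable {A : Type} [CommRing A] [IsLocalRing A] [Algebra 𝒪 A]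

/-- A proper quotient of a local ring is local. -/
theorem isLocalRing_quotient (I : Ideal A) (hI : I ≠ ⊤) : IsLocalRing (A ⧸ I) :=
  haveI : Nontrivial (A ⧸ I) := Ideal.Quotient.nontrivial_iff.mpr hI
  IsLocalRing.of_surjective' (Ideal.Quotient.mk I) Ideal.Quotient.mk_surjective

theorem maximalIdeal_pow_ne_top (n : ℕ) : maximalIdeal A ^ (n + 1) ≠ ⊤ := by
  intro h
  have h1 : maximalIdeal A ^ (n + 1) ≤ maximalIdeal A := Ideal.pow_le_self (Nat.succ_ne_zero n)
  rw [h] at h1
  exact (maximalIdeal.isMaximal A).ne_top (top_le_iff.mp h1)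

/-- The quotient map of a local ring by a proper ideal is a local homomorphism. -/
theorem isLocalHom_quotient_mk (I : Ideal A) (hI : I ≠ ⊤) :
    IsLocalHom (Ideal.Quotient.mk I) :=
  haveI : Nontrivial (A ⧸ I) := Ideal.Quotient.nontrivial_iff.mpr hI
  IsLocalHom.of_surjective (Ideal.Quotient.mk I) Ideal.Quotient.mk_surjective

/-- The image of the maximal ideal in a proper quotient is the maximal ideal. -/
theorem map_mk_maximalIdeal (I : Ideal A) (hI : I ≠ ⊤) [IsLocalRing (A ⧸ I)] :
    (maximalIdeal A).map (Ideal.Quotient.mk I) = maximalIdeal (A ⧸ I) := by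
  have := isLocalHom_quotient_mk I hI
  ext x
  obtain ⟨x, rfl⟩ := Ideal.Quotient.mk_surjective x
  rw [Ideal.mem_map_iff_of_surjective _ Ideal.Quotient.mk_surjective]
  constructor
  · rintro ⟨y, hy, hyx⟩
    rw [← hyx]
    exact map_nonunit (Ideal.Quotient.mk I) y hy
  · intro hx
    refine ⟨x, ?_, rfl⟩
    rw [mem_maximalIdeal, mem_nonunits_iff] at hx ⊢
    exact fun h => hx (h.map _)

/-- Quotients of a Noetherian local `𝒪`-algebra with local structure map and residue field `k`
by an ideal `I` with `𝔪 ^ n ≤ I ≠ ⊤` are Artinian test algebras. -/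
theorem isArtinianTestAlgebra_quotient [IsNoetherianRing A]
    (hloc : IsLocalHom (algebraMap 𝒪 A))
    (hres : Function.Surjective (IsLocalRing.residue A ∘ algebraMap 𝒪 A))
    (I : Ideal A) (hI : I ≠ ⊤) (n : ℕ) (hn : maximalIdeal A ^ n ≤ I) [IsLocalRing (A ⧸ I)] :
    GaloisRep.IsArtinianTestAlgebra 𝒪 (A ⧸ I) := by
  have := isLocalHom_quotient_mk I hI
  refine ⟨?_, ?_, ?_⟩
  · -- local structure map
    constructor
    intro a ha
    have h1 : algebraMap 𝒪 (A ⧸ I) a = Ideal.Quotient.mk I (algebraMap 𝒪 A a) := rfl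
    rw [h1] at ha
    have h2 : IsUnit (algebraMap 𝒪 A a) := isUnit_of_map_unit (Ideal.Quotient.mk I) _ ha
    exact (haveI := hloc; isUnit_of_map_unit (algebraMap 𝒪 A) a h2)
  · -- residue field
    intro x
    obtain ⟨y, rfl⟩ := residue_surjective x
    obtain ⟨y, rfl⟩ := Ideal.Quotient.mk_surjective y
    obtain ⟨c, hc⟩ := hres (residue A y)
    refine ⟨c, ?_⟩
    rw [Function.comp_apply] at hc ⊢
    have h1 : algebraMap 𝒪 (A ⧸ I) c = Ideal.Quotient.mk I (algebraMap 𝒪 A c) := rfl
    rw [h1, ← sub_eq_zero, ← map_sub, ← map_sub, residue_eq_zero_iff]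
    rw [← sub_eq_zero, ← map_sub, residue_eq_zero_iff] at hc
    exact map_nonunit (Ideal.Quotient.mk I) _ hc
  · -- Artinian
    rw [isArtinianRing_iff_isNilpotent_maximalIdeal]
    refine ⟨n, ?_⟩
    rw [← map_mk_maximalIdeal I hI, ← Ideal.map_pow, Ideal.zero_eq_bot,
      Ideal.map_eq_bot_iff_le_ker, Ideal.mk_ker]
    exact hn

/-- The truncations `A ⧸ 𝔪 ^ (n + 1)` are local. -/
instance instIsLocalRingQuotientPow (n : ℕ) : IsLocalRing (A ⧸ maximalIdeal A ^ (n + 1)) :=
  isLocalRing_quotient _ (maximalIdeal_pow_ne_top n)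

/-- The truncations `A ⧸ 𝔪 ^ (n + 1)` of a Noetherian local test algebra are Artinian test
algebras. -/
theorem isArtinianTestAlgebra_quotient_pow [IsNoetherianRing A]
    (hloc : IsLocalHom (algebraMap 𝒪 A))
    (hres : Function.Surjective (IsLocalRing.residue A ∘ algebraMap 𝒪 A)) (n : ℕ) :
    GaloisRep.IsArtinianTestAlgebra 𝒪 (A ⧸ maximalIdeal A ^ (n + 1)) :=
  isArtinianTestAlgebra_quotient hloc hres _ (maximalIdeal_pow_ne_top n) (n + 1) le_rfl

end TestAlgebra

end Fermat.Agent.S53.LiftBridge
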