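import Mathlib
import Fermat.Agent.S53.Defs
import Fermat.Agent.S53.Dictionary
import Fermat.Agent.S53.LiftBridge

/-!
# Lifting to complete targets (the `A = lim A ⧸ 𝔪 ^ n` step of the universal property)

For `A` an `I`-adically complete `𝒪`-algebra:

* `liftOfCompat` : a family `f n : R →ₐ[𝒪] A ⧸ I ^ n` compatible with the *successive* transition
  maps comes from a unique `φ : R →ₐ[𝒪] A` (`existsUnique_lift`), and the shifted variant
  `existsUnique_lift_succ` for families indexed by `A ⧸ I ^ (n + 1)`;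
* `algHom_ext_of_forall_mk` : Hausdorff uniqueness;
* `isLocalHom_of_residue_surjective` : algebra homs into a local algebra with residue field `k`
  are automatically local;
* `algHom_ext_of_dense` : uniqueness from density of a generating set;
* `mapMat_ext_of_forall_mk`, `existsUnique_of_artin` : the matrix level statement
  "representability on Artinian quotients implies representability on complete algebras".
-/

set_option autoImplicit false

noncomputable section

namespace Fermat.Agent.S53.CompleteLift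

open IsLocalRing
open Fermat.Agent.S53.Dictionary (mapMat mapMat_apply mapMat_comp)

section Lift

variable {𝒪 : Type*} [CommRing 𝒪] {R : Type*} [CommRing R] [Algebra 𝒪 R]
variable {A : Type*} [CommRing A] [Algebra 𝒪 A] (I : Ideal A)

/-- Successive compatibility of a family `f n : R →ₐ[𝒪] A ⧸ I ^ n` implies compatibility along
all transition maps. -/
theorem factor_comp_of_succ (f : ∀ n, R →ₐ[𝒪] A ⧸ I ^ n)
    (hf : ∀ n, (Ideal.Quotient.factorₐ 𝒪 (Ideal.pow_le_pow_right n.le_succ)).comp (f (n + 1))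
      = f n) {m n : ℕ} (hle : m ≤ n) :
    (Ideal.Quotient.factorₐ 𝒪 (Ideal.pow_le_pow_right hle)).comp (f n) = f m := by
  induction n, hle using Nat.le_induction with
  | base =>
    ext x
    obtain ⟨y, hy⟩ := Ideal.Quotient.mk_surjective (f m x)
    simp [← hy]
  | succ n hmn ih =>
    rw [← ih, ← hf n]
    ext x
    obtain ⟨y, hy⟩ := Ideal.Quotient.mk_surjective (f (n + 1) x)
    simp [← hy]

variable [IsAdicComplete I A]

/-- The lift `R →ₐ[𝒪] A` of a successively compatible family `f n : R →ₐ[𝒪] A ⧸ I ^ n`. -/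
def liftOfCompat (f : ∀ n, R →ₐ[𝒪] A ⧸ I ^ n)
    (hf : ∀ n, (Ideal.Quotient.factorₐ 𝒪 (Ideal.pow_le_pow_right n.le_succ)).comp (f (n + 1))
      = f n) : R →ₐ[𝒪] A :=
  IsAdicComplete.liftAlgHom I f (fun hle => factor_comp_of_succ I f hf hle)

theorem mk_liftOfCompat (f : ∀ n, R →ₐ[𝒪] A ⧸ I ^ n)
    (hf : ∀ n, (Ideal.Quotient.factorₐ 𝒪 (Ideal.pow_le_pow_right n.le_succ)).comp (f (n + 1))
      = f n) (n : ℕ) (x : R) :
    Ideal.Quotient.mk (I ^ n) (liftOfCompat I f hf x) = f n x :=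
  IsAdicComplete.mk_liftAlgHom I f _ n x

theorem mkₐ_comp_liftOfCompat (f : ∀ n, R →ₐ[𝒪] A ⧸ I ^ n)
    (hf : ∀ n, (Ideal.Quotient.factorₐ 𝒪 (Ideal.pow_le_pow_right n.le_succ)).comp (f (n + 1))
      = f n) (n : ℕ) :
    (Ideal.Quotient.mkₐ 𝒪 (I ^ n)).comp (liftOfCompat I f hf) = f n :=
  AlgHom.ext fun x => mk_liftOfCompat I f hf n x

/-- Uniqueness of the lift. -/
theorem eq_liftOfCompat (f : ∀ n, R →ₐ[𝒪] A ⧸ I ^ n)
    (hf : ∀ n, (Ideal.Quotient.factorₐ 𝒪 (Ideal.pow_le_pow_right n.le_succ)).comp (f (n + 1))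
      = f n) (φ : R →ₐ[𝒪] A) (hφ : ∀ n, (Ideal.Quotient.mkₐ 𝒪 (I ^ n)).comp φ = f n) :
    φ = liftOfCompat I f hf :=
  IsAdicComplete.algHom_ext I fun n => by rw [hφ n, mkₐ_comp_liftOfCompat]

/-- A successively compatible family `f n : R →ₐ[𝒪] A ⧸ I ^ n` comes from a unique
`φ : R →ₐ[𝒪] A`. -/
theorem existsUnique_lift (f : ∀ n, R →ₐ[𝒪] A ⧸ I ^ n)
    (hf : ∀ n, (Ideal.Quotient.factorₐ 𝒪 (Ideal.pow_le_pow_right n.le_succ)).comp (f (n + 1))
      = f n) :
    ∃! φ : R →ₐ[𝒪] A, ∀ n, (Ideal.Quotient.mkₐ 𝒪 (I ^ n)).comp φ = f n :=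
  ⟨liftOfCompat I f hf, mkₐ_comp_liftOfCompat I f hf, fun φ hφ => eq_liftOfCompat I f hf φ hφ⟩

/-- Shifted variant: a successively compatible family `f n : R →ₐ[𝒪] A ⧸ I ^ (n + 1)` comes from
a unique `φ : R →ₐ[𝒪] A`. -/
theorem existsUnique_lift_succ (f : ∀ n, R →ₐ[𝒪] A ⧸ I ^ (n + 1))
    (hf : ∀ n, (Ideal.Quotient.factorₐ 𝒪 (Ideal.pow_le_pow_right (n + 1).le_succ)).comp
      (f (n + 1)) = f n) :
    ∃! φ : R →ₐ[𝒪] A, ∀ n, (Ideal.Quotient.mkₐ 𝒪 (I ^ (n + 1))).comp φ = f n := by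
  -- the family indexed by all `n`, with `g n = factor ∘ f n`
  let g : ∀ n, R →ₐ[𝒪] A ⧸ I ^ n := fun n =>
    (Ideal.Quotient.factorₐ 𝒪 (Ideal.pow_le_pow_right n.le_succ)).comp (f n)
  have hg1 : ∀ n, g (n + 1) = f n := fun n => hf n
  have hg : ∀ n, (Ideal.Quotient.factorₐ 𝒪 (Ideal.pow_le_pow_right n.le_succ)).comp (g (n + 1))
      = g n := fun n => by rw [hg1 n]
  refine ⟨liftOfCompat I g hg, fun n => ?_, fun φ hφ => ?_⟩
  · rw [mkₐ_comp_liftOfCompat, hg1]
  · refine eq_liftOfCompat I g hg φ fun n => ?_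
    show _ = (Ideal.Quotient.factorₐ 𝒪 (Ideal.pow_le_pow_right n.le_succ)).comp (f n)
    rw [← hφ n]
    ext x
    simp

end Lift

section Hausdorff

variable {𝒪 : Type*} [CommRing 𝒪] {R : Type*} [CommRing R] [Algebra 𝒪 R]
variable {A : Type*} [CommRing A] [Algebra 𝒪 A] (I : Ideal A)

/-- In an `I`-adically separated ring, two elements agreeing modulo every `I ^ (n + 1)` are
equal. -/
theorem eq_of_forall_mk_succ_eq [IsHausdorff I A] {a b : A}
    (h : ∀ n, Ideal.Quotient.mk (I ^ (n + 1)) a = Ideal.Quotient.mk (I ^ (n + 1)) b) : a = b := by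
  rw [← sub_eq_zero]
  refine IsHausdorff.haus ‹IsHausdorff I A› _ fun n => ?_
  rw [SModEq.zero, smul_eq_mul, Ideal.mul_top]
  have h1 := h n
  rw [Ideal.Quotient.eq] at h1
  exact Ideal.pow_le_pow_right n.le_succ h1

/-- In an `I`-adically separated ring, two elements agreeing modulo every `I ^ n` are equal. -/
theorem eq_of_forall_mk_eq [IsHausdorff I A] {a b : A}
    (h : ∀ n, Ideal.Quotient.mk (I ^ n) a = Ideal.Quotient.mk (I ^ n) b) : a = b :=
  eq_of_forall_mk_succ_eq I fun n => h (n + 1)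

/-- Hausdorff uniqueness: two algebra homs into an `I`-adically separated algebra which agree
modulo every `I ^ (n + 1)` are equal. -/
theorem algHom_ext_of_forall_mk_succ [IsHausdorff I A] {φ ψ : R →ₐ[𝒪] A}
    (h : ∀ n, (Ideal.Quotient.mkₐ 𝒪 (I ^ (n + 1))).comp φ =
      (Ideal.Quotient.mkₐ 𝒪 (I ^ (n + 1))).comp ψ) : φ = ψ :=
  AlgHom.ext fun x => eq_of_forall_mk_succ_eq I fun n => congrArg (fun F => F x) (h n)

/-- Hausdorff uniqueness: two algebra homs into an `I`-adically separated algebra which agree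
modulo every `I ^ n` are equal. -/
theorem algHom_ext_of_forall_mk [IsHausdorff I A] {φ ψ : R →ₐ[𝒪] A}
    (h : ∀ n, (Ideal.Quotient.mkₐ 𝒪 (I ^ n)).comp φ = (Ideal.Quotient.mkₐ 𝒪 (I ^ n)).comp ψ) :
    φ = ψ :=
  algHom_ext_of_forall_mk_succ I fun n => h (n + 1)

end Hausdorff

section LocalHom

variable {𝒪 : Type*} [CommRing 𝒪] {R : Type*} [CommRing R] [IsLocalRing R] [Algebra 𝒪 R]
variable {A : Type*} [CommRing A] [IsLocalRing A] [Algebra 𝒪 A]

/-- A ring hom between local rings is local as soon as it maps the maximal ideal into the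
maximal ideal. -/
theorem isLocalHom_of_map_maximalIdeal (φ : R →+* A)
    (h : ∀ x ∈ maximalIdeal R, φ x ∈ maximalIdeal A) : IsLocalHom φ := by
  constructor
  intro x hx
  by_contra hx'
  exact h x hx' hx

/-- A ring hom `φ : R → A` between local rings is local as soon as its reduction modulo
`𝔪_A` kills `𝔪_R`. -/
theorem isLocalHom_of_mk_comp (φ : R →+* A)
    (h : ∀ x ∈ maximalIdeal R, Ideal.Quotient.mk (maximalIdeal A ^ 1) (φ x) = 0) :
    IsLocalHom φ :=
  isLocalHom_of_map_maximalIdeal φ fun x hx => by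
    have := h x hx
    rwa [Ideal.Quotient.eq_zero_iff_mem, pow_one] at this

/-- If the residue field of `A` is a quotient of `𝒪`, any `𝒪`-algebra hom from a local
`𝒪`-algebra to `A` is local. -/
theorem isLocalHom_of_residue_surjective
    (hres : Function.Surjective (residue A ∘ algebraMap 𝒪 A)) (φ : R →ₐ[𝒪] A) :
    IsLocalHom (φ : R →+* A) := by
  have hsurj : Function.Surjective ((residue A).comp (φ : R →+* A)) := by
    intro y
    obtain ⟨c, hc⟩ := hres y
    refine ⟨algebraMap 𝒪 R c, ?_⟩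
    rw [← hc]
    simp
  have hmax : (RingHom.ker ((residue A).comp (φ : R →+* A))).IsMaximal :=
    RingHom.ker_isMaximal_of_surjective _ hsurj
  have hker : RingHom.ker ((residue A).comp (φ : R →+* A)) = maximalIdeal R :=
    IsLocalRing.eq_maximalIdeal hmax
  refine isLocalHom_of_map_maximalIdeal _ fun x hx => ?_
  rw [← hker, RingHom.mem_ker] at hx
  rwa [← residue_eq_zero_iff]

/-- A local hom maps `𝔪_R ^ n` into `𝔪_A ^ n`. -/
theorem map_mem_maximalIdeal_pow (φ : R →+* A) [IsLocalHom φ] (n : ℕ) {x : R}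
    (hx : x ∈ maximalIdeal R ^ n) : φ x ∈ maximalIdeal A ^ n := by
  have h1 : (maximalIdeal R).map φ ≤ maximalIdeal A := by
    rw [Ideal.map_le_iff_le_comap]
    intro y hy
    exact map_nonunit φ y hy
  have h2 : (maximalIdeal R ^ n).map φ ≤ maximalIdeal A ^ n := by
    rw [Ideal.map_pow]
    exact Ideal.pow_right_mono h1 n
  exact h2 (Ideal.mem_map_of_mem φ hx)

end LocalHom

section Dense

variable {𝒪 : Type*} [CommRing 𝒪] {R : Type*} [CommRing R] [IsLocalRing R] [Algebra 𝒪 R]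
variable {A : Type*} [CommRing A] [IsLocalRing A] [Algebra 𝒪 A]

/-- Uniqueness from density: two local `𝒪`-algebra homs into a separated local algebra which
agree on a set `s` whose generated subalgebra is dense for the `𝔪_R`-adic topology are equal. -/
theorem algHom_ext_of_dense [IsHausdorff (maximalIdeal A) A] (s : Set R)
    (hdense : ∀ (n : ℕ) (x : R), ∃ p ∈ Algebra.adjoin 𝒪 s, x - p ∈ maximalIdeal R ^ n)
    {φ ψ : R →ₐ[𝒪] A} (hφ : IsLocalHom (φ : R →+* A)) (hψ : IsLocalHom (ψ : R →+* A))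
    (h : ∀ x ∈ s, φ x = ψ x) : φ = ψ := by
  have hadj : ∀ p ∈ Algebra.adjoin 𝒪 s, φ p = ψ p := by
    intro p hp
    have hle : Algebra.adjoin 𝒪 s ≤ AlgHom.equalizer φ ψ := Algebra.adjoin_le h
    exact hle hp
  refine AlgHom.ext fun x => ?_
  rw [← sub_eq_zero]
  refine IsHausdorff.haus ‹IsHausdorff (maximalIdeal A) A› _ fun n => ?_
  rw [SModEq.zero, smul_eq_mul, Ideal.mul_top]
  obtain ⟨p, hp, hxp⟩ := hdense n x
  have h1 : φ x - ψ x = (φ : R →+* A) (x - p) - (ψ : R →+* A) (x - p) := by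
    simp only [map_sub, RingHom.coe_coe, hadj p hp]
    ring
  rw [h1]
  exact Ideal.sub_mem _ (map_mem_maximalIdeal_pow (φ : R →+* A) n hxp)
    (map_mem_maximalIdeal_pow (ψ : R →+* A) n hxp)

/-- Uniqueness from density, nilpotent target. -/
theorem algHom_ext_of_dense_of_nilpotent (hnil : IsNilpotent (maximalIdeal A)) (s : Set R)
    (hdense : ∀ (n : ℕ) (x : R), ∃ p ∈ Algebra.adjoin 𝒪 s, x - p ∈ maximalIdeal R ^ n)
    {φ ψ : R →ₐ[𝒪] A} (hφ : IsLocalHom (φ : R →+* A)) (hψ : IsLocalHom (ψ : R →+* A))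
    (h : ∀ x ∈ s, φ x = ψ x) : φ = ψ := by
  have hadj : ∀ p ∈ Algebra.adjoin 𝒪 s, φ p = ψ p := by
    intro p hp
    have hle : Algebra.adjoin 𝒪 s ≤ AlgHom.equalizer φ ψ := Algebra.adjoin_le h
    exact hle hp
  obtain ⟨n, hn⟩ := hnil
  refine AlgHom.ext fun x => ?_
  obtain ⟨p, hp, hxp⟩ := hdense n x
  have h1 : φ x - ψ x = (φ : R →+* A) (x - p) - (ψ : R →+* A) (x - p) := by
    simp only [map_sub, RingHom.coe_coe, hadj p hp]
    ring
  have h2 : φ x - ψ x ∈ maximalIdeal A ^ n := by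
    rw [h1]
    exact Ideal.sub_mem _ (map_mem_maximalIdeal_pow (φ : R →+* A) n hxp)
      (map_mem_maximalIdeal_pow (ψ : R →+* A) n hxp)
  rw [hn] at h2
  exact sub_eq_zero.mp h2

end Dense

section Quotient

variable {𝒪 : Type*} [CommRing 𝒪] {A : Type*} [CommRing A] [IsLocalRing A] [Algebra 𝒪 A]

/-- Proper quotients of a local algebra with residue field a quotient of `𝒪` have the same
property. -/
theorem residue_surjective_quotient
    (hres : Function.Surjective (residue A ∘ algebraMap 𝒪 A)) (I : Ideal A) (hI : I ≠ ⊤)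
    [IsLocalRing (A ⧸ I)] :
    Function.Surjective (residue (A ⧸ I) ∘ algebraMap 𝒪 (A ⧸ I)) := by
  have : Nontrivial (A ⧸ I) := Ideal.Quotient.nontrivial_iff.mpr hI
  have : IsLocalHom (Ideal.Quotient.mk I) :=
    IsLocalHom.of_surjective (Ideal.Quotient.mk I) Ideal.Quotient.mk_surjective
  intro x
  obtain ⟨y, rfl⟩ := residue_surjective x
  obtain ⟨y, rfl⟩ := Ideal.Quotient.mk_surjective y
  obtain ⟨c, hc⟩ := hres (residue A y)
  refine ⟨c, ?_⟩
  rw [Function.comp_apply] at hc ⊢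
  have h1 : algebraMap 𝒪 (A ⧸ I) c = Ideal.Quotient.mk I (algebraMap 𝒪 A c) := rfl
  rw [h1, ← sub_eq_zero, ← map_sub, ← map_sub, residue_eq_zero_iff]
  rw [← sub_eq_zero, ← map_sub, residue_eq_zero_iff] at hc
  exact map_nonunit (Ideal.Quotient.mk I) _ hc

/-- The maximal ideal of `A ⧸ I` is nilpotent when `𝔪 ^ n ≤ I`. -/
theorem isNilpotent_maximalIdeal_quotient (I : Ideal A) (hI : I ≠ ⊤) [IsLocalRing (A ⧸ I)]
    (n : ℕ) (hn : maximalIdeal A ^ n ≤ I) : IsNilpotent (maximalIdeal (A ⧸ I)) := by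
  have : Nontrivial (A ⧸ I) := Ideal.Quotient.nontrivial_iff.mpr hI
  have : IsLocalHom (Ideal.Quotient.mk I) :=
    IsLocalHom.of_surjective (Ideal.Quotient.mk I) Ideal.Quotient.mk_surjective
  have hmap : (maximalIdeal A).map (Ideal.Quotient.mk I) = maximalIdeal (A ⧸ I) := by
    ext x
    obtain ⟨x, rfl⟩ := Ideal.Quotient.mk_surjective x
    rw [Ideal.mem_map_iff_of_surjective _ Ideal.Quotient.mk_surjective]
    constructor
    · rintro ⟨y, hy, hyx⟩
      rw [← hyx]
      exact map_nonunit (Ideal.Quotient.mk I) y hy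
    · intro hx
      refine ⟨x, ?_, rfl⟩
      rw [mem_maximalIdeal, mem_nonunits_iff] at hx ⊢
      exact fun h => hx (h.map _)
  refine ⟨n, ?_⟩
  rw [← hmap, ← Ideal.map_pow, Ideal.zero_eq_bot, Ideal.map_eq_bot_iff_le_ker, Ideal.mk_ker]
  exact hn

end Quotient

section Matrix

variable {𝒪 : Type} [CommRing 𝒪] {R : Type} [CommRing R] [Algebra 𝒪 R]
variable {A : Type} [CommRing A] [Algebra 𝒪 A]

/-- The set of matrix entries of a matrix valued representation. -/
def entries (r : Gal →* M2 R) : Set R :=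
  Set.range fun p : Gal × Fin 2 × Fin 2 => r p.1 p.2.1 p.2.2

theorem mem_entries (r : Gal →* M2 R) (σ : Gal) (i j : Fin 2) : r σ i j ∈ entries r :=
  ⟨(σ, i, j), rfl⟩

/-- Two ring homs have the same effect on `r` iff they agree on its entries. -/
theorem mapMat_eq_mapMat_iff (φ ψ : R →+* A) (r : Gal →* M2 R) :
    mapMat φ r = mapMat ψ r ↔ ∀ x ∈ entries r, φ x = ψ x := by
  constructor
  · rintro h _ ⟨⟨σ, i, j⟩, rfl⟩
    have := congrArg (fun s : Gal →* M2 A => s σ i j) h
    simpa using this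
  · intro h
    ext σ i j
    simpa using h _ (mem_entries r σ i j)

/-- Hausdorff uniqueness for matrix valued representations. -/
theorem mapMat_ext_of_forall_mk (I : Ideal A) [IsHausdorff I A] {r r' : Gal →* M2 A}
    (h : ∀ n, mapMat (Ideal.Quotient.mk (I ^ (n + 1))) r =
      mapMat (Ideal.Quotient.mk (I ^ (n + 1))) r') : r = r' := by
  ext σ i j
  refine eq_of_forall_mk_succ_eq I fun n => ?_
  have := congrArg (fun s : Gal →* M2 (A ⧸ I ^ (n + 1)) => s σ i j) (h n)
  simpa using this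

end Matrix

section Representability

variable {𝒪 : Type} [CommRing 𝒪] {R : Type} [CommRing R] [IsLocalRing R] [Algebra 𝒪 R]
variable {A : Type} [CommRing A] [IsLocalRing A] [Algebra 𝒪 A]

open Fermat.Agent.S53.LiftBridge in
/-- **Representability passes from Artinian quotients to complete algebras.**
Let `runiv` be a matrix valued representation over `R` whose entries generate a dense
subalgebra, let `A` be a complete local `𝒪`-algebra with residue field a quotient of `𝒪` and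
`r` a matrix valued representation over `A`.  If for every `n` the reduction of `r` modulo
`𝔪 ^ (n + 1)` is the image of `runiv` under some algebra hom `R →ₐ[𝒪] A ⧸ 𝔪 ^ (n + 1)`, then `r`
is the image of `runiv` under a unique algebra hom `R →ₐ[𝒪] A`. -/
theorem existsUnique_of_artin [IsAdicComplete (maximalIdeal A) A]
    (hres : Function.Surjective (residue A ∘ algebraMap 𝒪 A))
    (runiv : Gal →* M2 R)
    (hdense : ∀ (n : ℕ) (x : R), ∃ p ∈ Algebra.adjoin 𝒪 (entries runiv),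
      x - p ∈ maximalIdeal R ^ n)
    (r : Gal →* M2 A)
    (hex : ∀ n, ∃ ψ : R →ₐ[𝒪] A ⧸ maximalIdeal A ^ (n + 1),
      mapMat (ψ : R →+* A ⧸ maximalIdeal A ^ (n + 1)) runiv =
        mapMat (Ideal.Quotient.mk (maximalIdeal A ^ (n + 1))) r) :
    ∃! φ : R →ₐ[𝒪] A, mapMat (φ : R →+* A) runiv = r := by
  -- uniqueness on each Artinian level
  have huniq : ∀ n (ψ ψ' : R →ₐ[𝒪] A ⧸ maximalIdeal A ^ (n + 1)),
      mapMat (ψ : R →+* A ⧸ maximalIdeal A ^ (n + 1)) runiv =
        mapMat (ψ' : R →+* A ⧸ maximalIdeal A ^ (n + 1)) runiv → ψ = ψ' := by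
    intro n ψ ψ' h
    have hres' := residue_surjective_quotient hres (maximalIdeal A ^ (n + 1))
      (maximalIdeal_pow_ne_top n)
    refine algHom_ext_of_dense_of_nilpotent
      (isNilpotent_maximalIdeal_quotient _ (maximalIdeal_pow_ne_top n) (n + 1) le_rfl)
      (entries runiv) hdense (isLocalHom_of_residue_surjective hres' ψ)
      (isLocalHom_of_residue_surjective hres' ψ') ?_
    exact (mapMat_eq_mapMat_iff _ _ runiv).mp h
  choose ψ hψ using hex
  -- compatibility
  have hcompat : ∀ n, (Ideal.Quotient.factorₐ 𝒪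
      (Ideal.pow_le_pow_right (n + 1).le_succ)).comp (ψ (n + 1)) = ψ n := by
    intro n
    apply huniq
    ext σ i j
    have h1 := congrArg (fun s : Gal →* M2 (A ⧸ maximalIdeal A ^ (n + 1 + 1)) => s σ i j)
      (hψ (n + 1))
    have h2 := congrArg (fun s : Gal →* M2 (A ⧸ maximalIdeal A ^ (n + 1)) => s σ i j) (hψ n)
    simp only [mapMat_apply, RingHom.coe_coe] at h1 h2
    simp only [mapMat_apply, RingHom.coe_coe, AlgHom.comp_apply, h1, h2]
    simp
  obtain ⟨φ, hφ, -⟩ := existsUnique_lift_succ (maximalIdeal A) ψ hcompat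
  have hφr : mapMat (φ : R →+* A) runiv = r := by
    refine mapMat_ext_of_forall_mk (maximalIdeal A) fun n => ?_
    rw [← hψ n, ← hφ n]
    ext σ i j
    simp
  refine ⟨φ, hφr, fun φ' hφ' => ?_⟩
  refine algHom_ext_of_dense (entries runiv) hdense
    (isLocalHom_of_residue_surjective hres φ') (isLocalHom_of_residue_surjective hres φ) ?_
  exact (mapMat_eq_mapMat_iff _ _ runiv).mp (hφ'.trans hφr.symm)

end Representability

section Condition

open Fermat.Agent.S53.LiftBridge Fermat.Agent.S53.MatrixLift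

variable {𝒪 : Type} [CommRing 𝒪] [IsLocalRing 𝒪]
variable {𝒟 : ∀ ⦃A : Type⦄ [CommRing A] [IsLocalRing A] [Algebra 𝒪 A], GaloisRepAdic A → Prop}
variable {A : Type} [CommRing A] [IsLocalRing A] [Algebra 𝒪 A]

omit [IsLocalRing 𝒪] in
/-- Over a complete Noetherian local `𝒪`-algebra, the condition `𝒟` for `ofMatrix r` can be
tested on the entrywise images of `r` in Artinian quotients. -/
theorem cond_iff_forall_surjective_mapMat (h𝒟 : GaloisRep.IsDeformationCondition 𝒪 𝒟)
    [IsNoetherianRing A] [IsAdicComplete (maximalIdeal A) A]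
    (hloc : IsLocalHom (algebraMap 𝒪 A))
    (hres : Function.Surjective (residue A ∘ algebraMap 𝒪 A))
    (r : Gal →* M2 A) (hr : IsAdicCts r) :
    𝒟 (ofMatrix r hr) ↔
      ∀ ⦃B : Type⦄ [CommRing B] [IsLocalRing B] [Algebra 𝒪 B],
        GaloisRep.IsArtinianTestAlgebra 𝒪 B →
        ∀ (q : A →ₐ[𝒪] B) (hq : IsLocalHom (q : A →+* B)), Function.Surjective q →
          𝒟 (ofMatrix (mapMat (q : A →+* B) r) (isAdicCts_mapMat hr _ hq)) := by
  rw [h𝒟.iff_forall_surjective hloc hres]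
  constructor
  · intro H B _ _ _ hB q hq hqs
    exact h𝒟.of_isEquiv hB ⟨equivBaseChangeOfMatrix r hr _ hq⟩ (H hB q hq hqs)
  · intro H B _ _ _ hB q hq hqs
    exact h𝒟.of_isEquiv hB ⟨(equivBaseChangeOfMatrix r hr _ hq).symm⟩ (H hB q hq hqs)

omit [IsLocalRing 𝒪] in
/-- The condition `𝒟` passes from a complete Noetherian local `𝒪`-algebra to its Artinian
quotients. -/
theorem cond_mapMat_of_complete (h𝒟 : GaloisRep.IsDeformationCondition 𝒪 𝒟)
    [IsNoetherianRing A] [IsAdicComplete (maximalIdeal A) A]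
    (hloc : IsLocalHom (algebraMap 𝒪 A))
    (hres : Function.Surjective (residue A ∘ algebraMap 𝒪 A))
    {B : Type} [CommRing B] [IsLocalRing B] [Algebra 𝒪 B]
    (hB : GaloisRep.IsArtinianTestAlgebra 𝒪 B)
    (q : A →ₐ[𝒪] B) (hq : IsLocalHom (q : A →+* B)) (hqs : Function.Surjective q)
    (r : Gal →* M2 A) (hr : IsAdicCts r) (h : 𝒟 (ofMatrix r hr)) :
    𝒟 (ofMatrix (mapMat (q : A →+* B) r) (isAdicCts_mapMat hr _ hq)) :=
  (cond_iff_forall_surjective_mapMat h𝒟 hloc hres r hr).mp h hB q hq hqs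

omit [IsLocalRing 𝒪] in
/-- The condition `𝒟` passes to the truncations `A ⧸ 𝔪 ^ (n + 1)`. -/
theorem cond_quotient_pow (h𝒟 : GaloisRep.IsDeformationCondition 𝒪 𝒟)
    [IsNoetherianRing A] [IsAdicComplete (maximalIdeal A) A]
    (hloc : IsLocalHom (algebraMap 𝒪 A))
    (hres : Function.Surjective (residue A ∘ algebraMap 𝒪 A))
    (r : Gal →* M2 A) (hr : IsAdicCts r) (h : 𝒟 (ofMatrix r hr)) (n : ℕ) :
    𝒟 (ofMatrix (mapMat (Ideal.Quotient.mk (maximalIdeal A ^ (n + 1))) r)
      (isAdicCts_mapMat hr _ (isLocalHom_quotient_mk _ (maximalIdeal_pow_ne_top n)))) :=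
  cond_mapMat_of_complete h𝒟 hloc hres (isArtinianTestAlgebra_quotient_pow hloc hres n)
    (Ideal.Quotient.mkₐ 𝒪 (maximalIdeal A ^ (n + 1)))
    (isLocalHom_quotient_mk _ (maximalIdeal_pow_ne_top n)) Ideal.Quotient.mk_surjective r hr h

/-- A rigid lift of type `𝒟` over a complete Noetherian local `𝒪`-algebra induces rigid lifts of
type `𝒟` over all truncations `A ⧸ 𝔪 ^ (n + 1)`. -/
theorem isRigidLift_quotient_pow (S : Setup 𝒪) (h𝒟 : GaloisRep.IsDeformationCondition 𝒪 𝒟)
    [IsNoetherianRing A] [IsAdicComplete (maximalIdeal A) A]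
    (hloc : IsLocalHom (algebraMap 𝒪 A))
    (hres : Function.Surjective (residue A ∘ algebraMap 𝒪 A))
    {r : Gal →* M2 A} (h : S.IsRigidLift 𝒟 r) (n : ℕ) :
    S.IsRigidLift 𝒟 (mapMat (Ideal.Quotient.mk (maximalIdeal A ^ (n + 1))) r) where
  lift := isLift_mapMat S h.lift (Ideal.Quotient.mkₐ 𝒪 (maximalIdeal A ^ (n + 1)))
    (isLocalHom_quotient_mk _ (maximalIdeal_pow_ne_top n))
  cts := isAdicCts_mapMat h.cts _ (isLocalHom_quotient_mk _ (maximalIdeal_pow_ne_top n))
  rigid := isRigid_mapMat S h.rigid (Ideal.Quotient.mkₐ 𝒪 (maximalIdeal A ^ (n + 1)))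
  type := cond_quotient_pow h𝒟 hloc hres r h.cts h.type n

end Condition

end Fermat.Agent.S53.CompleteLift
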