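/-
S53 helper library, part I interface: "closed subfunctors of affine space" on Artinian test
algebras and the statement of their pro-representability.
-/
import Mathlib
import Fermat.Prelude.Def_GaloisRep_DeformationCondition

set_option autoImplicit false

namespace Fermat.Agent.S53

open IsLocalRing GaloisRep

/-- The `𝒪`-algebra structure on the dual numbers `k[ε]` over the residue field `k` of `𝒪`
(the same instance that the frozen definition `GaloisRep.TangentFinite` installs). -/
@[reducible] noncomputable def dualNumberAlgebra (𝒪 : Type) [CommRing 𝒪] [IsLocalRing 𝒪] :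
    Algebra 𝒪 (DualNumber (ResidueField 𝒪)) :=
  ((algebraMap (ResidueField 𝒪) (DualNumber (ResidueField 𝒪))).comp
    (algebraMap 𝒪 (ResidueField 𝒪))).toAlgebra

/-- A subfunctor `A ↦ pts A ⊆ (S → A)` of the affine space with coordinates `S`, on Artinian test
algebras over `𝒪`, cut out by "closed conditions": it is stable under push-forward, it descends
along injective maps, and it is compatible with fibre products over the residue field. All points
reduce to the fixed base point `base` modulo the maximal ideal. -/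
structure CoordFunctor (𝒪 : Type) [CommRing 𝒪] [IsLocalRing 𝒪] (S : Type) where
  /-- the points with values in `A` -/
  pts : ∀ (A : Type) [CommRing A] [IsLocalRing A] [Algebra 𝒪 A], Set (S → A)
  /-- the base point (a lift to `𝒪` of the unique point over the residue field) -/
  base : S → 𝒪
  sub_base_mem : ∀ {A : Type} [CommRing A] [IsLocalRing A] [Algebra 𝒪 A],
    IsArtinianTestAlgebra 𝒪 A → ∀ x ∈ pts A, ∀ s,
      x s - algebraMap 𝒪 A (base s) ∈ maximalIdeal A
  map_mem : ∀ {A B : Type} [CommRing A] [IsLocalRing A] [Algebra 𝒪 A]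
    [CommRing B] [IsLocalRing B] [Algebra 𝒪 B],
    IsArtinianTestAlgebra 𝒪 A → IsArtinianTestAlgebra 𝒪 B →
    ∀ (φ : A →ₐ[𝒪] B), ∀ x ∈ pts A, (fun s => φ (x s)) ∈ pts B
  descent : ∀ {A B : Type} [CommRing A] [IsLocalRing A] [Algebra 𝒪 A]
    [CommRing B] [IsLocalRing B] [Algebra 𝒪 B],
    IsArtinianTestAlgebra 𝒪 A → IsArtinianTestAlgebra 𝒪 B →
    ∀ (φ : A →ₐ[𝒪] B), Function.Injective φ →
    ∀ x : S → A, (fun s => φ (x s)) ∈ pts B → x ∈ pts A
  prod_mem : ∀ {A B P : Type} [CommRing A] [IsLocalRing A] [Algebra 𝒪 A]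
    [CommRing B] [IsLocalRing B] [Algebra 𝒪 B] [CommRing P] [IsLocalRing P] [Algebra 𝒪 P],
    IsArtinianTestAlgebra 𝒪 A → IsArtinianTestAlgebra 𝒪 B → IsArtinianTestAlgebra 𝒪 P →
    ∀ (pA : P →ₐ[𝒪] A) (pB : P →ₐ[𝒪] B),
    Function.Injective (fun p => (pA p, pB p)) →
    (∀ a b, (∃ o : 𝒪, a - algebraMap 𝒪 A o ∈ maximalIdeal A ∧
        b - algebraMap 𝒪 B o ∈ maximalIdeal B) → ∃ p, pA p = a ∧ pB p = b) →
    ∀ x : S → P, (fun s => pA (x s)) ∈ pts A → (fun s => pB (x s)) ∈ pts B → x ∈ pts P
  nonempty_residueField : (pts (ResidueField 𝒪)).Nonempty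
  finite_dualNumber :
    letI := dualNumberAlgebra 𝒪
    (pts (DualNumber (ResidueField 𝒪))).Finite

end Fermat.Agent.S53
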