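import Fermat.Agent.S53.Centralizer
import Fermat.Agent.S53.Dictionary
import Fermat.Agent.S53.Defs

/-!
# Schur's lemma in matrix form

Matrix versions of the centralizer statements of `Fermat.Agent.S53.Centralizer`, phrased for the
two matrix dictionaries in use (`Dictionary.ofMat` / `Dictionary.resOfMat` and `ofMatrix`), and
the `Setup.Schur` property of the shared definitions file.
-/

set_option autoImplicit false

namespace Fermat.Agent.S53.SchurMat

open Module IsLocalRing Fermat.Agent.S53.Centralizer

/-- A matrix commuting with a spanning set of matrices is scalar. -/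
theorem exists_eq_smul_one_of_span_eq_top {R : Type*} [CommRing R] {n : Type*} [Fintype n]
    [DecidableEq n] (S : Set (Matrix n n R)) (hS : Submodule.span R S = ⊤) (X : Matrix n n R)
    (hX : ∀ s ∈ S, X * s = s * X) : ∃ c : R, X = c • (1 : Matrix n n R) := by
  have hall : ∀ Y : Matrix n n R, X * Y = Y * X := by
    intro Y
    have hY : Y ∈ Submodule.span R S := hS ▸ Submodule.mem_top
    induction hY using Submodule.span_induction with
    | mem y hy => exact hX y hy
    | zero => rw [mul_zero, zero_mul]
    | add y z _ _ hy hz => rw [mul_add, add_mul, hy, hz]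
    | smul c y _ hy => rw [mul_smul_comm, smul_mul_assoc, hy]
  have hmem : X ∈ Set.range (Matrix.scalar n) :=
    Matrix.mem_range_scalar_iff_commute_single'.2 fun i j => (hall _).symm
  obtain ⟨c, hc⟩ := hmem
  refine ⟨c, ?_⟩
  rw [← hc]
  ext i j
  simp [Matrix.scalar_apply, Matrix.diagonal_apply, Matrix.one_apply]

/-- If a family of endomorphisms spans everything, so do its images under a surjective
linear map. -/
theorem span_range_comp_eq_top {R M N G : Type*} [CommRing R] [AddCommGroup M] [Module R M]
    [AddCommGroup N] [Module R N] (f : M →ₗ[R] N) (hf : Function.Surjective f) (ρ : G → M)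
    (h : Submodule.span R (Set.range ρ) = ⊤) :
    Submodule.span R (Set.range fun g => f (ρ g)) = ⊤ := by
  have h1 : (Set.range fun g => f (ρ g)) = f '' Set.range ρ := by
    ext x
    constructor
    · rintro ⟨g, rfl⟩
      exact ⟨ρ g, ⟨g, rfl⟩, rfl⟩
    · rintro ⟨_, ⟨g, rfl⟩, rfl⟩
      exact ⟨g, rfl⟩
  rw [h1, Submodule.span_image, h, Submodule.map_top]
  exact LinearMap.range_eq_top.2 hf

/-- If a family of endomorphisms spans everything, so do its matrices in any basis. -/
theorem span_range_toMatrix_eq_top {R V G : Type*} [CommRing R] [AddCommGroup V] [Module R V]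
    {n : Type*} [Fintype n] [DecidableEq n] (b : Basis n R V) (ρ : G → Module.End R V)
    (h : Submodule.span R (Set.range ρ) = ⊤) :
    Submodule.span R (Set.range fun g => LinearMap.toMatrix b b (ρ g)) = ⊤ :=
  span_range_comp_eq_top (LinearMap.toMatrix b b).toLinearMap
    (LinearMap.toMatrix b b).surjective ρ h

/-- Schur's lemma for the matrices of an absolutely irreducible residual representation. -/
theorem schur_field {k : Type} [Field k] (ρbar : ResidualGaloisRep k)
    (habs : ρbar.IsAbsolutelyIrreducible) (b : Basis (Fin 2) k ρbar.V)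
    (X : Matrix (Fin 2) (Fin 2) k)
    (hX : ∀ σ, X * LinearMap.toMatrix b b (ρbar.ρ σ) = LinearMap.toMatrix b b (ρbar.ρ σ) * X) :
    ∃ c : k, X = c • (1 : Matrix (Fin 2) (Fin 2) k) := by
  refine exists_eq_smul_one_of_span_eq_top _
    (span_range_toMatrix_eq_top b (fun σ => ρbar.ρ σ)
      (span_range_eq_top_of_isAbsolutelyIrreducible ρbar habs)) X ?_
  rintro _ ⟨σ, rfl⟩
  exact hX σ

/-- Schur's lemma for the matrices of a representation over a local ring with absolutely
irreducible residual representation. -/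
theorem schur_local {A : Type} [CommRing A] [IsLocalRing A] (ρ : GaloisRepAdic A)
    (habs : ρ.residual.IsAbsolutelyIrreducible) (b : Basis (Fin 2) A ρ.V)
    (X : Matrix (Fin 2) (Fin 2) A)
    (hX : ∀ σ, X * LinearMap.toMatrix b b (ρ.ρ σ) = LinearMap.toMatrix b b (ρ.ρ σ) * X) :
    ∃ c : A, X = c • (1 : Matrix (Fin 2) (Fin 2) A) := by
  refine exists_eq_smul_one_of_span_eq_top _
    (span_range_toMatrix_eq_top b (fun σ => ρ.ρ σ) (span_range_eq_top ρ habs)) X ?_
  rintro _ ⟨σ, rfl⟩
  exact hX σ

/-- Matrix version: a matrix commuting with a family of matrices whose associated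
endomorphisms of `Fin 2 → R` span everything is scalar. -/
theorem schur_of_span_toLin' {R G : Type*} [CommRing R] (r : G → Matrix (Fin 2) (Fin 2) R)
    (ρ : G → Module.End R (Fin 2 → R)) (hρ : ∀ g v, ρ g v = (r g).mulVec v)
    (h : Submodule.span R (Set.range ρ) = ⊤) (X : Matrix (Fin 2) (Fin 2) R)
    (hX : ∀ g, X * r g = r g * X) : ∃ c : R, X = c • (1 : Matrix (Fin 2) (Fin 2) R) := by
  have h2 := span_range_comp_eq_top (LinearMap.toMatrix' (R := R) (m := Fin 2)
    (n := Fin 2)).toLinearMap LinearMap.toMatrix'.surjective ρ h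
  refine exists_eq_smul_one_of_span_eq_top _ h2 X ?_
  rintro _ ⟨g, rfl⟩
  have h3 : LinearMap.toMatrix' (ρ g) = r g := by
    ext i j
    rw [LinearMap.toMatrix'_apply, hρ]
    simp
  show X * LinearMap.toMatrix' (ρ g) = LinearMap.toMatrix' (ρ g) * X
  rw [h3]
  exact hX g

section Dictionary

open Fermat.Agent.S53.Dictionary

/-- Schur for `Dictionary.resOfMat`. -/
theorem schur_resOfMat {k : Type} [Field k] (rbar : GQ →* Mat k)
    (hfin : GaloisFactorsThroughFiniteLevel rbar)
    (habs : (resOfMat rbar hfin).IsAbsolutelyIrreducible) (X : Mat k)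
    (hX : ∀ σ, X * rbar σ = rbar σ * X) : ∃ c : k, X = c • (1 : Mat k) := by
  have h0 : Submodule.span k (Set.range fun σ => (toEnd k) (rbar σ)) = ⊤ :=
    span_range_eq_top_of_isAbsolutelyIrreducible (resOfMat rbar hfin) habs
  exact schur_of_span_toLin' (fun σ => rbar σ) (fun σ => (toEnd k) (rbar σ))
    (fun σ v => toEnd_apply _ _) h0 X hX

/-- Schur for a matrix form of an absolutely irreducible residual representation. -/
theorem schur_of_isEquiv_resOfMat {k : Type} [Field k] (ρbar : ResidualGaloisRep k)
    (habs : ρbar.IsAbsolutelyIrreducible) (rbar : GQ →* Mat k)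
    (hfin : GaloisFactorsThroughFiniteLevel rbar) (e0 : ρbar.IsEquiv (resOfMat rbar hfin))
    (X : Mat k) (hX : ∀ σ, X * rbar σ = rbar σ * X) : ∃ c : k, X = c • (1 : Mat k) := by
  obtain ⟨e⟩ := e0
  exact schur_resOfMat rbar hfin (isAbsolutelyIrreducible_of_isEquiv ⟨e.symm⟩ habs) X hX

/-- Schur for `Dictionary.ofMat` over a local ring. -/
theorem schur_ofMat {A : Type} [CommRing A] [IsLocalRing A] (r : GQ →* Mat A)
    (h : IsContMat A r) (habs : (ofMat r h).residual.IsAbsolutelyIrreducible) (X : Mat A)
    (hX : ∀ σ, X * r σ = r σ * X) : ∃ c : A, X = c • (1 : Mat A) := by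
  have h0 : Submodule.span A (Set.range fun σ => (toEnd A) (r σ)) = ⊤ :=
    span_range_eq_top (ofMat r h) habs
  exact schur_of_span_toLin' (fun σ => r σ) (fun σ => (toEnd A) (r σ))
    (fun σ v => toEnd_apply _ _) h0 X hX

end Dictionary

section Defs

/-- Schur for `ofMatrix` over a local ring. -/
theorem schur_ofMatrix {A : Type} [CommRing A] [IsLocalRing A] (r : Gal →* M2 A)
    (hr : IsAdicCts r) (habs : (ofMatrix r hr).residual.IsAbsolutelyIrreducible) (X : M2 A)
    (hX : ∀ σ, X * r σ = r σ * X) : ∃ c : A, X = c • (1 : M2 A) := by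
  have h0 : Submodule.span A (Set.range fun σ => endOfMatrix r σ) = ⊤ :=
    span_range_eq_top (ofMatrix r hr) habs
  exact schur_of_span_toLin' (fun σ => r σ) (fun σ => endOfMatrix r σ)
    (fun σ v => endOfMatrix_apply _ _ _) h0 X hX

/-- The `Setup.Schur` property, when `S.rbar` is the matrix form of an absolutely irreducible
residual representation in some basis. -/
theorem setup_schur {𝒪 : Type} [CommRing 𝒪] [IsLocalRing 𝒪] (S : Setup 𝒪)
    (ρbar : ResidualGaloisRep (ResidueField 𝒪)) (habs : ρbar.IsAbsolutelyIrreducible)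
    (b : Basis (Fin 2) (ResidueField 𝒪) ρbar.V)
    (hb : ∀ σ, LinearMap.toMatrix b b (ρbar.ρ σ) = S.rbar σ) : S.Schur := by
  intro X hX
  refine schur_field ρbar habs b X fun σ => ?_
  rw [hb]
  exact hX σ

end Defs

end Fermat.Agent.S53.SchurMat
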