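import Fermat.Agent.S53.TangentBound
import Fermat.Agent.S53.GoodTower

/-!
# S53: from the tangent bound to the uniform cardinality bound for good ideals

`m0 S` is the kernel of the reduction `BigRing 𝒪 → k` attached to `S.rbar`.  For a good ideal `J`
(`S.IsGood 𝒟 J`) the maximal ideal of `BigRing 𝒪 ⧸ J` is the image of `m0 S`; hence `J ≤ m0 S`,
`m0 S ^ n ≤ J` for some `n`, and (from `TangentBound.card_algHom_le` and
`GoodTower.card_le_of_card_algHom_le`) the quotients `BigRing 𝒪 ⧸ J` with `m0 S ^ n ≤ J` have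
uniformly bounded cardinality: this is the `bound` field of `GoodTower.GoodFamily`.
-/

set_option autoImplicit false

namespace Fermat.Agent.S53.TangentTower

open IsLocalRing Fermat.Agent.S53 Fermat.Agent.S53.Dictionary Fermat.Agent.S53.TangentBound

section Reduction

variable {𝒪 : Type} [CommRing 𝒪] [IsLocalRing 𝒪] (S : Setup 𝒪)

/-- The reduction homomorphism `BigRing 𝒪 → k`, `X (σ, i, j) ↦ rbar σ i j`. -/
noncomputable def resHom : BigRing 𝒪 →ₐ[𝒪] ResidueField 𝒪 :=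
  evalHom (𝒪 := 𝒪) (fun σ => S.rbar σ)

@[simp] theorem resHom_X (σ : Gal) (i j : Fin 2) :
    resHom S (MvPolynomial.X (σ, i, j)) = S.rbar σ i j := by
  simp [resHom]

theorem resHom_surjective : Function.Surjective (resHom S) := by
  intro c
  obtain ⟨o, rfl⟩ := residue_surjective c
  exact ⟨algebraMap 𝒪 (BigRing 𝒪) o, by rw [AlgHom.commutes]; rfl⟩

/-- The kernel of the reduction `BigRing 𝒪 → k`. -/
noncomputable def m0 : Ideal (BigRing 𝒪) := RingHom.ker (resHom S)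

theorem mem_m0_iff (p : BigRing 𝒪) : p ∈ m0 S ↔ resHom S p = 0 := Iff.rfl

instance m0_isMaximal : (m0 S).IsMaximal :=
  RingHom.ker_isMaximal_of_surjective _ (resHom_surjective S)

end Reduction

section Quot

variable {𝒪 : Type} [CommRing 𝒪] [IsLocalRing 𝒪] (S : Setup 𝒪)

omit [IsLocalRing 𝒪] in
/-- The entries of the universal matrix generate every quotient of the big ring. -/
theorem adjoin_quotMat_eq_top (J : Ideal (BigRing 𝒪)) :
    Algebra.adjoin 𝒪 (Set.range fun p : Gal × Fin 2 × Fin 2 =>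
      (quotMat J p.1 : M2 (BigRing 𝒪 ⧸ J)) p.2.1 p.2.2) = ⊤ := by
  have h1 : (Set.range fun p : Gal × Fin 2 × Fin 2 =>
      (quotMat J p.1 : M2 (BigRing 𝒪 ⧸ J)) p.2.1 p.2.2) =
      (Ideal.Quotient.mkₐ 𝒪 J) '' (Set.range (MvPolynomial.X : _ → BigRing 𝒪)) := by
    rw [← Set.range_comp]
    rfl
  rw [h1, ← AlgHom.map_adjoin, MvPolynomial.adjoin_range_X, Algebra.map_top,
    AlgHom.range_eq_top]
  exact Ideal.Quotient.mkₐ_surjective 𝒪 J

variable {J : Ideal (BigRing 𝒪)} [IsLocalRing (BigRing 𝒪 ⧸ J)]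

/-- For a lift over `BigRing 𝒪 ⧸ J` given by the universal matrix, the preimage of the maximal
ideal of the quotient is `m0 S`. -/
theorem comap_maximalIdeal_eq_m0 [IsLocalHom (algebraMap 𝒪 (BigRing 𝒪 ⧸ J))]
    {r : Gal →* M2 (BigRing 𝒪 ⧸ J)} (hr : ∀ σ, r σ = quotMat J σ) (hl : S.IsLift r) :
    (maximalIdeal (BigRing 𝒪 ⧸ J)).comap (Ideal.Quotient.mk J) = m0 S := by
  have hle : m0 S ≤ (maximalIdeal (BigRing 𝒪 ⧸ J)).comap (Ideal.Quotient.mk J) := by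
    have hcomp : ((residue (BigRing 𝒪 ⧸ J)).comp (Ideal.Quotient.mk J) : BigRing 𝒪 →+* _) =
        (ResidueField.map (algebraMap 𝒪 (BigRing 𝒪 ⧸ J))).comp (resHom S : BigRing 𝒪 →+* _) := by
      apply MvPolynomial.ringHom_ext
      · intro o
        have h1 : (resHom S : BigRing 𝒪 →+* _) (MvPolynomial.C o) = residue 𝒪 o := by
          have := (resHom S).commutes o
          exact this
        rw [RingHom.comp_apply, RingHom.comp_apply, h1]
        rfl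
      · rintro ⟨σ, i, j⟩
        rw [RingHom.comp_apply, RingHom.comp_apply]
        have h1 : (resHom S : BigRing 𝒪 →+* _) (MvPolynomial.X (σ, i, j)) = S.rbar σ i j :=
          resHom_X S σ i j
        rw [h1, ← S.rtil_spec σ i j]
        change residue _ (Ideal.Quotient.mk J (MvPolynomial.X (σ, i, j))) =
          residue _ (algebraMap 𝒪 _ (S.rtil σ i j))
        rw [← sub_eq_zero, ← map_sub, residue_eq_zero_iff]
        have h2 := hl σ i j
        rw [hr σ] at h2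
        exact h2
    intro p hp
    rw [Ideal.mem_comap, ← residue_eq_zero_iff]
    have h3 := congrArg (fun f : BigRing 𝒪 →+* _ => f p) hcomp
    simp only [RingHom.comp_apply] at h3
    rw [h3]
    have h4 : (resHom S : BigRing 𝒪 →+* ResidueField 𝒪) p = 0 := hp
    rw [h4, map_zero]
  have hne : (maximalIdeal (BigRing 𝒪 ⧸ J)).comap (Ideal.Quotient.mk J) ≠ ⊤ :=
    (Ideal.comap_ne_top _ (maximalIdeal.isMaximal _).ne_top)
  exact ((m0_isMaximal S).eq_of_le hne hle).symm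

theorem maximalIdeal_eq_map_m0 [IsLocalHom (algebraMap 𝒪 (BigRing 𝒪 ⧸ J))]
    {r : Gal →* M2 (BigRing 𝒪 ⧸ J)} (hr : ∀ σ, r σ = quotMat J σ) (hl : S.IsLift r) :
    maximalIdeal (BigRing 𝒪 ⧸ J) = (m0 S).map (Ideal.Quotient.mk J) := by
  rw [← comap_maximalIdeal_eq_m0 S hr hl,
    Ideal.map_comap_of_surjective _ Ideal.Quotient.mk_surjective]

theorem le_m0_of_isLift [IsLocalHom (algebraMap 𝒪 (BigRing 𝒪 ⧸ J))]
    {r : Gal →* M2 (BigRing 𝒪 ⧸ J)} (hr : ∀ σ, r σ = quotMat J σ) (hl : S.IsLift r) :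
    J ≤ m0 S := by
  rw [← comap_maximalIdeal_eq_m0 S hr hl]
  intro p hp
  rw [Ideal.mem_comap, Ideal.Quotient.eq_zero_iff_mem.2 hp]
  exact zero_mem _

theorem maximalIdeal_pow_eq_bot_iff [IsLocalHom (algebraMap 𝒪 (BigRing 𝒪 ⧸ J))]
    {r : Gal →* M2 (BigRing 𝒪 ⧸ J)} (hr : ∀ σ, r σ = quotMat J σ) (hl : S.IsLift r) (n : ℕ) :
    maximalIdeal (BigRing 𝒪 ⧸ J) ^ n = ⊥ ↔ m0 S ^ n ≤ J := by
  rw [maximalIdeal_eq_map_m0 S hr hl, ← Ideal.map_pow, ← le_bot_iff, Ideal.map_le_iff_le_comap,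
    ← RingHom.ker_eq_comap_bot, Ideal.mk_ker]

end Quot

section Good

variable {𝒪 : Type} [CommRing 𝒪] [IsLocalRing 𝒪] (S : Setup 𝒪)
  (𝒟 : ∀ ⦃A : Type⦄ [CommRing A] [IsLocalRing A] [Algebra 𝒪 A], GaloisRepAdic A → Prop)

variable {S 𝒟} in
/-- Good ideals are contained in `m0 S`. -/
theorem le_m0 {J : Ideal (BigRing 𝒪)} (hJ : S.IsGood 𝒟 J) : J ≤ m0 S := by
  obtain ⟨hloc, r, hr, hA, hR⟩ := hJ
  have := hA.isLocalHom
  exact le_m0_of_isLift S hr hR.lift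

variable {S 𝒟} in
/-- Good ideals contain a power of `m0 S`. -/
theorem pow_le {J : Ideal (BigRing 𝒪)} (hJ : S.IsGood 𝒟 J) : ∃ n : ℕ, m0 S ^ n ≤ J := by
  obtain ⟨hloc, r, hr, hA, hR⟩ := hJ
  have := hA.isLocalHom
  have := hA.isArtinian
  have hnil := IsArtinianRing.isNilpotent_jacobson_bot (R := BigRing 𝒪 ⧸ J)
  rw [IsLocalRing.jacobson_eq_maximalIdeal ⊥ bot_ne_top] at hnil
  obtain ⟨n, hn⟩ := hnil
  exact ⟨n, (maximalIdeal_pow_eq_bot_iff S hr hR.lift n).1 hn⟩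

attribute [local instance] algDual algResDual

variable (ρbar : ResidualGaloisRep (ResidueField 𝒪))
  (h𝒟 : GaloisRep.IsDeformationCondition 𝒪 𝒟)
  (hrbar : GaloisFactorsThroughFiniteLevel S.rbar)
  (e0 : ρbar.IsEquiv (resOfMat S.rbar hrbar))

include h𝒟 hrbar e0 in
/-- **Uniform bound.** A good ideal `J ⊇ m0 ^ n` has a finite quotient whose cardinality is bounded
in terms of `n`, `#k` and the cardinality of the tangent set only. -/
theorem card_quotient_le (hfin : GaloisRep.TangentFinite 𝒪 ρbar 𝒟) (hSchur : S.Schur)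
    (hcoords : S.HasCoords) [Finite (ResidueField 𝒪)] {ϖ : 𝒪}
    (hϖ : maximalIdeal 𝒪 = Ideal.span {ϖ}) {n : ℕ} {J : Ideal (BigRing 𝒪)}
    (hJ : S.IsGood 𝒟 J) (hn : m0 S ^ n ≤ J) :
    Finite (BigRing 𝒪 ⧸ J) ∧ Nat.card (BigRing 𝒪 ⧸ J) ≤
      GoodTower.cardBound (Nat.card (ResidueField 𝒪))
        (Nat.card (DualNumber (ResidueField 𝒪)) ^ Nat.card (Tan 𝒪 ρbar 𝒟) + 1) n := by
  obtain ⟨hloc, r, hr, hA, hR⟩ := hJ
  have := hA.isLocalHom
  have hgen : Algebra.adjoin 𝒪 (Set.range fun p : Gal × Fin 2 × Fin 2 => r p.1 p.2.1 p.2.2) = ⊤ := by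
    have h1 : (fun p : Gal × Fin 2 × Fin 2 => r p.1 p.2.1 p.2.2) =
        fun p : Gal × Fin 2 × Fin 2 => (quotMat J p.1 : M2 (BigRing 𝒪 ⧸ J)) p.2.1 p.2.2 := by
      funext p
      rw [hr p.1]
    rw [h1]
    exact adjoin_quotMat_eq_top J
  have hfinHom := finite_algHom S ρbar 𝒟 h𝒟 hrbar e0 hA hfin hSchur hcoords hR hgen
  have hcard := card_algHom_le S ρbar 𝒟 h𝒟 hrbar e0 hA hfin hSchur hcoords hR hgen
  have hpow : maximalIdeal (BigRing 𝒪 ⧸ J) ^ n = ⊥ :=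
    (maximalIdeal_pow_eq_bot_iff S hr hR.lift n).2 hn
  exact GoodTower.card_le_of_card_algHom_le (𝒪 := 𝒪) (A := BigRing 𝒪 ⧸ J) hA.residue_surjective
    (fun o => rfl) hϖ hcard hpow

include h𝒟 hrbar e0 in
/-- Good ideals have finite quotients. -/
theorem finite_quotient (hfin : GaloisRep.TangentFinite 𝒪 ρbar 𝒟) (hSchur : S.Schur)
    (hcoords : S.HasCoords) [Finite (ResidueField 𝒪)] {ϖ : 𝒪}
    (hϖ : maximalIdeal 𝒪 = Ideal.span {ϖ}) {J : Ideal (BigRing 𝒪)}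
    (hJ : S.IsGood 𝒟 J) : Finite (BigRing 𝒪 ⧸ J) := by
  obtain ⟨n, hn⟩ := pow_le hJ
  exact (card_quotient_le S 𝒟 ρbar h𝒟 hrbar e0 hfin hSchur hcoords hϖ hJ hn).1

include h𝒟 hrbar e0 in
/-- The `bound` field of `GoodTower.GoodFamily (m0 S) (S.IsGood 𝒟)`. -/
theorem bound (hfin : GaloisRep.TangentFinite 𝒪 ρbar 𝒟) (hSchur : S.Schur)
    (hcoords : S.HasCoords) [Finite (ResidueField 𝒪)] {ϖ : 𝒪}
    (hϖ : maximalIdeal 𝒪 = Ideal.span {ϖ}) (n : ℕ) :
    ∃ c : ℕ, ∀ J : Ideal (BigRing 𝒪), S.IsGood 𝒟 J → m0 S ^ n ≤ J →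
      Nat.card (BigRing 𝒪 ⧸ J) ≤ c :=
  ⟨_, fun _ hJ hn =>
    (card_quotient_le S 𝒟 ρbar h𝒟 hrbar e0 hfin hSchur hcoords hϖ hJ hn).2⟩

include h𝒟 hrbar e0 in
/-- Assembling a `GoodTower.GoodFamily` from the closure properties of good ideals (slice (S-d))
and the tangent bound. -/
theorem goodFamily (hfin : GaloisRep.TangentFinite 𝒪 ρbar 𝒟) (hSchur : S.Schur)
    (hcoords : S.HasCoords) [Finite (ResidueField 𝒪)] {ϖ : 𝒪}
    (hϖ : maximalIdeal 𝒪 = Ideal.span {ϖ})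
    (hinf : ∀ {J J' : Ideal (BigRing 𝒪)}, S.IsGood 𝒟 J → S.IsGood 𝒟 J' → S.IsGood 𝒟 (J ⊓ J'))
    (hup : ∀ {J J' : Ideal (BigRing 𝒪)}, S.IsGood 𝒟 J → J ≤ J' → J' ≤ m0 S → S.IsGood 𝒟 J')
    (hbase : S.IsGood 𝒟 (m0 S)) :
    GoodTower.GoodFamily (m0 S) (S.IsGood 𝒟) where
  le_m0 := le_m0
  pow_le := pow_le
  finite := finite_quotient S 𝒟 ρbar h𝒟 hrbar e0 hfin hSchur hcoords hϖ
  inf := hinf
  up := hup
  base := hbase
  bound := bound S 𝒟 ρbar h𝒟 hrbar e0 hfin hSchur hcoords hϖ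

end Good

end Fermat.Agent.S53.TangentTower
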