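import Fermat.Agent.S53.RigInst
import Fermat.Agent.S53.TangentTower
import Fermat.Agent.S53.GoodIdeals
import Fermat.Agent.S53.SchurMat

/-!
# S53: front end of the assembly

From the hypotheses of S53 (`ρbar` absolutely irreducible, `𝒟` a deformation condition satisfied by
`ρbar` with finite tangent space) we produce the inputs of the ring construction:
a `Setup` with rigidifying coordinates whose `rbar` is a matrix form of `ρbar`, and a
`GoodTower.GoodFamily` of good ideals of the big ring (in the vocabulary of `GoodIdeals.lean`).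
-/

set_option autoImplicit false
set_option linter.unusedSectionVars false

namespace Fermat.Agent.S53.FrontEnd

open IsLocalRing GaloisRep Fermat.Agent.S53 Fermat.Agent.S53.Dictionary
open Fermat.Agent.S53.Lifts Fermat.Agent.S53.GoodIdeals

section Bridge

variable {𝒪 : Type} [CommRing 𝒪] [IsLocalRing 𝒪] (S : Setup 𝒪)
variable {𝒟 : ∀ ⦃A : Type⦄ [CommRing A] [IsLocalRing A] [Algebra 𝒪 A], GaloisRepAdic A → Prop}

/-- `GoodIdeals.Xmat` and `Defs.quotMat` agree. -/
theorem Xmat_eq_quotMat (J : Ideal (U 𝒪)) (σ : GQ) : Xmat J σ = quotMat J σ := by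
  ext i j
  rfl

/-- The two maximal ideals `m0` agree. -/
theorem m0_eq : TangentTower.m0 S = GoodIdeals.m0 S.rbar := rfl

/-- A good ideal in the sense of `GoodIdeals.lean` is good in the sense of `Defs.lean`. -/
theorem isGood_of_good {J : Ideal (U 𝒪)} (h : Good 𝒟 S.rbar (RigInst.rigidData S) J) :
    S.IsGood 𝒟 J := by
  obtain ⟨hloc, hlh, ht, r, hr, hl, hrig, hD⟩ := h
  refine ⟨hloc, r, fun σ => (hr σ).trans (Xmat_eq_quotMat J σ), ht, ?_⟩
  obtain ⟨hc, hD⟩ := hD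
  exact { lift := ((RigInst.lifts_isLift_iff S r).mp hl).2
          cts := hc
          rigid := hrig
          type := hD }

/-- A good ideal in the sense of `Defs.lean` is good in the sense of `GoodIdeals.lean`. -/
theorem good_of_isGood {J : Ideal (U 𝒪)} (h : S.IsGood 𝒟 J) :
    Good 𝒟 S.rbar (RigInst.rigidData S) J := by
  obtain ⟨hloc, r, hr, ht, hR⟩ := h
  have hlh : IsLocalHom (algebraMap 𝒪 (U 𝒪 ⧸ J)) := ht.isLocalHom
  refine ⟨hloc, hlh, ht, r, fun σ => (hr σ).trans (Xmat_eq_quotMat J σ).symm, ?_, hR.rigid,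
    ⟨hR.cts, hR.type⟩⟩
  exact (RigInst.lifts_isLift_iff S r).mpr ⟨hR.cts, hR.lift⟩

theorem good_iff_isGood {J : Ideal (U 𝒪)} :
    Good 𝒟 S.rbar (RigInst.rigidData S) J ↔ S.IsGood 𝒟 J :=
  ⟨isGood_of_good S, good_of_isGood S⟩

end Bridge

section Residue

variable {𝒪 : Type} [CommRing 𝒪] [IsLocalRing 𝒪] (rbar : GQ →* Mat (ResidueField 𝒪))

/-- Every element of the big ring is congruent to a constant modulo `m0`. -/
theorem exists_sub_mem_m0 (u : U 𝒪) : ∃ o : 𝒪, u - algebraMap 𝒪 (U 𝒪) o ∈ m0 rbar := by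
  obtain ⟨o, ho⟩ := residue_surjective (pi0 rbar u)
  refine ⟨o, ?_⟩
  rw [mem_m0_iff, map_sub, sub_eq_zero, AlgHom.commutes]
  exact ho.symm

/-- The structure map sends the maximal ideal of `𝒪` into `m0`. -/
theorem algebraMap_mem_m0 (o : 𝒪) (ho : o ∈ maximalIdeal 𝒪) : algebraMap 𝒪 (U 𝒪) o ∈ m0 rbar := by
  rw [mem_m0_iff, AlgHom.commutes]
  exact (residue_eq_zero_iff o).mpr ho

end Residue

section Family

variable {𝒪 : Type} [CommRing 𝒪] [IsLocalRing 𝒪] [Finite (ResidueField 𝒪)] (S : Setup 𝒪)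
variable {𝒟 : ∀ ⦃A : Type⦄ [CommRing A] [IsLocalRing A] [Algebra 𝒪 A], GaloisRepAdic A → Prop}

/-- The family of good ideals satisfies the axioms of `GoodTower.GoodFamily`. -/
theorem goodFamily (ρbar : ResidualGaloisRep (ResidueField 𝒪))
    (h𝒟 : IsDeformationCondition 𝒪 𝒟) (hrbar : GaloisFactorsThroughFiniteLevel S.rbar)
    (e0 : ρbar.IsEquiv (resOfMat S.rbar hrbar))
    (hbar : 𝒟 (GaloisRepAdic.ofResidualGaloisRep ρbar))
    (hfin : TangentFinite 𝒪 ρbar 𝒟) (hc : S.HasCoords) {ϖ : 𝒪}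
    (hϖ : maximalIdeal 𝒪 = Ideal.span {ϖ}) :
    GoodTower.GoodFamily (m0 S.rbar) (Good 𝒟 S.rbar (RigInst.rigidData S)) where
  le_m0 := fun h => h.le_m0
  pow_le := fun h => h.pow_le
  finite := fun h => h.finite
  inf := fun h h' => h.inf h𝒟 h'
  up := fun h hle hle' => h.up h𝒟 hle hle'
  base := good_m0 h𝒟 hrbar (fun a => (S.rtil_spec _ _ _).symm) (dmat_of_hbar h𝒟 ρbar hrbar e0 hbar)
  bound := fun n => by
    obtain ⟨c, hcb⟩ := TangentTower.bound S 𝒟 ρbar h𝒟 hrbar e0 hfin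
      (RigidBridge.schur_of_hasCoords S hc) hc hϖ n
    exact ⟨c, fun J hJ hn => hcb J (isGood_of_good S hJ) hn⟩

end Family

section Main

variable {𝒪 : Type} [CommRing 𝒪] [IsDomain 𝒪] [IsDiscreteValuationRing 𝒪]
  [Finite (ResidueField 𝒪)]
variable {𝒟 : ∀ ⦃A : Type⦄ [CommRing A] [IsLocalRing A] [Algebra 𝒪 A], GaloisRepAdic A → Prop}

/-- **Front end.** All the inputs of the ring construction from the hypotheses of S53. -/
theorem exists_frontEnd (ρbar : ResidualGaloisRep (ResidueField 𝒪))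
    (habs : ρbar.IsAbsolutelyIrreducible) (h𝒟 : IsDeformationCondition 𝒪 𝒟)
    (hbar : 𝒟 (GaloisRepAdic.ofResidualGaloisRep ρbar)) (hfin : TangentFinite 𝒪 ρbar 𝒟) :
    ∃ (S : Setup 𝒪) (hrbar : GaloisFactorsThroughFiniteLevel S.rbar),
      S.HasCoords ∧ ρbar.IsEquiv (resOfMat S.rbar hrbar) ∧
      GoodTower.GoodFamily (m0 S.rbar) (Good 𝒟 S.rbar (RigInst.rigidData S)) := by
  have hrbar := factors_resMatOf ρbar (resSomeBasis ρbar)
  have e0 : ρbar.IsEquiv (resOfMat (resMatOf ρbar (resSomeBasis ρbar)) hrbar) :=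
    ⟨resEquivOfMatMatOf ρbar (resSomeBasis ρbar)⟩
  obtain ⟨S, hS, hc⟩ := RigidBridge.exists_setup (resMatOf ρbar (resSomeBasis ρbar))
    (SchurMat.schur_of_isEquiv_resOfMat ρbar habs _ hrbar e0)
  obtain ⟨ϖ, hϖ⟩ := IsDiscreteValuationRing.exists_irreducible 𝒪
  have hϖ' : maximalIdeal 𝒪 = Ideal.span {ϖ} := hϖ.maximalIdeal_eq
  have hrbar' : GaloisFactorsThroughFiniteLevel S.rbar := hS ▸ hrbar
  have e0' : ρbar.IsEquiv (resOfMat S.rbar hrbar') := by
    have key : ∀ (r r' : GQ →* Mat (ResidueField 𝒪)) (_ : r' = r)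
        (hr : GaloisFactorsThroughFiniteLevel r) (hr' : GaloisFactorsThroughFiniteLevel r'),
        ρbar.IsEquiv (resOfMat r hr) → ρbar.IsEquiv (resOfMat r' hr') := by
      intro r r' h hr hr' he
      subst h
      exact he
    exact key _ _ hS hrbar hrbar' e0
  exact ⟨S, hrbar', hc, e0', goodFamily S ρbar h𝒟 hrbar' e0' hbar hfin hc hϖ'⟩

end Main

end Fermat.Agent.S53.FrontEnd
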