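import Fermat.Agent.S53.TangentTower
import Fermat.Agent.S53.LiftBridge

/-!
# S53: the base ideal `m0 S` is good, and good ideals are upward closed below `m0 S`

* `isRigidLift_mapMat` : rigid lifts of type `𝒟` push forward along local `𝒪`-algebra maps of
  Artinian test algebras.
* `up` : `S.IsGood 𝒟 J → J ≤ J' → J' ≤ m0 S → S.IsGood 𝒟 J'`.
* `base` : `S.IsGood 𝒟 (m0 S)`, from `hbar : 𝒟 (ofResidualGaloisRep ρbar)`.
-/

set_option autoImplicit false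

namespace Fermat.Agent.S53.GoodBase

open IsLocalRing Fermat.Agent.S53 Fermat.Agent.S53.Dictionary Fermat.Agent.S53.TangentTower

section Push

variable {𝒪 : Type} [CommRing 𝒪] [IsLocalRing 𝒪] (S : Setup 𝒪)
  (𝒟 : ∀ ⦃A : Type⦄ [CommRing A] [IsLocalRing A] [Algebra 𝒪 A], GaloisRepAdic A → Prop)
  (h𝒟 : GaloisRep.IsDeformationCondition 𝒪 𝒟)

variable {A : Type} [CommRing A] [IsLocalRing A] [Algebra 𝒪 A]
  {B : Type} [CommRing B] [IsLocalRing B] [Algebra 𝒪 B]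

include h𝒟 in
/-- Rigid lifts of type `𝒟` push forward along local `𝒪`-algebra homomorphisms of Artinian test
algebras. -/
theorem isRigidLift_mapMat (hA : GaloisRep.IsArtinianTestAlgebra 𝒪 A)
    (hB : GaloisRep.IsArtinianTestAlgebra 𝒪 B) {r : Gal →* M2 A} (hr : S.IsRigidLift 𝒟 r)
    (φ : A →ₐ[𝒪] B) (hφ : IsLocalHom (φ : A →+* B)) :
    S.IsRigidLift 𝒟 (mapMat (φ : A →+* B) r) := by
  have hcts : IsAdicCts (mapMat (φ : A →+* B) r) := isContMat_mapMat _ hφ r hr.cts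
  refine ⟨LiftBridge.isLift_mapMat S hr.lift φ hφ, hcts, LiftBridge.isRigid_mapMat S hr.rigid φ, ?_⟩
  have h1 := h𝒟.baseChangeAlong hA hB φ hφ hr.type
  exact h𝒟.of_isEquiv hB (baseChangeAlong_ofMat (φ : A →+* B) hφ r hr.cts) h1

end Push

section Up

variable {𝒪 : Type} [CommRing 𝒪] [IsLocalRing 𝒪] (S : Setup 𝒪)
  (𝒟 : ∀ ⦃A : Type⦄ [CommRing A] [IsLocalRing A] [Algebra 𝒪 A], GaloisRepAdic A → Prop)
  (h𝒟 : GaloisRep.IsDeformationCondition 𝒪 𝒟)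

/-- Elements of `m0 S` are non-units modulo any ideal contained in `m0 S`. -/
theorem not_isUnit_mk_of_mem_m0 {J : Ideal (BigRing 𝒪)} (hJ : J ≤ m0 S) {p : BigRing 𝒪}
    (hp : p ∈ m0 S) : ¬ IsUnit (Ideal.Quotient.mk J p) := by
  intro hu
  obtain ⟨q, hq⟩ := hu.exists_right_inv
  obtain ⟨q, rfl⟩ := Ideal.Quotient.mk_surjective q
  rw [← map_mul, ← map_one (Ideal.Quotient.mk J), Ideal.Quotient.eq] at hq
  have h1 : p * q - 1 ∈ m0 S := hJ hq
  have h2 : p * q ∈ m0 S := Ideal.mul_mem_right _ _ hp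
  have h3 : (1 : BigRing 𝒪) ∈ m0 S := by
    have := Ideal.sub_mem _ h2 h1
    simpa using this
  exact (m0_isMaximal S).ne_top ((Ideal.eq_top_iff_one _).2 h3)

/-- Every element of the big ring is congruent to a constant modulo `m0 S`. -/
theorem exists_sub_algebraMap_mem_m0 (p : BigRing 𝒪) :
    ∃ o : 𝒪, p - algebraMap 𝒪 (BigRing 𝒪) o ∈ m0 S := by
  obtain ⟨o, ho⟩ := residue_surjective (resHom S p)
  refine ⟨o, ?_⟩
  rw [mem_m0_iff, map_sub, AlgHom.commutes, sub_eq_zero, ← ho]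
  rfl

include h𝒟 in
/-- Good ideals are upward closed below `m0 S`. -/
theorem up {J J' : Ideal (BigRing 𝒪)} (hJ : S.IsGood 𝒟 J) (hle : J ≤ J') (hJ' : J' ≤ m0 S) :
    S.IsGood 𝒟 J' := by
  obtain ⟨hloc, r, hr, hA, hR⟩ := hJ
  have hne : J' ≠ ⊤ := fun h => (m0_isMaximal S).ne_top (top_le_iff.1 (h ▸ hJ'))
  have : Nontrivial (BigRing 𝒪 ⧸ J') := Ideal.Quotient.nontrivial_iff.mpr hne
  have hsurj : Function.Surjective (Ideal.Quotient.factorₐ 𝒪 hle) :=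
    Ideal.Quotient.factor_surjective hle
  have hloc' : IsLocalRing (BigRing 𝒪 ⧸ J') :=
    IsLocalRing.of_surjective' (Ideal.Quotient.factor hle) (Ideal.Quotient.factor_surjective hle)
  have hφ : IsLocalHom ((Ideal.Quotient.factorₐ 𝒪 hle : (BigRing 𝒪 ⧸ J) →ₐ[𝒪] (BigRing 𝒪 ⧸ J')) :
      (BigRing 𝒪 ⧸ J) →+* (BigRing 𝒪 ⧸ J')) :=
    IsLocalHom.of_surjective _ hsurj
  have hB : GaloisRep.IsArtinianTestAlgebra 𝒪 (BigRing 𝒪 ⧸ J') := by
    refine ⟨?_, ?_, ?_⟩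
    · have h1 := hA.isLocalHom
      have h2 : algebraMap 𝒪 (BigRing 𝒪 ⧸ J') =
          ((Ideal.Quotient.factorₐ 𝒪 hle : (BigRing 𝒪 ⧸ J) →ₐ[𝒪] (BigRing 𝒪 ⧸ J')) :
            (BigRing 𝒪 ⧸ J) →+* (BigRing 𝒪 ⧸ J')).comp (algebraMap 𝒪 (BigRing 𝒪 ⧸ J)) := by
        ext o
        exact ((Ideal.Quotient.factorₐ 𝒪 hle).commutes o).symm
      rw [h2]
      exact RingHom.isLocalHom_comp _ _
    · intro x
      obtain ⟨y, rfl⟩ := residue_surjective x
      obtain ⟨p, rfl⟩ := Ideal.Quotient.mk_surjective y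
      obtain ⟨o, ho⟩ := exists_sub_algebraMap_mem_m0 S p
      refine ⟨o, ?_⟩
      rw [Function.comp_apply, eq_comm, ← sub_eq_zero, ← map_sub, residue_eq_zero_iff,
        mem_maximalIdeal, mem_nonunits_iff]
      have := not_isUnit_mk_of_mem_m0 S hJ' ho
      rwa [map_sub] at this
    · have := hA.isArtinian
      exact hsurj.isArtinianRing (f := (Ideal.Quotient.factor hle))
  refine ⟨hloc', mapMat ((Ideal.Quotient.factorₐ 𝒪 hle : (BigRing 𝒪 ⧸ J) →ₐ[𝒪] (BigRing 𝒪 ⧸ J')) :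
      (BigRing 𝒪 ⧸ J) →+* (BigRing 𝒪 ⧸ J')) r, ?_, hB, ?_⟩
  · intro σ
    ext i j
    change Ideal.Quotient.factor hle (r σ i j) = _
    rw [hr σ]
    rfl
  · exact isRigidLift_mapMat S 𝒟 h𝒟 hA hB hR _ hφ

end Up

section Base

variable {𝒪 : Type} [CommRing 𝒪] [IsLocalRing 𝒪] (S : Setup 𝒪)
  (𝒟 : ∀ ⦃A : Type⦄ [CommRing A] [IsLocalRing A] [Algebra 𝒪 A], GaloisRepAdic A → Prop)
  (h𝒟 : GaloisRep.IsDeformationCondition 𝒪 𝒟)
  (ρbar : ResidualGaloisRep (ResidueField 𝒪))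
  (hrbar : GaloisFactorsThroughFiniteLevel S.rbar)
  (e0 : ρbar.IsEquiv (resOfMat S.rbar hrbar))

variable (𝒪) in
/-- The residue field is an Artinian test algebra. -/
theorem isArtinianTestAlgebra_residueField :
    GaloisRep.IsArtinianTestAlgebra 𝒪 (ResidueField 𝒪) := by
  refine ⟨?_, ?_, inferInstance⟩
  · change IsLocalHom (residue 𝒪)
    infer_instance
  · exact (residue_surjective (R := ResidueField 𝒪)).comp (residue_surjective (R := 𝒪))

include hrbar in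
theorem isAdicCts_rbar : IsAdicCts S.rbar := by
  intro n
  obtain ⟨L, hL, h⟩ := hrbar
  refine ⟨L, hL, fun σ hσ i j => ?_⟩
  rw [h σ hσ, sub_self]
  exact zero_mem _

include h𝒟 e0 in
/-- The residual matrix representation is a rigid lift of type `𝒟` over the residue field. -/
theorem isRigidLift_rbar (hbar : 𝒟 (GaloisRepAdic.ofResidualGaloisRep ρbar)) :
    S.IsRigidLift 𝒟 S.rbar := by
  refine ⟨?_, isAdicCts_rbar S hrbar, ?_, ?_⟩
  · intro σ i j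
    have : S.rbar σ i j - algebraMap 𝒪 (ResidueField 𝒪) (S.rtil σ i j) = 0 := by
      rw [sub_eq_zero, ← S.rtil_spec σ i j]
      rfl
    rw [this]
    exact zero_mem _
  · intro a
    rw [Setup.target, ← S.rtil_spec]
    rfl
  · obtain ⟨e⟩ := e0
    refine h𝒟.of_isEquiv (isArtinianTestAlgebra_residueField 𝒪) ?_ hbar
    exact ⟨⟨e.toLinearEquiv, e.map_apply⟩⟩

/-- The identification `BigRing 𝒪 ⧸ m0 S ≃ k`. -/
noncomputable def quotEquiv : (BigRing 𝒪 ⧸ m0 S) ≃ₐ[𝒪] ResidueField 𝒪 :=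
  Ideal.quotientKerAlgEquivOfSurjective (resHom_surjective S)

theorem quotEquiv_mk (p : BigRing 𝒪) : quotEquiv S (Ideal.Quotient.mk (m0 S) p) = resHom S p :=
  rfl

include h𝒟 hrbar e0 in
/-- The base ideal `m0 S` is good. -/
theorem base (hbar : 𝒟 (GaloisRepAdic.ofResidualGaloisRep ρbar)) : S.IsGood 𝒟 (m0 S) := by
  have hloc : IsLocalRing (BigRing 𝒪 ⧸ m0 S) :=
    ((quotEquiv S).symm : ResidueField 𝒪 ≃+* (BigRing 𝒪 ⧸ m0 S)).isLocalRing
  have hsurj : Function.Surjective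
      (((quotEquiv S).symm : ResidueField 𝒪 →ₐ[𝒪] (BigRing 𝒪 ⧸ m0 S)) :
        ResidueField 𝒪 →+* (BigRing 𝒪 ⧸ m0 S)) := (quotEquiv S).symm.surjective
  have hφ : IsLocalHom (((quotEquiv S).symm : ResidueField 𝒪 →ₐ[𝒪] (BigRing 𝒪 ⧸ m0 S)) :
        ResidueField 𝒪 →+* (BigRing 𝒪 ⧸ m0 S)) :=
    IsLocalHom.of_surjective _ hsurj
  have hB : GaloisRep.IsArtinianTestAlgebra 𝒪 (BigRing 𝒪 ⧸ m0 S) := by
    refine ⟨?_, ?_, ?_⟩
    · have h2 : algebraMap 𝒪 (BigRing 𝒪 ⧸ m0 S) =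
          (((quotEquiv S).symm : ResidueField 𝒪 →ₐ[𝒪] (BigRing 𝒪 ⧸ m0 S)) :
            ResidueField 𝒪 →+* (BigRing 𝒪 ⧸ m0 S)).comp (algebraMap 𝒪 (ResidueField 𝒪)) := by
        ext o
        exact ((quotEquiv S).symm.commutes o).symm
      rw [h2]
      have : IsLocalHom (algebraMap 𝒪 (ResidueField 𝒪)) :=
        (isArtinianTestAlgebra_residueField 𝒪).isLocalHom
      exact RingHom.isLocalHom_comp _ _
    · intro x
      obtain ⟨y, rfl⟩ := residue_surjective x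
      obtain ⟨o, ho⟩ := residue_surjective (quotEquiv S y)
      refine ⟨o, ?_⟩
      rw [Function.comp_apply]
      congr 1
      apply (quotEquiv S).injective
      rw [AlgEquiv.commutes, ← ho]
      rfl
    · exact hsurj.isArtinianRing
  refine ⟨hloc, mapMat (((quotEquiv S).symm : ResidueField 𝒪 →ₐ[𝒪] (BigRing 𝒪 ⧸ m0 S)) :
        ResidueField 𝒪 →+* (BigRing 𝒪 ⧸ m0 S)) S.rbar, ?_, hB, ?_⟩
  · intro σ
    ext i j
    change (quotEquiv S).symm (S.rbar σ i j) = Ideal.Quotient.mk (m0 S) (MvPolynomial.X (σ, i, j))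
    rw [AlgEquiv.symm_apply_eq, quotEquiv_mk, resHom_X]
  · exact isRigidLift_mapMat S 𝒟 h𝒟 (isArtinianTestAlgebra_residueField 𝒪) hB
      (isRigidLift_rbar S 𝒟 h𝒟 ρbar hrbar e0 hbar) _ hφ

end Base

end Fermat.Agent.S53.GoodBase
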