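import Mathlib

/-!
# Rigidification of matrix lifts (slice (S-b) of the S53 plan)

Pure matrix algebra over a local ring `A` with residue field `k`.  No Galois theory, no tensor
products.  `Gam` is an arbitrary type (no multiplicativity is needed).

* `Coords rbar` : three "coordinates" `(g a, i a, j a)` together with dual matrices `E b` such that
  the commutator functionals `X ↦ (X * rbar (g a) - rbar (g a) * X) (i a) (j a)` are dual to `E`.
* `Coords.exists_of_centralizer` : such coordinates exist as soon as the centralizer of the family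
  `rbar` consists of scalar matrices.
* `unique_mod_pow`, `unique_of_nilpotent`, `unique_of_hausdorff` : a conjugating matrix between two
  rigid lifts is a scalar.
* `exists_step`, `exists_of_nilpotent` : every lift can be conjugated to a rigid one.
-/

set_option autoImplicit false

namespace Fermat.Agent.S53.Rigid

open Matrix IsLocalRing

/-- `2 × 2` matrices. -/
abbrev M2 (X : Type*) := Matrix (Fin 2) (Fin 2) X

section EntriesIn

variable {A : Type*} [CommRing A]

/-- All entries of the matrix lie in the ideal `I`. -/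
def EntriesIn (I : Ideal A) (Y : M2 A) : Prop := ∀ i j, Y i j ∈ I

theorem EntriesIn.mono {I J : Ideal A} (h : I ≤ J) {Y : M2 A} (hY : EntriesIn I Y) :
    EntriesIn J Y := fun i j => h (hY i j)

theorem entriesIn_zero (I : Ideal A) : EntriesIn I (0 : M2 A) := fun _ _ => I.zero_mem

theorem EntriesIn.add {I : Ideal A} {Y Z : M2 A} (hY : EntriesIn I Y) (hZ : EntriesIn I Z) :
    EntriesIn I (Y + Z) := fun i j => I.add_mem (hY i j) (hZ i j)

theorem EntriesIn.sub {I : Ideal A} {Y Z : M2 A} (hY : EntriesIn I Y) (hZ : EntriesIn I Z) :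
    EntriesIn I (Y - Z) := fun i j => I.sub_mem (hY i j) (hZ i j)

theorem EntriesIn.neg {I : Ideal A} {Y : M2 A} (hY : EntriesIn I Y) :
    EntriesIn I (-Y) := fun i j => I.neg_mem (hY i j)

theorem EntriesIn.smul {I : Ideal A} {Y : M2 A} (c : A) (hY : EntriesIn I Y) :
    EntriesIn I (c • Y) := fun i j => by
  rw [Matrix.smul_apply, smul_eq_mul]
  exact I.mul_mem_left c (hY i j)

theorem entriesIn_smul_of_mem {I : Ideal A} {c : A} (hc : c ∈ I) (Y : M2 A) :
    EntriesIn I (c • Y) := fun i j => by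
  rw [Matrix.smul_apply, smul_eq_mul]
  exact I.mul_mem_right _ hc

theorem entriesIn_smul_mul {I J : Ideal A} {c : A} (hc : c ∈ I) {Y : M2 A} (hY : EntriesIn J Y) :
    EntriesIn (I * J) (c • Y) := fun i j => by
  rw [Matrix.smul_apply, smul_eq_mul]
  exact Ideal.mul_mem_mul hc (hY i j)

theorem EntriesIn.sum {ι : Type*} {I : Ideal A} (s : Finset ι) {Y : ι → M2 A}
    (hY : ∀ a ∈ s, EntriesIn I (Y a)) : EntriesIn I (∑ a ∈ s, Y a) := fun i j => by
  rw [Matrix.sum_apply]
  exact I.sum_mem fun a ha => hY a ha i j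

theorem EntriesIn.mul {I J : Ideal A} {Y Z : M2 A} (hY : EntriesIn I Y) (hZ : EntriesIn J Z) :
    EntriesIn (I * J) (Y * Z) := fun i j => by
  rw [Matrix.mul_apply]
  exact (I * J).sum_mem fun l _ => Ideal.mul_mem_mul (hY i l) (hZ l j)

theorem EntriesIn.mul_left {I : Ideal A} {Y : M2 A} (Z : M2 A) (hY : EntriesIn I Y) :
    EntriesIn I (Z * Y) := fun i j => by
  rw [Matrix.mul_apply]
  exact I.sum_mem fun l _ => I.mul_mem_left _ (hY l j)

theorem EntriesIn.mul_right {I : Ideal A} {Y : M2 A} (Z : M2 A) (hY : EntriesIn I Y) :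
    EntriesIn I (Y * Z) := fun i j => by
  rw [Matrix.mul_apply]
  exact I.sum_mem fun l _ => I.mul_mem_right _ (hY i l)

theorem entriesIn_bot_iff {Y : M2 A} : EntriesIn ⊥ Y ↔ Y = 0 := by
  constructor
  · intro h
    ext i j
    simpa using h i j
  · rintro rfl
    exact entriesIn_zero _

end EntriesIn

section Red

variable {A : Type*} [CommRing A] [IsLocalRing A]

/-- Reduction of a matrix modulo the maximal ideal. -/
noncomputable abbrev red : M2 A →+* M2 (ResidueField A) := (residue A).mapMatrix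

theorem red_apply (Y : M2 A) (i j : Fin 2) : red Y i j = residue A (Y i j) := rfl

theorem red_eq_zero_iff {Y : M2 A} : red Y = 0 ↔ EntriesIn (maximalIdeal A) Y := by
  constructor
  · intro h i j
    rw [← residue_eq_zero_iff, ← red_apply, h]
    rfl
  · intro h
    ext i j
    rw [red_apply, (residue_eq_zero_iff _).mpr (h i j)]
    rfl

theorem red_eq_iff {Y Z : M2 A} : red Y = red Z ↔ EntriesIn (maximalIdeal A) (Y - Z) := by
  rw [← red_eq_zero_iff, map_sub, sub_eq_zero]

/-- A set-theoretic lift of a matrix over the residue field. -/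
noncomputable def liftM (X : M2 (ResidueField A)) : M2 A :=
  X.map (Function.surjInv (residue_surjective (R := A)))

@[simp] theorem red_liftM (X : M2 (ResidueField A)) : red (liftM X) = X := by
  ext i j
  rw [red_apply]
  exact Function.surjInv_eq _ _

end Red

section Coords

variable {Gam : Type*} {k : Type*} [Field k]

/-- The commutator functional `X ↦ (X * B - B * X) i j`. -/
def commEntry {X : Type*} [CommRing X] (B : M2 X) (i j : Fin 2) : M2 X →ₗ[X] X where
  toFun Y := (Y * B - B * Y) i j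
  map_add' Y Z := by
    simp only [add_mul, mul_add, Matrix.sub_apply, Matrix.add_apply]
    ring
  map_smul' c Y := by
    simp only [Matrix.smul_mul, Matrix.mul_smul, Matrix.sub_apply, Matrix.smul_apply, smul_eq_mul,
      RingHom.id_apply]
    ring

theorem commEntry_apply {X : Type*} [CommRing X] (B : M2 X) (i j : Fin 2) (Y : M2 X) :
    commEntry B i j Y = (Y * B - B * Y) i j := rfl

@[simp] theorem commEntry_one {X : Type*} [CommRing X] (B : M2 X) (i j : Fin 2) :
    commEntry B i j 1 = 0 := by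
  simp [commEntry_apply]

/-- Rigidifying coordinates for a family `rbar` of `2 × 2` matrices over a field: three
coordinates `(g a, i a, j a)` and matrices `E b` dual to the commutator functionals. -/
structure Coords (rbar : Gam → M2 k) where
  /-- the three elements -/
  g : Fin 3 → Gam
  /-- row indices -/
  i : Fin 3 → Fin 2
  /-- column indices -/
  j : Fin 3 → Fin 2
  /-- dual matrices -/
  E : Fin 3 → M2 k
  dual : ∀ a b, commEntry (rbar (g a)) (i a) (j a) (E b) = if a = b then 1 else 0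

namespace Coords

variable {rbar : Gam → M2 k} (c : Coords rbar)

/-- The `a`-th coordinate functional. -/
def lam (a : Fin 3) : M2 k →ₗ[k] k := commEntry (rbar (c.g a)) (c.i a) (c.j a)

theorem lam_E (a b : Fin 3) : c.lam a (c.E b) = if a = b then 1 else 0 := c.dual a b

@[simp] theorem lam_one (a : Fin 3) : c.lam a 1 = 0 := commEntry_one _ _ _

/-- The parametrisation `(x₀, x) ↦ x₀ • 1 + ∑ x b • E b` of `M₂(k)`. -/
def param : (k × (Fin 3 → k)) →ₗ[k] M2 k :=
  (LinearMap.toSpanSingleton k (M2 k) 1).coprod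
    (∑ b : Fin 3, (LinearMap.toSpanSingleton k (M2 k) (c.E b)).comp (LinearMap.proj b))

theorem param_apply (x : k × (Fin 3 → k)) :
    c.param x = x.1 • (1 : M2 k) + ∑ b : Fin 3, x.2 b • c.E b := by
  simp [param, LinearMap.coprod_apply, LinearMap.sum_apply]

theorem lam_param (a : Fin 3) (x : k × (Fin 3 → k)) : c.lam a (c.param x) = x.2 a := by
  rw [param_apply, map_add, map_smul, lam_one, smul_zero, zero_add, map_sum]
  simp only [map_smul, lam_E, smul_eq_mul, mul_ite, mul_one, mul_zero]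
  simp

theorem param_injective : Function.Injective c.param := by
  rw [← LinearMap.ker_eq_bot, LinearMap.ker_eq_bot']
  intro x hx
  have h2 : x.2 = 0 := by
    funext a
    have := c.lam_param a x
    rw [hx, map_zero] at this
    simpa using this.symm
  have h1 : x.1 = 0 := by
    have h := congrFun (congrFun hx 0) 0
    rw [param_apply, h2] at h
    simpa using h
  exact Prod.ext h1 h2

theorem param_surjective : Function.Surjective c.param := by
  have hfin : Module.finrank k (k × (Fin 3 → k)) = Module.finrank k (M2 k) := by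
    rw [Module.finrank_prod, Module.finrank_self, Module.finrank_fin_fun, Module.finrank_matrix,
      Module.finrank_self]
    simp
  exact (LinearMap.injective_iff_surjective_of_finrank_eq_finrank hfin).mp c.param_injective

/-- Every matrix is a scalar plus the combination of the `E b` with its coordinates. -/
theorem decomp (X : M2 k) : ∃ x0 : k, X = x0 • (1 : M2 k) + ∑ b : Fin 3, c.lam b X • c.E b := by
  obtain ⟨x, rfl⟩ := c.param_surjective X
  refine ⟨x.1, ?_⟩
  rw [param_apply]
  congr 1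
  refine Finset.sum_congr rfl fun b _ => ?_
  rw [← param_apply, lam_param]

/-- A matrix all of whose coordinates vanish is scalar. -/
theorem scalar_of_vanish (X : M2 k) (h : ∀ a, c.lam a X = 0) : ∃ x0 : k, X = x0 • (1 : M2 k) := by
  obtain ⟨x0, hx0⟩ := c.decomp X
  refine ⟨x0, ?_⟩
  rw [hx0]
  simp [h]

/-- Transport of coordinates along a ring homomorphism of fields. -/
def map {k' : Type*} [Field k'] (κ : k →+* k') : Coords (fun s => κ.mapMatrix (rbar s)) where
  g := c.g
  i := c.i
  j := c.j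
  E b := κ.mapMatrix (c.E b)
  dual a b := by
    have h := congrArg κ (c.dual a b)
    rw [commEntry_apply] at h ⊢
    rw [← map_mul, ← map_mul, ← map_sub, RingHom.mapMatrix_apply, Matrix.map_apply, h]
    split_ifs <;> simp

/-- The set of all commutator functionals of a family. -/
def commSet (rbar : Gam → M2 k) : Set (Module.Dual k (M2 k)) :=
  Set.range fun p : Gam × Fin 2 × Fin 2 => commEntry (rbar p.1) p.2.1 p.2.2

theorem mem_dualCoannihilator_commSet {rbar : Gam → M2 k} {X : M2 k} :
    X ∈ (Submodule.span k (commSet rbar)).dualCoannihilator ↔ ∀ s, X * rbar s = rbar s * X := by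
  rw [← SetLike.mem_coe, Submodule.coe_dualCoannihilator_span]
  constructor
  · intro h s
    ext i j
    have := h (commEntry (rbar s) i j) ⟨(s, i, j), rfl⟩
    rw [commEntry_apply, Matrix.sub_apply, sub_eq_zero] at this
    exact this
  · rintro h _ ⟨⟨s, i, j⟩, rfl⟩
    rw [commEntry_apply, h s, sub_self]
    rfl

/-- Rigidifying coordinates exist as soon as the centralizer of the family consists of scalar
matrices (Schur). -/
theorem exists_of_centralizer (rbar : Gam → M2 k)
    (hcent : ∀ X : M2 k, (∀ s, X * rbar s = rbar s * X) → ∃ x : k, X = x • (1 : M2 k)) :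
    Nonempty (Coords rbar) := by
  classical
  -- the common kernel is the line of scalar matrices
  have hco : (Submodule.span k (commSet rbar)).dualCoannihilator =
      Submodule.span k {(1 : M2 k)} := by
    ext X
    rw [mem_dualCoannihilator_commSet, Submodule.mem_span_singleton]
    constructor
    · intro h
      obtain ⟨x, hx⟩ := hcent X h
      exact ⟨x, hx.symm⟩
    · rintro ⟨x, rfl⟩ s
      simp
  have h1 : Module.finrank k (Submodule.span k {(1 : M2 k)}) = 1 :=
    finrank_span_singleton one_ne_zero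
  have h4 : Module.finrank k (M2 k) = 4 := by
    rw [Module.finrank_matrix, Module.finrank_self]
    simp
  have h3 : Module.finrank k (Submodule.span k (commSet rbar)) = 3 := by
    have := Subspace.finrank_add_finrank_dualCoannihilator_eq (Submodule.span k (commSet rbar))
    rw [hco, h1, h4] at this
    omega
  obtain ⟨f0, hf0S, hf0span, -⟩ := Submodule.exists_fun_fin_finrank_span_eq k (commSet rbar)
  -- reindex by `Fin 3`
  set f : Fin 3 → Module.Dual k (M2 k) := fun a => f0 (Fin.cast h3.symm a) with hf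
  have hfS : ∀ a, f a ∈ commSet rbar := fun a => hf0S _
  have hrange : Set.range f = Set.range f0 := by
    ext φ
    constructor
    · rintro ⟨a, rfl⟩
      exact ⟨_, rfl⟩
    · rintro ⟨a, rfl⟩
      exact ⟨Fin.cast h3 a, by simp [hf]⟩
  have hfspan : Submodule.span k (Set.range f) = Submodule.span k (commSet rbar) := by
    rw [hrange, hf0span]
  choose p hp using hfS
  -- the joint map
  set Λ : M2 k →ₗ[k] (Fin 3 → k) := LinearMap.pi f with hΛ
  have hker : LinearMap.ker Λ = Submodule.span k {(1 : M2 k)} := by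
    rw [← hco, ← hfspan]
    ext X
    rw [LinearMap.mem_ker, ← SetLike.mem_coe, Submodule.coe_dualCoannihilator_span]
    constructor
    · rintro h _ ⟨a, rfl⟩
      exact congrFun h a
    · intro h
      funext a
      exact h (f a) ⟨a, rfl⟩
  have hsurj : Function.Surjective Λ := by
    rw [← LinearMap.range_eq_top]
    apply Submodule.eq_top_of_finrank_eq
    have := LinearMap.finrank_range_add_finrank_ker Λ
    rw [hker, h1, h4] at this
    rw [Module.finrank_fin_fun]
    omega
  choose E hE using fun b : Fin 3 => hsurj (Pi.single b 1)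
  refine ⟨⟨fun a => (p a).1, fun a => (p a).2.1, fun a => (p a).2.2, E, fun a b => ?_⟩⟩
  have h5 : commEntry (rbar (p a).1) (p a).2.1 (p a).2.2 = f a := hp a
  rw [h5]
  have := congrFun (hE b) a
  rw [hΛ, LinearMap.pi_apply] at this
  rw [this, Pi.single_apply]

end Coords

end Coords

section Lifted

variable {Gam : Type*} {A : Type*} [CommRing A] [IsLocalRing A]
variable {rbar : Gam → M2 (ResidueField A)} (c : Coords rbar)
variable (R : Fin 3 → M2 A)

theorem residue_commEntry (B Y : M2 A) (i j : Fin 2) :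
    residue A (commEntry B i j Y) = commEntry (red B) i j (red Y) := by
  rw [commEntry_apply, commEntry_apply, ← map_mul, ← map_mul, ← map_sub, red_apply]

/-- Lifts of the dual matrices. -/
noncomputable def Etil (b : Fin 3) : M2 A := liftM (c.E b)

@[simp] theorem red_Etil (b : Fin 3) : red (Etil c b) = c.E b := red_liftM _

/-- The lifted coordinate functionals, computed with the matrices `R a`. -/
def lamA (a : Fin 3) : M2 A →ₗ[A] A := commEntry (R a) (c.i a) (c.j a)

theorem residue_lamA (hR : ∀ a, red (R a) = rbar (c.g a)) (a : Fin 3) (Y : M2 A) :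
    residue A (lamA c R a Y) = c.lam a (red Y) := by
  rw [lamA, residue_commEntry, hR]
  rfl

/-- `Y ↦ Y - ∑ λ_b(Y) • Ẽ_b`. -/
noncomputable def Tmap : M2 A →ₗ[A] M2 A :=
  LinearMap.id - ∑ b : Fin 3, (LinearMap.toSpanSingleton A (M2 A) (Etil c b)).comp (lamA c R b)

theorem Tmap_apply (Y : M2 A) : Tmap c R Y = Y - ∑ b : Fin 3, lamA c R b Y • Etil c b := by
  simp [Tmap, LinearMap.sum_apply]

/-- The scalar part. -/
noncomputable def smap : M2 A →ₗ[A] A := (Matrix.entryLinearMap A A 0 0).comp (Tmap c R)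

theorem smap_apply (Y : M2 A) : smap c R Y = Tmap c R Y 0 0 := rfl

/-- The defect map; it vanishes modulo the maximal ideal. -/
noncomputable def Dmap : M2 A →ₗ[A] M2 A :=
  Tmap c R - (LinearMap.toSpanSingleton A (M2 A) 1).comp (smap c R)

theorem Dmap_apply (Y : M2 A) : Dmap c R Y = Tmap c R Y - smap c R Y • (1 : M2 A) := by
  simp [Dmap]

theorem red_Tmap (hR : ∀ a, red (R a) = rbar (c.g a)) (Y : M2 A) :
    ∃ x0 : ResidueField A, red (Tmap c R Y) = x0 • (1 : M2 (ResidueField A)) := by
  obtain ⟨x0, hx0⟩ := c.decomp (red Y)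
  refine ⟨x0, ?_⟩
  rw [Tmap_apply, map_sub, map_sum]
  have : ∀ b : Fin 3, red (lamA c R b Y • Etil c b) = c.lam b (red Y) • c.E b := by
    intro b
    ext i j
    rw [red_apply, Matrix.smul_apply, Matrix.smul_apply, smul_eq_mul, smul_eq_mul, map_mul,
      residue_lamA c R hR, ← red_apply, red_Etil]
  simp_rw [this]
  rw [sub_eq_iff_eq_add]
  exact hx0

theorem red_Dmap (hR : ∀ a, red (R a) = rbar (c.g a)) (Y : M2 A) : red (Dmap c R Y) = 0 := by
  obtain ⟨x0, hx0⟩ := red_Tmap c R hR Y
  have hs : residue A (smap c R Y) = x0 := by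
    rw [smap_apply, ← red_apply, hx0]
    simp
  rw [Dmap_apply, map_sub, hx0, sub_eq_zero]
  ext i j
  rw [red_apply, Matrix.smul_apply, Matrix.smul_apply, smul_eq_mul, smul_eq_mul, map_mul, hs,
    ← red_apply, map_one]

theorem entriesIn_Dmap (hR : ∀ a, red (R a) = rbar (c.g a)) {I : Ideal A} {Y : M2 A}
    (hY : EntriesIn I Y) : EntriesIn (maximalIdeal A * I) (Dmap c R Y) := by
  have hsum : Dmap c R Y = ∑ k : Fin 2, ∑ l : Fin 2, Y k l • Dmap c R (Matrix.single k l 1) := by
    conv_lhs => rw [Matrix.matrix_eq_sum_single Y]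
    rw [map_sum]
    refine Finset.sum_congr rfl fun k _ => ?_
    rw [map_sum]
    refine Finset.sum_congr rfl fun l _ => ?_
    rw [← map_smul]
    congr 1
    ext i j
    simp [Matrix.single_apply]
  rw [hsum, mul_comm]
  refine EntriesIn.sum _ fun k _ => EntriesIn.sum _ fun l _ => ?_
  exact entriesIn_smul_mul (hY k l) (red_eq_zero_iff.mp (red_Dmap c R hR _))

/-- **Key step for uniqueness.** If `Y` has entries in `I` and its lifted coordinates lie in
`𝔪 * I`, then `Y` is a scalar modulo `𝔪 * I`. -/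
theorem exists_scalar_mod (hR : ∀ a, red (R a) = rbar (c.g a)) {I : Ideal A} {Y : M2 A}
    (hY : EntriesIn I Y) (hlam : ∀ a, lamA c R a Y ∈ maximalIdeal A * I) :
    ∃ y0 ∈ I, EntriesIn (maximalIdeal A * I) (Y - y0 • (1 : M2 A)) := by
  have hle : maximalIdeal A * I ≤ I := Ideal.mul_le_right
  have hsumI : EntriesIn (maximalIdeal A * I) (∑ b : Fin 3, lamA c R b Y • Etil c b) :=
    EntriesIn.sum _ fun b _ => entriesIn_smul_of_mem (hlam b) _
  refine ⟨smap c R Y, ?_, ?_⟩
  · rw [smap_apply, Tmap_apply, Matrix.sub_apply]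
    exact I.sub_mem (hY 0 0) (hle (hsumI 0 0))
  · have : Y - smap c R Y • (1 : M2 A) =
        Dmap c R Y + ∑ b : Fin 3, lamA c R b Y • Etil c b := by
      rw [Dmap_apply, Tmap_apply]
      abel
    rw [this]
    exact (entriesIn_Dmap c R hR hY).add hsumI

end Lifted

section Uniqueness

variable {Gam : Type*} {A : Type*} [CommRing A] [IsLocalRing A]
variable {rbar : Gam → M2 (ResidueField A)} (c : Coords rbar)

/-- If `U - u • 1` has entries in the maximal ideal and `U` is invertible then `u` is a unit. -/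
theorem isUnit_of_entriesIn_sub {U : M2 A} (hU : IsUnit U) {u : A} {I : Ideal A}
    (hI : I ≤ maximalIdeal A) (h : EntriesIn I (U - u • (1 : M2 A))) : IsUnit u := by
  rw [← notMem_maximalIdeal]
  intro hu
  have h1 : red U = 0 := by
    rw [red_eq_zero_iff]
    have h2 : EntriesIn (maximalIdeal A) (u • (1 : M2 A)) := entriesIn_smul_of_mem hu _
    have := (h.mono hI).add h2
    rwa [sub_add_cancel] at this
  have h3 : IsUnit (red U) := hU.map red
  rw [h1] at h3
  exact not_isUnit_zero h3

/-- **Inductive step of uniqueness.** -/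
theorem unique_step (R R' : Fin 3 → M2 A) (hR : ∀ a, red (R a) = rbar (c.g a))
    (U : (M2 A)ˣ) (hU : ∀ a, (U : M2 A) * R a = R' a * U)
    (hrig : ∀ a, R a (c.i a) (c.j a) = R' a (c.i a) (c.j a))
    {I : Ideal A} (hI : I ≤ maximalIdeal A)
    (h : ∃ u : A, EntriesIn I ((U : M2 A) - u • (1 : M2 A))) :
    ∃ u : A, EntriesIn (maximalIdeal A * I) ((U : M2 A) - u • (1 : M2 A)) := by
  obtain ⟨u, hu⟩ := h
  obtain ⟨v, hv⟩ := isUnit_of_entriesIn_sub U.isUnit hI hu
  -- `Y = u⁻¹ • (U - u • 1)`
  set Y : M2 A := (↑v⁻¹ : A) • ((U : M2 A) - u • (1 : M2 A)) with hYdef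
  have hY : EntriesIn I Y := hu.smul _
  have hUY : (U : M2 A) = u • (1 + Y) := by
    rw [hYdef, ← hv, smul_add, smul_smul, Units.mul_inv, one_smul]
    abel
  -- cancel the unit
  have hcomm : ∀ a, (1 + Y) * R a = R' a * (1 + Y) := by
    intro a
    have h1 := hU a
    rw [hUY, Matrix.smul_mul, Matrix.mul_smul, ← hv] at h1
    have h2 := congrArg (fun Z : M2 A => (↑v⁻¹ : A) • Z) h1
    simpa [smul_smul] using h2
  -- `Δ a = R' a - R a` has entries in `I`
  have hΔ : ∀ a, EntriesIn I (R' a - R a) := by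
    intro a
    have h1 : R' a - R a = Y * R a - R' a * Y := by
      have := hcomm a
      rw [add_mul, mul_add, one_mul, mul_one] at this
      rw [sub_eq_sub_iff_add_eq_add, add_comm (Y * R a), ← this]
    rw [h1]
    exact (hY.mul_right _).sub (hY.mul_left _)
  have hlam : ∀ a, lamA c R a Y ∈ maximalIdeal A * I := by
    intro a
    have h1 : Y * R a - R a * Y = (R' a - R a) + (R' a - R a) * Y := by
      have := hcomm a
      rw [add_mul, mul_add, one_mul, mul_one] at this
      rw [sub_mul, ← sub_eq_zero]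
      have h3 : Y * R a - R a * Y - (R' a - R a + (R' a * Y - R a * Y))
          = (R a + Y * R a) - (R' a + R' a * Y) := by abel
      rw [h3, this, sub_self]
    have h2 : lamA c R a Y = ((R' a - R a) * Y) (c.i a) (c.j a) := by
      rw [lamA, commEntry_apply, h1, Matrix.add_apply, Matrix.sub_apply, hrig a, sub_self,
        zero_add]
    rw [h2]
    exact (Ideal.mul_mono hI le_rfl) (((hΔ a).mul hY) _ _)
  obtain ⟨y0, -, hy0⟩ := exists_scalar_mod c R hR hY hlam
  refine ⟨u * (1 + y0), ?_⟩
  have : (U : M2 A) - (u * (1 + y0)) • (1 : M2 A) = u • (Y - y0 • (1 : M2 A)) := by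
    rw [hUY, mul_smul, smul_add, smul_sub, add_smul, one_smul, smul_add]
    abel
  rw [this]
  exact hy0.smul _

/-- A conjugating matrix between two rigid families is scalar modulo every power of the maximal
ideal. -/
theorem unique_mod_pow (R R' : Fin 3 → M2 A) (hR : ∀ a, red (R a) = rbar (c.g a))
    (U : (M2 A)ˣ) (hU : ∀ a, (U : M2 A) * R a = R' a * U)
    (hrig : ∀ a, R a (c.i a) (c.j a) = R' a (c.i a) (c.j a))
    (hred : ∃ x : ResidueField A, red (U : M2 A) = x • (1 : M2 (ResidueField A))) (n : ℕ) :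
    ∃ u : A, EntriesIn (maximalIdeal A ^ (n + 1)) ((U : M2 A) - u • (1 : M2 A)) := by
  induction n with
  | zero =>
    obtain ⟨x, hx⟩ := hred
    obtain ⟨u, rfl⟩ := residue_surjective x
    refine ⟨u, ?_⟩
    rw [zero_add, pow_one, ← red_eq_iff, hx]
    ext i j
    rw [red_apply, Matrix.smul_apply, Matrix.smul_apply, smul_eq_mul, smul_eq_mul, map_mul,
      ← red_apply, map_one]
  | succ n ih =>
    have hI : maximalIdeal A ^ (n + 1) ≤ maximalIdeal A := Ideal.pow_le_self (Nat.succ_ne_zero n)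
    have := unique_step c R R' hR U hU hrig hI ih
    rwa [← pow_succ'] at this

/-- Uniqueness of rigidification when the maximal ideal is nilpotent. -/
theorem unique_of_nilpotent (hnil : IsNilpotent (maximalIdeal A))
    (R R' : Fin 3 → M2 A) (hR : ∀ a, red (R a) = rbar (c.g a))
    (U : (M2 A)ˣ) (hU : ∀ a, (U : M2 A) * R a = R' a * U)
    (hrig : ∀ a, R a (c.i a) (c.j a) = R' a (c.i a) (c.j a))
    (hred : ∃ x : ResidueField A, red (U : M2 A) = x • (1 : M2 (ResidueField A))) :
    ∃ u : Aˣ, (U : M2 A) = (u : A) • (1 : M2 A) := by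
  obtain ⟨N, hN⟩ := hnil
  obtain ⟨u, hu⟩ := unique_mod_pow c R R' hR U hU hrig hred N
  have h0 : maximalIdeal A ^ (N + 1) = ⊥ := by
    rw [pow_succ, hN]
    simp
  rw [h0, entriesIn_bot_iff, sub_eq_zero] at hu
  have hunit : IsUnit u := by
    refine isUnit_of_entriesIn_sub (I := ⊥) U.isUnit bot_le ?_
    rw [entriesIn_bot_iff, sub_eq_zero]
    exact hu
  obtain ⟨v, rfl⟩ := hunit
  exact ⟨v, hu⟩

/-- Uniqueness of rigidification when `A` is separated for the adic topology of its maximal
ideal (e.g. `A` Noetherian). -/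
theorem unique_of_hausdorff (hH : (⨅ n : ℕ, maximalIdeal A ^ n) = ⊥)
    (R R' : Fin 3 → M2 A) (hR : ∀ a, red (R a) = rbar (c.g a))
    (U : (M2 A)ˣ) (hU : ∀ a, (U : M2 A) * R a = R' a * U)
    (hrig : ∀ a, R a (c.i a) (c.j a) = R' a (c.i a) (c.j a))
    (hred : ∃ x : ResidueField A, red (U : M2 A) = x • (1 : M2 (ResidueField A))) :
    ∃ u : Aˣ, (U : M2 A) = (u : A) • (1 : M2 A) := by
  have key : ∀ x : A, (∀ n : ℕ, x ∈ maximalIdeal A ^ (n + 1)) → x = 0 := by
    intro x hx
    have : x ∈ (⨅ n : ℕ, maximalIdeal A ^ n) := by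
      rw [Ideal.mem_iInf]
      intro n
      exact Ideal.pow_le_pow_right (Nat.le_succ n) (hx n)
    rwa [hH] at this
  have h01 : (U : M2 A) 0 1 = 0 := key _ fun n => by
    obtain ⟨u, hu⟩ := unique_mod_pow c R R' hR U hU hrig hred n
    simpa using hu 0 1
  have h10 : (U : M2 A) 1 0 = 0 := key _ fun n => by
    obtain ⟨u, hu⟩ := unique_mod_pow c R R' hR U hU hrig hred n
    simpa using hu 1 0
  have h11 : (U : M2 A) 0 0 - (U : M2 A) 1 1 = 0 := key _ fun n => by
    obtain ⟨u, hu⟩ := unique_mod_pow c R R' hR U hU hrig hred n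
    have h1 := hu 0 0
    have h2 := hu 1 1
    have : (U : M2 A) 0 0 - (U : M2 A) 1 1 =
        ((U : M2 A) - u • (1 : M2 A)) 0 0 - ((U : M2 A) - u • (1 : M2 A)) 1 1 := by
      simp
    rw [this]
    exact Ideal.sub_mem _ h1 h2
  have hU' : (U : M2 A) = ((U : M2 A) 0 0) • (1 : M2 A) := by
    ext i j
    fin_cases i <;> fin_cases j <;> simp [h01, h10]
    exact (sub_eq_zero.mp h11).symm
  have hunit : IsUnit ((U : M2 A) 0 0) := by
    refine isUnit_of_entriesIn_sub (I := ⊥) U.isUnit bot_le ?_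
    rw [entriesIn_bot_iff, sub_eq_zero]
    exact hU'
  obtain ⟨v, hv⟩ := hunit
  exact ⟨v, by rw [hv]; exact hU'⟩

end Uniqueness

section Existence

variable {Gam : Type*} {A : Type*} [CommRing A] [IsLocalRing A]
variable {rbar : Gam → M2 (ResidueField A)} (c : Coords rbar)

theorem isUnit_one_add_of_entriesIn {Y : M2 A} (hY : EntriesIn (maximalIdeal A) Y) :
    IsUnit (1 + Y) := by
  rw [Matrix.isUnit_iff_isUnit_det, Matrix.det_fin_two, ← notMem_maximalIdeal]
  intro h
  have h1 : (1 + Y) 0 0 * (1 + Y) 1 1 - (1 + Y) 0 1 * (1 + Y) 1 0 =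
      1 + (Y 0 0 + Y 1 1 + Y 0 0 * Y 1 1 - Y 0 1 * Y 1 0) := by
    simp only [Matrix.add_apply, Matrix.one_apply_eq, Matrix.one_apply_ne, ne_eq, zero_ne_one,
      not_false_eq_true, one_ne_zero, zero_add]
    ring
  rw [h1] at h
  have h2 : Y 0 0 + Y 1 1 + Y 0 0 * Y 1 1 - Y 0 1 * Y 1 0 ∈ maximalIdeal A :=
    Ideal.sub_mem _ (Ideal.add_mem _ (Ideal.add_mem _ (hY 0 0) (hY 1 1))
      (Ideal.mul_mem_left _ _ (hY 1 1))) (Ideal.mul_mem_left _ _ (hY 1 0))
  have h3 : (1 : A) ∈ maximalIdeal A := by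
    have := Ideal.sub_mem _ h h2
    rwa [add_sub_cancel_right] at this
  exact (Ideal.ne_top_iff_one _).mp (IsLocalRing.maximalIdeal.isMaximal A).ne_top h3

/-- `red U = 1` iff `U - 1` has entries in the maximal ideal. -/
theorem red_eq_one_iff {U : M2 A} : red U = 1 ↔ EntriesIn (maximalIdeal A) (U - 1) := by
  rw [← red_eq_iff, map_one]

omit [IsLocalRing A] in
/-- The inverse of `1 + Y` is `1 - Y` up to second order terms. -/
theorem inv_one_add_sub {I : Ideal A} {Y : M2 A} (hY : EntriesIn I Y) (V : (M2 A)ˣ)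
    (hV : (V : M2 A) = 1 + Y) :
    EntriesIn (I * I) ((↑V⁻¹ : M2 A) - (1 - Y)) := by
  have h1 : (1 + Y) * (↑V⁻¹ : M2 A) = 1 := by rw [← hV]; exact V.mul_inv
  have h2 : (↑V⁻¹ : M2 A) = 1 - Y * (↑V⁻¹ : M2 A) := by
    rw [add_mul, one_mul] at h1
    rw [eq_sub_iff_add_eq, h1]
  have h3 : (↑V⁻¹ : M2 A) - (1 - Y) = Y * (Y * (↑V⁻¹ : M2 A)) := by
    have h4 : Y * (Y * (↑V⁻¹ : M2 A)) = Y * (1 - (↑V⁻¹ : M2 A)) := by
      congr 1
      rw [eq_sub_iff_add_eq, add_comm, ← eq_sub_iff_add_eq]
      exact h2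
    rw [h4, mul_sub, mul_one]
    conv_lhs => rw [h2]
    abel
  rw [h3]
  exact hY.mul (hY.mul_right _)

/-- **Inductive step of existence.** -/
theorem exists_step (R : Fin 3 → M2 A) (hR : ∀ a, red (R a) = rbar (c.g a)) (t : Fin 3 → A)
    {I : Ideal A} (hI : I ≤ maximalIdeal A) (U : (M2 A)ˣ) (hU1 : red (U : M2 A) = 1)
    (herr : ∀ a, t a - ((U : M2 A) * R a * (↑U⁻¹ : M2 A)) (c.i a) (c.j a) ∈ I) :
    ∃ U' : (M2 A)ˣ, red (U' : M2 A) = 1 ∧ EntriesIn I ((U' : M2 A) - (U : M2 A)) ∧
      ∀ a, t a - ((U' : M2 A) * R a * (↑U'⁻¹ : M2 A)) (c.i a) (c.j a) ∈ maximalIdeal A * I := by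
  -- the conjugated family
  set R1 : Fin 3 → M2 A := fun a => (U : M2 A) * R a * (↑U⁻¹ : M2 A) with hR1def
  have hUinv1 : red (↑U⁻¹ : M2 A) = 1 := by
    have h := congrArg red U.mul_inv
    rw [map_mul, hU1, one_mul, map_one] at h
    exact h
  have hR1 : ∀ a, red (R1 a) = rbar (c.g a) := by
    intro a
    rw [hR1def]
    simp only [map_mul, hU1, hUinv1, one_mul, mul_one, hR]
  set e : Fin 3 → A := fun a => t a - R1 a (c.i a) (c.j a) with hedef
  have he : ∀ a, e a ∈ I := herr
  set Y : M2 A := ∑ b : Fin 3, e b • Etil c b with hYdef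
  have hY : EntriesIn I Y := EntriesIn.sum _ fun b _ => entriesIn_smul_of_mem (he b) _
  obtain ⟨V, hV⟩ := isUnit_one_add_of_entriesIn (hY.mono hI)
  have hVred : red (V : M2 A) = 1 := by
    rw [hV, red_eq_one_iff, add_sub_cancel_left]
    exact hY.mono hI
  have hZ := inv_one_add_sub hY V hV
  set W : M2 A := (↑V⁻¹ : M2 A) with hWdef
  set Z : M2 A := W - (1 - Y) with hZdef
  have hW : W = 1 - Y + Z := by rw [hZdef]; abel
  have hII : I * I ≤ maximalIdeal A * I := Ideal.mul_mono hI le_rfl
  -- second order expansion of the conjugate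
  have hexp : ∀ a, EntriesIn (I * I)
      ((V : M2 A) * R1 a * W - R1 a - (Y * R1 a - R1 a * Y)) := by
    intro a
    have h1 : (V : M2 A) * R1 a * W - R1 a - (Y * R1 a - R1 a * Y) =
        (1 + Y) * R1 a * Z - Y * R1 a * Y := by
      rw [hV, hW]
      noncomm_ring
    rw [h1]
    exact (hZ.mul_left _).sub ((hY.mul_right _).mul hY)
  -- the coordinates of `Y`
  have hlam : ∀ a, lamA c R1 a Y - e a ∈ maximalIdeal A * I := by
    intro a
    have h1 : lamA c R1 a Y - e a =
        ∑ b : Fin 3, e b * (lamA c R1 a (Etil c b) - if a = b then 1 else 0) := by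
      rw [hYdef, map_sum]
      simp only [map_smul, smul_eq_mul, mul_sub, Finset.sum_sub_distrib, mul_ite, mul_one,
        mul_zero]
      simp
    rw [h1, mul_comm (maximalIdeal A) I]
    refine Ideal.sum_mem _ fun b _ => Ideal.mul_mem_mul (he b) ?_
    rw [← residue_eq_zero_iff, map_sub, residue_lamA c R1 hR1, red_Etil, c.lam_E]
    split_ifs <;> simp
  refine ⟨V * U, ?_, ?_, ?_⟩
  · rw [Units.val_mul, map_mul, hVred, hU1, one_mul]
  · have : ((V * U : (M2 A)ˣ) : M2 A) - (U : M2 A) = Y * (U : M2 A) := by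
      rw [Units.val_mul, hV, add_mul, one_mul, add_sub_cancel_left]
    rw [this]
    exact hY.mul_right _
  · intro a
    have h1 : ((V * U : (M2 A)ˣ) : M2 A) * R a * (↑(V * U)⁻¹ : M2 A) = (V : M2 A) * R1 a * W := by
      rw [_root_.mul_inv_rev, Units.val_mul, Units.val_mul, hR1def, hWdef]
      simp only [mul_assoc]
    rw [h1]
    have h2 : t a - ((V : M2 A) * R1 a * W) (c.i a) (c.j a) =
        -(((V : M2 A) * R1 a * W - R1 a - (Y * R1 a - R1 a * Y)) (c.i a) (c.j a))
          - (lamA c R1 a Y - e a) := by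
      rw [lamA, commEntry_apply, hedef]
      simp only [Matrix.sub_apply]
      ring
    rw [h2]
    exact Ideal.sub_mem _ (neg_mem (hII (hexp a _ _))) (hlam a)

/-- Existence of rigidification modulo every power of the maximal ideal. -/
theorem exists_mod_pow (R : Fin 3 → M2 A) (hR : ∀ a, red (R a) = rbar (c.g a)) (t : Fin 3 → A)
    (ht : ∀ a, residue A (t a) = rbar (c.g a) (c.i a) (c.j a)) (n : ℕ) :
    ∃ U : (M2 A)ˣ, red (U : M2 A) = 1 ∧
      ∀ a, t a - ((U : M2 A) * R a * (↑U⁻¹ : M2 A)) (c.i a) (c.j a) ∈ maximalIdeal A ^ (n + 1) := by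
  induction n with
  | zero =>
    refine ⟨1, map_one _, fun a => ?_⟩
    rw [zero_add, pow_one, ← residue_eq_zero_iff, map_sub, ht, sub_eq_zero]
    simp only [Units.val_one, one_mul, inv_one, mul_one]
    rw [← red_apply, hR]
  | succ n ih =>
    obtain ⟨U, hU1, herr⟩ := ih
    have hI : maximalIdeal A ^ (n + 1) ≤ maximalIdeal A := Ideal.pow_le_self (Nat.succ_ne_zero n)
    obtain ⟨U', hU'1, -, herr'⟩ := exists_step c R hR t hI U hU1 herr
    refine ⟨U', hU'1, fun a => ?_⟩
    have := herr' a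
    rwa [← pow_succ'] at this

/-- Existence of rigidification when the maximal ideal is nilpotent. -/
theorem exists_of_nilpotent (hnil : IsNilpotent (maximalIdeal A))
    (R : Fin 3 → M2 A) (hR : ∀ a, red (R a) = rbar (c.g a)) (t : Fin 3 → A)
    (ht : ∀ a, residue A (t a) = rbar (c.g a) (c.i a) (c.j a)) :
    ∃ U : (M2 A)ˣ, red (U : M2 A) = 1 ∧
      ∀ a, ((U : M2 A) * R a * (↑U⁻¹ : M2 A)) (c.i a) (c.j a) = t a := by
  obtain ⟨N, hN⟩ := hnil
  obtain ⟨U, hU1, herr⟩ := exists_mod_pow c R hR t ht N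
  have h0 : maximalIdeal A ^ (N + 1) = ⊥ := by
    rw [pow_succ, hN]
    simp
  refine ⟨U, hU1, fun a => ?_⟩
  have := herr a
  rw [h0, Ideal.mem_bot, sub_eq_zero] at this
  exact this.symm

end Existence

section Complete

variable {Gam : Type*} {A : Type*} [CommRing A] [IsLocalRing A]
variable {rbar : Gam → M2 (ResidueField A)} (c : Coords rbar)

/-- Dependent choice in the form needed below. -/
theorem exists_seq_of_step {α : Type*} (P : ℕ → α → Prop) (Q : ℕ → α → α → Prop) (x0 : α)
    (h0 : P 0 x0) (hstep : ∀ n x, P n x → ∃ y, P (n + 1) y ∧ Q n x y) :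
    ∃ f : ℕ → α, ∀ n, P n (f n) ∧ Q n (f n) (f (n + 1)) := by
  classical
  let g : (n : ℕ) → {x // P n x} := fun n =>
    Nat.rec (motive := fun n => {x // P n x}) ⟨x0, h0⟩
      (fun n x => ⟨Classical.choose (hstep n x.1 x.2), (Classical.choose_spec (hstep n x.1 x.2)).1⟩) n
  refine ⟨fun n => (g n).1, fun n => ⟨(g n).2, ?_⟩⟩
  exact (Classical.choose_spec (hstep n (g n).1 (g n).2)).2

omit [IsLocalRing A] in
/-- Conjugation by a matrix congruent to `1` modulo `I` moves a matrix by entries in `I`. -/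
theorem conj_sub_entriesIn {I : Ideal A} (V : (M2 A)ˣ) (hV : EntriesIn I ((V : M2 A) - 1))
    (X : M2 A) : EntriesIn I ((V : M2 A) * X * (↑V⁻¹ : M2 A) - X) := by
  have h1 : (V : M2 A) * X * (↑V⁻¹ : M2 A) - X =
      (((V : M2 A) - 1) * X - X * ((V : M2 A) - 1)) * (↑V⁻¹ : M2 A) := by
    have h2 : ((V : M2 A) - 1) * X - X * ((V : M2 A) - 1) = (V : M2 A) * X - X * (V : M2 A) := by
      noncomm_ring
    rw [h2, sub_mul, mul_assoc X, V.mul_inv, mul_one]
  rw [h1]
  exact ((hV.mul_right _).sub (hV.mul_left _)).mul_right _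

/-- Limits of Cauchy sequences of elements. -/
theorem exists_limit_elt [IsPrecomplete (maximalIdeal A) A] (f : ℕ → A)
    (hf : ∀ n, f (n + 1) - f n ∈ maximalIdeal A ^ (n + 1)) :
    ∃ L : A, ∀ n, L - f n ∈ maximalIdeal A ^ (n + 1) := by
  have hmono : ∀ m d, f (m + d) - f m ∈ maximalIdeal A ^ (m + 1) := by
    intro m d
    induction d with
    | zero => simp
    | succ d ih =>
      have h1 : f (m + (d + 1)) - f m = (f (m + d + 1) - f (m + d)) + (f (m + d) - f m) := by
        rw [← add_assoc]; ring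
      rw [h1]
      exact Ideal.add_mem _ (Ideal.pow_le_pow_right (by omega) (hf (m + d))) ih
  have hcauchy : ∀ {m n}, m ≤ n →
      f m ≡ f n [SMOD (maximalIdeal A ^ m • ⊤ : Submodule A A)] := by
    intro m n hmn
    obtain ⟨d, rfl⟩ := Nat.exists_eq_add_of_le hmn
    rw [SModEq.sub_mem, smul_eq_mul, Ideal.mul_top, ← Ideal.neg_mem_iff, neg_sub]
    exact Ideal.pow_le_pow_right (Nat.le_succ m) (hmono m d)
  obtain ⟨L, hL⟩ := IsPrecomplete.prec ‹_› hcauchy
  refine ⟨L, fun n => ?_⟩
  have h1 := hL (n + 1)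
  rw [SModEq.sub_mem, smul_eq_mul, Ideal.mul_top] at h1
  have h2 : L - f n = -(f (n + 1) - L) + (f (n + 1) - f n) := by ring
  rw [h2]
  exact Ideal.add_mem _ (neg_mem h1) (hf n)

/-- Limits of Cauchy sequences of matrices. -/
theorem exists_limit_mat [IsPrecomplete (maximalIdeal A) A] (f : ℕ → M2 A)
    (hf : ∀ n, EntriesIn (maximalIdeal A ^ (n + 1)) (f (n + 1) - f n)) :
    ∃ L : M2 A, ∀ n, EntriesIn (maximalIdeal A ^ (n + 1)) (L - f n) := by
  have := fun i j => exists_limit_elt (fun n => f n i j) (fun n => hf n i j)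
  choose L hL using this
  exact ⟨Matrix.of L, fun n i j => hL i j n⟩

/-- Existence of rigidification over a complete local ring. -/
theorem exists_of_complete [IsAdicComplete (maximalIdeal A) A]
    (R : Fin 3 → M2 A) (hR : ∀ a, red (R a) = rbar (c.g a)) (t : Fin 3 → A)
    (ht : ∀ a, residue A (t a) = rbar (c.g a) (c.i a) (c.j a)) :
    ∃ U : (M2 A)ˣ, red (U : M2 A) = 1 ∧
      ∀ a, ((U : M2 A) * R a * (↑U⁻¹ : M2 A)) (c.i a) (c.j a) = t a := by
  -- a compatible sequence of approximate solutions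
  obtain ⟨f, hf⟩ := exists_seq_of_step
    (P := fun n (U : (M2 A)ˣ) => red (U : M2 A) = 1 ∧
      ∀ a, t a - ((U : M2 A) * R a * (↑U⁻¹ : M2 A)) (c.i a) (c.j a) ∈ maximalIdeal A ^ (n + 1))
    (Q := fun n (U U' : (M2 A)ˣ) =>
      EntriesIn (maximalIdeal A ^ (n + 1)) ((U' : M2 A) - (U : M2 A)))
    1
    (by
      refine ⟨map_one _, fun a => ?_⟩
      rw [zero_add, pow_one, ← residue_eq_zero_iff, map_sub, ht, sub_eq_zero]
      simp only [Units.val_one, one_mul, inv_one, mul_one]
      rw [← red_apply, hR])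
    (by
      rintro n U ⟨hU1, herr⟩
      have hI : maximalIdeal A ^ (n + 1) ≤ maximalIdeal A :=
        Ideal.pow_le_self (Nat.succ_ne_zero n)
      obtain ⟨U', hU'1, hdiff, herr'⟩ := exists_step c R hR t hI U hU1 herr
      refine ⟨U', ⟨hU'1, fun a => ?_⟩, hdiff⟩
      have := herr' a
      rwa [← pow_succ'] at this)
  obtain ⟨L, hL⟩ := exists_limit_mat (fun n => (f n : M2 A)) (fun n => (hf n).2)
  -- `L` is congruent to `1`
  have hL1 : EntriesIn (maximalIdeal A) (L - 1) := by
    have h1 : L - 1 = (L - (f 0 : M2 A)) + ((f 0 : M2 A) - 1) := by abel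
    rw [h1]
    refine EntriesIn.add ?_ (red_eq_one_iff.mp (hf 0).1.1)
    have := hL 0
    rwa [zero_add, pow_one] at this
  obtain ⟨U, hU⟩ : IsUnit L := by
    have := isUnit_one_add_of_entriesIn hL1
    rwa [add_sub_cancel] at this
  refine ⟨U, ?_, fun a => ?_⟩
  · rw [hU, red_eq_one_iff]
    exact hL1
  · -- the error lies in every power of the maximal ideal
    have hhaus : IsHausdorff (maximalIdeal A) A := inferInstance
    symm
    rw [← sub_eq_zero]
    refine hhaus.haus _ fun n => ?_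
    rw [SModEq.sub_mem, smul_eq_mul, Ideal.mul_top, sub_zero]
    -- compare with the `n`-th approximation
    obtain ⟨V, hVdef⟩ : ∃ V : (M2 A)ˣ, V = U * (f n)⁻¹ := ⟨_, rfl⟩
    have hV : EntriesIn (maximalIdeal A ^ (n + 1)) ((V : M2 A) - 1) := by
      have h1 : (V : M2 A) - 1 = (L - (f n : M2 A)) * (↑(f n)⁻¹ : M2 A) := by
        rw [hVdef, Units.val_mul, hU, sub_mul, (f n).mul_inv]
      rw [h1]
      exact (hL n).mul_right _
    have hconj := conj_sub_entriesIn V hV ((f n : M2 A) * R a * (↑(f n)⁻¹ : M2 A))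
    have h2 : (V : M2 A) * ((f n : M2 A) * R a * (↑(f n)⁻¹ : M2 A)) * (↑V⁻¹ : M2 A) =
        (U : M2 A) * R a * (↑U⁻¹ : M2 A) := by
      have hUV : U = V * f n := by rw [hVdef, inv_mul_cancel_right]
      rw [hUV, _root_.mul_inv_rev, Units.val_mul, Units.val_mul]
      simp only [mul_assoc]
    rw [h2] at hconj
    have h3 : t a - ((U : M2 A) * R a * (↑U⁻¹ : M2 A)) (c.i a) (c.j a) =
        (t a - ((f n : M2 A) * R a * (↑(f n)⁻¹ : M2 A)) (c.i a) (c.j a)) -
          ((U : M2 A) * R a * (↑U⁻¹ : M2 A) -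
            (f n : M2 A) * R a * (↑(f n)⁻¹ : M2 A)) (c.i a) (c.j a) := by
      rw [Matrix.sub_apply]; ring
    rw [h3]
    exact Ideal.pow_le_pow_right (Nat.le_succ n)
      (Ideal.sub_mem _ ((hf n).1.2 a) (hconj _ _))

end Complete

section Family

variable {Gam : Type*} {A : Type*} [CommRing A] [IsLocalRing A]
variable {rbar : Gam → M2 (ResidueField A)} (c : Coords rbar)

/-- The family `r` is rigid with target values `t`: its three distinguished entries are
prescribed. -/
def IsRigid (t : Fin 3 → A) (r : Gam → M2 A) : Prop :=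
  ∀ a, r (c.g a) (c.i a) (c.j a) = t a

omit [IsLocalRing A] in
/-- Rigid families are preserved by entrywise application of a ring homomorphism. -/
theorem IsRigid.map {B : Type*} [CommRing B] (φ : A →+* B)
    {g : Fin 3 → Gam} {i j : Fin 3 → Fin 2} {t : Fin 3 → A} {r : Gam → M2 A}
    (h : ∀ a, r (g a) (i a) (j a) = t a) :
    ∀ a, (φ.mapMatrix (r (g a))) (i a) (j a) = φ (t a) := fun a => by
  rw [RingHom.mapMatrix_apply, Matrix.map_apply, h a]

/-- If two lifts of `rbar` are conjugate by `U`, the reduction of `U` centralizes `rbar`. -/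
theorem red_scalar_of_conj
    (hcent : ∀ X : M2 (ResidueField A), (∀ s, X * rbar s = rbar s * X) →
      ∃ x : ResidueField A, X = x • (1 : M2 (ResidueField A)))
    (r r' : Gam → M2 A) (hr : ∀ s, red (r s) = rbar s) (hr' : ∀ s, red (r' s) = rbar s)
    (U : M2 A) (hU : ∀ s, U * r s = r' s * U) :
    ∃ x : ResidueField A, red U = x • (1 : M2 (ResidueField A)) := by
  refine hcent _ fun s => ?_
  have := congrArg red (hU s)
  rwa [map_mul, map_mul, hr, hr'] at this

omit [IsLocalRing A] in
theorem eq_of_conj_scalar (r r' : Gam → M2 A) (U : (M2 A)ˣ)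
    (hU : ∀ s, (U : M2 A) * r s = r' s * U) (u : Aˣ) (hu : (U : M2 A) = (u : A) • (1 : M2 A)) :
    r' = r := by
  funext s
  have h := hU s
  rw [hu, Matrix.smul_mul, Matrix.mul_smul, one_mul, mul_one] at h
  have h2 := congrArg (fun Z : M2 A => (↑u⁻¹ : A) • Z) h
  simp only [smul_smul, Units.inv_mul, one_smul] at h2
  exact h2.symm

/-- **Uniqueness of rigidification, nilpotent case.** Two rigid lifts of `rbar` with the same
targets which are conjugate are equal, and the conjugating matrix is a scalar. -/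
theorem unique_rigid_of_nilpotent (hnil : IsNilpotent (maximalIdeal A))
    (hcent : ∀ X : M2 (ResidueField A), (∀ s, X * rbar s = rbar s * X) →
      ∃ x : ResidueField A, X = x • (1 : M2 (ResidueField A)))
    (r r' : Gam → M2 A) (hr : ∀ s, red (r s) = rbar s) (hr' : ∀ s, red (r' s) = rbar s)
    (U : (M2 A)ˣ) (hU : ∀ s, (U : M2 A) * r s = r' s * U)
    (t : Fin 3 → A) (hrig : IsRigid c t r) (hrig' : IsRigid c t r') :
    (∃ u : Aˣ, (U : M2 A) = (u : A) • (1 : M2 A)) ∧ r' = r := by
  obtain ⟨u, hu⟩ := unique_of_nilpotent c hnil (fun a => r (c.g a)) (fun a => r' (c.g a))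
    (fun a => hr _) U (fun a => hU _) (fun a => (hrig a).trans (hrig' a).symm)
    (red_scalar_of_conj hcent r r' hr hr' U hU)
  exact ⟨⟨u, hu⟩, eq_of_conj_scalar r r' U hU u hu⟩

/-- **Uniqueness of rigidification, separated case.** -/
theorem unique_rigid_of_hausdorff (hH : (⨅ n : ℕ, maximalIdeal A ^ n) = ⊥)
    (hcent : ∀ X : M2 (ResidueField A), (∀ s, X * rbar s = rbar s * X) →
      ∃ x : ResidueField A, X = x • (1 : M2 (ResidueField A)))
    (r r' : Gam → M2 A) (hr : ∀ s, red (r s) = rbar s) (hr' : ∀ s, red (r' s) = rbar s)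
    (U : (M2 A)ˣ) (hU : ∀ s, (U : M2 A) * r s = r' s * U)
    (t : Fin 3 → A) (hrig : IsRigid c t r) (hrig' : IsRigid c t r') :
    (∃ u : Aˣ, (U : M2 A) = (u : A) • (1 : M2 A)) ∧ r' = r := by
  obtain ⟨u, hu⟩ := unique_of_hausdorff c hH (fun a => r (c.g a)) (fun a => r' (c.g a))
    (fun a => hr _) U (fun a => hU _) (fun a => (hrig a).trans (hrig' a).symm)
    (red_scalar_of_conj hcent r r' hr hr' U hU)
  exact ⟨⟨u, hu⟩, eq_of_conj_scalar r r' U hU u hu⟩

/-- **Existence of rigidification, nilpotent case.** -/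
theorem exists_rigid_of_nilpotent (hnil : IsNilpotent (maximalIdeal A))
    (r : Gam → M2 A) (hr : ∀ s, red (r s) = rbar s) (t : Fin 3 → A)
    (ht : ∀ a, residue A (t a) = rbar (c.g a) (c.i a) (c.j a)) :
    ∃ U : (M2 A)ˣ, red (U : M2 A) = 1 ∧
      IsRigid c t (fun s => (U : M2 A) * r s * (↑U⁻¹ : M2 A)) :=
  exists_of_nilpotent c hnil (fun a => r (c.g a)) (fun _ => hr _) t ht

/-- **Existence of rigidification, complete case.** -/
theorem exists_rigid_of_complete [IsAdicComplete (maximalIdeal A) A]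
    (r : Gam → M2 A) (hr : ∀ s, red (r s) = rbar s) (t : Fin 3 → A)
    (ht : ∀ a, residue A (t a) = rbar (c.g a) (c.i a) (c.j a)) :
    ∃ U : (M2 A)ˣ, red (U : M2 A) = 1 ∧
      IsRigid c t (fun s => (U : M2 A) * r s * (↑U⁻¹ : M2 A)) :=
  exists_of_complete c (fun a => r (c.g a)) (fun _ => hr _) t ht

/-- Conjugating by a matrix congruent to `1` does not change the reduction. -/
theorem red_conj (U : (M2 A)ˣ) (hU : red (U : M2 A) = 1) (X : M2 A) :
    red ((U : M2 A) * X * (↑U⁻¹ : M2 A)) = red X := by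
  have hUinv1 : red (↑U⁻¹ : M2 A) = 1 := by
    have h := congrArg red U.mul_inv
    rw [map_mul, hU, one_mul, map_one] at h
    exact h
  rw [map_mul, map_mul, hU, hUinv1, one_mul, mul_one]

end Family

end Fermat.Agent.S53.Rigid
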