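import Fermat.Agent.S53.Defs
import Fermat.Agent.S53.Dictionary
import Fermat.Agent.S53.Rigid
import Fermat.Agent.S53.MatrixLift

/-!
# Rigidification in the shared vocabulary of `Defs.lean`

Restatement of the results of `Rigid.lean` for `S : Setup 𝒪`, `S.IsLift`, `S.IsRigid`,
`S.HasCoords`, `S.Schur` and `Dictionary.conjMat`.

* `exists_setup` : from `rbar` and Schur produce a `Setup` with `HasCoords`.
* `schur_of_hasCoords` : `S.HasCoords → S.Schur`.
* `unique_rigid` : two rigid lifts conjugate under `GL₂(A)` are equal and the conjugating matrix is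
  scalar (`A` separated).
* `exists_rigid_conj` : every lift over a complete `A` has a rigid conjugate by a matrix
  congruent to `1`.
* `isLift_conjMat` : conjugating by a matrix congruent to `1` preserves `S.IsLift`.
-/

set_option autoImplicit false

namespace Fermat.Agent.S53.RigidBridge

open IsLocalRing Fermat.Agent.S53

variable {𝒪 : Type} [CommRing 𝒪] [IsLocalRing 𝒪]

/-- From a matrix form `rbar` satisfying Schur's lemma, build a `Setup` with rigidifying
coordinates. -/
theorem exists_setup (rbar : Gal →* M2 (ResidueField 𝒪))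
    (hS : ∀ X : M2 (ResidueField 𝒪), (∀ σ, X * rbar σ = rbar σ * X) →
      ∃ c : ResidueField 𝒪, X = c • 1) :
    ∃ S : Setup 𝒪, S.rbar = rbar ∧ S.HasCoords := by
  obtain ⟨c⟩ := Rigid.Coords.exists_of_centralizer (fun σ => rbar σ) hS
  choose f hf using fun x : ResidueField 𝒪 => residue_surjective (R := 𝒪) x
  refine ⟨{ rbar := rbar
            rtil := fun σ => Matrix.of fun i j => f (rbar σ i j)
            rtil_spec := fun σ i j => hf _
            g := c.g
            ci := c.i
            cj := c.j }, rfl, c.E, fun a b => c.dual a b, fun X hX => ?_⟩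
  exact c.scalar_of_vanish X hX

/-- The `Coords` structure of `Rigid.lean` attached to a setup with coordinates. -/
noncomputable def coords (S : Setup 𝒪) (h : S.HasCoords) :
    Rigid.Coords (fun σ : Gal => S.rbar σ) where
  g := S.g
  i := S.ci
  j := S.cj
  E := h.choose
  dual := h.choose_spec.1

/-- Rigidifying coordinates imply Schur's lemma. -/
theorem schur_of_hasCoords (S : Setup 𝒪) (h : S.HasCoords) : S.Schur := by
  intro X hX
  obtain ⟨E, -, hE⟩ := h
  refine hE X fun a => ?_
  rw [hX (S.g a), sub_self]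
  rfl

section Local

variable {A : Type} [CommRing A] [IsLocalRing A] [Algebra 𝒪 A] [IsLocalHom (algebraMap 𝒪 A)]

/-- The residual family over the residue field of `A`. -/
noncomputable def rbarA (S : Setup 𝒪) (σ : Gal) : M2 (ResidueField A) :=
  (ResidueField.map (algebraMap 𝒪 A)).mapMatrix (S.rbar σ)

/-- Coordinates over the residue field of `A`. -/
noncomputable def coordsA (S : Setup 𝒪) (h : S.HasCoords) :
    Rigid.Coords (rbarA (A := A) S) :=
  (coords S h).map (ResidueField.map (algebraMap 𝒪 A))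

theorem red_eq_rbarA_of_isLift (S : Setup 𝒪) (r : Gal →* M2 A) (hr : S.IsLift r) (σ : Gal) :
    Rigid.red (r σ) = rbarA S σ := by
  ext i j
  rw [Rigid.red_apply, rbarA, RingHom.mapMatrix_apply, Matrix.map_apply, ← S.rtil_spec,
    ResidueField.map_residue, ← sub_eq_zero, ← map_sub, residue_eq_zero_iff]
  exact hr σ i j

theorem isLift_of_red_eq_rbarA (S : Setup 𝒪) (r : Gal →* M2 A)
    (hr : ∀ σ, Rigid.red (r σ) = rbarA S σ) : S.IsLift r := by
  intro σ i j
  have h := congrFun (congrFun (hr σ) i) j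
  rw [Rigid.red_apply, rbarA, RingHom.mapMatrix_apply, Matrix.map_apply, ← S.rtil_spec,
    ResidueField.map_residue, ← sub_eq_zero, ← map_sub, residue_eq_zero_iff] at h
  exact h

theorem isLift_iff (S : Setup 𝒪) (r : Gal →* M2 A) :
    S.IsLift r ↔ ∀ σ, Rigid.red (r σ) = rbarA S σ :=
  ⟨red_eq_rbarA_of_isLift S r, isLift_of_red_eq_rbarA S r⟩

/-- Schur's lemma over the residue field of `A`. -/
theorem schurA (S : Setup 𝒪) (h : S.HasCoords) (X : M2 (ResidueField A))
    (hX : ∀ σ, X * rbarA S σ = rbarA S σ * X) : ∃ x : ResidueField A, X = x • 1 := by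
  refine (coordsA (A := A) S h).scalar_of_vanish X fun a => ?_
  change Rigid.commEntry _ _ _ X = 0
  rw [Rigid.commEntry_apply]
  have := hX ((coordsA (A := A) S h).g a)
  rw [this, sub_self]
  rfl

theorem residue_target (S : Setup 𝒪) (h : S.HasCoords) (a : Fin 3) :
    residue A (algebraMap 𝒪 A (S.target a)) =
      rbarA (A := A) S ((coordsA (A := A) S h).g a) ((coordsA (A := A) S h).i a)
        ((coordsA (A := A) S h).j a) := by
  change _ = (ResidueField.map (algebraMap 𝒪 A)) (S.rbar (S.g a) (S.ci a) (S.cj a))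
  rw [← S.rtil_spec, ResidueField.map_residue]
  rfl

theorem isRigid_iff (S : Setup 𝒪) (h : S.HasCoords) (r : Gal →* M2 A) :
    S.IsRigid r ↔ Rigid.IsRigid (coordsA (A := A) S h)
      (fun a => algebraMap 𝒪 A (S.target a)) (fun σ => r σ) :=
  Iff.rfl

/-- **Uniqueness.** Two rigid lifts which are conjugate under `GL₂(A)` are equal, and the
conjugating matrix is a scalar.  (`A` separated for the adic topology of its maximal ideal.) -/
theorem unique_rigid (S : Setup 𝒪) (h : S.HasCoords) [IsHausdorff (maximalIdeal A) A]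
    (r r' : Gal →* M2 A) (hr : S.IsLift r) (hr' : S.IsLift r')
    (hrig : S.IsRigid r) (hrig' : S.IsRigid r')
    (N : (M2 A)ˣ) (hN : ∀ σ, (N : M2 A) * r σ = r' σ * N) :
    r = r' ∧ ∃ u : Aˣ, (N : M2 A) = (u : A) • (1 : M2 A) := by
  have hH : (⨅ n : ℕ, maximalIdeal A ^ n) = ⊥ := by
    have := IsHausdorff.iInf_pow_smul (I := maximalIdeal A) (M := A) inferInstance
    simpa [smul_eq_mul, Ideal.mul_top] using this
  obtain ⟨hu, heq⟩ := Rigid.unique_rigid_of_hausdorff (coordsA (A := A) S h) hH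
    (schurA S h) (fun σ => r σ) (fun σ => r' σ) (red_eq_rbarA_of_isLift S r hr)
    (red_eq_rbarA_of_isLift S r' hr') N hN (fun a => algebraMap 𝒪 A (S.target a))
    ((isRigid_iff S h r).mp hrig) ((isRigid_iff S h r').mp hrig')
  refine ⟨?_, hu⟩
  ext σ : 1
  exact (congrFun heq σ).symm

/-- Conjugation by a matrix congruent to `1` preserves lifts. -/
theorem isLift_conjMat (S : Setup 𝒪) (r : Gal →* M2 A) (hr : S.IsLift r) (M : (M2 A)ˣ)
    (hM : ∀ i j, ((M : M2 A) - 1) i j ∈ maximalIdeal A) :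
    S.IsLift (Dictionary.conjMat M r) := by
  rw [isLift_iff]
  intro σ
  rw [Dictionary.conjMat_apply]
  have hM1 : Rigid.red (M : M2 A) = 1 := Rigid.red_eq_one_iff.mpr hM
  rw [Rigid.red_conj M hM1, red_eq_rbarA_of_isLift S r hr]

/-- **Existence.** Over a complete local ring every lift has a rigid conjugate by a matrix
congruent to `1` modulo the maximal ideal. -/
theorem exists_rigid_conj (S : Setup 𝒪) (h : S.HasCoords) [IsAdicComplete (maximalIdeal A) A]
    (r : Gal →* M2 A) (hr : S.IsLift r) :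
    ∃ M : (M2 A)ˣ, (∀ i j, ((M : M2 A) - 1) i j ∈ maximalIdeal A) ∧
      S.IsRigid (Dictionary.conjMat M r) ∧ S.IsLift (Dictionary.conjMat M r) := by
  obtain ⟨U, hU1, hUrig⟩ := Rigid.exists_rigid_of_complete (coordsA (A := A) S h)
    (fun σ => r σ) (red_eq_rbarA_of_isLift S r hr) (fun a => algebraMap 𝒪 A (S.target a))
    (residue_target S h)
  have hM : ∀ i j, ((U : M2 A) - 1) i j ∈ maximalIdeal A := Rigid.red_eq_one_iff.mp hU1
  exact ⟨U, hM, hUrig, isLift_conjMat S r hr U hM⟩

/-- Existence for rings with nilpotent maximal ideal (no completeness instance needed). -/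
theorem exists_rigid_conj_of_nilpotent (S : Setup 𝒪) (h : S.HasCoords)
    (hnil : IsNilpotent (maximalIdeal A)) (r : Gal →* M2 A) (hr : S.IsLift r) :
    ∃ M : (M2 A)ˣ, (∀ i j, ((M : M2 A) - 1) i j ∈ maximalIdeal A) ∧
      S.IsRigid (Dictionary.conjMat M r) ∧ S.IsLift (Dictionary.conjMat M r) := by
  obtain ⟨U, hU1, hUrig⟩ := Rigid.exists_rigid_of_nilpotent (coordsA (A := A) S h) hnil
    (fun σ => r σ) (red_eq_rbarA_of_isLift S r hr) (fun a => algebraMap 𝒪 A (S.target a))
    (residue_target S h)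
  have hM : ∀ i j, ((U : M2 A) - 1) i j ∈ maximalIdeal A := Rigid.red_eq_one_iff.mp hU1
  exact ⟨U, hM, hUrig, isLift_conjMat S r hr U hM⟩

/-- Uniqueness for rings with nilpotent maximal ideal (no `IsHausdorff` instance needed). -/
theorem unique_rigid_of_nilpotent (S : Setup 𝒪) (h : S.HasCoords)
    (hnil : IsNilpotent (maximalIdeal A))
    (r r' : Gal →* M2 A) (hr : S.IsLift r) (hr' : S.IsLift r')
    (hrig : S.IsRigid r) (hrig' : S.IsRigid r')
    (N : (M2 A)ˣ) (hN : ∀ σ, (N : M2 A) * r σ = r' σ * N) :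
    r = r' ∧ ∃ u : Aˣ, (N : M2 A) = (u : A) • (1 : M2 A) := by
  obtain ⟨hu, heq⟩ := Rigid.unique_rigid_of_nilpotent (coordsA (A := A) S h) hnil
    (schurA S h) (fun σ => r σ) (fun σ => r' σ) (red_eq_rbarA_of_isLift S r hr)
    (red_eq_rbarA_of_isLift S r' hr') N hN (fun a => algebraMap 𝒪 A (S.target a))
    ((isRigid_iff S h r).mp hrig) ((isRigid_iff S h r').mp hrig')
  refine ⟨?_, hu⟩
  ext σ : 1
  exact (congrFun heq σ).symm

omit [IsLocalRing A] [Algebra 𝒪 A] [IsLocalHom (algebraMap 𝒪 A)] in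
/-- The two conjugation operations of `Dictionary.lean` and `MatrixLift.lean` agree. -/
theorem conjMat_eq_conjHom (M : (M2 A)ˣ) (r : Gal →* M2 A) :
    Dictionary.conjMat M r = MatrixLift.conjHom M r := by
  ext σ : 1
  rfl

/-- `isLift_conjMat` for `MatrixLift.conjHom`. -/
theorem isLift_conjHom (S : Setup 𝒪) (r : Gal →* M2 A) (hr : S.IsLift r) (M : (M2 A)ˣ)
    (hM : ∀ i j, ((M : M2 A) - 1) i j ∈ maximalIdeal A) :
    S.IsLift (MatrixLift.conjHom M r) := by
  rw [← conjMat_eq_conjHom]
  exact isLift_conjMat S r hr M hM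

/-- `exists_rigid_conj` for `MatrixLift.conjHom`. -/
theorem exists_rigid_conjHom (S : Setup 𝒪) (h : S.HasCoords)
    [IsAdicComplete (maximalIdeal A) A] (r : Gal →* M2 A) (hr : S.IsLift r) :
    ∃ M : (M2 A)ˣ, (∀ i j, ((M : M2 A) - 1) i j ∈ maximalIdeal A) ∧
      S.IsRigid (MatrixLift.conjHom M r) ∧ S.IsLift (MatrixLift.conjHom M r) := by
  obtain ⟨M, hM, h1, h2⟩ := exists_rigid_conj S h r hr
  rw [conjMat_eq_conjHom] at h1 h2
  exact ⟨M, hM, h1, h2⟩

/-- `exists_rigid_conj_of_nilpotent` for `MatrixLift.conjHom`. -/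
theorem exists_rigid_conjHom_of_nilpotent (S : Setup 𝒪) (h : S.HasCoords)
    (hnil : IsNilpotent (maximalIdeal A)) (r : Gal →* M2 A) (hr : S.IsLift r) :
    ∃ M : (M2 A)ˣ, (∀ i j, ((M : M2 A) - 1) i j ∈ maximalIdeal A) ∧
      S.IsRigid (MatrixLift.conjHom M r) ∧ S.IsLift (MatrixLift.conjHom M r) := by
  obtain ⟨M, hM, h1, h2⟩ := exists_rigid_conj_of_nilpotent S h hnil r hr
  rw [conjMat_eq_conjHom] at h1 h2
  exact ⟨M, hM, h1, h2⟩

/-- Uniqueness in conjugation form: if `r` and `conjHom P r` are both rigid lifts then they are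
equal (`A` separated). -/
theorem conjHom_eq_self_of_rigid (S : Setup 𝒪) (h : S.HasCoords)
    [IsHausdorff (maximalIdeal A) A] (r : Gal →* M2 A) (P : (M2 A)ˣ)
    (hr : S.IsLift r) (hr' : S.IsLift (MatrixLift.conjHom P r))
    (hrig : S.IsRigid r) (hrig' : S.IsRigid (MatrixLift.conjHom P r)) :
    MatrixLift.conjHom P r = r := by
  refine ((unique_rigid S h r (MatrixLift.conjHom P r) hr hr' hrig hrig' P fun σ => ?_).1).symm
  rw [MatrixLift.conjHom_apply, mul_assoc, mul_assoc, Units.inv_mul, mul_one]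

end Local

end Fermat.Agent.S53.RigidBridge
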