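import Fermat.Agent.S53.Universal
import Fermat.Agent.S53.RigidBridge
import Fermat.Agent.S53.LiftBridge
import Fermat.Agent.S53.Lifts

/-!
# S53: the rigidity predicate attached to a `Setup`, and the rigidification hypotheses of
`Universal.lean`

For `S : Setup 𝒪` with `S.HasCoords` we instantiate the abstract predicate `Rig` of
`Universal.lean` and prove `RigMap`, `RigidExists`, `RigidUnique`.
-/

set_option autoImplicit false
set_option linter.unusedSectionVars false

namespace Fermat.Agent.S53.RigInst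

open IsLocalRing GaloisRep Fermat.Agent.S53 Fermat.Agent.S53.Dictionary
open Fermat.Agent.S53.Universal

variable {𝒪 : Type} [CommRing 𝒪] [IsLocalRing 𝒪] (S : Setup 𝒪)

/-- The rigidity predicate of a `Setup`, without any locality assumption on the coefficients. -/
def Rig : ∀ ⦃A : Type⦄ [CommRing A] [Algebra 𝒪 A], (GQ →* Mat A) → Prop :=
  fun A _ _ r => ∀ a, r (S.g a) (S.ci a) (S.cj a) = algebraMap 𝒪 A (S.target a)

/-- The `RigidData` (vocabulary of `Lifts.lean` / `GoodIdeals.lean`) of a `Setup`. -/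
def rigidData : Lifts.RigidData 𝒪 where
  g := S.g
  i := S.ci
  j := S.cj
  τ := S.target

section

variable {A : Type} [CommRing A] [IsLocalRing A] [Algebra 𝒪 A]

theorem rig_iff_isRigid (r : GQ →* Mat A) : Rig S r ↔ S.IsRigid r := Iff.rfl

theorem rig_iff_lifts_isRigid (r : GQ →* Mat A) : Rig S r ↔ Lifts.IsRigid (rigidData S) r :=
  Iff.rfl

theorem liftsRbar_of_isLift {r : GQ →* Mat A} (h : S.IsLift r) : LiftsRbar S.rbar A r :=
  fun σ i j => ⟨S.rtil σ i j, S.rtil_spec σ i j, h σ i j⟩

theorem isLift_of_liftsRbar [IsLocalHom (algebraMap 𝒪 A)] {r : GQ →* Mat A}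
    (h : LiftsRbar S.rbar A r) : S.IsLift r :=
  (LiftBridge.isLift_iff_mapMat S r).mpr ((liftsRbar_iff r).mp h)

theorem liftsRbar_iff_isLift [IsLocalHom (algebraMap 𝒪 A)] (r : GQ →* Mat A) :
    LiftsRbar S.rbar A r ↔ S.IsLift r :=
  ⟨isLift_of_liftsRbar S, liftsRbar_of_isLift S⟩

theorem lifts_isLift_iff [IsLocalHom (algebraMap 𝒪 A)] (r : GQ →* Mat A) :
    Lifts.IsLift S.rbar r ↔ IsContMat A r ∧ S.IsLift r := by
  unfold Lifts.IsLift
  rw [LiftBridge.isLift_iff_mapMat]

end

theorem rigMap : RigMap (Rig S) := by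
  intro A B _ _ _ _ φ r h a
  rw [mapMat_apply, h a]
  exact φ.commutes _

theorem rigidExists (hc : S.HasCoords) : RigidExists S.rbar (Rig S) := by
  intro A _ _ _ _ _ hloc r _ hl
  have := hloc
  obtain ⟨M, _, hrig, hlift⟩ := RigidBridge.exists_rigid_conj S hc r (isLift_of_liftsRbar S hl)
  exact ⟨M, liftsRbar_of_isLift S hlift, hrig⟩

theorem rigidUnique (hc : S.HasCoords) : RigidUnique S.rbar (Rig S) := by
  intro A _ _ _ _ hloc r r' hl hl' hr hr' hM
  have := hloc
  obtain ⟨M, hM⟩ := hM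
  have : IsHausdorff (maximalIdeal A) A := inferInstance
  exact (RigidBridge.unique_rigid S hc r r' (isLift_of_liftsRbar S hl)
    (isLift_of_liftsRbar S hl') hr hr' M hM).1

end Fermat.Agent.S53.RigInst
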