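import Fermat.Agent.S53.GoodIdeals
import Fermat.Agent.S53.TangentTower
import Fermat.Agent.S53.RigInst

/-!
# S53: the two notions of good ideal agree, and the good family

`Setup.IsGood` (vocabulary of `Defs.lean`, used by the tangent bound) and `GoodIdeals.Good`
(vocabulary of `Lifts.lean`, used by the closure properties) are the same predicate.  We deduce
the `GoodTower.GoodFamily` structure on `GoodIdeals.Good`.
-/

set_option autoImplicit false

namespace Fermat.Agent.S53.GoodBridge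

open IsLocalRing GaloisRep Fermat.Agent.S53 Fermat.Agent.S53.Dictionary

variable {𝒪 : Type} [CommRing 𝒪] [IsLocalRing 𝒪] (S : Setup 𝒪)
  (𝒟 : ∀ ⦃A : Type⦄ [CommRing A] [IsLocalRing A] [Algebra 𝒪 A], GaloisRepAdic A → Prop)

theorem quotMat_eq_Xmat (J : Ideal (BigRing 𝒪)) (σ : Gal) :
    quotMat J σ = GoodIdeals.Xmat J σ := by
  ext i j
  rfl

theorem m0_eq : TangentTower.m0 S = GoodIdeals.m0 S.rbar := rfl

/-- The two notions of good ideal agree. -/
theorem isGood_iff (J : Ideal (BigRing 𝒪)) :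
    S.IsGood 𝒟 J ↔ GoodIdeals.Good 𝒟 S.rbar (RigInst.rigidData S) J := by
  constructor
  · rintro ⟨hloc, r, hr, ht, hR⟩
    have hlh : IsLocalHom (algebraMap 𝒪 (BigRing 𝒪 ⧸ J)) := ht.isLocalHom
    refine ⟨hloc, hlh, ht, r, fun σ => by rw [hr σ, quotMat_eq_Xmat], ?_, hR.rigid, hR.cts, hR.type⟩
    exact (RigInst.lifts_isLift_iff S r).mpr ⟨hR.cts, hR.lift⟩
  · rintro ⟨hloc, hlh, ht, r, hr, hl, hrig, hc, hD⟩
    refine ⟨hloc, r, fun σ => by rw [hr σ, quotMat_eq_Xmat], ht, ?_⟩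
    exact ⟨((RigInst.lifts_isLift_iff S r).mp hl).2, hc, hrig, hD⟩

/-- The residue field of the big ring at `m0` is that of `𝒪`. -/
theorem exists_sub_mem_m0 (rbar : Gal →* M2 (ResidueField 𝒪)) (u : BigRing 𝒪) :
    ∃ o : 𝒪, u - algebraMap 𝒪 (BigRing 𝒪) o ∈ GoodIdeals.m0 rbar := by
  obtain ⟨o, ho⟩ := residue_surjective (GoodIdeals.pi0 rbar u)
  refine ⟨o, ?_⟩
  rw [GoodIdeals.mem_m0_iff, map_sub, AlgHom.commutes, sub_eq_zero]
  exact ho.symm

/-- The structure map of the big ring is local with respect to `m0`. -/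
theorem algebraMap_mem_m0 (rbar : Gal →* M2 (ResidueField 𝒪)) (o : 𝒪)
    (ho : o ∈ maximalIdeal 𝒪) : algebraMap 𝒪 (BigRing 𝒪) o ∈ GoodIdeals.m0 rbar := by
  rw [GoodIdeals.mem_m0_iff, AlgHom.commutes]
  exact (residue_eq_zero_iff o).mpr ho

/-- The good ideals form a good family in the sense of `GoodTower`. -/
theorem goodFamily [Finite (ResidueField 𝒪)] (ρbar : ResidualGaloisRep (ResidueField 𝒪))
    (h𝒟 : GaloisRep.IsDeformationCondition 𝒪 𝒟)
    (hrbar : GaloisFactorsThroughFiniteLevel S.rbar)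
    (e0 : ρbar.IsEquiv (resOfMat S.rbar hrbar))
    (hbar : 𝒟 (GaloisRepAdic.ofResidualGaloisRep ρbar))
    (hfin : GaloisRep.TangentFinite 𝒪 ρbar 𝒟) (hSchur : S.Schur)
    (hcoords : S.HasCoords) {ϖ : 𝒪} (hϖ : maximalIdeal 𝒪 = Ideal.span {ϖ}) :
    GoodTower.GoodFamily (GoodIdeals.m0 S.rbar)
      (GoodIdeals.Good 𝒟 S.rbar (RigInst.rigidData S)) where
  le_m0 := fun h => h.le_m0
  pow_le := fun h => h.pow_le
  finite := fun h => h.finite
  inf := fun h h' => GoodIdeals.Good.inf h𝒟 h h'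
  up := fun h hle hle' => GoodIdeals.Good.up h𝒟 h hle hle'
  base := GoodIdeals.good_m0 h𝒟 hrbar (fun a => (S.rtil_spec _ _ _).symm)
    (GoodIdeals.dmat_of_hbar h𝒟 ρbar hrbar e0 hbar)
  bound := fun n => by
    obtain ⟨c, hc⟩ := TangentTower.bound S 𝒟 ρbar h𝒟 hrbar e0 hfin hSchur hcoords hϖ n
    exact ⟨c, fun J hJ hn => hc J ((isGood_iff S 𝒟 J).mpr hJ) hn⟩

end Fermat.Agent.S53.GoodBridge
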