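import Mathlib
import Fermat.Agent.S53.Defs
import Fermat.Agent.S53.Rigid
import Fermat.Agent.S53.Bridge

/-!
# Rigidification in the vocabulary of `Setup`

The abstract rigidification statements of `Fermat.Agent.S53.Rigid` (coordinates, uniqueness and
existence of rigid conjugates) restated for a `Setup 𝒪` and local `𝒪`-algebras `A` whose
structure map is local:

* `exists_setup` : a matrix valued `rbar` with scalar centralizer extends to a `Setup` with
  `S.Schur` and `S.HasCoords`;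
* `schur_residueField` : Schur for the image of `S.rbar` over `ResidueField A`;
* `unique_fun_of_iInf`, `unique_of_iInf`, `unique_of_isNilpotent`, `unique_of_isNoetherianRing`,
  `eq_of_isEquiv_*` : two rigid lifts which are conjugate (resp. whose `ofMatrix` are
  equivalent) are equal, and the conjugating matrix is scalar;
* `exists_conj_rigid_of_complete`, `exists_conj_rigid_of_isNilpotent` : every lift has a rigid
  conjugate by a matrix congruent to `1`;
* `exists_rigid_of_residual_isEquiv_*` : every deformation is equivalent to `ofMatrix` of a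
  rigid lift.
-/

set_option autoImplicit false

noncomputable section

namespace Fermat.Agent.S53.RigidSetup

open IsLocalRing
open Fermat.Agent.S53.MatrixLift (mapHom conjHom matHom mapHom_apply mapHom_apply_apply
  conjHom_apply)

section Build

variable {𝒪 : Type} [CommRing 𝒪] [IsLocalRing 𝒪]

/-- **R0.** A matrix valued representation over the residue field whose centralizer consists of
scalar matrices extends to a `Setup` with rigidifying coordinates. -/
theorem exists_setup (rbar : Gal →* M2 (ResidueField 𝒪))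
    (hschur : ∀ X : M2 (ResidueField 𝒪), (∀ σ, X * rbar σ = rbar σ * X) →
      ∃ c : ResidueField 𝒪, X = c • (1 : M2 (ResidueField 𝒪))) :
    ∃ S : Setup 𝒪, S.rbar = rbar ∧ S.Schur ∧ S.HasCoords := by
  obtain ⟨c⟩ := Rigid.Coords.exists_of_centralizer (fun σ : Gal => rbar σ) hschur
  let rtil : Gal → M2 𝒪 := fun σ =>
    (rbar σ).map (Function.surjInv (residue_surjective (R := 𝒪)))
  have hspec : ∀ σ i j, residue 𝒪 (rtil σ i j) = rbar σ i j := fun σ i j =>
    Function.surjInv_eq (residue_surjective (R := 𝒪)) _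
  refine ⟨⟨rbar, rtil, hspec, c.g, c.i, c.j⟩, rfl, hschur, c.E, ?_, ?_⟩
  · intro a b
    exact c.dual a b
  · intro X hX
    exact c.scalar_of_vanish X hX

end Build

section Coords

variable {𝒪 : Type} [CommRing 𝒪] [IsLocalRing 𝒪] (S : Setup 𝒪)

/-- The coordinates (in the sense of `Rigid`) attached to a choice of dual matrices. -/
def coordsOfE (E : Fin 3 → M2 (ResidueField 𝒪))
    (hE : ∀ a b, (E b * S.rbar (S.g a) - S.rbar (S.g a) * E b) (S.ci a) (S.cj a) =
      if a = b then 1 else 0) : Rigid.Coords (fun σ : Gal => S.rbar σ) where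
  g := S.g
  i := S.ci
  j := S.cj
  E := E
  dual a b := hE a b

/-- `S.HasCoords` implies `S.Schur`. -/
theorem schur_of_hasCoords (hc : S.HasCoords) : S.Schur := by
  obtain ⟨E, -, hE2⟩ := hc
  intro X hX
  refine hE2 X fun a => ?_
  rw [hX, sub_self]
  rfl

variable {A : Type} [CommRing A] [IsLocalRing A] [Algebra 𝒪 A]

/-- `IsLift`, in terms of reduction of matrices (for plain functions). -/
theorem isLift_fun_iff_red [IsLocalHom (algebraMap 𝒪 A)] (r : Gal → M2 A) :
    (∀ σ i j, r σ i j - algebraMap 𝒪 A (S.rtil σ i j) ∈ maximalIdeal A) ↔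
      ∀ σ, Rigid.red (r σ) = (ResidueField.map (algebraMap 𝒪 A)).mapMatrix (S.rbar σ) := by
  constructor
  · intro h σ
    ext i j
    rw [Rigid.red_apply, RingHom.mapMatrix_apply, Matrix.map_apply, ← S.rtil_spec σ i j,
      ResidueField.map_residue]
    exact Ideal.Quotient.eq.mpr (h σ i j)
  · intro h σ i j
    have h1 := congrFun (congrFun (h σ) i) j
    rw [Rigid.red_apply, RingHom.mapMatrix_apply, Matrix.map_apply, ← S.rtil_spec σ i j,
      ResidueField.map_residue] at h1
    exact Ideal.Quotient.eq.mp h1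

/-- `IsLift`, in terms of reduction of matrices. -/
theorem isLift_iff_red [IsLocalHom (algebraMap 𝒪 A)] (r : Gal →* M2 A) :
    S.IsLift r ↔
      ∀ σ, Rigid.red (r σ) = (ResidueField.map (algebraMap 𝒪 A)).mapMatrix (S.rbar σ) :=
  isLift_fun_iff_red S fun σ => r σ

/-- Schur's lemma for the image of `S.rbar` over the residue field of `A`. -/
theorem schur_residueField [IsLocalHom (algebraMap 𝒪 A)] (hc : S.HasCoords)
    (X : M2 (ResidueField A))
    (hX : ∀ σ, X * (ResidueField.map (algebraMap 𝒪 A)).mapMatrix (S.rbar σ) =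
      (ResidueField.map (algebraMap 𝒪 A)).mapMatrix (S.rbar σ) * X) :
    ∃ x : ResidueField A, X = x • (1 : M2 (ResidueField A)) := by
  obtain ⟨E, hE, -⟩ := hc
  refine ((coordsOfE S E hE).map (ResidueField.map (algebraMap 𝒪 A))).scalar_of_vanish X
    fun a => ?_
  show Rigid.commEntry _ _ _ X = 0
  rw [Rigid.commEntry_apply, hX, sub_self]
  rfl

/-- The target values reduce to the prescribed entries of the image of `S.rbar`. -/
theorem residue_target [IsLocalHom (algebraMap 𝒪 A)] (a : Fin 3) :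
    residue A (algebraMap 𝒪 A (S.target a)) =
      (ResidueField.map (algebraMap 𝒪 A)).mapMatrix (S.rbar (S.g a)) (S.ci a) (S.cj a) := by
  rw [RingHom.mapMatrix_apply, Matrix.map_apply, ← S.rtil_spec, ResidueField.map_residue]
  rfl

end Coords

section Unique

variable {𝒪 : Type} [CommRing 𝒪] [IsLocalRing 𝒪] (S : Setup 𝒪)
variable {A : Type} [CommRing A] [IsLocalRing A] [Algebra 𝒪 A]

/-- **R2, for plain functions.** Two rigid lifts of `S.rbar` over a separated local ring which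
are conjugate are equal, and the conjugating matrix is scalar. -/
theorem unique_fun_of_iInf [IsLocalHom (algebraMap 𝒪 A)] (hc : S.HasCoords)
    (hH : (⨅ n : ℕ, maximalIdeal A ^ n) = ⊥) (r r' : Gal → M2 A)
    (hr : ∀ σ i j, r σ i j - algebraMap 𝒪 A (S.rtil σ i j) ∈ maximalIdeal A)
    (hr' : ∀ σ i j, r' σ i j - algebraMap 𝒪 A (S.rtil σ i j) ∈ maximalIdeal A)
    (hrig : ∀ a, r (S.g a) (S.ci a) (S.cj a) = algebraMap 𝒪 A (S.target a))
    (hrig' : ∀ a, r' (S.g a) (S.ci a) (S.cj a) = algebraMap 𝒪 A (S.target a))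
    (N : (M2 A)ˣ) (hN : ∀ σ, (N : M2 A) * r σ = r' σ * (N : M2 A)) :
    r' = r ∧ ∃ u : Aˣ, (N : M2 A) = (u : A) • (1 : M2 A) := by
  have hcent := schur_residueField (A := A) S hc
  obtain ⟨E, hE, -⟩ := hc
  have h := Rigid.unique_rigid_of_hausdorff
    ((coordsOfE S E hE).map (ResidueField.map (algebraMap 𝒪 A))) hH hcent r r'
    ((isLift_fun_iff_red S r).mp hr) ((isLift_fun_iff_red S r').mp hr') N hN
    (fun a => algebraMap 𝒪 A (S.target a)) hrig hrig'
  exact ⟨h.2, h.1⟩

/-- **R2.** Two rigid lifts of `S.rbar` over a separated local ring which are conjugate are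
equal, and the conjugating matrix is scalar. -/
theorem unique_of_iInf [IsLocalHom (algebraMap 𝒪 A)] (hc : S.HasCoords)
    (hH : (⨅ n : ℕ, maximalIdeal A ^ n) = ⊥) {r r' : Gal →* M2 A}
    (hr : S.IsLift r) (hr' : S.IsLift r') (hrig : S.IsRigid r) (hrig' : S.IsRigid r')
    (N : (M2 A)ˣ) (hN : ∀ σ, (N : M2 A) * r σ = r' σ * (N : M2 A)) :
    r' = r ∧ ∃ u : Aˣ, (N : M2 A) = (u : A) • (1 : M2 A) := by
  have h := unique_fun_of_iInf S hc hH (fun σ => r σ) (fun σ => r' σ) hr hr' hrig hrig' N hN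
  exact ⟨MonoidHom.ext fun σ => congrFun h.1 σ, h.2⟩

omit [IsLocalRing A] in
/-- A nilpotent ideal has trivial intersection of powers. -/
theorem iInf_pow_eq_bot_of_isNilpotent {I : Ideal A} (h : IsNilpotent I) :
    (⨅ n : ℕ, I ^ n) = ⊥ := by
  obtain ⟨n, hn⟩ := h
  exact le_bot_iff.mp ((iInf_le _ n).trans hn.le)

/-- The intersection of the powers of the maximal ideal is trivial when `A` is
`𝔪`-adically separated. -/
theorem iInf_pow_eq_bot_of_isHausdorff [IsHausdorff (maximalIdeal A) A] :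
    (⨅ n : ℕ, maximalIdeal A ^ n) = ⊥ := by
  refine le_bot_iff.mp fun x hx => ?_
  rw [Ideal.mem_bot]
  refine IsHausdorff.haus' (I := maximalIdeal A) x fun n => ?_
  rw [SModEq.zero, smul_eq_mul, Ideal.mul_top]
  exact (Ideal.mem_iInf.mp hx) n

/-- **R2, nilpotent case.** -/
theorem unique_of_isNilpotent [IsLocalHom (algebraMap 𝒪 A)] (hc : S.HasCoords)
    (hnil : IsNilpotent (maximalIdeal A)) {r r' : Gal →* M2 A}
    (hr : S.IsLift r) (hr' : S.IsLift r') (hrig : S.IsRigid r) (hrig' : S.IsRigid r')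
    (N : (M2 A)ˣ) (hN : ∀ σ, (N : M2 A) * r σ = r' σ * (N : M2 A)) :
    r' = r ∧ ∃ u : Aˣ, (N : M2 A) = (u : A) • (1 : M2 A) :=
  unique_of_iInf S hc (iInf_pow_eq_bot_of_isNilpotent hnil) hr hr' hrig hrig' N hN

/-- **R2, separated case.** -/
theorem unique_of_isHausdorff [IsLocalHom (algebraMap 𝒪 A)] (hc : S.HasCoords)
    [IsHausdorff (maximalIdeal A) A] {r r' : Gal →* M2 A}
    (hr : S.IsLift r) (hr' : S.IsLift r') (hrig : S.IsRigid r) (hrig' : S.IsRigid r')
    (N : (M2 A)ˣ) (hN : ∀ σ, (N : M2 A) * r σ = r' σ * (N : M2 A)) :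
    r' = r ∧ ∃ u : Aˣ, (N : M2 A) = (u : A) • (1 : M2 A) :=
  unique_of_iInf S hc iInf_pow_eq_bot_of_isHausdorff hr hr' hrig hrig' N hN

/-- **R2, Noetherian case** (Krull's intersection theorem). -/
theorem unique_of_isNoetherianRing [IsLocalHom (algebraMap 𝒪 A)] (hc : S.HasCoords)
    [IsNoetherianRing A] {r r' : Gal →* M2 A}
    (hr : S.IsLift r) (hr' : S.IsLift r') (hrig : S.IsRigid r) (hrig' : S.IsRigid r')
    (N : (M2 A)ˣ) (hN : ∀ σ, (N : M2 A) * r σ = r' σ * (N : M2 A)) :
    r' = r ∧ ∃ u : Aˣ, (N : M2 A) = (u : A) • (1 : M2 A) :=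
  unique_of_iInf S hc
    (Ideal.iInf_pow_eq_bot_of_isLocalRing (maximalIdeal A) (maximalIdeal.isMaximal A).ne_top)
    hr hr' hrig hrig' N hN

/-- Two rigid lifts with equivalent attached representations are equal (separated case). -/
theorem eq_of_isEquiv_of_iInf [IsLocalHom (algebraMap 𝒪 A)] (hc : S.HasCoords)
    (hH : (⨅ n : ℕ, maximalIdeal A ^ n) = ⊥) {r r' : Gal →* M2 A}
    (hcts : IsAdicCts r) (hcts' : IsAdicCts r')
    (hr : S.IsLift r) (hr' : S.IsLift r') (hrig : S.IsRigid r) (hrig' : S.IsRigid r')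
    (h : (ofMatrix r hcts).IsEquiv (ofMatrix r' hcts')) : r' = r := by
  obtain ⟨N, hN⟩ := (Bridge.ofMatrix_isEquiv_iff r r' hcts hcts').mp h
  exact (unique_of_iInf S hc hH hr hr' hrig hrig' N hN).1

/-- Two rigid lifts with equivalent attached representations are equal (nilpotent case). -/
theorem eq_of_isEquiv_of_isNilpotent [IsLocalHom (algebraMap 𝒪 A)] (hc : S.HasCoords)
    (hnil : IsNilpotent (maximalIdeal A)) {r r' : Gal →* M2 A}
    (hcts : IsAdicCts r) (hcts' : IsAdicCts r')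
    (hr : S.IsLift r) (hr' : S.IsLift r') (hrig : S.IsRigid r) (hrig' : S.IsRigid r')
    (h : (ofMatrix r hcts).IsEquiv (ofMatrix r' hcts')) : r' = r :=
  eq_of_isEquiv_of_iInf S hc (iInf_pow_eq_bot_of_isNilpotent hnil) hcts hcts' hr hr' hrig hrig' h

/-- Two rigid lifts with equivalent attached representations are equal (Noetherian case). -/
theorem eq_of_isEquiv_of_isNoetherianRing [IsLocalHom (algebraMap 𝒪 A)] (hc : S.HasCoords)
    [IsNoetherianRing A] {r r' : Gal →* M2 A}
    (hcts : IsAdicCts r) (hcts' : IsAdicCts r')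
    (hr : S.IsLift r) (hr' : S.IsLift r') (hrig : S.IsRigid r) (hrig' : S.IsRigid r')
    (h : (ofMatrix r hcts).IsEquiv (ofMatrix r' hcts')) : r' = r :=
  eq_of_isEquiv_of_iInf S hc
    (Ideal.iInf_pow_eq_bot_of_isLocalRing (maximalIdeal A) (maximalIdeal.isMaximal A).ne_top)
    hcts hcts' hr hr' hrig hrig' h

end Unique

section Exists

variable {𝒪 : Type} [CommRing 𝒪] [IsLocalRing 𝒪] (S : Setup 𝒪)
variable {A : Type} [CommRing A] [IsLocalRing A] [Algebra 𝒪 A]

/-- **R3, for plain functions, complete case.** -/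
theorem exists_conj_rigid_fun_of_complete [IsLocalHom (algebraMap 𝒪 A)] (hc : S.HasCoords)
    [IsAdicComplete (maximalIdeal A) A] (r : Gal → M2 A)
    (hr : ∀ σ i j, r σ i j - algebraMap 𝒪 A (S.rtil σ i j) ∈ maximalIdeal A) :
    ∃ P : (M2 A)ˣ, (∀ i j, ((P : M2 A) - 1) i j ∈ maximalIdeal A) ∧
      ∀ a, ((P : M2 A) * r (S.g a) * ((P⁻¹ : (M2 A)ˣ) : M2 A)) (S.ci a) (S.cj a) =
        algebraMap 𝒪 A (S.target a) := by
  obtain ⟨E, hE, -⟩ := hc
  obtain ⟨U, hU1, hU2⟩ := Rigid.exists_rigid_of_complete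
    ((coordsOfE S E hE).map (ResidueField.map (algebraMap 𝒪 A))) r
    ((isLift_fun_iff_red S r).mp hr) (fun a => algebraMap 𝒪 A (S.target a))
    (fun a => residue_target S a)
  exact ⟨U, Rigid.red_eq_one_iff.mp hU1, hU2⟩

/-- **R3, for plain functions, nilpotent case.** -/
theorem exists_conj_rigid_fun_of_isNilpotent [IsLocalHom (algebraMap 𝒪 A)] (hc : S.HasCoords)
    (hnil : IsNilpotent (maximalIdeal A)) (r : Gal → M2 A)
    (hr : ∀ σ i j, r σ i j - algebraMap 𝒪 A (S.rtil σ i j) ∈ maximalIdeal A) :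
    ∃ P : (M2 A)ˣ, (∀ i j, ((P : M2 A) - 1) i j ∈ maximalIdeal A) ∧
      ∀ a, ((P : M2 A) * r (S.g a) * ((P⁻¹ : (M2 A)ˣ) : M2 A)) (S.ci a) (S.cj a) =
        algebraMap 𝒪 A (S.target a) := by
  obtain ⟨E, hE, -⟩ := hc
  obtain ⟨U, hU1, hU2⟩ := Rigid.exists_rigid_of_nilpotent
    ((coordsOfE S E hE).map (ResidueField.map (algebraMap 𝒪 A))) hnil r
    ((isLift_fun_iff_red S r).mp hr) (fun a => algebraMap 𝒪 A (S.target a))
    (fun a => residue_target S a)
  exact ⟨U, Rigid.red_eq_one_iff.mp hU1, hU2⟩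

/-- **R3, complete case.** Every lift of `S.rbar` over a complete local ring is conjugate, by a
matrix congruent to `1`, to a rigid lift. -/
theorem exists_conj_rigid_of_complete [IsLocalHom (algebraMap 𝒪 A)] (hc : S.HasCoords)
    [IsAdicComplete (maximalIdeal A) A] {r : Gal →* M2 A} (hr : S.IsLift r) :
    ∃ P : (M2 A)ˣ, (∀ i j, ((P : M2 A) - 1) i j ∈ maximalIdeal A) ∧
      S.IsRigid (conjHom P r) ∧ S.IsLift (conjHom P r) := by
  obtain ⟨P, hP1, hP2⟩ := exists_conj_rigid_fun_of_complete S hc (fun σ => r σ) hr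
  exact ⟨P, hP1, hP2, Bridge.isLift_conjHom S hr P hP1⟩

/-- **R3, nilpotent case.** -/
theorem exists_conj_rigid_of_isNilpotent [IsLocalHom (algebraMap 𝒪 A)] (hc : S.HasCoords)
    (hnil : IsNilpotent (maximalIdeal A)) {r : Gal →* M2 A} (hr : S.IsLift r) :
    ∃ P : (M2 A)ˣ, (∀ i j, ((P : M2 A) - 1) i j ∈ maximalIdeal A) ∧
      S.IsRigid (conjHom P r) ∧ S.IsLift (conjHom P r) := by
  obtain ⟨P, hP1, hP2⟩ := exists_conj_rigid_fun_of_isNilpotent S hc hnil (fun σ => r σ) hr
  exact ⟨P, hP1, hP2, Bridge.isLift_conjHom S hr P hP1⟩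

variable (ρbar : ResidualGaloisRep (ResidueField 𝒪))
  (bbar : Module.Basis (Fin 2) (ResidueField 𝒪) ρbar.V)

/-- Every deformation of `ρbar` to a complete local `𝒪`-algebra is equivalent to `ofMatrix` of a
rigid lift. -/
theorem exists_rigid_of_residual_isEquiv_of_complete [IsLocalHom (algebraMap 𝒪 A)]
    (hc : S.HasCoords) [IsAdicComplete (maximalIdeal A) A]
    (hS : S.rbar = matHom bbar ρbar.ρ) (ρ : GaloisRepAdic A)
    (hres : ρ.residual.IsEquiv
      (ρbar.baseChangeAlong (ResidueField.map (algebraMap 𝒪 A)))) :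
    ∃ (r : Gal →* M2 A) (hr : IsAdicCts r),
      ρ.IsEquiv (ofMatrix r hr) ∧ S.IsLift r ∧ S.IsRigid r := by
  obtain ⟨r, hr, h1, h2⟩ := Bridge.exists_isLift_of_residual_isEquiv S ρbar bbar hS ρ hres
  obtain ⟨P, -, hP2, hP3⟩ := exists_conj_rigid_of_complete S hc h2
  exact ⟨conjHom P r, Bridge.isAdicCts_conjHom hr P,
    Bridge.isEquiv_trans h1 (Bridge.ofMatrix_isEquiv_conjHom r hr P), hP3, hP2⟩

/-- Every deformation of `ρbar` to a local `𝒪`-algebra with nilpotent maximal ideal is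
equivalent to `ofMatrix` of a rigid lift. -/
theorem exists_rigid_of_residual_isEquiv_of_isNilpotent [IsLocalHom (algebraMap 𝒪 A)]
    (hc : S.HasCoords) (hnil : IsNilpotent (maximalIdeal A))
    (hS : S.rbar = matHom bbar ρbar.ρ) (ρ : GaloisRepAdic A)
    (hres : ρ.residual.IsEquiv
      (ρbar.baseChangeAlong (ResidueField.map (algebraMap 𝒪 A)))) :
    ∃ (r : Gal →* M2 A) (hr : IsAdicCts r),
      ρ.IsEquiv (ofMatrix r hr) ∧ S.IsLift r ∧ S.IsRigid r := by
  obtain ⟨r, hr, h1, h2⟩ := Bridge.exists_isLift_of_residual_isEquiv S ρbar bbar hS ρ hres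
  obtain ⟨P, -, hP2, hP3⟩ := exists_conj_rigid_of_isNilpotent S hc hnil h2
  exact ⟨conjHom P r, Bridge.isAdicCts_conjHom hr P,
    Bridge.isEquiv_trans h1 (Bridge.ofMatrix_isEquiv_conjHom r hr P), hP3, hP2⟩

end Exists

end Fermat.Agent.S53.RigidSetup
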