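/-
Rigidification of 2x2 matrix lifts over a local ring (slice (S-b) of the S53 plan).

Pure matrix algebra: no Galois groups, no tensor products.

* `Coords rbar`      : three "coordinates" `(g a, i a, j a)` and matrices `E a` over a field `k`
                        with `[E a, rbar (g b)]_{i b, j b} = δ_{ab}`.
* `Coords.schur`     : the common kernel of the three coordinate functionals is the scalars.
* `exists_coords`    : coordinates exist as soon as the centraliser of `rbar` is the scalars.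
* `exists_conj_isRigid` : over a local ring complete for its maximal ideal, every family
                        lifting `rbar` can be conjugated by `M ≡ 1` so that the three coordinate
                        entries take prescribed values.
* `isScalar_of_intertwine` : uniqueness, up to scalars, of the conjugating matrix.
-/
import Mathlib

set_option autoImplicit false

namespace Fermat.Agent.S53.Rigidify

open Matrix IsLocalRing

/-- 2x2 matrices. -/
abbrev M2 (A : Type*) := Matrix (Fin 2) (Fin 2) A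

section EntriesIn

variable {A : Type*} [CommRing A]

/-- All entries of the matrix lie in the ideal `I`. -/
def EntriesIn (I : Ideal A) (X : M2 A) : Prop := ∀ i j, X i j ∈ I

namespace EntriesIn

variable {I J : Ideal A} {X Y : M2 A}

theorem zero : EntriesIn I (0 : M2 A) := fun _ _ => I.zero_mem

theorem mono (h : I ≤ J) (hX : EntriesIn I X) : EntriesIn J X := fun i j => h (hX i j)

theorem add (hX : EntriesIn I X) (hY : EntriesIn I Y) : EntriesIn I (X + Y) :=
  fun i j => by simpa using I.add_mem (hX i j) (hY i j)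

theorem sub (hX : EntriesIn I X) (hY : EntriesIn I Y) : EntriesIn I (X - Y) :=
  fun i j => by simpa using I.sub_mem (hX i j) (hY i j)

theorem neg (hX : EntriesIn I X) : EntriesIn I (-X) :=
  fun i j => by simpa using I.neg_mem (hX i j)

theorem smul (a : A) (hX : EntriesIn I X) : EntriesIn I (a • X) :=
  fun i j => by simpa using I.mul_mem_left a (hX i j)

theorem smul_of_mem {a : A} (ha : a ∈ I) (X : M2 A) : EntriesIn I (a • X) :=
  fun i j => by simpa using I.mul_mem_right (X i j) ha

theorem smul_mul {a : A} (ha : a ∈ I) (hX : EntriesIn J X) : EntriesIn (I * J) (a • X) :=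
  fun i j => by simpa using Ideal.mul_mem_mul ha (hX i j)

theorem mul_left (Y : M2 A) (hX : EntriesIn I X) : EntriesIn I (Y * X) := fun i j => by
  rw [Matrix.mul_apply]
  exact I.sum_mem fun l _ => I.mul_mem_left _ (hX l j)

theorem mul_right (Y : M2 A) (hX : EntriesIn I X) : EntriesIn I (X * Y) := fun i j => by
  rw [Matrix.mul_apply]
  exact I.sum_mem fun l _ => I.mul_mem_right _ (hX i l)

theorem mul (hX : EntriesIn I X) (hY : EntriesIn J Y) : EntriesIn (I * J) (X * Y) := fun i j => by
  rw [Matrix.mul_apply]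
  exact (I * J).sum_mem fun l _ => Ideal.mul_mem_mul (hX i l) (hY l j)

theorem sum {ι : Type*} (s : Finset ι) {f : ι → M2 A} (h : ∀ a ∈ s, EntriesIn I (f a)) :
    EntriesIn I (∑ a ∈ s, f a) := fun i j => by
  rw [Matrix.sum_apply]
  exact I.sum_mem fun a ha => h a ha i j

theorem smul_one_of_mem {a : A} (ha : a ∈ I) : EntriesIn I (a • (1 : M2 A)) :=
  smul_of_mem ha 1

end EntriesIn

theorem entriesIn_bot_iff {X : M2 A} : EntriesIn (⊥ : Ideal A) X ↔ X = 0 := by
  constructor
  · intro h
    ext i j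
    simpa using h i j
  · rintro rfl
    exact EntriesIn.zero

end EntriesIn

section CommEntry

variable {R : Type*} [CommRing R]

/-- The commutator-entry functional `X ↦ [X, s]_{i j}` as a linear map. -/
def commEntry (s : M2 R) (i j : Fin 2) : M2 R →ₗ[R] R where
  toFun X := (X * s - s * X) i j
  map_add' X Y := by simp [add_mul, mul_add]; ring
  map_smul' c X := by simp [mul_sub]

@[simp] theorem commEntry_apply (s : M2 R) (i j : Fin 2) (X : M2 R) :
    commEntry s i j X = (X * s - s * X) i j := rfl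

theorem commEntry_one (s : M2 R) (i j : Fin 2) : commEntry s i j 1 = 0 := by simp

theorem commEntry_mem {I : Ideal R} {X : M2 R} (hX : EntriesIn I X) (s : M2 R) (i j : Fin 2) :
    commEntry s i j X ∈ I :=
  ((hX.mul_right s).sub (hX.mul_left s)) i j

end CommEntry

section Coords

variable {k : Type*} [Field k] {ι : Type*}

/-- Rigidifying coordinates for a family `rbar` of 2x2 matrices over a field. -/
structure Coords (rbar : ι → M2 k) where
  g : Fin 3 → ι
  i : Fin 3 → Fin 2
  j : Fin 3 → Fin 2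
  E : Fin 3 → M2 k
  dual : ∀ a b, (E a * rbar (g b) - rbar (g b) * E a) (i b) (j b) = if a = b then 1 else 0

namespace Coords

variable {rbar : ι → M2 k} (c : Coords rbar)

/-- The three coordinate functionals bundled as a linear map to `Fin 3 → k`. -/
def Φ : M2 k →ₗ[k] (Fin 3 → k) :=
  LinearMap.pi fun a => commEntry (rbar (c.g a)) (c.i a) (c.j a)

@[simp] theorem Φ_apply (X : M2 k) (a : Fin 3) :
    c.Φ X a = (X * rbar (c.g a) - rbar (c.g a) * X) (c.i a) (c.j a) := rfl

theorem Φ_E (a : Fin 3) : c.Φ (c.E a) = Pi.single a 1 := by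
  ext b
  rw [Φ_apply, c.dual a b, Pi.single_apply]
  simp [eq_comm]

theorem Φ_surjective : Function.Surjective c.Φ := by
  intro v
  refine ⟨∑ a, v a • c.E a, ?_⟩
  rw [map_sum]
  simp_rw [map_smul, Φ_E]
  ext b
  simp [Finset.sum_apply, Pi.single_apply]

theorem Φ_one : c.Φ 1 = 0 := by
  ext a
  simp

theorem finrank_ker : Module.finrank k (LinearMap.ker c.Φ) = 1 := by
  have h := LinearMap.finrank_range_add_finrank_ker c.Φ
  rw [LinearMap.range_eq_top.mpr c.Φ_surjective, finrank_top, Module.finrank_pi,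
    Module.finrank_matrix] at h
  simp at h
  omega

/-- Schur for the coordinates: a matrix killed by the three coordinate functionals is scalar. -/
theorem schur (X : M2 k)
    (hX : ∀ a, (X * rbar (c.g a) - rbar (c.g a) * X) (c.i a) (c.j a) = 0) :
    ∃ x : k, X = x • (1 : M2 k) := by
  have h1 : (1 : M2 k) ∈ LinearMap.ker c.Φ := c.Φ_one
  have hXk : X ∈ LinearMap.ker c.Φ := by
    rw [LinearMap.mem_ker]
    ext a
    exact hX a
  have hne : (⟨1, h1⟩ : LinearMap.ker c.Φ) ≠ 0 := by
    intro h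
    have := congrArg Subtype.val h
    simp at this
  obtain ⟨x, hx⟩ := (finrank_eq_one_iff_of_nonzero' _ hne).mp c.finrank_ker ⟨X, hXk⟩
  exact ⟨x, by simpa using (congrArg Subtype.val hx).symm⟩

/-- Transport of coordinates along a homomorphism of fields. -/
def map {k' : Type*} [Field k'] (φ : k →+* k') : Coords fun x => (rbar x).map φ where
  g := c.g
  i := c.i
  j := c.j
  E a := (c.E a).map φ
  dual a b := by
    have h := congrArg φ (c.dual a b)
    rw [apply_ite φ, map_one, map_zero] at h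
    rw [← h]
    show (φ.mapMatrix (c.E a) * φ.mapMatrix (rbar (c.g b)) -
      φ.mapMatrix (rbar (c.g b)) * φ.mapMatrix (c.E a)) (c.i b) (c.j b) = _
    rw [← map_mul, ← map_mul, ← map_sub, RingHom.mapMatrix_apply, Matrix.map_apply]

end Coords

theorem exists_coords (rbar : ι → M2 k)
    (hS : ∀ X : M2 k, (∀ x, X * rbar x = rbar x * X) → ∃ c : k, X = c • (1 : M2 k)) :
    Nonempty (Coords rbar) := by
  classical
  -- the family of all commutator-entry functionals
  let v : ι × Fin 2 × Fin 2 → Module.Dual k (M2 k) := fun p => commEntry (rbar p.1) p.2.1 p.2.2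
  set W : Subspace k (Module.Dual k (M2 k)) := Submodule.span k (Set.range v) with hW
  -- its coannihilator is the line of scalars
  have hco : W.dualCoannihilator = Submodule.span k {(1 : M2 k)} := by
    apply le_antisymm
    · intro X hX
      rw [Submodule.mem_dualCoannihilator] at hX
      have hcomm : ∀ x, X * rbar x = rbar x * X := by
        intro x
        ext i j
        have := hX (v (x, i, j)) (Submodule.subset_span ⟨_, rfl⟩)
        simp only [v, commEntry_apply, Matrix.sub_apply, sub_eq_zero] at this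
        exact this
      obtain ⟨c, rfl⟩ := hS X hcomm
      exact Submodule.smul_mem _ _ (Submodule.subset_span rfl)
    · rw [Submodule.span_le]
      rintro X rfl
      show (1 : M2 k) ∈ W.dualCoannihilator
      rw [Submodule.mem_dualCoannihilator]
      intro φ hφ
      refine Submodule.span_induction (p := fun φ _ => φ (1 : M2 k) = 0) ?_ ?_ ?_ ?_ hφ
      · rintro _ ⟨p, rfl⟩
        simp [v]
      · simp
      · intro x y _ _ hx hy
        simp [hx, hy]
      · intro c x _ hx
        simp [hx]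
  have hfW : Module.finrank k W = 3 := by
    have h := Subspace.finrank_add_finrank_dualCoannihilator_eq W
    rw [hco, finrank_span_singleton (one_ne_zero), Module.finrank_matrix] at h
    simp at h
    omega
  obtain ⟨κ, a, -, hspan, hli⟩ := exists_linearIndependent' k v
  have : Finite κ := hli.finite
  have : Fintype κ := Fintype.ofFinite κ
  have hcard : Fintype.card κ = 3 := by
    rw [← finrank_span_eq_card hli, hspan, ← hW, hfW]
  let e : Fin 3 ≃ κ := (Fintype.equivFinOfCardEq hcard).symm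
  -- the three chosen functionals, bundled
  let Φ : M2 k →ₗ[k] (Fin 3 → k) := LinearMap.pi fun b => v (a (e b))
  have hker : LinearMap.ker Φ = W.dualCoannihilator := by
    ext X
    rw [LinearMap.mem_ker, Submodule.mem_dualCoannihilator]
    constructor
    · intro h φ hφ
      rw [hW, ← hspan] at hφ
      refine Submodule.span_induction (p := fun φ _ => φ X = 0) ?_ ?_ ?_ ?_ hφ
      · rintro _ ⟨x, rfl⟩
        have := congrFun h (e.symm x)
        simpa [Φ] using this
      · simp
      · intro x y _ _ hx hy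
        simp [hx, hy]
      · intro c x _ hx
        simp [hx]
    · intro h
      ext b
      exact h _ (Submodule.subset_span ⟨_, rfl⟩)
  have hsurj : Function.Surjective Φ := by
    rw [← LinearMap.range_eq_top]
    apply Submodule.eq_top_of_finrank_eq
    have h := LinearMap.finrank_range_add_finrank_ker Φ
    rw [hker, hco, finrank_span_singleton (one_ne_zero), Module.finrank_matrix] at h
    simp at h
    rw [Module.finrank_pi]
    simp
    omega
  choose E hE using fun b : Fin 3 => hsurj (Pi.single b 1)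
  refine ⟨⟨fun b => (a (e b)).1, fun b => (a (e b)).2.1, fun b => (a (e b)).2.2, E, ?_⟩⟩
  intro a' b
  have := congrFun (hE a') b
  simp only [Φ, LinearMap.pi_apply, v, commEntry_apply, Pi.single_apply] at this
  rw [this]
  simp [eq_comm]

end Coords

section FieldDecomp
variable {k : Type*} [Field k] {ι : Type*} {rbar : ι → M2 k}

theorem Coords.decomp (c : Coords rbar) (X : M2 k) :
    ∃ x₀ : k, X = x₀ • (1 : M2 k) + ∑ a, c.Φ X a • c.E a := by
  have h : c.Φ (X - ∑ a, c.Φ X a • c.E a) = 0 := by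
    rw [map_sub, map_sum]
    simp_rw [map_smul, Coords.Φ_E]
    ext b
    simp [Finset.sum_apply, Pi.single_apply]
  obtain ⟨x₀, hx₀⟩ := c.schur (X - ∑ a, c.Φ X a • c.E a) fun a => by
    have := congrFun h a
    simpa using this
  exact ⟨x₀, by rw [← hx₀]; abel⟩

end FieldDecomp

theorem eq_sum_single {A : Type*} [CommRing A] (Y : M2 A) :
    Y = Y 0 0 • Matrix.single 0 0 (1 : A) + Y 0 1 • Matrix.single 0 1 (1 : A) +
      Y 1 0 • Matrix.single 1 0 (1 : A) + Y 1 1 • Matrix.single 1 1 (1 : A) := by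
  ext i j
  fin_cases i <;> fin_cases j <;> simp [Matrix.single]

section Local

variable {A : Type*} [CommRing A] [IsLocalRing A]

/-- Entrywise reduction to the residue field, as a ring homomorphism. -/
noncomputable def red : M2 A →+* M2 (ResidueField A) := (residue A).mapMatrix

@[simp] theorem red_apply (X : M2 A) (i j : Fin 2) : red X i j = residue A (X i j) := rfl

theorem red_eq_zero_iff {X : M2 A} : red X = 0 ↔ EntriesIn (maximalIdeal A) X := by
  constructor
  · intro h i j
    have := congrFun (congrFun h i) j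
    simpa [residue_eq_zero_iff] using this
  · intro h
    ext i j
    simpa [residue_eq_zero_iff] using h i j

theorem red_eq_iff {X Y : M2 A} : red X = red Y ↔ EntriesIn (maximalIdeal A) (X - Y) := by
  rw [← red_eq_zero_iff, map_sub, sub_eq_zero]

theorem red_surjective : Function.Surjective (red : M2 A → M2 (ResidueField A)) := by
  intro Y
  choose f hf using fun i j => residue_surjective (Y i j)
  exact ⟨Matrix.of f, by ext i j; simp [hf]⟩

theorem isUnit_of_entriesIn_sub_one {X : M2 A} (h : EntriesIn (maximalIdeal A) (X - 1)) :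
    IsUnit X := by
  rw [Matrix.isUnit_iff_isUnit_det, Matrix.det_fin_two]
  have h00 := h 0 0
  have h01 := h 0 1
  have h10 := h 1 0
  have h11 := h 1 1
  simp only [Matrix.sub_apply, Matrix.one_apply_eq, Matrix.one_apply_ne, ne_eq, zero_ne_one,
    one_ne_zero, not_false_eq_true, sub_zero, Fin.isValue] at h00 h01 h10 h11
  have hmem : 1 - (X 0 0 * X 1 1 - X 0 1 * X 1 0) ∈ maximalIdeal A := by
    have e : 1 - (X 0 0 * X 1 1 - X 0 1 * X 1 0) =
        -((X 0 0 - 1) * X 1 1) - (X 1 1 - 1) + X 0 1 * X 1 0 := by ring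
    rw [e]
    refine Ideal.add_mem _ (Ideal.sub_mem _ (neg_mem (Ideal.mul_mem_right _ _ h00)) h11)
      (Ideal.mul_mem_right _ _ h01)
  have := isUnit_one_sub_self_of_mem_nonunits _ ((mem_maximalIdeal _).mp hmem)
  simpa using this

theorem red_unit_inv {U : (M2 A)ˣ} (h : red (U : M2 A) = 1) :
    red ((U⁻¹ : (M2 A)ˣ) : M2 A) = 1 := by
  have h1 : red (U : M2 A) * red ((U⁻¹ : (M2 A)ˣ) : M2 A) = 1 := by
    rw [← map_mul, Units.mul_inv, map_one]
  rwa [h, one_mul] at h1

theorem red_conj {U : (M2 A)ˣ} (h : red (U : M2 A) = 1) (s : M2 A) :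
    red ((U : M2 A) * s * ((U⁻¹ : (M2 A)ˣ) : M2 A)) = red s := by
  rw [map_mul, map_mul, h, red_unit_inv h, one_mul, mul_one]

omit [IsLocalRing A] in
/-- Expansion of the inverse of `1 + X` to second order. -/
theorem inv_expand (U : (M2 A)ˣ) :
    ((U⁻¹ : (M2 A)ˣ) : M2 A) = 1 - ((U : M2 A) - 1) +
      ((U : M2 A) - 1) * ((U : M2 A) - 1) * ((U⁻¹ : (M2 A)ˣ) : M2 A) := by
  have h : (U : M2 A) * ((U⁻¹ : (M2 A)ˣ) : M2 A) = 1 := Units.mul_inv U
  set V := ((U⁻¹ : (M2 A)ˣ) : M2 A)
  set W := (U : M2 A)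
  have : (W - 1) * (W - 1) * V = W * (W * V) - 2 • (W * V) + V := by noncomm_ring
  rw [this, h]
  noncomm_ring


/-- One Newton step: errors in `I ≤ 𝔪` are improved to errors in `I * 𝔪`. -/
theorem step {I : Ideal A} (hI : I ≤ maximalIdeal A) (s : Fin 3 → M2 A)
    (i j : Fin 3 → Fin 2) (E : Fin 3 → M2 A) (t : Fin 3 → A)
    (hdual : ∀ a b, (E a * s b - s b * E a) (i b) (j b) - (if a = b then 1 else 0) ∈
      maximalIdeal A)
    (herr : ∀ b, s b (i b) (j b) - t b ∈ I) :
    ∃ U : (M2 A)ˣ, EntriesIn I ((U : M2 A) - 1) ∧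
      ∀ b, ((U : M2 A) * s b * ((U⁻¹ : (M2 A)ˣ) : M2 A)) (i b) (j b) - t b ∈
        I * maximalIdeal A := by
  set ε : Fin 3 → A := fun b => s b (i b) (j b) - t b with hε
  set X : M2 A := -∑ a, ε a • E a with hX
  have hXI : EntriesIn I X :=
    (EntriesIn.sum _ fun a _ => EntriesIn.smul_of_mem (herr a) (E a)).neg
  have hunit : IsUnit (1 + X) := by
    apply isUnit_of_entriesIn_sub_one
    simpa using hXI.mono hI
  obtain ⟨U, hU⟩ := hunit
  have hUX : (U : M2 A) - 1 = X := by rw [hU]; abel
  refine ⟨U, by rw [hUX]; exact hXI, fun b => ?_⟩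
  set V := ((U⁻¹ : (M2 A)ˣ) : M2 A) with hV
  have hVe : V = 1 - X + X * X * V := by
    have := inv_expand U
    rwa [hUX] at this
  have hII : I * I ≤ I * maximalIdeal A := Ideal.mul_mono_right hI
  -- the remainder after first order expansion
  have hexp : (U : M2 A) * s b * V = s b + (X * s b - s b * X) +
      (-(X * s b * X) + (1 + X) * s b * (X * X * V)) := by
    rw [hU]
    conv_lhs => rw [hVe]
    noncomm_ring
  have hR : EntriesIn (I * maximalIdeal A) (-(X * s b * X) + (1 + X) * s b * (X * X * V)) := by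
    refine EntriesIn.add (EntriesIn.neg ?_) ?_
    · exact ((hXI.mul_right (s b)).mul hXI).mono hII
    · exact ((hXI.mul hXI).mul_right V).mul_left _ |>.mono hII
  -- first order term
  have hfirst : (X * s b - s b * X) (i b) (j b) =
      -∑ a, ε a * (E a * s b - s b * E a) (i b) (j b) := by
    rw [hX]
    simp only [neg_mul, mul_neg, Finset.sum_mul, Finset.mul_sum, Matrix.sub_apply,
      Matrix.neg_apply, Matrix.sum_apply, smul_mul_assoc, mul_smul_comm, Matrix.smul_apply,
      smul_eq_mul]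
    simp only [mul_sub, Finset.sum_sub_distrib]
    ring
  rw [hexp, Matrix.add_apply, Matrix.add_apply, hfirst]
  have key : s b (i b) (j b) + -∑ a, ε a * (E a * s b - s b * E a) (i b) (j b) - t b =
      -∑ a, ε a * ((E a * s b - s b * E a) (i b) (j b) - (if a = b then 1 else 0)) := by
    simp only [mul_sub, Finset.sum_sub_distrib, mul_ite, mul_one, mul_zero,
      Finset.sum_ite_eq', Finset.mem_univ, if_true, hε]
    ring
  have hmain : s b (i b) (j b) + -∑ a, ε a * (E a * s b - s b * E a) (i b) (j b) - t b ∈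
      I * maximalIdeal A := by
    rw [key]
    exact neg_mem (Ideal.sum_mem _ fun a _ => Ideal.mul_mem_mul (herr a) (hdual a b))
  have := Ideal.add_mem _ hmain (hR (i b) (j b))
  convert this using 1
  ring


theorem exists_seq {α : Type*} (P : ℕ → α → Prop) (R : ℕ → α → α → Prop)
    (h0 : ∃ a, P 0 a) (hstep : ∀ n a, P n a → ∃ b, P (n + 1) b ∧ R n a b) :
    ∃ f : ℕ → α, (∀ n, P n (f n)) ∧ ∀ n, R n (f n) (f (n + 1)) := by
  classical
  choose nxt hnxt using hstep
  let F : (n : ℕ) → {a // P n a} := fun n =>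
    Nat.rec (motive := fun n => {a // P n a}) ⟨h0.choose, h0.choose_spec⟩
      (fun n a => ⟨nxt n a.1 a.2, (hnxt n a.1 a.2).1⟩) n
  refine ⟨fun n => (F n).1, fun n => (F n).2, fun n => ?_⟩
  exact (hnxt n (F n).1 (F n).2).2

theorem eq_zero_of_forall_mem_pow [IsHausdorff (maximalIdeal A) A] (x : A)
    (h : ∀ n, x ∈ maximalIdeal A ^ n) : x = 0 := by
  refine IsHausdorff.haus ‹_› x fun n => ?_
  rw [SModEq.zero]
  simpa using h n

theorem exists_limit [IsPrecomplete (maximalIdeal A) A] (f : ℕ → A)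
    (hf : ∀ n, f (n + 1) - f n ∈ maximalIdeal A ^ n) :
    ∃ L, ∀ n, f n - L ∈ maximalIdeal A ^ n := by
  have hc : ∀ {m n : ℕ}, m ≤ n → f m ≡ f n [SMOD (maximalIdeal A ^ m • ⊤ : Submodule A A)] := by
    intro m n hmn
    rw [SModEq.sub_mem]
    induction n, hmn using Nat.le_induction with
    | base => simp
    | succ n hmn ih =>
      have h1 : f (n + 1) - f n ∈ maximalIdeal A ^ m := Ideal.pow_le_pow_right hmn (hf n)
      have e : f m - f (n + 1) = (f m - f n) - (f (n + 1) - f n) := by ring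
      rw [e]
      exact Submodule.sub_mem _ ih (by simpa using h1)
  obtain ⟨L, hL⟩ := IsPrecomplete.prec ‹_› hc
  refine ⟨L, fun n => ?_⟩
  have := hL n
  rw [SModEq.sub_mem] at this
  simpa using this


/-- The conjugate of `s` by the unit `U`. -/
def conj (U : (M2 A)ˣ) (s : M2 A) : M2 A := (U : M2 A) * s * ((U⁻¹ : (M2 A)ˣ) : M2 A)

omit [IsLocalRing A] in
theorem conj_mul (U U' : (M2 A)ˣ) (s : M2 A) : conj (U * U') s = conj U (conj U' s) := by
  simp only [conj, Units.val_mul, _root_.mul_inv_rev, mul_assoc]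

omit [IsLocalRing A] in
theorem conj_one (s : M2 A) : conj (1 : (M2 A)ˣ) s = s := by simp [conj]

theorem red_conj' {U : (M2 A)ˣ} (h : EntriesIn (maximalIdeal A) ((U : M2 A) - 1)) (s : M2 A) :
    red (conj U s) = red s := by
  apply red_conj
  rw [← map_one (red : M2 A →+* _), red_eq_iff]
  exact h

omit [IsLocalRing A] in
/-- Conjugation by two units that are congruent modulo `I` gives congruent results. -/
theorem conj_sub_conj {I : Ideal A} {U U' : (M2 A)ˣ} (h : EntriesIn I ((U : M2 A) - U')) (s : M2 A) :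
    EntriesIn I (conj U s - conj U' s) := by
  have e : conj U s - conj U' s =
      ((U : M2 A) - U') * s * ((U⁻¹ : (M2 A)ˣ) : M2 A) -
      (U' : M2 A) * s * (((U⁻¹ : (M2 A)ˣ) : M2 A) * ((U : M2 A) - U') *
        ((U'⁻¹ : (M2 A)ˣ) : M2 A)) := by
    have h1 : ((U⁻¹ : (M2 A)ˣ) : M2 A) * (U : M2 A) = 1 := Units.inv_mul U
    have h2 : (U' : M2 A) * ((U'⁻¹ : (M2 A)ˣ) : M2 A) = 1 := Units.mul_inv U'
    have h3 : ((U⁻¹ : (M2 A)ˣ) : M2 A) * ((U : M2 A) - U') * ((U'⁻¹ : (M2 A)ˣ) : M2 A) =
        ((U'⁻¹ : (M2 A)ˣ) : M2 A) - ((U⁻¹ : (M2 A)ˣ) : M2 A) := by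
      rw [mul_sub, sub_mul, h1, one_mul, mul_assoc, h2, mul_one]
    rw [h3]
    simp only [conj]
    noncomm_ring
  rw [e]
  refine EntriesIn.sub ?_ ?_
  · exact (h.mul_right s).mul_right _
  · exact ((h.mul_left _).mul_right _).mul_left _

/-- **Existence of a rigidifying conjugation** over a local ring which is complete for its
maximal ideal (this includes local rings with nilpotent maximal ideal). -/
theorem exists_conj_isRigid [IsAdicComplete (maximalIdeal A) A] {ι : Type*} (r : ι → M2 A)
    (c : Coords fun x => red (r x)) (t : Fin 3 → A)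
    (ht : ∀ a, r (c.g a) (c.i a) (c.j a) - t a ∈ maximalIdeal A) :
    ∃ M : (M2 A)ˣ, EntriesIn (maximalIdeal A) ((M : M2 A) - 1) ∧
      ∀ a, (conj M (r (c.g a))) (c.i a) (c.j a) = t a := by
  set 𝔪 := maximalIdeal A with h𝔪
  choose E hE using fun a => red_surjective (c.E a)
  -- the approximation property at level `n`
  let P : ℕ → (M2 A)ˣ → Prop := fun n M =>
    EntriesIn 𝔪 ((M : M2 A) - 1) ∧ ∀ b, (conj M (r (c.g b))) (c.i b) (c.j b) - t b ∈ 𝔪 ^ (n + 1)
  let R : ℕ → (M2 A)ˣ → (M2 A)ˣ → Prop := fun n M M' =>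
    EntriesIn (𝔪 ^ (n + 1)) ((M' : M2 A) - M)
  have h0 : ∃ M, P 0 M := ⟨1, by simp [EntriesIn.zero], fun b => by
    simpa [conj_one] using ht b⟩
  have hstep : ∀ n M, P n M → ∃ M', P (n + 1) M' ∧ R n M M' := by
    rintro n M ⟨hM1, hMerr⟩
    have hdual : ∀ a b, (E a * conj M (r (c.g b)) - conj M (r (c.g b)) * E a) (c.i b) (c.j b) -
        (if a = b then 1 else 0) ∈ 𝔪 := by
      intro a b
      rw [← residue_eq_zero_iff, map_sub, ← red_apply, map_sub, map_mul, map_mul, hE,
        red_conj' hM1, c.dual a b, apply_ite (residue A), map_one, map_zero, sub_self]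
    obtain ⟨U, hU1, hUerr⟩ := step (I := 𝔪 ^ (n + 1)) (Ideal.pow_le_self (Nat.succ_ne_zero n))
      (fun b => conj M (r (c.g b))) c.i c.j E t hdual hMerr
    refine ⟨U * M, ⟨?_, fun b => ?_⟩, ?_⟩
    · have e : ((U * M : (M2 A)ˣ) : M2 A) - 1 = ((U : M2 A) - 1) * M + ((M : M2 A) - 1) := by
        rw [Units.val_mul]; noncomm_ring
      rw [e]
      exact ((hU1.mono (Ideal.pow_le_self (Nat.succ_ne_zero n))).mul_right _).add hM1
    · rw [conj_mul, pow_succ]
      exact hUerr b
    · have e : ((U * M : (M2 A)ˣ) : M2 A) - M = ((U : M2 A) - 1) * M := by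
        rw [Units.val_mul]; noncomm_ring
      show EntriesIn (𝔪 ^ (n + 1)) (((U * M : (M2 A)ˣ) : M2 A) - M)
      rw [e]
      exact hU1.mul_right _
  obtain ⟨f, hfP, hfR⟩ := exists_seq P R h0 hstep
  -- entrywise limits
  have hlim : ∀ i j, ∃ L, ∀ n, (f n : M2 A) i j - L ∈ 𝔪 ^ n := fun i j =>
    exists_limit (fun n => (f n : M2 A) i j) fun n => by
      have := hfR n i j
      simp only [Matrix.sub_apply] at this
      exact Ideal.pow_le_pow_right (Nat.le_succ n) this
  choose L hL using hlim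
  have hLf : ∀ n, EntriesIn (𝔪 ^ n) ((f n : M2 A) - Matrix.of L) := fun n i j => by
    simpa using hL i j n
  have hL1 : EntriesIn 𝔪 (Matrix.of L - 1) := by
    have e : Matrix.of L - 1 = ((f 1 : M2 A) - 1) - ((f 1 : M2 A) - Matrix.of L) := by abel
    rw [e]
    exact (hfP 1).1.sub (by simpa using hLf 1)
  obtain ⟨M, hM⟩ := isUnit_of_entriesIn_sub_one hL1
  refine ⟨M, by rw [hM]; exact hL1, fun a => ?_⟩
  rw [← sub_eq_zero]
  apply eq_zero_of_forall_mem_pow
  intro n
  have h1 : EntriesIn (𝔪 ^ n) (conj M (r (c.g a)) - conj (f n) (r (c.g a))) := by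
    apply conj_sub_conj
    rw [hM]
    have := (hLf n).neg
    rwa [neg_sub] at this
  have h2 := Ideal.pow_le_pow_right (Nat.le_succ n) ((hfP n).2 a)
  have e : conj M (r (c.g a)) (c.i a) (c.j a) - t a =
      (conj M (r (c.g a)) - conj (f n) (r (c.g a))) (c.i a) (c.j a) +
      (conj (f n) (r (c.g a)) (c.i a) (c.j a) - t a) := by
    simp only [Matrix.sub_apply]; ring
  rw [e]
  exact Ideal.add_mem _ (h1 _ _) h2

end Local

section Unique

variable {A : Type*} [CommRing A] [IsLocalRing A] {ι : Type*} {r : ι → M2 A}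

/-- Every matrix over `A` is, modulo the maximal ideal, a combination of `1` and the lifted `E a`. -/
theorem decomp_mod (c : Coords fun x => red (r x)) (E : Fin 3 → M2 A)
    (hE : ∀ a, red (E a) = c.E a) (X : M2 A) :
    ∃ (x₀ : A) (x : Fin 3 → A),
      EntriesIn (maximalIdeal A) (X - x₀ • (1 : M2 A) - ∑ a, x a • E a) := by
  obtain ⟨z₀, hz₀⟩ := c.decomp (red X)
  obtain ⟨x₀, hx₀⟩ := residue_surjective z₀
  choose x hx using fun a => residue_surjective (c.Φ (red X) a)
  refine ⟨x₀, x, ?_⟩
  rw [← red_eq_zero_iff, map_sub, map_sub, map_sum]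
  have h1 : red (x₀ • (1 : M2 A)) = z₀ • (1 : M2 (ResidueField A)) := by
    ext i j
    by_cases hij : i = j <;> simp [hij, hx₀]
  have h2 : ∀ a, red (x a • E a) = c.Φ (red X) a • c.E a := by
    intro a
    ext i j
    simp [hx, ← hE]
  rw [h1]
  simp_rw [h2]
  rw [sub_sub, ← hz₀, sub_self]

/-- Graded decomposition: a matrix with entries in `I` is, modulo `I * 𝔪`, a combination of `1`
and the `E a` with coefficients in `I`. -/
theorem decomp_graded (c : Coords fun x => red (r x)) (E : Fin 3 → M2 A)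
    (hE : ∀ a, red (E a) = c.E a) (I : Ideal A) {Y : M2 A} (hY : EntriesIn I Y) :
    ∃ (y₀ : A) (y : Fin 3 → A), y₀ ∈ I ∧ (∀ a, y a ∈ I) ∧
      EntriesIn (I * maximalIdeal A) (Y - y₀ • (1 : M2 A) - ∑ a, y a • E a) := by
  choose α β hαβ using fun p q => decomp_mod c E hE (Matrix.single p q (1 : A))
  refine ⟨Y 0 0 * α 0 0 + Y 0 1 * α 0 1 + Y 1 0 * α 1 0 + Y 1 1 * α 1 1,
    fun a => Y 0 0 * β 0 0 a + Y 0 1 * β 0 1 a + Y 1 0 * β 1 0 a + Y 1 1 * β 1 1 a, ?_, ?_, ?_⟩
  · exact I.add_mem (I.add_mem (I.add_mem (I.mul_mem_right _ (hY _ _)) (I.mul_mem_right _ (hY _ _)))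
      (I.mul_mem_right _ (hY _ _))) (I.mul_mem_right _ (hY _ _))
  · intro a
    exact I.add_mem (I.add_mem (I.add_mem (I.mul_mem_right _ (hY _ _)) (I.mul_mem_right _ (hY _ _)))
      (I.mul_mem_right _ (hY _ _))) (I.mul_mem_right _ (hY _ _))
  · have e : ∀ y00 y01 y10 y11 : A,
        Y = y00 • Matrix.single 0 0 (1 : A) + y01 • Matrix.single 0 1 (1 : A) +
          y10 • Matrix.single 1 0 (1 : A) + y11 • Matrix.single 1 1 (1 : A) →
        Y - (y00 * α 0 0 + y01 * α 0 1 + y10 * α 1 0 + y11 * α 1 1) • (1 : M2 A) -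
        ∑ a, (y00 * β 0 0 a + y01 * β 0 1 a + y10 * β 1 0 a + y11 * β 1 1 a) • E a =
        y00 • (Matrix.single 0 0 (1 : A) - α 0 0 • (1 : M2 A) - ∑ a, β 0 0 a • E a) +
        y01 • (Matrix.single 0 1 (1 : A) - α 0 1 • (1 : M2 A) - ∑ a, β 0 1 a • E a) +
        y10 • (Matrix.single 1 0 (1 : A) - α 1 0 • (1 : M2 A) - ∑ a, β 1 0 a • E a) +
        y11 • (Matrix.single 1 1 (1 : A) - α 1 1 • (1 : M2 A) - ∑ a, β 1 1 a • E a) := by
      intro y00 y01 y10 y11 h
      rw [h]
      simp only [Fin.sum_univ_three]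
      module
    have e := e _ _ _ _ (eq_sum_single Y)
    rw [e]
    exact (((EntriesIn.smul_mul (hY _ _) (hαβ _ _)).add (EntriesIn.smul_mul (hY _ _) (hαβ _ _))).add
      (EntriesIn.smul_mul (hY _ _) (hαβ _ _))).add (EntriesIn.smul_mul (hY _ _) (hαβ _ _))


/-- One step of the uniqueness argument: if `N ≡ c₀` modulo `I` then `N ≡ c₁` modulo `I * 𝔪`. -/
theorem scalar_step (c : Coords fun x => red (r x)) (r' : ι → M2 A)
    (hred : ∀ x, red (r x) = red (r' x)) (t : Fin 3 → A)
    (hr : ∀ a, r (c.g a) (c.i a) (c.j a) = t a) (hr' : ∀ a, r' (c.g a) (c.i a) (c.j a) = t a)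
    (N : M2 A) (hN : ∀ x, N * r x = r' x * N) (E : Fin 3 → M2 A) (hE : ∀ a, red (E a) = c.E a)
    (I : Ideal A) (c₀ : A) (h : EntriesIn I (N - c₀ • (1 : M2 A))) :
    ∃ c₁ : A, EntriesIn (I * maximalIdeal A) (N - c₁ • (1 : M2 A)) := by
  set Y := N - c₀ • (1 : M2 A) with hY
  -- the coordinate functionals kill `Y` modulo `I * 𝔪`
  have hφY : ∀ b, commEntry (r (c.g b)) (c.i b) (c.j b) Y ∈ I * maximalIdeal A := by
    intro b
    have e1 : Y * r (c.g b) - r (c.g b) * Y =
        (r' (c.g b) - r (c.g b)) * Y - c₀ • (r (c.g b) - r' (c.g b)) := by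
      have := hN (c.g b)
      rw [hY]
      simp only [sub_mul, mul_sub, smul_mul_assoc, mul_smul_comm, one_mul, mul_one, smul_sub,
        this]
      abel
    rw [commEntry_apply, e1]
    have h1 : EntriesIn (maximalIdeal A) (r' (c.g b) - r (c.g b)) := by
      rw [← red_eq_iff, hred]
    have h2 := (h1.mul h) (c.i b) (c.j b)
    rw [mul_comm] at h2
    have h3 : (c₀ • (r (c.g b) - r' (c.g b))) (c.i b) (c.j b) = 0 := by
      simp [hr b, hr' b]
    rw [Matrix.sub_apply, h3, sub_zero]
    exact h2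
  obtain ⟨y₀, y, hy₀, hy, hZ⟩ := decomp_graded c E hE I h
  set Z := Y - y₀ • (1 : M2 A) - ∑ a, y a • E a with hZdef
  have hYdec : Y = y₀ • (1 : M2 A) + ∑ a, y a • E a + Z := by rw [hZdef]; abel
  -- the coefficients `y b` lie in `I * 𝔪`
  have hyb : ∀ b, y b ∈ I * maximalIdeal A := by
    intro b
    have hdual : ∀ a, commEntry (r (c.g b)) (c.i b) (c.j b) (E a) - (if a = b then 1 else 0) ∈
        maximalIdeal A := by
      intro a
      rw [← residue_eq_zero_iff, map_sub, commEntry_apply, ← red_apply, map_sub, map_mul, map_mul,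
        hE, c.dual a b, apply_ite (residue A), map_one, map_zero, sub_self]
    have e : y b = commEntry (r (c.g b)) (c.i b) (c.j b) Y -
        commEntry (r (c.g b)) (c.i b) (c.j b) Z -
        ∑ a, y a * (commEntry (r (c.g b)) (c.i b) (c.j b) (E a) - (if a = b then 1 else 0)) := by
      conv_rhs => rw [hYdec]
      simp only [map_add, map_sum, map_smul, commEntry_one, smul_eq_mul, mul_zero, zero_add,
        mul_sub, Finset.sum_sub_distrib, mul_ite, mul_one, Finset.sum_ite_eq', Finset.mem_univ,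
        if_true]
      ring
    rw [e]
    refine Ideal.sub_mem _ (Ideal.sub_mem _ (hφY b) (commEntry_mem hZ _ _ _)) ?_
    exact Ideal.sum_mem _ fun a _ => Ideal.mul_mem_mul (hy a) (hdual a)
  refine ⟨c₀ + y₀, ?_⟩
  have e : N - (c₀ + y₀) • (1 : M2 A) = ∑ a, y a • E a + Z := by
    rw [hZdef, hY]; module
  rw [e]
  exact (EntriesIn.sum _ fun a _ => EntriesIn.smul_of_mem (hyb a) (E a)).add hZ

/-- **Uniqueness of rigidification**: an intertwiner between two rigid lifts of the same residual
family is a scalar matrix. -/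
theorem isScalar_of_intertwine [IsHausdorff (maximalIdeal A) A]
    (c : Coords fun x => red (r x)) (r' : ι → M2 A)
    (hred : ∀ x, red (r x) = red (r' x)) (t : Fin 3 → A)
    (hr : ∀ a, r (c.g a) (c.i a) (c.j a) = t a) (hr' : ∀ a, r' (c.g a) (c.i a) (c.j a) = t a)
    (N : (M2 A)ˣ) (hN : ∀ x, (N : M2 A) * r x = r' x * N) :
    ∃ u : Aˣ, (N : M2 A) = (u : A) • (1 : M2 A) := by
  choose E hE using fun a => red_surjective (c.E a)
  have hall : ∀ n : ℕ, ∃ cn : A, EntriesIn (maximalIdeal A ^ n) ((N : M2 A) - cn • (1 : M2 A)) := by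
    intro n
    induction n with
    | zero => exact ⟨0, fun _ _ => by simp⟩
    | succ n ih =>
      obtain ⟨cn, hcn⟩ := ih
      obtain ⟨c₁, hc₁⟩ := scalar_step c r' hred t hr hr' N hN E hE _ cn hcn
      exact ⟨c₁, by rwa [pow_succ]⟩
  have h01 : (N : M2 A) 0 1 = 0 := eq_zero_of_forall_mem_pow _ fun n => by
    obtain ⟨cn, hcn⟩ := hall n
    simpa using hcn 0 1
  have h10 : (N : M2 A) 1 0 = 0 := eq_zero_of_forall_mem_pow _ fun n => by
    obtain ⟨cn, hcn⟩ := hall n
    simpa using hcn 1 0
  have h11 : (N : M2 A) 1 1 = (N : M2 A) 0 0 := by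
    rw [← sub_eq_zero]
    refine eq_zero_of_forall_mem_pow _ fun n => ?_
    obtain ⟨cn, hcn⟩ := hall n
    have a := hcn 1 1
    have b := hcn 0 0
    simp only [Matrix.sub_apply, Matrix.smul_apply, Matrix.one_apply_eq, smul_eq_mul,
      mul_one] at a b
    have := Ideal.sub_mem _ a b
    convert this using 1
    ring
  have hNeq : (N : M2 A) = (N : M2 A) 0 0 • (1 : M2 A) := by
    ext i j
    fin_cases i <;> fin_cases j <;> simp [h01, h10, h11]
  have hdet : IsUnit ((N : M2 A) 0 0) := by
    have h := (Matrix.isUnit_iff_isUnit_det _).mp N.isUnit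
    rw [Matrix.det_fin_two, h01, h11, zero_mul, sub_zero] at h
    exact isUnit_of_mul_isUnit_left h
  obtain ⟨u, hu⟩ := hdet
  exact ⟨u, by rw [hu]; exact hNeq⟩

/-- Two rigid lifts of the same residual family which are conjugate are equal. -/
theorem eq_of_intertwine [IsHausdorff (maximalIdeal A) A]
    (c : Coords fun x => red (r x)) (r' : ι → M2 A)
    (hred : ∀ x, red (r x) = red (r' x)) (t : Fin 3 → A)
    (hr : ∀ a, r (c.g a) (c.i a) (c.j a) = t a) (hr' : ∀ a, r' (c.g a) (c.i a) (c.j a) = t a)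
    (N : (M2 A)ˣ) (hN : ∀ x, (N : M2 A) * r x = r' x * N) : r = r' := by
  obtain ⟨u, hu⟩ := isScalar_of_intertwine c r' hred t hr hr' N hN
  funext x
  have h := hN x
  rw [hu] at h
  simp only [smul_mul_assoc, one_mul, mul_smul_comm, mul_one] at h
  have := congrArg (fun X => ((u⁻¹ : Aˣ) : A) • X) h
  simpa [smul_smul] using this

end Unique


section Variants

variable {A : Type*} [CommRing A] [IsLocalRing A] {ι : Type*}

omit [IsLocalRing A] in
theorem conj_mul_conj (U : (M2 A)ˣ) (s s' : M2 A) : conj U (s * s') = conj U s * conj U s' := by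
  have h1 : ((U⁻¹ : (M2 A)ˣ) : M2 A) * (U : M2 A) = 1 := Units.inv_mul U
  simp only [conj]
  calc (U : M2 A) * (s * s') * ((U⁻¹ : (M2 A)ˣ) : M2 A)
      = (U : M2 A) * s * 1 * s' * ((U⁻¹ : (M2 A)ˣ) : M2 A) := by noncomm_ring
    _ = _ := by rw [← h1]; noncomm_ring

omit [IsLocalRing A] in
theorem conj_one_eq (U : (M2 A)ˣ) : conj U 1 = 1 := by simp [conj]

omit [IsLocalRing A] in
theorem conj_mul_eq_mul (U : (M2 A)ˣ) (s : M2 A) : (U : M2 A) * s = conj U s * U := by
  simp only [conj, mul_assoc, Units.inv_mul, mul_one]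

/-- Existence of a rigidifying conjugation, with the residual family given separately. -/
theorem exists_conj_isRigid' [IsAdicComplete (maximalIdeal A) A] (r : ι → M2 A)
    {rbar : ι → M2 (ResidueField A)} (hr : ∀ x, red (r x) = rbar x) (c : Coords rbar)
    (t : Fin 3 → A) (ht : ∀ a, residue A (t a) = rbar (c.g a) (c.i a) (c.j a)) :
    ∃ M : (M2 A)ˣ, EntriesIn (maximalIdeal A) ((M : M2 A) - 1) ∧
      ∀ a, (conj M (r (c.g a))) (c.i a) (c.j a) = t a := by
  obtain rfl : rbar = fun x => red (r x) := funext fun x => (hr x).symm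
  refine exists_conj_isRigid r c t fun a => ?_
  rw [← residue_eq_zero_iff, map_sub, ht a]
  exact sub_self _

/-- Uniqueness of rigid lifts, with the residual family given separately. -/
theorem eq_of_intertwine' [IsHausdorff (maximalIdeal A) A] (r r' : ι → M2 A)
    {rbar : ι → M2 (ResidueField A)} (hr : ∀ x, red (r x) = rbar x)
    (hr' : ∀ x, red (r' x) = rbar x) (c : Coords rbar) (t : Fin 3 → A)
    (ht : ∀ a, r (c.g a) (c.i a) (c.j a) = t a) (ht' : ∀ a, r' (c.g a) (c.i a) (c.j a) = t a)
    (N : (M2 A)ˣ) (hN : ∀ x, (N : M2 A) * r x = r' x * N) :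
    r = r' ∧ ∃ u : Aˣ, (N : M2 A) = (u : A) • (1 : M2 A) := by
  obtain rfl : rbar = fun x => red (r x) := funext fun x => (hr x).symm
  have hred : ∀ x, red (r x) = red (r' x) := fun x => (hr' x).symm
  exact ⟨eq_of_intertwine c r' hred t ht ht' N hN, isScalar_of_intertwine c r' hred t ht ht' N hN⟩

end Variants

end Fermat.Agent.S53.Rigidify
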