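import Fermat.Agent.S53.Bridge
import Fermat.Agent.S53.Rigid
import Fermat.Agent.S53.SchurMat

/-!
# S53: construction of the `Setup` from `ρbar`, and rigidification in `Setup` language
-/

set_option autoImplicit false

noncomputable section

namespace Fermat.Agent.S53.SetupBuild

open IsLocalRing
open Fermat.Agent.S53
open Fermat.Agent.S53.MatrixLift (mapHom conjHom matHom mapHom_apply mapHom_apply_apply
  conjHom_apply)

variable {𝒪 : Type} [CommRing 𝒪] [IsLocalRing 𝒪]

/-- The `Setup` attached to a matrix form `rbar` of the residual representation and rigidifying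
coordinates for it; the entrywise lift to `𝒪` is chosen arbitrarily. -/
def setupOf (rbar : Gal →* M2 (ResidueField 𝒪)) (c : Rigid.Coords (fun σ => rbar σ)) :
    Setup 𝒪 where
  rbar := rbar
  rtil σ := Matrix.of fun i j =>
    Function.surjInv (residue_surjective (R := 𝒪)) (rbar σ i j)
  rtil_spec _ _ _ := Function.surjInv_eq _ _
  g := c.g
  ci := c.i
  cj := c.j

variable (rbar : Gal →* M2 (ResidueField 𝒪)) (c : Rigid.Coords (fun σ => rbar σ))

@[simp] theorem setupOf_rbar : (setupOf rbar c).rbar = rbar := rfl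

/-- the rigidifying property of the coordinates, in `Setup` vocabulary -/
theorem hasCoords_setupOf : (setupOf rbar c).HasCoords := by
  refine ⟨c.E, fun a b => ?_, fun X hX => ?_⟩
  · have := c.dual a b
    rwa [Rigid.commEntry_apply] at this
  · refine c.scalar_of_vanish X fun a => ?_
    change Rigid.commEntry _ _ _ X = 0
    rw [Rigid.commEntry_apply]
    exact hX a

/-- Schur's lemma for `rbar`, from the existence of coordinates -/
theorem schur_setupOf : (setupOf rbar c).Schur := by
  intro X hX
  refine c.scalar_of_vanish X fun a => ?_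
  change Rigid.commEntry _ _ _ X = 0
  rw [Rigid.commEntry_apply]
  have := hX (c.g a)
  rw [setupOf_rbar] at this
  rw [this, sub_self]
  rfl

/-- A matrix form of an absolutely irreducible residual representation together with
rigidifying coordinates. -/
theorem exists_coords (ρbar : ResidualGaloisRep (ResidueField 𝒪))
    (habs : ρbar.IsAbsolutelyIrreducible) :
    ∃ bbar : Module.Basis (Fin 2) (ResidueField 𝒪) ρbar.V,
      Nonempty (Rigid.Coords (fun σ => matHom bbar ρbar.ρ σ)) := by
  refine ⟨Module.finBasisOfFinrankEq _ _ ρbar.finrank_eq, ?_⟩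
  refine Rigid.Coords.exists_of_centralizer _ fun X hX => ?_
  exact SchurMat.schur_field ρbar habs (Module.finBasisOfFinrankEq _ _ ρbar.finrank_eq) X
    fun σ => hX σ

section Local

variable {A : Type} [CommRing A] [IsLocalRing A] [Algebra 𝒪 A] [IsLocalHom (algebraMap 𝒪 A)]

/-- the coordinates transported to the residue field of `A` -/
def coordsAt (A : Type) [CommRing A] [IsLocalRing A] [Algebra 𝒪 A]
    [IsLocalHom (algebraMap 𝒪 A)] :
    Rigid.Coords (fun σ => (ResidueField.map (algebraMap 𝒪 A)).mapMatrix (rbar σ)) :=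
  c.map (ResidueField.map (algebraMap 𝒪 A))

theorem red_eq_of_isLift {r : Gal →* M2 A} (h : (setupOf rbar c).IsLift r) (σ : Gal) :
    Rigid.red (r σ) = (ResidueField.map (algebraMap 𝒪 A)).mapMatrix (rbar σ) := by
  have h1 := (Bridge.isLift_iff (setupOf rbar c) r).mp h
  have h2 := DFunLike.congr_fun h1 σ
  rwa [mapHom_apply, mapHom_apply] at h2

theorem isLift_of_red_eq {r : Gal →* M2 A}
    (h : ∀ σ, Rigid.red (r σ) = (ResidueField.map (algebraMap 𝒪 A)).mapMatrix (rbar σ)) :
    (setupOf rbar c).IsLift r := by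
  refine (Bridge.isLift_iff (setupOf rbar c) r).mpr ?_
  ext σ : 1
  rw [mapHom_apply, mapHom_apply]
  exact h σ

include c in
theorem hcentAt (A : Type) [CommRing A] [IsLocalRing A] [Algebra 𝒪 A]
    [IsLocalHom (algebraMap 𝒪 A)] (X : M2 (ResidueField A))
    (hX : ∀ σ : Gal, X * (ResidueField.map (algebraMap 𝒪 A)).mapMatrix (rbar σ) =
      (ResidueField.map (algebraMap 𝒪 A)).mapMatrix (rbar σ) * X) :
    ∃ x : ResidueField A, X = x • (1 : M2 (ResidueField A)) := by
  refine (coordsAt rbar c A).scalar_of_vanish X fun a => ?_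
  change Rigid.commEntry _ _ _ X = 0
  rw [Rigid.commEntry_apply, hX, sub_self]
  rfl

theorem isRigid_iff (r : Gal →* M2 A) :
    (setupOf rbar c).IsRigid r ↔
      Rigid.IsRigid (coordsAt rbar c A)
        (fun a => algebraMap 𝒪 A ((setupOf rbar c).target a)) (fun σ => r σ) :=
  Iff.rfl

/-- **Uniqueness of rigid lifts** (separated case). -/
theorem rigid_unique (hH : (⨅ n : ℕ, maximalIdeal A ^ n) = ⊥) (r r' : Gal →* M2 A)
    (hr : (setupOf rbar c).IsLift r) (hr' : (setupOf rbar c).IsLift r')
    (hrig : (setupOf rbar c).IsRigid r) (hrig' : (setupOf rbar c).IsRigid r')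
    (U : (M2 A)ˣ) (hU : ∀ σ, (U : M2 A) * r σ = r' σ * U) : r' = r := by
  have h := Rigid.unique_rigid_of_hausdorff (coordsAt rbar c A) hH (hcentAt rbar c A)
    (fun σ => r σ) (fun σ => r' σ) (red_eq_of_isLift rbar c hr) (red_eq_of_isLift rbar c hr')
    U hU (fun a => algebraMap 𝒪 A ((setupOf rbar c).target a))
    ((isRigid_iff rbar c r).mp hrig) ((isRigid_iff rbar c r').mp hrig')
  exact MonoidHom.ext fun σ => congrFun h.2 σ

/-- **Existence of rigid lifts** over complete local rings. -/
theorem rigid_exists [IsAdicComplete (maximalIdeal A) A] (r : Gal →* M2 A)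
    (hr : (setupOf rbar c).IsLift r) :
    ∃ U : (M2 A)ˣ, (∀ i j, ((U : M2 A) - 1) i j ∈ maximalIdeal A) ∧
      (setupOf rbar c).IsRigid (conjHom U r) := by
  obtain ⟨U, hU1, hU2⟩ := Rigid.exists_rigid_of_complete (coordsAt rbar c A) (fun σ => r σ)
    (red_eq_of_isLift rbar c hr) (fun a => algebraMap 𝒪 A ((setupOf rbar c).target a))
    (fun a => by
      have := (setupOf rbar c).rtil_spec ((setupOf rbar c).g a) ((setupOf rbar c).ci a)
        ((setupOf rbar c).cj a)
      change residue A (algebraMap 𝒪 A _) = (ResidueField.map (algebraMap 𝒪 A)) _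
      rw [← ResidueField.map_residue]
      congr 1)
  refine ⟨U, ?_, ?_⟩
  · exact Rigid.red_eq_one_iff.mp hU1
  · exact hU2

end Local

end Fermat.Agent.S53.SetupBuild
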