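import Mathlib
import Fermat.Agent.S53.GoodTower
import Fermat.Agent.S53.InverseLimitRing

/-!
# From a good family of ideals to the inverse limit ring

Glue between `GoodTower.lean` (least good ideals `level h n`) and `InverseLimitRing.lean`
(the inverse limit of a tower of ideals is a complete Noetherian local ring).

* `tower h` : the tower `⊤, level h 1, level h 2, …`.
* `exists_isTower` : the tower satisfies `InverseLimitRing.IsTower` for suitable finitely many
  generators `t`.  The uniform generators come for free: `tower h n ⊔ m0 ^ 2` does not depend on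
  `n ≥ 2`, the quotient `U ⧸ tower h 2` is finite, and nilpotent Nakayama.
* `LimitData`, `exists_limitData` : the resulting ring with all the properties needed by the
  assembly, indexed by all good ideals.
-/

set_option autoImplicit false

namespace Fermat.Agent.S53.TowerGlue

open IsLocalRing Fermat.Agent.S53

/-! ### Ideal-theoretic preliminaries -/

section Prelim

variable {R : Type*} [CommRing R]

/-- If `m ≤ I ⊔ m ^ 2` then `m ≤ I ⊔ m ^ (j + 1)` for all `j`. -/
lemma le_sup_pow_of_le_sup_sq (m I : Ideal R) (h : m ≤ I ⊔ m ^ 2) (j : ℕ) :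
    m ≤ I ⊔ m ^ (j + 1) := by
  induction j with
  | zero => simp
  | succ j ih =>
    have h2 : m ^ 2 ≤ I ⊔ m ^ (j + 2) := by
      calc m ^ 2 = m * m := pow_two m
        _ ≤ m * (I ⊔ m ^ (j + 1)) := Ideal.mul_mono_right ih
        _ = m * I ⊔ m * m ^ (j + 1) := Ideal.mul_sup _ _ _
        _ ≤ I ⊔ m ^ (j + 2) := by
          refine sup_le_sup Ideal.mul_le_right (le_of_eq ?_)
          rw [← pow_succ']
    exact h.trans (sup_le le_sup_left h2)

/-- Nilpotent Nakayama relative to an ideal `J ⊇ m ^ n`: if `m ≤ T ⊔ J ⊔ m ^ 2` then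
`m ≤ T ⊔ J`. -/
lemma le_sup_of_le_sup_sq (m T J : Ideal R) (n : ℕ) (hn : m ^ n ≤ J)
    (h : m ≤ T ⊔ J ⊔ m ^ 2) : m ≤ T ⊔ J := by
  have h1 := le_sup_pow_of_le_sup_sq m (T ⊔ J) h n
  refine h1.trans (sup_le le_rfl ?_)
  exact (Ideal.pow_le_pow_right (Nat.le_succ n)).trans (hn.trans le_sup_right)

/-- A finite quotient: finitely many elements of `m` generate `m` modulo `J`. -/
lemma exists_gens_of_finite_quotient (m J : Ideal R) [Finite (R ⧸ J)] :
    ∃ (e : ℕ) (t : Fin e → R), (∀ i, t i ∈ m) ∧ m ≤ Ideal.span (Set.range t) ⊔ J := by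
  classical
  have hex : ∀ a : R ⧸ J, ∃ u : R, u ∈ m ∧
      ((∃ x ∈ m, Ideal.Quotient.mk J x = a) → Ideal.Quotient.mk J u = a) := by
    intro a
    by_cases ha : ∃ x ∈ m, Ideal.Quotient.mk J x = a
    · obtain ⟨x, hx, hxa⟩ := ha
      exact ⟨x, hx, fun _ => hxa⟩
    · exact ⟨0, m.zero_mem, fun h => (ha h).elim⟩
  choose u hu hu' using hex
  let e := Nat.card (R ⧸ J)
  let φ : (R ⧸ J) ≃ Fin e := Finite.equivFin (R ⧸ J)
  refine ⟨e, fun i => u (φ.symm i), fun i => hu _, fun x hx => ?_⟩
  have h1 : Ideal.Quotient.mk J (u (Ideal.Quotient.mk J x)) = Ideal.Quotient.mk J x :=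
    hu' _ ⟨x, hx, rfl⟩
  have h2 : x - u (Ideal.Quotient.mk J x) ∈ J := by
    rw [← Ideal.Quotient.eq_zero_iff_mem, map_sub, h1, sub_self]
  have h3 : u (Ideal.Quotient.mk J x) ∈ Ideal.span (Set.range fun i => u (φ.symm i)) := by
    refine Ideal.subset_span ⟨φ (Ideal.Quotient.mk J x), ?_⟩
    simp
  have h4 : x = u (Ideal.Quotient.mk J x) + (x - u (Ideal.Quotient.mk J x)) := by ring
  rw [h4]
  exact Ideal.add_mem _ (Ideal.mem_sup_left h3) (Ideal.mem_sup_right h2)

end Prelim

/-! ### The tower -/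

section Tower

variable {U : Type*} [CommRing U] {m0 : Ideal U} {Good : Ideal U → Prop}

/-- The tower of least good ideals, with `⊤` at level `0`. -/
noncomputable def tower (h : GoodTower.GoodFamily m0 Good) : ℕ → Ideal U
  | 0 => ⊤
  | (n + 1) => GoodTower.level h (n + 1)

@[simp] lemma tower_zero (h : GoodTower.GoodFamily m0 Good) : tower h 0 = ⊤ := rfl

@[simp] lemma tower_succ (h : GoodTower.GoodFamily m0 Good) (n : ℕ) :
    tower h (n + 1) = GoodTower.level h (n + 1) := rfl

lemma tower_of_ne_zero (h : GoodTower.GoodFamily m0 Good) {n : ℕ} (hn : n ≠ 0) :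
    tower h n = GoodTower.level h n := by
  obtain ⟨k, rfl⟩ := Nat.exists_eq_succ_of_ne_zero hn
  rfl

lemma tower_good (h : GoodTower.GoodFamily m0 Good) {n : ℕ} (hn : n ≠ 0) : Good (tower h n) := by
  rw [tower_of_ne_zero h hn]
  exact GoodTower.level_good h n

lemma tower_anti (h : GoodTower.GoodFamily m0 Good) : Antitone (tower h) := by
  intro a b hab
  rcases Nat.eq_zero_or_pos a with rfl | ha
  · simp
  · have ha' : a ≠ 0 := Nat.pos_iff_ne_zero.mp ha
    have hb' : b ≠ 0 := by omega
    rw [tower_of_ne_zero h ha', tower_of_ne_zero h hb']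
    exact GoodTower.level_antitone h ha' hab

lemma pow_le_tower (h : GoodTower.GoodFamily m0 Good) (n : ℕ) : m0 ^ n ≤ tower h n := by
  rcases Nat.eq_zero_or_pos n with rfl | hn
  · simp
  · have hn' : n ≠ 0 := Nat.pos_iff_ne_zero.mp hn
    rw [tower_of_ne_zero h hn']
    exact GoodTower.pow_le_level h hn'

lemma tower_le_m0 (h : GoodTower.GoodFamily m0 Good) {n : ℕ} (hn : n ≠ 0) : tower h n ≤ m0 := by
  rw [tower_of_ne_zero h hn]
  exact GoodTower.level_le_m0 h n

lemma tower_step (h : GoodTower.GoodFamily m0 Good) (n : ℕ) :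
    tower h n ≤ tower h (n + 1) ⊔ m0 ^ n := by
  rcases Nat.eq_zero_or_pos n with rfl | hn
  · simp
  · have hn' : n ≠ 0 := Nat.pos_iff_ne_zero.mp hn
    rw [tower_of_ne_zero h hn', tower_succ]
    exact le_of_eq (GoodTower.level_eq_sup h hn')

lemma tower_one (h : GoodTower.GoodFamily m0 Good) : tower h 1 = m0 :=
  le_antisymm (tower_le_m0 h one_ne_zero) (by simpa using pow_le_tower h 1)

/-- The tower is cofinal among good ideals. -/
lemma exists_tower_le (h : GoodTower.GoodFamily m0 Good) {J : Ideal U} (hJ : Good J) :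
    ∃ n : ℕ, tower h n ≤ J := by
  obtain ⟨n, hn, hle⟩ := GoodTower.exists_level_le h hJ
  exact ⟨n, by rwa [tower_of_ne_zero h hn]⟩

lemma finite_quotient_tower (h : GoodTower.GoodFamily m0 Good) (n : ℕ) :
    Finite (U ⧸ tower h n) := by
  rcases Nat.eq_zero_or_pos n with rfl | hn
  · rw [tower_zero]
    have : Subsingleton (U ⧸ (⊤ : Ideal U)) := Ideal.Quotient.subsingleton_iff.mpr rfl
    infer_instance
  · exact h.finite (tower_good h (Nat.pos_iff_ne_zero.mp hn))

/-- `tower h 2 ≤ tower h n ⊔ m0 ^ 2` for `n ≥ 2`. -/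
lemma tower_two_le (h : GoodTower.GoodFamily m0 Good) {n : ℕ} (hn : 2 ≤ n) :
    tower h 2 ≤ tower h n ⊔ m0 ^ 2 := by
  induction n, hn using Nat.le_induction with
  | base => exact le_sup_left
  | succ k hk ih =>
    refine ih.trans (sup_le ((tower_step h k).trans (sup_le le_sup_left ?_)) le_sup_right)
    exact (Ideal.pow_le_pow_right hk).trans le_sup_right

/-- Finitely many elements of `m0` generate `m0` modulo every level of the tower. -/
theorem exists_gens (h : GoodTower.GoodFamily m0 Good) :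
    ∃ (e : ℕ) (t : Fin e → U), (∀ i, t i ∈ m0) ∧
      ∀ n, m0 ≤ Ideal.span (Set.range t) ⊔ tower h n := by
  have := finite_quotient_tower h 2
  obtain ⟨e, t, ht, hgen⟩ := exists_gens_of_finite_quotient m0 (tower h 2)
  refine ⟨e, t, ht, fun n => ?_⟩
  by_cases hn : 2 ≤ n
  · refine le_sup_of_le_sup_sq m0 _ _ n (pow_le_tower h n) ?_
    refine hgen.trans (sup_le (le_sup_left.trans le_sup_left) ?_)
    refine (tower_two_le h hn).trans (sup_le (le_sup_right.trans le_sup_left) le_sup_right)
  · have hn1 : n ≤ 1 := by omega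
    have h1 : m0 ≤ tower h n := (tower_one h).ge.trans (tower_anti h hn1)
    exact h1.trans le_sup_right

/-- The tower of least good ideals satisfies the hypotheses of `InverseLimitRing`. -/
theorem exists_isTower (𝒪 : Type*) [CommRing 𝒪] [Algebra 𝒪 U] (h : GoodTower.GoodFamily m0 Good)
    (hmax : m0.IsMaximal) (hres : ∀ u : U, ∃ c : 𝒪, u - algebraMap 𝒪 U c ∈ m0) :
    ∃ (e : ℕ) (t : Fin e → U), InverseLimitRing.IsTower 𝒪 m0 (tower h) t := by
  obtain ⟨e, t, ht, hgen⟩ := exists_gens h
  exact ⟨e, t,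
    { isMaximal := hmax
      residue := hres
      anti := tower_anti h
      pow_le := pow_le_tower h
      le_one := tower_le_m0 h one_ne_zero
      step := tower_step h
      t_mem := ht
      gens := hgen }⟩

end Tower

/-! ### The limit ring, bundled -/

section Limit

/-- The output of the inverse limit construction for a family of good ideals: a complete
Noetherian local `𝒪`-algebra `R` with compatible surjections onto all `U ⧸ J`, `J` good. -/
structure LimitData (𝒪 : Type) [CommRing 𝒪] [IsLocalRing 𝒪] (U : Type) [CommRing U]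
    [Algebra 𝒪 U] (Good : Ideal U → Prop) : Type 1 where
  /-- the limit ring -/
  R : Type
  [instCommRing : CommRing R]
  [instIsLocalRing : IsLocalRing R]
  [instIsNoetherianRing : IsNoetherianRing R]
  [instIsAdicComplete : IsAdicComplete (maximalIdeal R) R]
  [instAlgebra : Algebra 𝒪 R]
  [instIsLocalHom : IsLocalHom (algebraMap 𝒪 R)]
  residue_surjective : Function.Surjective (residue R ∘ algebraMap 𝒪 R)
  /-- projections to the good quotients -/
  pr : ∀ J : Ideal U, Good J → (R →ₐ[𝒪] U ⧸ J)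
  pr_surjective : ∀ (J : Ideal U) (hJ : Good J), Function.Surjective (pr J hJ)
  pr_compat : ∀ (J : Ideal U) (hJ : Good J) (J' : Ideal U) (hJ' : Good J') (hle : J ≤ J'),
    (Ideal.Quotient.factorₐ 𝒪 hle).comp (pr J hJ) = pr J' hJ'
  exists_ker_eq_pow : ∀ n : ℕ, 1 ≤ n →
    ∃ (J : Ideal U) (hJ : Good J), RingHom.ker (pr J hJ) = maximalIdeal R ^ n
  pow_le_ker : ∀ (J : Ideal U) (hJ : Good J),
    ∃ n : ℕ, 1 ≤ n ∧ maximalIdeal R ^ n ≤ RingHom.ker (pr J hJ)
  existsUnique_of_compat : ∀ x : (∀ J : Ideal U, Good J → U ⧸ J),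
    (∀ (J : Ideal U) (hJ : Good J) (J' : Ideal U) (hJ' : Good J') (hle : J ≤ J'),
      Ideal.Quotient.factor hle (x J hJ) = x J' hJ') →
    ∃! y : R, ∀ (J : Ideal U) (hJ : Good J), pr J hJ y = x J hJ
  /-- the canonical map from `U` -/
  fromU : U →ₐ[𝒪] R
  pr_fromU : ∀ (J : Ideal U) (hJ : Good J) (u : U), pr J hJ (fromU u) = Ideal.Quotient.mk J u
  dense : ∀ (n : ℕ) (x : R), ∃ u : U, x - fromU u ∈ maximalIdeal R ^ n

attribute [instance] LimitData.instCommRing LimitData.instIsLocalRing
  LimitData.instIsNoetherianRing LimitData.instIsAdicComplete LimitData.instAlgebra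
  LimitData.instIsLocalHom

variable {𝒪 : Type} [CommRing 𝒪] [IsLocalRing 𝒪] [IsNoetherianRing 𝒪]
  {U : Type} [CommRing U] [Algebra 𝒪 U] {m0 : Ideal U} {Good : Ideal U → Prop}

/-- **The limit ring of a good family.** -/
theorem exists_limitData (h : GoodTower.GoodFamily m0 Good) (hmax : m0.IsMaximal)
    (hres : ∀ u : U, ∃ c : 𝒪, u - algebraMap 𝒪 U c ∈ m0)
    (hloc : ∀ c ∈ maximalIdeal 𝒪, algebraMap 𝒪 U c ∈ m0) :
    Nonempty (LimitData 𝒪 U Good) := by
  obtain ⟨e, t, hT⟩ := exists_isTower 𝒪 h hmax hres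
  have : IsLocalRing (InverseLimitRing.LimRing 𝒪 (tower h)) := hT.isLocalRing_limRing
  have : IsNoetherianRing (InverseLimitRing.LimRing 𝒪 (tower h)) := hT.isNoetherianRing_limRing
  have : IsAdicComplete (maximalIdeal (InverseLimitRing.LimRing 𝒪 (tower h)))
      (InverseLimitRing.LimRing 𝒪 (tower h)) := hT.isAdicComplete_limRing
  have : IsLocalHom (algebraMap 𝒪 (InverseLimitRing.LimRing 𝒪 (tower h))) :=
    hT.isLocalHom_algebraMap hloc
  have hcof : ∀ I : Ideal U, Good I → ∃ n, tower h n ≤ I := fun I hI => exists_tower_le h hI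
  refine ⟨{
    R := InverseLimitRing.LimRing 𝒪 (tower h)
    residue_surjective := hT.residue_comp_algebraMap_surjective
    pr := fun J hJ => InverseLimitRing.projTo 𝒪 (tower h) J (hcof J hJ)
    pr_surjective := fun J hJ => InverseLimitRing.projTo_surjective 𝒪 (tower h) J (hcof J hJ)
    pr_compat := ?_
    exists_ker_eq_pow := ?_
    pow_le_ker := ?_
    existsUnique_of_compat := ?_
    fromU := InverseLimitRing.ι 𝒪 (tower h)
    pr_fromU := fun J hJ u => rfl
    dense := fun n x => hT.exists_sub_ι_mem n x }⟩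
  · intro J hJ J' hJ' hle
    refine AlgHom.ext fun x => ?_
    exact hT.factor_projTo J J' (hcof J hJ) (hcof J' hJ') hle x
  · intro n hn
    have hn' : n ≠ 0 := by omega
    refine ⟨tower h n, tower_good h hn', ?_⟩
    rw [← hT.ker_proj_eq_maximalIdeal_pow n]
    ext x
    rw [RingHom.mem_ker, RingHom.mem_ker, hT.projTo_J n x]
  · intro J hJ
    obtain ⟨n, hn, hle⟩ := GoodTower.exists_level_le h hJ
    have hle' : tower h n ≤ J := by rwa [tower_of_ne_zero h hn]
    refine ⟨n, Nat.one_le_iff_ne_zero.mpr hn, fun x hx => ?_⟩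
    rw [RingHom.mem_ker, hT.projTo_eq J (hcof J hJ) n hle',
      (hT.mem_maximalIdeal_pow_iff n x).mp hx, map_zero]
  · intro x hx
    classical
    let Good' : Ideal U → Prop := fun I => Good I ∨ I = ⊤
    have hgood' : ∀ n, Good' (tower h n) := fun n => by
      rcases Nat.eq_zero_or_pos n with rfl | hn
      · exact Or.inr rfl
      · exact Or.inl (tower_good h (Nat.pos_iff_ne_zero.mp hn))
    have hcof' : ∀ I : Ideal U, Good' I → ∃ n, tower h n ≤ I := by
      rintro I (hI | rfl)
      · exact hcof I hI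
      · exact ⟨0, le_top⟩
    let x' : ∀ I : Ideal U, Good' I → U ⧸ I := fun I _ => if hI' : Good I then x I hI' else 0
    have hsub : ∀ I : Ideal U, I = ⊤ → Subsingleton (U ⧸ I) := fun I hI =>
      Ideal.Quotient.subsingleton_iff.mpr hI
    have hx' : ∀ (I : Ideal U) (hI : Good' I) (I' : Ideal U) (hI' : Good' I') (hle : I ≤ I'),
        Ideal.Quotient.factor hle (x' I hI) = x' I' hI' := by
      intro I hI I' hI' hle
      by_cases htop : I' = ⊤
      · have := hsub I' htop
        exact Subsingleton.elim _ _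
      · have hgI' : Good I' := hI'.resolve_right htop
        have hgI : Good I := hI.resolve_right fun hI0 => htop (top_le_iff.mp (hI0 ▸ hle))
        simp only [x', dif_pos hgI, dif_pos hgI']
        exact hx I hgI I' hgI' hle
    obtain ⟨y, hy, hyu⟩ := hT.existsUnique_of_compat Good' (fun n _ => hgood' n) hcof' x' hx'
    refine ⟨y, fun J hJ => ?_, fun y' hy' => hyu y' fun I hI => ?_⟩
    · have := hy J (Or.inl hJ)
      simpa only [x', dif_pos hJ] using this
    · by_cases hgI : Good I
      · simp only [x', dif_pos hgI]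
        exact hy' I hgI
      · have := hsub I (hI.resolve_left hgI)
        exact Subsingleton.elim _ _

namespace LimitData

omit [IsNoetherianRing 𝒪]

variable (D : LimitData 𝒪 U Good)

/-- The projection to a good quotient which is a field has kernel the maximal ideal. -/
theorem ker_pr_of_isMaximal (J : Ideal U) (hJ : Good J) (hmax : J.IsMaximal) :
    RingHom.ker (D.pr J hJ) = maximalIdeal D.R := by
  let _ := Ideal.Quotient.field J
  have : (RingHom.ker (D.pr J hJ)).IsMaximal :=
    RingHom.ker_isMaximal_of_surjective (D.pr J hJ) (D.pr_surjective J hJ)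
  exact IsLocalRing.eq_maximalIdeal this

/-- An algebra hom out of `R` which kills `𝔪_R ^ n` (`n ≥ 1`) factors through a good quotient. -/
theorem exists_factor {B : Type*} [CommRing B] [Algebra 𝒪 B] (q : D.R →ₐ[𝒪] B) (n : ℕ)
    (hn : 1 ≤ n) (hq : maximalIdeal D.R ^ n ≤ RingHom.ker (q : D.R →+* B)) :
    ∃ (J : Ideal U) (hJ : Good J) (q' : U ⧸ J →ₐ[𝒪] B),
      RingHom.ker (D.pr J hJ) = maximalIdeal D.R ^ n ∧ q'.comp (D.pr J hJ) = q := by
  obtain ⟨J, hJ, hker⟩ := D.exists_ker_eq_pow n hn
  have hle : RingHom.ker (D.pr J hJ).toRingHom ≤ RingHom.ker q.toRingHom := by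
    intro x hx
    have hx' : x ∈ RingHom.ker (D.pr J hJ) := hx
    rw [hker] at hx'
    exact hq hx'
  exact ⟨J, hJ, AlgHom.liftOfSurjective (D.pr J hJ) (D.pr_surjective J hJ) q hle, hker,
    AlgHom.ext fun x => AlgHom.liftOfSurjective_apply _ (D.pr_surjective J hJ) q hle x⟩

/-- Two elements with the same projections to all good quotients are equal. -/
theorem ext_pr {y y' : D.R} (hyy' : ∀ (J : Ideal U) (hJ : Good J), D.pr J hJ y = D.pr J hJ y') :
    y = y' := by
  obtain ⟨z, -, hz⟩ := D.existsUnique_of_compat (fun J hJ => D.pr J hJ y) (by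
    intro J hJ J' hJ' hle
    rw [← D.pr_compat J hJ J' hJ' hle]
    rfl)
  rw [hz y fun J hJ => rfl, hz y' fun J hJ => (hyy' J hJ).symm]

end LimitData

end Limit

end Fermat.Agent.S53.TowerGlue
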