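import Mathlib
import Fermat.Agent.S53.Dictionary
import Fermat.Prelude.Def_GaloisRep_DeformationRingData
import Fermat.Prelude.Def_GaloisRep_DeformationCondition

/-!
# S53: from Artinian-level versality of a universal rigid lift to `DeformationRingData`

This file is the last step of the construction of the universal deformation ring. It is coded
against `Dictionary.lean` only; everything else enters through explicit hypotheses.
-/

set_option autoImplicit false
set_option linter.unusedSectionVars false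
set_option linter.style.haveILetI false

namespace Fermat.Agent.S53.Universal

open IsLocalRing GaloisRep Fermat.Agent.S53.Dictionary

section Basic

variable {𝒪 : Type} [CommRing 𝒪] [IsLocalRing 𝒪]

/-- Instance-free formulation of "`r` lifts `rbar`". -/
def LiftsRbar (rbar : GQ →* Mat (ResidueField 𝒪)) (A : Type) [CommRing A] [IsLocalRing A]
    [Algebra 𝒪 A] (r : GQ →* Mat A) : Prop :=
  ∀ σ i j, ∃ t : 𝒪, residue 𝒪 t = rbar σ i j ∧ r σ i j - algebraMap 𝒪 A t ∈ maximalIdeal A

variable {rbar : GQ →* Mat (ResidueField 𝒪)}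
variable {A : Type} [CommRing A] [IsLocalRing A] [Algebra 𝒪 A]

theorem liftsRbar_iff [IsLocalHom (algebraMap 𝒪 A)] (r : GQ →* Mat A) :
    LiftsRbar rbar A r ↔
      mapMat (residue A) r = mapMat (ResidueField.map (algebraMap 𝒪 A)) rbar := by
  constructor
  · intro h
    ext σ i j
    obtain ⟨t, ht, hmem⟩ := h σ i j
    rw [mapMat_apply, mapMat_apply, ← ht, ResidueField.map_residue]
    rw [← sub_eq_zero, ← map_sub]
    exact (residue_eq_zero_iff _).mpr hmem
  · intro h σ i j
    obtain ⟨t, ht⟩ := residue_surjective (rbar σ i j)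
    refine ⟨t, ht, ?_⟩
    rw [← residue_eq_zero_iff, map_sub, sub_eq_zero]
    have := congrArg (fun s : GQ →* Mat (ResidueField A) => s σ i j) h
    simp only [mapMat_apply] at this
    rw [this, ← ht, ResidueField.map_residue]

/-- Lifts of `rbar` are preserved by `𝒪`-algebra homomorphisms that are local. -/
theorem LiftsRbar.map {B : Type} [CommRing B] [IsLocalRing B] [Algebra 𝒪 B]
    {r : GQ →* Mat A} (h : LiftsRbar rbar A r) (φ : A →ₐ[𝒪] B)
    (hφ : IsLocalHom (φ : A →+* B)) : LiftsRbar rbar B (mapMat (φ : A →+* B) r) := by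
  intro σ i j
  obtain ⟨t, ht, hmem⟩ := h σ i j
  refine ⟨t, ht, ?_⟩
  have h1 : mapMat (φ : A →+* B) r σ i j - algebraMap 𝒪 B t = φ (r σ i j - algebraMap 𝒪 A t) := by
    rw [map_sub, AlgHom.commutes]
    rfl
  rw [h1]
  have : (φ : A →+* B) (r σ i j - algebraMap 𝒪 A t) ∈ maximalIdeal B := by
    rw [mem_maximalIdeal, mem_nonunits_iff]
    intro hu
    have := hφ.map_nonunit _ hu
    exact (mem_nonunits_iff.mp ((mem_maximalIdeal _).mp hmem)) this
  exact this

/-- An `𝒪`-algebra homomorphism between local `𝒪`-algebras is a local homomorphism as soon as the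
target has residue field that of `𝒪` (and local structure map). -/
theorem isLocalHom_of_algHom {B : Type} [CommRing B] [IsLocalRing B] [Algebra 𝒪 B]
    (hBres : Function.Surjective (residue B ∘ algebraMap 𝒪 B))
    (hBloc : IsLocalHom (algebraMap 𝒪 B))
    (φ : A →ₐ[𝒪] B) : IsLocalHom (φ : A →+* B) := by
  constructor
  intro x hx
  by_contra hnu
  have hxm : x ∈ maximalIdeal A := (mem_maximalIdeal _).mpr (mem_nonunits_iff.mpr hnu)
  obtain ⟨a, ha⟩ := hBres (residue B (φ x))
  have hxa : φ x - algebraMap 𝒪 B a ∈ maximalIdeal B := by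
    rw [← residue_eq_zero_iff, map_sub, sub_eq_zero]
    exact ha.symm
  -- `algebraMap 𝒪 B a` is a unit since `φ x` is
  have hau : IsUnit (algebraMap 𝒪 B a) := by
    by_contra h
    have h1 : algebraMap 𝒪 B a ∈ maximalIdeal B := (mem_maximalIdeal _).mpr (mem_nonunits_iff.mpr h)
    have h2 : φ x ∈ maximalIdeal B := by
      have := (maximalIdeal B).add_mem hxa h1
      simpa using this
    exact (mem_nonunits_iff.mp ((mem_maximalIdeal _).mp h2)) hx
  have ha𝒪 : IsUnit a := hBloc.map_nonunit _ hau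
  have hau' : IsUnit (algebraMap 𝒪 A a) := ha𝒪.map (algebraMap 𝒪 A)
  -- `x - a` is a unit of `A`
  have hu : IsUnit (x - algebraMap 𝒪 A a) := by
    by_contra h
    have h1 : x - algebraMap 𝒪 A a ∈ maximalIdeal A :=
      (mem_maximalIdeal _).mpr (mem_nonunits_iff.mpr h)
    have h2 : algebraMap 𝒪 A a ∈ maximalIdeal A := by
      have := (maximalIdeal A).sub_mem hxm h1
      simpa using this
    exact (mem_nonunits_iff.mp ((mem_maximalIdeal _).mp h2)) hau'
  have hu' : IsUnit (φ (x - algebraMap 𝒪 A a)) := hu.map φ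
  rw [map_sub, AlgHom.commutes] at hu'
  exact (mem_nonunits_iff.mp ((mem_maximalIdeal _).mp hxa)) hu'

/-- A proper quotient of a local ring is local. -/
theorem isLocalRing_quot (I : Ideal A) (hI : I ≠ ⊤) : IsLocalRing (A ⧸ I) :=
  haveI : Nontrivial (A ⧸ I) := Ideal.Quotient.nontrivial_iff.mpr hI
  IsLocalRing.of_surjective' (Ideal.Quotient.mk I) Ideal.Quotient.mk_surjective

/-- The quotient map of a local ring is a local homomorphism. -/
theorem isLocalHom_mk (I : Ideal A) (hI : I ≠ ⊤) : IsLocalHom (Ideal.Quotient.mk I) := by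
  apply isLocalHom_of_le_jacobson_bot
  rw [IsLocalRing.jacobson_eq_maximalIdeal ⊥ bot_ne_top]
  exact IsLocalRing.le_maximalIdeal hI

theorem mk_mem_maximalIdeal (I : Ideal A) [IsLocalRing (A ⧸ I)] {x : A}
    (hx : x ∈ maximalIdeal A) : Ideal.Quotient.mk I x ∈ maximalIdeal (A ⧸ I) := by
  have hI : I ≠ ⊤ := by
    intro h
    have : Subsingleton (A ⧸ I) := by rw [h]; exact Ideal.Quotient.subsingleton_iff.mpr rfl
    exact not_subsingleton (A ⧸ I) this
  rw [mem_maximalIdeal, mem_nonunits_iff]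
  intro hu
  have := (isLocalHom_mk I hI).map_nonunit _ hu
  exact (mem_nonunits_iff.mp ((mem_maximalIdeal _).mp hx)) this

theorem maximalIdeal_quot_le (I : Ideal A) [IsLocalRing (A ⧸ I)] :
    maximalIdeal (A ⧸ I) ≤ (maximalIdeal A).map (Ideal.Quotient.mk I) := by
  intro y hy
  obtain ⟨x, rfl⟩ := Ideal.Quotient.mk_surjective y
  refine Ideal.mem_map_of_mem _ ?_
  rw [mem_maximalIdeal, mem_nonunits_iff]
  intro hu
  exact (mem_nonunits_iff.mp ((mem_maximalIdeal _).mp hy)) (hu.map (Ideal.Quotient.mk I))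

theorem maximalIdeal_quot_pow_eq_bot (I : Ideal A) [IsLocalRing (A ⧸ I)] {n : ℕ}
    (hn : maximalIdeal A ^ n ≤ I) : maximalIdeal (A ⧸ I) ^ n = ⊥ := by
  rw [eq_bot_iff]
  refine (Ideal.pow_right_mono (maximalIdeal_quot_le I) n).trans ?_
  rw [← Ideal.map_pow]
  rw [Ideal.map_le_iff_le_comap]
  intro x hx
  rw [Ideal.mem_comap, Ideal.mem_bot, Ideal.Quotient.eq_zero_iff_mem]
  exact hn hx

/-- Quotients of a Noetherian local `𝒪`-algebra by an ideal containing a power of the maximal ideal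
are Artinian test algebras. -/
theorem isArtinianTestAlgebra_quot [IsNoetherianRing A] (I : Ideal A) [IsLocalRing (A ⧸ I)]
    {n : ℕ} (hn : maximalIdeal A ^ n ≤ I) (hloc : IsLocalHom (algebraMap 𝒪 A))
    (hres : Function.Surjective (residue A ∘ algebraMap 𝒪 A)) :
    IsArtinianTestAlgebra 𝒪 (A ⧸ I) := by
  have hI : I ≠ ⊤ := by
    intro h
    have : Subsingleton (A ⧸ I) := by rw [h]; exact Ideal.Quotient.subsingleton_iff.mpr rfl
    exact not_subsingleton (A ⧸ I) this
  refine ⟨?_, ?_, ?_⟩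
  · have h1 : algebraMap 𝒪 (A ⧸ I) = (Ideal.Quotient.mk I).comp (algebraMap 𝒪 A) := rfl
    rw [h1]
    haveI := isLocalHom_mk I hI
    haveI := hloc
    exact RingHom.isLocalHom_comp _ _
  · intro y
    obtain ⟨y', rfl⟩ := residue_surjective y
    obtain ⟨x, rfl⟩ := Ideal.Quotient.mk_surjective y'
    obtain ⟨a, ha⟩ := hres (residue A x)
    refine ⟨a, ?_⟩
    have hxa : algebraMap 𝒪 A a - x ∈ maximalIdeal A := by
      rw [← residue_eq_zero_iff, map_sub, sub_eq_zero]
      exact ha
    have := mk_mem_maximalIdeal I hxa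
    rw [← residue_eq_zero_iff, map_sub, map_sub, sub_eq_zero] at this
    exact this
  · rw [isArtinianRing_iff_isNilpotent_maximalIdeal]
    exact ⟨n, maximalIdeal_quot_pow_eq_bot I hn⟩

end Basic

section Main

variable {𝒪 : Type} [CommRing 𝒪] [IsLocalRing 𝒪]
variable (rbar : GQ →* Mat (ResidueField 𝒪))
variable (𝒟 : ∀ ⦃A : Type⦄ [CommRing A] [IsLocalRing A] [Algebra 𝒪 A], GaloisRepAdic A → Prop)
-- An abstract rigidity condition on matrix valued homomorphisms.
variable (Rig : ∀ ⦃A : Type⦄ [CommRing A] [Algebra 𝒪 A], (GQ →* Mat A) → Prop)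

/-- Rigidity is preserved by `𝒪`-algebra homomorphisms. -/
def RigMap : Prop :=
  ∀ ⦃A B : Type⦄ [CommRing A] [Algebra 𝒪 A] [CommRing B] [Algebra 𝒪 B] (φ : A →ₐ[𝒪] B)
    (r : GQ →* Mat A), Rig r → Rig (mapMat (φ : A →+* B) r)

/-- Existence of rigidifications over complete Noetherian local `𝒪`-algebras. -/
def RigidExists : Prop :=
  ∀ (A : Type) [CommRing A] [IsLocalRing A] [IsNoetherianRing A]
    [IsAdicComplete (maximalIdeal A) A] [Algebra 𝒪 A], IsLocalHom (algebraMap 𝒪 A) →
    ∀ r : GQ →* Mat A, IsContMat A r → LiftsRbar rbar A r →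
      ∃ M : (Mat A)ˣ, LiftsRbar rbar A (conjMat M r) ∧ Rig (conjMat M r)

/-- Uniqueness of rigid representatives over Noetherian local `𝒪`-algebras. -/
def RigidUnique : Prop :=
  ∀ (A : Type) [CommRing A] [IsLocalRing A] [IsNoetherianRing A] [Algebra 𝒪 A],
    IsLocalHom (algebraMap 𝒪 A) →
    ∀ r r' : GQ →* Mat A, LiftsRbar rbar A r → LiftsRbar rbar A r' → Rig r → Rig r' →
      (∃ M : (Mat A)ˣ, ∀ σ, (M : Mat A) * r σ = r' σ * M) → r = r'

/-- What the ring construction has to deliver: a continuous rigid lift `runiv` of `rbar` over `R`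
whose entries are dense, which is of type `𝒟` on Artinian quotients and versal for rigid lifts of
type `𝒟` over Artinian test algebras. -/
structure IsUniversalRigid (R : Type) [CommRing R] [IsLocalRing R] [Algebra 𝒪 R]
    (runiv : GQ →* Mat R) : Prop where
  cts : IsContMat R runiv
  lift : LiftsRbar rbar R runiv
  rigid : Rig runiv
  dense : ∀ (n : ℕ) (x : R), ∃ p ∈ Algebra.adjoin 𝒪
    (Set.range fun t : GQ × Fin 2 × Fin 2 => runiv t.1 t.2.1 t.2.2),
      x - p ∈ maximalIdeal R ^ n
  artin_type : ∀ (B : Type) [CommRing B] [IsLocalRing B] [Algebra 𝒪 B],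
    IsArtinianTestAlgebra 𝒪 B → ∀ (q : R →ₐ[𝒪] B) (hq : IsLocalHom (q : R →+* B)),
      𝒟 (ofMat (mapMat (q : R →+* B) runiv) (isContMat_mapMat _ hq _ cts))
  artin_versal : ∀ (B : Type) [CommRing B] [IsLocalRing B] [Algebra 𝒪 B],
    IsArtinianTestAlgebra 𝒪 B → ∀ (s : GQ →* Mat B) (hs : IsContMat B s),
      LiftsRbar rbar B s → Rig s → 𝒟 (ofMat s hs) →
        ∃ φ : R →ₐ[𝒪] B, mapMat (φ : R →+* B) runiv = s

variable {rbar 𝒟 Rig}
variable {R : Type} [CommRing R] [IsLocalRing R] [Algebra 𝒪 R] {runiv : GQ →* Mat R}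

/-- Two `𝒪`-algebra homomorphisms out of `R` which kill `𝔪_R ^ n` and agree on the entries of the
universal lift are equal. -/
theorem IsUniversalRigid.algHom_ext (hU : IsUniversalRigid rbar 𝒟 Rig R runiv)
    {B : Type} [CommRing B] [Algebra 𝒪 B] (ψ ψ' : R →ₐ[𝒪] B) (n : ℕ)
    (hψ : ∀ x ∈ maximalIdeal R ^ n, ψ x = 0) (hψ' : ∀ x ∈ maximalIdeal R ^ n, ψ' x = 0)
    (h : mapMat (ψ : R →+* B) runiv = mapMat (ψ' : R →+* B) runiv) : ψ = ψ' := by
  have hgen : ∀ p ∈ Algebra.adjoin 𝒪
      (Set.range fun t : GQ × Fin 2 × Fin 2 => runiv t.1 t.2.1 t.2.2), ψ p = ψ' p := by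
    intro p hp
    have hle : Algebra.adjoin 𝒪
        (Set.range fun t : GQ × Fin 2 × Fin 2 => runiv t.1 t.2.1 t.2.2) ≤
        AlgHom.equalizer ψ ψ' := by
      rw [Algebra.adjoin_le_iff]
      rintro _ ⟨t, rfl⟩
      have := congrArg (fun s : GQ →* Mat B => s t.1 t.2.1 t.2.2) h
      simpa using this
    exact hle hp
  ext x
  obtain ⟨p, hp, hxp⟩ := hU.dense n x
  have h1 : ψ x = ψ p := by
    have := hψ _ hxp
    rwa [map_sub, sub_eq_zero] at this
  have h2 : ψ' x = ψ' p := by
    have := hψ' _ hxp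
    rwa [map_sub, sub_eq_zero] at this
  rw [h1, h2, hgen p hp]

end Main

section Final

variable {𝒪 : Type} [CommRing 𝒪] [IsDomain 𝒪] [IsDiscreteValuationRing 𝒪]
  [IsAdicComplete (maximalIdeal 𝒪) 𝒪]
variable {ρbar : ResidualGaloisRep (ResidueField 𝒪)}
variable {𝒟 : ∀ ⦃A : Type⦄ [CommRing A] [IsLocalRing A] [Algebra 𝒪 A], GaloisRepAdic A → Prop}
variable {rbar : GQ →* Mat (ResidueField 𝒪)}
variable {Rig : ∀ ⦃A : Type⦄ [CommRing A] [Algebra 𝒪 A], (GQ →* Mat A) → Prop}
variable {R : Type} [CommRing R] [IsLocalRing R] [IsNoetherianRing R]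
  [IsAdicComplete (maximalIdeal R) R] [Algebra 𝒪 R] [IsLocalHom (algebraMap 𝒪 R)]
  {runiv : GQ →* Mat R}

/-- Existence part of the universal property. -/
theorem exists_algHom (h𝒟 : IsDeformationCondition 𝒪 𝒟)
    (hrbar : GaloisFactorsThroughFiniteLevel rbar) (e0 : ρbar.IsEquiv (resOfMat rbar hrbar))
    (hRigMap : RigMap Rig) (hex : RigidExists rbar Rig)
    (hU : IsUniversalRigid rbar 𝒟 Rig R runiv)
    (A : Type) [CommRing A] [IsLocalRing A] [IsNoetherianRing A]
    [IsAdicComplete (maximalIdeal A) A] [Algebra 𝒪 A] [IsLocalHom (algebraMap 𝒪 A)]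
    (hAres : Function.Surjective (residue A ∘ algebraMap 𝒪 A))
    (ρA : GaloisRepAdic A) (hρA : 𝒟 ρA)
    (hres : ρA.residual.IsEquiv (ρbar.baseChangeAlong (ResidueField.map (algebraMap 𝒪 A)))) :
    ∃ φ : R →ₐ[𝒪] A, ∃ hφ : IsLocalHom (φ : R →+* A),
      ((ofMat runiv hU.cts).baseChangeAlong (φ : R →+* A) hφ).IsEquiv ρA := by
  -- matrix form of `ρA`, then rigidify
  obtain ⟨r, hr, eρ, hlift⟩ := exists_matrix_lift ρbar rbar hrbar e0 ρA hres
  have hlift' : LiftsRbar rbar A r := (liftsRbar_iff r).mpr hlift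
  obtain ⟨M, hsl, hsr⟩ := hex A inferInstance r hr hlift'
  set s : GQ →* Mat A := conjMat M r with hs_def
  have hs : IsContMat A s := isContMat_conjMat M r hr
  have eρs : ρA.IsEquiv (ofMat s hs) := isEquiv_trans eρ (isEquiv_ofMat_conjMat M r hr)
  -- the levels
  have key : ∀ n : ℕ, ∃ ψ : R →ₐ[𝒪] A ⧸ maximalIdeal A ^ n,
      mapMat (ψ : R →+* A ⧸ maximalIdeal A ^ n) runiv =
        mapMat (Ideal.Quotient.mk (maximalIdeal A ^ n)) s := by
    intro n
    rcases Nat.eq_zero_or_pos n with rfl | hn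
    · -- trivial target
      have hsub : Subsingleton (A ⧸ maximalIdeal A ^ 0) := by
        rw [pow_zero, Ideal.one_eq_top]; exact Ideal.Quotient.subsingleton_iff.mpr rfl
      refine ⟨{ toFun := fun _ => 0
                map_one' := Subsingleton.elim _ _
                map_mul' := fun _ _ => Subsingleton.elim _ _
                map_zero' := rfl
                map_add' := fun _ _ => Subsingleton.elim _ _
                commutes' := fun _ => Subsingleton.elim _ _ }, ?_⟩
      ext σ i j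
      exact Subsingleton.elim _ _
    · have hI : maximalIdeal A ^ n ≠ ⊤ := by
        intro h
        have h1 : maximalIdeal A ^ n ≤ maximalIdeal A := Ideal.pow_le_self hn.ne'
        rw [h] at h1
        exact (maximalIdeal.isMaximal A).ne_top (top_le_iff.mp h1)
      haveI : IsLocalRing (A ⧸ maximalIdeal A ^ n) := isLocalRing_quot _ hI
      have hB : IsArtinianTestAlgebra 𝒪 (A ⧸ maximalIdeal A ^ n) :=
        isArtinianTestAlgebra_quot _ le_rfl inferInstance hAres
      let q : A →ₐ[𝒪] A ⧸ maximalIdeal A ^ n := Ideal.Quotient.mkₐ 𝒪 _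
      have hq : IsLocalHom (q : A →+* A ⧸ maximalIdeal A ^ n) := isLocalHom_mk _ hI
      have hqs : Function.Surjective q := Ideal.Quotient.mk_surjective
      have hsn : IsContMat _ (mapMat (q : A →+* A ⧸ maximalIdeal A ^ n) s) :=
        isContMat_mapMat _ hq s hs
      have htype : 𝒟 (ofMat (mapMat (q : A →+* A ⧸ maximalIdeal A ^ n) s) hsn) := by
        have h1 := (h𝒟.iff_forall_surjective inferInstance hAres ρA).mp hρA hB q hq hqs
        have h2 : (ρA.baseChangeAlong (q : A →+* A ⧸ maximalIdeal A ^ n) hq).IsEquiv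
            (ofMat (mapMat (q : A →+* A ⧸ maximalIdeal A ^ n) s) hsn) :=
          isEquiv_trans (isEquiv_baseChangeAlong _ hq eρs) (baseChangeAlong_ofMat _ hq s hs)
        exact h𝒟.of_isEquiv hB h2 h1
      obtain ⟨φ, hφ⟩ := hU.artin_versal _ hB _ hsn (hsl.map q hq) (hRigMap q s hsr) htype
      exact ⟨φ, hφ⟩
  choose f hf using key
  -- every `f n` kills `𝔪_R ^ n`
  have hkill : ∀ (n : ℕ) (ψ : R →ₐ[𝒪] A ⧸ maximalIdeal A ^ n),
      ∀ x ∈ maximalIdeal R ^ n, ψ x = 0 := by
    intro n ψ x hx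
    rcases Nat.eq_zero_or_pos n with rfl | hn
    · have hsub : Subsingleton (A ⧸ maximalIdeal A ^ 0) := by
        rw [pow_zero, Ideal.one_eq_top]; exact Ideal.Quotient.subsingleton_iff.mpr rfl
      exact Subsingleton.elim _ _
    · have hI : maximalIdeal A ^ n ≠ ⊤ := by
        intro h
        have h1 : maximalIdeal A ^ n ≤ maximalIdeal A := Ideal.pow_le_self hn.ne'
        rw [h] at h1
        exact (maximalIdeal.isMaximal A).ne_top (top_le_iff.mp h1)
      haveI : IsLocalRing (A ⧸ maximalIdeal A ^ n) := isLocalRing_quot _ hI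
      have hB : IsArtinianTestAlgebra 𝒪 (A ⧸ maximalIdeal A ^ n) :=
        isArtinianTestAlgebra_quot _ le_rfl inferInstance hAres
      have hψloc : IsLocalHom (ψ : R →+* A ⧸ maximalIdeal A ^ n) :=
        isLocalHom_of_algHom hB.residue_surjective hB.isLocalHom ψ
      have hmap : (maximalIdeal R ^ n).map (ψ : R →+* A ⧸ maximalIdeal A ^ n) ≤
          maximalIdeal (A ⧸ maximalIdeal A ^ n) ^ n := by
        rw [Ideal.map_pow]
        refine Ideal.pow_right_mono ?_ n
        rw [Ideal.map_le_iff_le_comap]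
        intro y hy
        rw [Ideal.mem_comap, mem_maximalIdeal, mem_nonunits_iff]
        intro hu
        exact (mem_nonunits_iff.mp ((mem_maximalIdeal _).mp hy)) (hψloc.map_nonunit _ hu)
      have h0 := hmap (Ideal.mem_map_of_mem _ hx)
      rw [maximalIdeal_quot_pow_eq_bot _ le_rfl] at h0
      exact h0
  -- compatibility
  have hcompat : ∀ {m n : ℕ} (hle : m ≤ n),
      (Ideal.Quotient.factorₐ 𝒪 (Ideal.pow_le_pow_right hle)).comp (f n) = f m := by
    intro m n hle
    refine hU.algHom_ext _ _ m ?_ (hkill m _) ?_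
    · intro x hx
      have hx' : x ∈ maximalIdeal R ^ m := hx
      exact hkill m _ x hx'
    · rw [hf m]
      ext σ i j
      have h1 := congrArg (fun t : GQ →* Mat (A ⧸ maximalIdeal A ^ n) => t σ i j) (hf n)
      simp only [mapMat_apply] at h1
      simp only [mapMat_apply, AlgHom.coe_toRingHom, AlgHom.comp_apply]
      have h2 : (f n) (runiv σ i j) = Ideal.Quotient.mk (maximalIdeal A ^ n) (s σ i j) := h1
      rw [h2]
      rfl
  let φ : R →ₐ[𝒪] A := IsAdicComplete.liftAlgHom (maximalIdeal A) f hcompat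
  have hφmk : ∀ (n : ℕ) (x : R), Ideal.Quotient.mk (maximalIdeal A ^ n) (φ x) = f n x :=
    fun n x => IsAdicComplete.mk_liftAlgHom (maximalIdeal A) f hcompat n x
  have hφloc : IsLocalHom (φ : R →+* A) := isLocalHom_of_algHom hAres inferInstance φ
  have hφs : mapMat (φ : R →+* A) runiv = s := by
    ext σ i j
    rw [mapMat_apply]
    have hall : ∀ n : ℕ, φ (runiv σ i j) - s σ i j ∈ maximalIdeal A ^ n := by
      intro n
      rw [← Ideal.Quotient.eq, hφmk n]
      have h1 := congrArg (fun t : GQ →* Mat (A ⧸ maximalIdeal A ^ n) => t σ i j) (hf n)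
      simpa only [mapMat_apply, RingHom.coe_coe] using h1
    have hinf : φ (runiv σ i j) - s σ i j ∈ (⨅ n : ℕ, maximalIdeal A ^ n) :=
      (Ideal.mem_iInf).mpr hall
    rw [Ideal.iInf_pow_eq_bot_of_isLocalRing _ (maximalIdeal.isMaximal A).ne_top] at hinf
    exact sub_eq_zero.mp hinf
  refine ⟨φ, hφloc, ?_⟩
  refine isEquiv_trans (baseChangeAlong_ofMat _ hφloc runiv hU.cts) ?_
  refine isEquiv_trans (ofMat_congr _ hs hφs) (isEquiv_symm eρs)

/-- A local homomorphism maps powers of the maximal ideal into powers of the maximal ideal. -/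
theorem map_mem_pow_of_isLocalHom {A B : Type} [CommRing A] [IsLocalRing A] [CommRing B]
    [IsLocalRing B] (φ : A →+* B) (hφ : IsLocalHom φ) (n : ℕ) {x : A}
    (hx : x ∈ maximalIdeal A ^ n) : φ x ∈ maximalIdeal B ^ n := by
  have hmap : (maximalIdeal A ^ n).map φ ≤ maximalIdeal B ^ n := by
    rw [Ideal.map_pow]
    refine Ideal.pow_right_mono ?_ n
    rw [Ideal.map_le_iff_le_comap]
    intro y hy
    rw [Ideal.mem_comap, mem_maximalIdeal, mem_nonunits_iff]
    intro hu
    exact (mem_nonunits_iff.mp ((mem_maximalIdeal _).mp hy)) (hφ.map_nonunit _ hu)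
  exact hmap (Ideal.mem_map_of_mem _ hx)

/-- Uniqueness part of the universal property. -/
theorem algHom_unique (hRigMap : RigMap Rig) (huniq : RigidUnique rbar Rig)
    (hU : IsUniversalRigid rbar 𝒟 Rig R runiv)
    (A : Type) [CommRing A] [IsLocalRing A] [IsNoetherianRing A]
    [IsAdicComplete (maximalIdeal A) A] [Algebra 𝒪 A] [IsLocalHom (algebraMap 𝒪 A)]
    (ρA : GaloisRepAdic A) (φ φ' : R →ₐ[𝒪] A)
    (hφ : IsLocalHom (φ : R →+* A)) (hφ' : IsLocalHom (φ' : R →+* A))
    (e : ((ofMat runiv hU.cts).baseChangeAlong (φ : R →+* A) hφ).IsEquiv ρA)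
    (e' : ((ofMat runiv hU.cts).baseChangeAlong (φ' : R →+* A) hφ').IsEquiv ρA) :
    φ = φ' := by
  have ht := isContMat_mapMat (φ : R →+* A) hφ runiv hU.cts
  have ht' := isContMat_mapMat (φ' : R →+* A) hφ' runiv hU.cts
  have e1 : (ofMat _ ht).IsEquiv ρA :=
    isEquiv_trans (isEquiv_symm (baseChangeAlong_ofMat _ hφ runiv hU.cts)) e
  have e2 : (ofMat _ ht').IsEquiv ρA :=
    isEquiv_trans (isEquiv_symm (baseChangeAlong_ofMat _ hφ' runiv hU.cts)) e'
  have e3 : (ofMat _ ht).IsEquiv (ofMat _ ht') := isEquiv_trans e1 (isEquiv_symm e2)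
  have hconj := (isEquiv_ofMat_iff _ _ ht ht').mp e3
  have htt : mapMat (φ : R →+* A) runiv = mapMat (φ' : R →+* A) runiv :=
    huniq A inferInstance _ _ (hU.lift.map φ hφ) (hU.lift.map φ' hφ')
      (hRigMap φ runiv hU.rigid) (hRigMap φ' runiv hU.rigid) hconj
  refine IsAdicComplete.algHom_ext (maximalIdeal A) fun n => ?_
  refine hU.algHom_ext _ _ n ?_ ?_ ?_
  · intro x hx
    have := map_mem_pow_of_isLocalHom (φ : R →+* A) hφ n hx
    exact Ideal.Quotient.eq_zero_iff_mem.mpr this
  · intro x hx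
    have := map_mem_pow_of_isLocalHom (φ' : R →+* A) hφ' n hx
    exact Ideal.Quotient.eq_zero_iff_mem.mpr this
  · ext σ i j
    have h1 := congrArg (fun t : GQ →* Mat A => t σ i j) htt
    simp only [mapMat_apply] at h1
    simp only [mapMat_apply, AlgHom.coe_toRingHom, AlgHom.comp_apply]
    exact congrArg _ h1

/-- **Final assembly**: a universal rigid lift over a complete Noetherian local `𝒪`-algebra with
residue field that of `𝒪` gives a `DeformationRingData`. -/
theorem nonempty_deformationRingData (habs : ρbar.IsAbsolutelyIrreducible)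
    (h𝒟 : IsDeformationCondition 𝒪 𝒟)
    (hrbar : GaloisFactorsThroughFiniteLevel rbar) (e0 : ρbar.IsEquiv (resOfMat rbar hrbar))
    (hRigMap : RigMap Rig) (hex : RigidExists rbar Rig) (huniq : RigidUnique rbar Rig)
    (hRres : Function.Surjective (residue R ∘ algebraMap 𝒪 R))
    (hU : IsUniversalRigid rbar 𝒟 Rig R runiv) :
    Nonempty (DeformationRingData 𝒪 ρbar 𝒟) := by
  refine ⟨{ R := R
            residue_surjective := hRres
            absIrr := habs
            ρ := ofMat runiv hU.cts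
            isOfType := ?_
            residual_isEquiv := ?_
            universal := ?_ }⟩
  · refine (h𝒟.iff_forall_surjective inferInstance hRres (ofMat runiv hU.cts)).mpr ?_
    intro B _ _ _ hB q hq _
    exact h𝒟.of_isEquiv hB (isEquiv_symm (baseChangeAlong_ofMat _ hq runiv hU.cts))
      (hU.artin_type B hB q hq)
  · exact residual_ofMat_isEquiv ρbar rbar hrbar e0 runiv hU.cts
      ((liftsRbar_iff runiv).mp hU.lift)
  · intro A _ _ _ _ _ _ hAres ρA hρA hres
    obtain ⟨φ, hφ, e⟩ := exists_algHom h𝒟 hrbar e0 hRigMap hex hU A hAres ρA hρA hres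
    refine ⟨φ, ⟨hφ, e⟩, ?_⟩
    rintro φ' ⟨hφ', e'⟩
    exact algHom_unique hRigMap huniq hU A ρA φ' φ hφ' hφ e' e

end Final

end Fermat.Agent.S53.Universal
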